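import Mathlib
import Fermat.Prelude.Def_ExtCitation_AdmissibleExtension_v2
import Fermat.Prelude.Def_ClassGroup_GaloisAction
import Fermat.Prelude.Def_Stickelberger_Basic

/-!
# S14 (ExtVanishingCts): interface file of the class-field-theory-free route

Route (see NOTES/S14.md): Kummer theory + Thaine's relation (cyclotomic units) + a density
comparison for a class group character (needs only "L(s,χ) bounded near 1") + the equivariant
unit theorem + a local computation at the prime above `p`.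

This file only contains DEFINITIONS (statements of the pieces as `Prop`s). Each piece is proved
in its own file `Fermat/Agent/S14/<Piece>.lean`; the wiring is in `Assembly*.lean`.
-/

set_option autoImplicit false

open NumberField IsDedekindDomain

namespace Fermat.Agent.S14

/-! ## Basic predicates -/

/-- `p ∣ ord_v(α)`. -/
def PDvdOrd (p : ℕ) {K : Type} [Field K] [NumberField K]
    (v : HeightOneSpectrum (𝓞 K)) (α : K) : Prop :=
  ∃ n : ℤ, v.valuation K α = WithZero.exp ((p : ℤ) * n)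

/-- `α` is a `p`-th power modulo `v^3` (multiplicatively): `ord_v(α / b^p - 1) ≥ 3`. -/
def LocPow (p : ℕ) {K : Type} [Field K] [NumberField K]
    (v : HeightOneSpectrum (𝓞 K)) (α : K) : Prop :=
  ∃ b : K, b ≠ 0 ∧ v.valuation K (α / b ^ p - 1) ≤ WithZero.exp (-3 : ℤ)

/-- `α` lies in the `ω²`-eigenspace of `K^× / (K^×)^p`: if `σ ζ = ζ^k` then `σ α ≡ α^(k²)`. -/
def IsOmegaSqEigen (p : ℕ) {K : Type} [Field K] [NumberField K] (ζ α : K) : Prop :=
  ∀ (σ : K ≃ₐ[ℚ] K) (k : ℕ), σ ζ = ζ ^ k → ∃ γ : K, σ α = α ^ (k ^ 2) * γ ^ p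

/-- The class of a height one prime in the class group. -/
noncomputable def primeClass {K : Type} [Field K] [NumberField K]
    (v : HeightOneSpectrum (𝓞 K)) : ClassGroup (𝓞 K) :=
  ClassGroup.mk0 ⟨v.asIdeal, mem_nonZeroDivisors_iff_ne_zero.mpr v.ne_bot⟩

/-- `x` is a `p`-th power residue modulo the prime `v`. -/
def IsPowMod (p : ℕ) {K : Type} [Field K] [NumberField K]
    (v : HeightOneSpectrum (𝓞 K)) (x : 𝓞 K) : Prop :=
  ∃ y : 𝓞 K, x - y ^ p ∈ v.asIdeal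

/-- `v` is a prime of degree one, not above `p`. -/
def IsDegOne (p : ℕ) {K : Type} [Field K] [NumberField K]
    (v : HeightOneSpectrum (𝓞 K)) : Prop :=
  (Ideal.absNorm v.asIdeal).Prime ∧ Ideal.absNorm v.asIdeal ≠ p

/-- The `ω²`-component of the cyclotomic unit `1 + ζ`:
`∏_e (1 + ζ^e)^((e⁻¹)²)`, `e` running over `(ℤ/p)^×`. -/
noncomputable def thaineElt (p : ℕ) [NeZero p] {K : Type} [Field K] [NumberField K]
    (ζ : 𝓞 K) : 𝓞 K :=
  ∏ e : (ZMod p)ˣ, (1 + ζ ^ (e : ZMod p).val) ^ (((e⁻¹ : (ZMod p)ˣ) : ZMod p).val ^ 2)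

section ClassGroupSide

open JacobiSumStickelberger

variable (p : ℕ) [NeZero p] (K : Type) [Field K] [NumberField K] [IsCyclotomicExtension {p} ℚ K]

/-- `∑_d d⁻² · [σ_d]` on `Cl(K)/p` (a multiple of the projector onto the `ω²`-eigenspace). -/
noncomputable def proj2 : Module.End (ZMod p) (ClGalModule p (𝓞 K)) :=
  ∑ d : (ZMod p)ˣ, ((((d⁻¹ : (ZMod p)ˣ) : ZMod p)) ^ 2) • clGalAction p K d

/-- The `ω²`-eigenspace of `Cl(K)/p` vanishes. -/
def EigenQuotTrivial : Prop :=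
  ∀ a : ClGalModule p (𝓞 K), Stickelberger.IsOmegaEigenvector (clGalAction p K) 2 a → a = 0

/-- A class killed by `p` on which `σ_d` acts as `d²` is trivial. -/
def ClassEigenTrivial : Prop :=
  ∀ c : ClassGroup (𝓞 K), c ^ p = 1 →
    (∀ d : (ZMod p)ˣ,
      ClassGroup.mulEquiv (clRingAction p K d) c = c ^ ((d : ZMod p).val ^ 2)) → c = 1

end ClassGroupSide

/-! ## The pieces of the core (number field side) -/

/-- **Core**: an `ω²`-eigen element of `ℚ(ζ_p)^×` whose ideal is a `p`-th power and which is a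
local `p`-th power at the prime above `p` is a `p`-th power. -/
def Core (p : ℕ) : Prop :=
  ∀ (K : Type) [Field K] [NumberField K] [IsCyclotomicExtension {p} ℚ K]
    (ζ : K), IsPrimitiveRoot ζ p → ∀ α : K, α ≠ 0 →
    IsOmegaSqEigen p ζ α →
    (∀ v : HeightOneSpectrum (𝓞 K), PDvdOrd p v α) →
    (∀ v : HeightOneSpectrum (𝓞 K), (p : 𝓞 K) ∈ v.asIdeal → LocPow p v α) →
    ∃ δ : K, α = δ ^ p

/-- **N2+N3 (Thaine)**: at a degree one prime where `thaineElt` is not a `p`-th power residue,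
the `ω²`-component of the class of the prime in `Cl/p` vanishes. -/
def ThaineStatement (p : ℕ) [NeZero p] : Prop :=
  ∀ (K : Type) [Field K] [NumberField K] [IsCyclotomicExtension {p} ℚ K]
    (ζ : 𝓞 K), IsPrimitiveRoot ζ p →
    ∀ v : HeightOneSpectrum (𝓞 K), IsDegOne p v → ¬ IsPowMod p v (thaineElt p ζ) →
      proj2 p K (JacobiSumStickelberger.clProj p (𝓞 K) (Additive.ofMul (primeClass v))) = 0

/-- **N4 (good prime)**: for a nontrivial class group character `χ` and a unit `ε` which is not a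
`p`-th power, some degree one prime `v` has `χ(v) ≠ 1` and `ε` not a `p`-th power residue. -/
def GoodPrimeStatement (p : ℕ) : Prop :=
  ∀ (K : Type) [Field K] [NumberField K] [IsCyclotomicExtension {p} ℚ K]
    (ε : 𝓞 K), IsUnit ε → (¬ ∃ y : K, (ε : K) = y ^ p) →
    ∀ χ : ClassGroup (𝓞 K) →* ℂˣ, χ ≠ 1 →
    ∃ v : HeightOneSpectrum (𝓞 K), IsDegOne p v ∧ χ (primeClass v) ≠ 1 ∧ ¬ IsPowMod p v ε

/-- **N4c**: the `L`-series of a nontrivial class group character is bounded on `(1, 2]`. -/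
def LBoundedStatement : Prop :=
  ∀ (K : Type) [Field K] [NumberField K] (χ : ClassGroup (𝓞 K) →* ℂˣ), χ ≠ 1 →
    ∃ C : ℝ, ∀ s : ℝ, 1 < s → s ≤ 2 →
      ‖∑' I : nonZeroDivisors (Ideal (𝓞 K)),
        ((χ (ClassGroup.mk0 I) : ℂˣ) : ℂ) *
          ((Ideal.absNorm (I : Ideal (𝓞 K)) : ℝ) ^ (-s) : ℝ)‖ ≤ C

/-- **N4b**: the primes of degree one at which the unit `ε` (not a `p`-th power) is a `p`-th
power residue have "density at most `1/p`", in product form. -/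
def SplitBoundStatement (p : ℕ) : Prop :=
  ∀ (K : Type) [Field K] [NumberField K] [IsCyclotomicExtension {p} ℚ K]
    (ε : 𝓞 K), IsUnit ε → (¬ ∃ y : K, (ε : K) = y ^ p) →
    ∃ C : ℝ, ∀ s : ℝ, 1 < s → s ≤ 2 →
      ∀ F : Finset (HeightOneSpectrum (𝓞 K)), (∀ v ∈ F, IsDegOne p v ∧ IsPowMod p v ε) →
        ∏ v ∈ F, (1 - (Ideal.absNorm v.asIdeal : ℝ) ^ (-s))⁻¹ ≤ C * (s - 1) ^ (-(1 : ℝ) / p)

/-- **N6+N7 (units)**: a unit in the `ω²`-eigenspace which is a local `p`-th power at the prime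
above `p` is a `p`-th power. -/
def UnitsStatement (p : ℕ) : Prop :=
  ∀ (K : Type) [Field K] [NumberField K] [IsCyclotomicExtension {p} ℚ K]
    (ζ : K), IsPrimitiveRoot ζ p → ∀ u : (𝓞 K)ˣ,
    IsOmegaSqEigen p ζ ((u : 𝓞 K) : K) →
    (∀ v : HeightOneSpectrum (𝓞 K), (p : 𝓞 K) ∈ v.asIdeal → LocPow p v ((u : 𝓞 K) : K)) →
    ∃ w : K, ((u : 𝓞 K) : K) = w ^ p

/-- **N6 (equivariant unit theorem, mod `p`)**: the `ω²`-eigenspace of `E/E^p` has dimension
at most one. -/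
def UnitsDimStatement (p : ℕ) : Prop :=
  ∀ (K : Type) [Field K] [NumberField K] [IsCyclotomicExtension {p} ℚ K]
    (ζ : K), IsPrimitiveRoot ζ p → ∀ u₁ u₂ : (𝓞 K)ˣ,
    IsOmegaSqEigen p ζ ((u₁ : 𝓞 K) : K) → IsOmegaSqEigen p ζ ((u₂ : 𝓞 K) : K) →
    ∃ (i j : ℕ) (w : (𝓞 K)ˣ), (¬ (p ∣ i) ∨ ¬ (p ∣ j)) ∧ u₁ ^ i = u₂ ^ j * w ^ p

/-- **N7 (local computation)**: `thaineElt` is a unit in the `ω²`-eigenspace, and no power
`thaineElt^k` with `p ∤ k` is a local `p`-th power at the prime above `p` (in particular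
`thaineElt` is not a `p`-th power). -/
def ThaineLocalStatement (p : ℕ) [NeZero p] : Prop :=
  ∀ (K : Type) [Field K] [NumberField K] [IsCyclotomicExtension {p} ℚ K]
    (ζ : 𝓞 K), IsPrimitiveRoot ζ p →
    IsUnit (thaineElt p ζ) ∧ IsOmegaSqEigen p (ζ : K) ((thaineElt p ζ : 𝓞 K) : K) ∧
    ∀ (k : ℕ) (w : K), ¬ (p ∣ k) → w ≠ 0 →
      ∀ v : HeightOneSpectrum (𝓞 K), (p : 𝓞 K) ∈ v.asIdeal →
        ¬ LocPow p v (((thaineElt p ζ : 𝓞 K) : K) ^ k * w ^ p)

/-- **N1 (ideal step)**: if all valuations of the eigen element `α` are divisible by `p` and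
eigen classes killed by `p` are trivial, then `α` is a unit times a `p`-th power. -/
def IdealStatement (p : ℕ) [NeZero p] : Prop :=
  ∀ (K : Type) [Field K] [NumberField K] [IsCyclotomicExtension {p} ℚ K]
    (ζ : K), IsPrimitiveRoot ζ p → ∀ α : K, α ≠ 0 →
    IsOmegaSqEigen p ζ α →
    (∀ v : HeightOneSpectrum (𝓞 K), PDvdOrd p v α) →
    ClassEigenTrivial p K →
    ∃ (u : (𝓞 K)ˣ) (δ : K), δ ≠ 0 ∧ α = ((u : 𝓞 K) : K) * δ ^ p

/-! ## The pieces of the glue (inside `AlgebraicClosure ℚ`) -/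

/-- **G1**: if every `τ` with trivial cyclotomic character acts trivially, the extension splits. -/
def SplitStatement (p : ℕ) [Fact p.Prime] : Prop :=
  ∀ (V : Type) [AddCommGroup V] [Module (ZMod p) V]
    [DistribMulAction (AlgebraicClosure ℚ ≃ₐ[ℚ] AlgebraicClosure ℚ) V]
    [SMulCommClass (AlgebraicClosure ℚ ≃ₐ[ℚ] AlgebraicClosure ℚ) (ZMod p) V]
    (C : Submodule (ZMod p) V), ExtCitation.IsAdmissibleExtension p V C →
    (∀ τ : AlgebraicClosure ℚ ≃ₐ[ℚ] AlgebraicClosure ℚ,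
      (ExtCitation.cycloExp p τ : ZMod p) = 1 → ∀ x : V, τ • x = x) →
    ExtCitation.SplitsGlobally C

/-- **G2**: Kummer generator of the field cut out by a non-split admissible extension. -/
def KummerStatement (p : ℕ) [Fact p.Prime] : Prop :=
  ∀ (V : Type) [AddCommGroup V] [Module (ZMod p) V]
    [DistribMulAction (AlgebraicClosure ℚ ≃ₐ[ℚ] AlgebraicClosure ℚ) V]
    [SMulCommClass (AlgebraicClosure ℚ ≃ₐ[ℚ] AlgebraicClosure ℚ) (ZMod p) V]
    (C : Submodule (ZMod p) V), ExtCitation.IsAdmissibleExtensionCts p V C →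
    (∃ τ : AlgebraicClosure ℚ ≃ₐ[ℚ] AlgebraicClosure ℚ,
      (ExtCitation.cycloExp p τ : ZMod p) = 1 ∧ ∃ x : V, τ • x ≠ x) →
    ∀ ζ : AlgebraicClosure ℚ, IsPrimitiveRoot ζ p →
    ∃ a : AlgebraicClosure ℚ, a ≠ 0 ∧ a ^ p ∈ IntermediateField.adjoin ℚ {ζ} ∧
      a ∉ IntermediateField.adjoin ℚ {ζ} ∧
      (∀ σ : AlgebraicClosure ℚ ≃ₐ[ℚ] AlgebraicClosure ℚ, (∀ x : V, σ • x = x) → σ a = a) ∧
      (∀ σ : AlgebraicClosure ℚ ≃ₐ[ℚ] AlgebraicClosure ℚ,
        ∃ γ ∈ IntermediateField.adjoin ℚ {ζ}, σ a = a ^ ((ExtCitation.cycloExp p σ) ^ 2) * γ)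

/-- **G3**: if the inertia groups above `ℓ` fix a `p`-th root `a` of `α ∈ ℚ(ζ)`, then
`p ∣ ord_v(α)` for the primes `v ∣ ℓ` of `ℚ(ζ)` (`ℓ ≠ p`). -/
def InertiaStatement (p : ℕ) : Prop :=
  ∀ (ζ : AlgebraicClosure ℚ), IsPrimitiveRoot ζ p →
    ∀ [NumberField (IntermediateField.adjoin ℚ {ζ})]
    (α : IntermediateField.adjoin ℚ {ζ}) (a : AlgebraicClosure ℚ), a ≠ 0 →
    a ^ p = (α : AlgebraicClosure ℚ) →
    ∀ ℓ : ℕ, ℓ.Prime → ℓ ≠ p →
    (∀ A : ValuationSubring (AlgebraicClosure ℚ), A.LiesOverPrime ℓ →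
      ∀ σ ∈ A.inertiaSubgroupIn ℚ, σ a = a) →
    ∀ v : HeightOneSpectrum (𝓞 (IntermediateField.adjoin ℚ {ζ})),
      (ℓ : 𝓞 (IntermediateField.adjoin ℚ {ζ})) ∈ v.asIdeal → PDvdOrd p v α

/-- **G4**: if the elements of the decomposition groups above `p` that fix `ζ` also fix a `p`-th
root `a` of `α ∈ ℚ(ζ)`, then `p ∣ ord_v(α)` and `α` is a local `p`-th power at the prime
`v ∣ p` of `ℚ(ζ)`. -/
def DecompStatement (p : ℕ) : Prop :=
  ∀ (ζ : AlgebraicClosure ℚ), IsPrimitiveRoot ζ p →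
    ∀ [NumberField (IntermediateField.adjoin ℚ {ζ})]
    (α : IntermediateField.adjoin ℚ {ζ}) (a : AlgebraicClosure ℚ), a ≠ 0 →
    a ^ p = (α : AlgebraicClosure ℚ) →
    (∀ A : ValuationSubring (AlgebraicClosure ℚ), A.LiesOverPrime p →
      ∀ σ ∈ A.decompositionSubgroup ℚ, σ ζ = ζ → σ a = a) →
    ∀ v : HeightOneSpectrum (𝓞 (IntermediateField.adjoin ℚ {ζ})),
      (p : 𝓞 (IntermediateField.adjoin ℚ {ζ})) ∈ v.asIdeal → PDvdOrd p v α ∧ LocPow p v α

end Fermat.Agent.S14
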