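import Mathlib
import Fermat.Agent.S14.Plan

/-!
# S14, piece N4a: Euler products over the prime ideals of a Dedekind domain / number field

* abstract Euler product for a multiplicative function on the nonzero ideals of a Dedekind domain
  (`eulerHasProd`);
* `E1`: `∑_I N(I)^(-s)` over nonzero ideals is summable for `s > 1` and equals `dedekindZeta`;
  two-sided bounds `c/(s-1) ≤ ζ_K(s) ≤ C/(s-1)` on `(1,2]`;
* `E2`: finite Euler products are bounded by the zeta sum;
* `E3`: Euler product for the `L`-series of a class group character.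
-/

set_option autoImplicit false

open NumberField IsDedekindDomain Filter Topology

namespace Fermat.Agent.S14

section EulerAbstract

variable {R : Type*} [CommRing R] [IsDedekindDomain R]

/-- The nonzero ideal attached to a height one prime. -/
noncomputable def primeIdeal₀ (v : HeightOneSpectrum R) : nonZeroDivisors (Ideal R) :=
  ⟨v.asIdeal, mem_nonZeroDivisors_iff_ne_zero.mpr v.ne_bot⟩

@[simp] lemma coe_primeIdeal₀ (v : HeightOneSpectrum R) :
    ((primeIdeal₀ v : nonZeroDivisors (Ideal R)) : Ideal R) = v.asIdeal := rfl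

/-- The nonzero ideals all of whose prime factors lie in `T`. -/
def eulerSmooth (T : Finset (HeightOneSpectrum R)) : Set (nonZeroDivisors (Ideal R)) :=
  {I | ∀ v : HeightOneSpectrum R, v.asIdeal ∣ (I : Ideal R) → v ∈ T}

lemma eulerSmooth_empty :
    eulerSmooth (∅ : Finset (HeightOneSpectrum R)) = {1} := by
  ext I
  simp only [eulerSmooth, Finset.notMem_empty, imp_false, Set.mem_ofPred_eq, Set.mem_singleton_iff]
  constructor
  · intro h
    by_contra hI
    have hI' : (I : Ideal R) ≠ ⊤ := fun h1 => hI (Subtype.ext (by simpa using h1))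
    obtain ⟨m, hm, hIm⟩ := Ideal.exists_le_maximal _ hI'
    have hm0 : m ≠ ⊥ := by
      rintro rfl
      exact (mem_nonZeroDivisors_iff_ne_zero.mp I.2) (le_bot_iff.mp hIm)
    exact h ⟨m, hm.isPrime, hm0⟩ (Ideal.dvd_iff_le.mpr hIm)
  · rintro rfl v hv
    have : v.asIdeal = ⊤ := by
      have := Ideal.dvd_iff_le.mp hv
      simpa using this
    exact v.isPrime.ne_top this

lemma heightOne_eq_of_dvd {v w : HeightOneSpectrum R} (h : v.asIdeal ∣ w.asIdeal) : v = w := by
  have hle : w.asIdeal ≤ v.asIdeal := Ideal.dvd_iff_le.mp h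
  have hw : w.asIdeal.IsMaximal := w.isMaximal
  exact HeightOneSpectrum.ext (hw.eq_of_le v.isPrime.ne_top hle).symm

omit [IsDedekindDomain R] in
lemma primeIdeal₀_not_isUnit (v : HeightOneSpectrum R) : ¬ IsUnit v.asIdeal := by
  intro h
  exact v.isPrime.ne_top (by simpa using h)

/-- The bijection `(k, J) ↦ a^k * J` between `ℕ × (T-smooth ideals)` and
`(insert a T)-smooth ideals`, for `a ∉ T`. -/
lemma eulerMap_bijective [DecidableEq (HeightOneSpectrum R)]
    (a : HeightOneSpectrum R) (T : Finset (HeightOneSpectrum R))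
    (ha : a ∉ T) :
    ∃ e : ℕ × eulerSmooth T ≃ eulerSmooth (insert a T),
      ∀ p, ((e p : eulerSmooth (insert a T)) : nonZeroDivisors (Ideal R)) =
        primeIdeal₀ a ^ p.1 * (p.2 : nonZeroDivisors (Ideal R)) := by
  have hprime : Prime a.asIdeal := a.prime
  have hnotdvd : ∀ J : eulerSmooth T, ¬ a.asIdeal ∣ ((J : nonZeroDivisors (Ideal R)) : Ideal R) :=
    fun J h => ha (J.2 a h)
  let g : ℕ × eulerSmooth T → eulerSmooth (insert a T) := fun p =>
    ⟨primeIdeal₀ a ^ p.1 * (p.2 : nonZeroDivisors (Ideal R)), by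
      intro v hv
      simp only [Submonoid.coe_mul, SubmonoidClass.coe_pow, coe_primeIdeal₀] at hv
      rcases v.prime.dvd_or_dvd hv with h | h
      · have := v.prime.dvd_of_dvd_pow h
        rw [heightOne_eq_of_dvd this]
        exact Finset.mem_insert_self _ _
      · exact Finset.mem_insert_of_mem (p.2.2 v h)⟩
  have hg : Function.Bijective g := by
    constructor
    · rintro ⟨k, J⟩ ⟨k', J'⟩ h
      have h1 : a.asIdeal ^ k * ((J : nonZeroDivisors (Ideal R)) : Ideal R) =
          a.asIdeal ^ k' * ((J' : nonZeroDivisors (Ideal R)) : Ideal R) := by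
        have := congrArg (fun x : eulerSmooth (insert a T) =>
          ((x : nonZeroDivisors (Ideal R)) : Ideal R)) h
        simpa [g] using this
      have hJ0 : ((J : nonZeroDivisors (Ideal R)) : Ideal R) ≠ 0 :=
        mem_nonZeroDivisors_iff_ne_zero.mp J.1.2
      have hJ'0 : ((J' : nonZeroDivisors (Ideal R)) : Ideal R) ≠ 0 :=
        mem_nonZeroDivisors_iff_ne_zero.mp J'.1.2
      have hk : k = k' := by
        have e1 : emultiplicity a.asIdeal
            (a.asIdeal ^ k * ((J : nonZeroDivisors (Ideal R)) : Ideal R)) = k := by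
          rw [emultiplicity_mul hprime, emultiplicity_pow_self hprime.ne_zero hprime.not_isUnit,
            emultiplicity_eq_zero.mpr (hnotdvd J), add_zero]
        have e2 : emultiplicity a.asIdeal
            (a.asIdeal ^ k' * ((J' : nonZeroDivisors (Ideal R)) : Ideal R)) = k' := by
          rw [emultiplicity_mul hprime, emultiplicity_pow_self hprime.ne_zero hprime.not_isUnit,
            emultiplicity_eq_zero.mpr (hnotdvd J'), add_zero]
        rw [h1, e2] at e1
        exact_mod_cast e1.symm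
      subst hk
      have h2 : ((J : nonZeroDivisors (Ideal R)) : Ideal R) =
          ((J' : nonZeroDivisors (Ideal R)) : Ideal R) :=
        mul_left_cancel₀ (pow_ne_zero _ hprime.ne_zero) h1
      have : J = J' := Subtype.ext (Subtype.ext h2)
      rw [this]
    · rintro ⟨I, hI⟩
      have hI0 : (I : Ideal R) ≠ 0 := mem_nonZeroDivisors_iff_ne_zero.mp I.2
      obtain ⟨n, J, hJ, hIJ⟩ := WfDvdMonoid.max_power_factor hI0 hprime.irreducible
      have hJ0 : J ≠ 0 := by
        rintro rfl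
        simp at hIJ
        exact hI0 hIJ
      have hJs : (⟨J, mem_nonZeroDivisors_iff_ne_zero.mpr hJ0⟩ : nonZeroDivisors (Ideal R)) ∈
          eulerSmooth T := by
        intro v hv
        have hvI : v.asIdeal ∣ (I : Ideal R) := by
          rw [hIJ]; exact Dvd.dvd.mul_left hv _
        rcases Finset.mem_insert.mp (hI v hvI) with h | h
        · subst h; exact absurd hv hJ
        · exact h
      refine ⟨⟨n, ⟨⟨J, mem_nonZeroDivisors_iff_ne_zero.mpr hJ0⟩, hJs⟩⟩, ?_⟩
      apply Subtype.ext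
      apply Subtype.ext
      simp [g, hIJ]
  exact ⟨Equiv.ofBijective g hg, fun p => rfl⟩


variable {F : Type*} [NormedField F] [CompleteSpace F]

/-- Finite Euler product = sum over smooth ideals. -/
lemma eulerSmooth_summable_hasSum (f : nonZeroDivisors (Ideal R) →* F)
    (hsum : Summable (fun I => ‖f I‖)) (hlt : ∀ v : HeightOneSpectrum R, ‖f (primeIdeal₀ v)‖ < 1)
    (T : Finset (HeightOneSpectrum R)) :
    HasSum (fun I : eulerSmooth T => f (I : nonZeroDivisors (Ideal R)))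
      (∏ v ∈ T, (1 - f (primeIdeal₀ v))⁻¹) := by
  classical
  induction T using Finset.induction with
  | empty =>
    rw [eulerSmooth_empty, Finset.prod_empty]
    have := hasSum_singleton (1 : nonZeroDivisors (Ideal R)) (fun I => f I)
    rw [map_one] at this
    exact this
  | insert a T ha ih =>
    obtain ⟨e, he⟩ := eulerMap_bijective a T ha
    rw [Finset.prod_insert ha, ← e.hasSum_iff]
    have hfun : ((fun I : eulerSmooth (insert a T) => f (I : nonZeroDivisors (Ideal R))) ∘ e) =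
        fun p : ℕ × eulerSmooth T => f (primeIdeal₀ a) ^ p.1 * f (p.2 : nonZeroDivisors (Ideal R)) := by
      funext p
      simp [he p]
    rw [hfun]
    have h1 : HasSum (fun k : ℕ => f (primeIdeal₀ a) ^ k) (1 - f (primeIdeal₀ a))⁻¹ :=
      hasSum_geometric_of_norm_lt_one (hlt a)
    have h1n : Summable (fun k : ℕ => ‖f (primeIdeal₀ a) ^ k‖) := by
      simp_rw [norm_pow]
      exact summable_geometric_of_lt_one (norm_nonneg _) (hlt a)
    have h2n : Summable (fun I : eulerSmooth T => ‖f (I : nonZeroDivisors (Ideal R))‖) :=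
      hsum.subtype _
    apply h1.mul ih
    apply summable_mul_of_summable_norm h1n h2n

/-- Every finite set of nonzero ideals is contained in the `T`-smooth ideals for `T` large. -/
lemma exists_finset_subset_eulerSmooth (A : Finset (nonZeroDivisors (Ideal R))) :
    ∃ T₀ : Finset (HeightOneSpectrum R), ∀ T : Finset (HeightOneSpectrum R), T₀ ⊆ T →
      (A : Set (nonZeroDivisors (Ideal R))) ⊆ eulerSmooth T := by
  classical
  refine ⟨A.biUnion fun I =>
    (Ideal.finite_factors (mem_nonZeroDivisors_iff_ne_zero.mp I.2)).toFinset, ?_⟩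
  intro T hT I hI v hv
  apply hT
  rw [Finset.mem_biUnion]
  exact ⟨I, hI, by simpa using hv⟩

/-- **Euler product** for a multiplicative function on the nonzero ideals of a Dedekind
domain. -/
theorem eulerHasProd (f : nonZeroDivisors (Ideal R) →* F)
    (hsum : Summable (fun I => ‖f I‖)) (hlt : ∀ v : HeightOneSpectrum R, ‖f (primeIdeal₀ v)‖ < 1) :
    HasProd (fun v : HeightOneSpectrum R => (1 - f (primeIdeal₀ v))⁻¹) (∑' I, f I) := by
  classical
  rw [HasProd, SummationFilter.unconditional, Metric.tendsto_atTop]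
  intro ε hε
  have hsum' : Summable (fun I => f I) := hsum.of_norm
  obtain ⟨A, hA⟩ := summable_iff_tsum_vanishing.mp hsum' (Metric.ball 0 ε)
    (Metric.ball_mem_nhds 0 hε)
  obtain ⟨T₀, hT₀⟩ := exists_finset_subset_eulerSmooth A
  refine ⟨T₀, fun T hT => ?_⟩
  have hdisj : Disjoint ((eulerSmooth T)ᶜ : Set (nonZeroDivisors (Ideal R))) (A : Set _) :=
    Set.disjoint_left.mpr fun I hI hIA => hI (hT₀ T hT hIA)
  have h3 := hA _ hdisj
  rw [mem_ball_zero_iff] at h3
  rw [dist_eq_norm, ← (eulerSmooth_summable_hasSum f hsum hlt T).tsum_eq, norm_sub_rev,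
    ← hsum'.tsum_subtype_add_tsum_subtype_compl (eulerSmooth T), add_sub_cancel_left]
  exact h3

end EulerAbstract

section NumberFieldEuler

variable (K : Type) [Field K] [NumberField K]

/-- The coefficient sequence of the Dedekind zeta function has a convergent `L`-series for
`re s > 1`. -/
theorem lseriesSummable_cardNorm {s : ℂ} (hs : 1 < s.re) :
    LSeriesSummable (fun n ↦ ((Nat.card {I : Ideal (𝓞 K) // Ideal.absNorm I = n} : ℝ) : ℂ)) s := by
  have hlim : Tendsto (fun n : ℕ ↦ (∑ k ∈ Finset.Icc 1 n,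
      (Nat.card {I : Ideal (𝓞 K) // Ideal.absNorm I = k} : ℝ)) / (n : ℝ)) atTop
      (𝓝 (dedekindZeta_residue K)) := by
    refine ((Ideal.tendsto_norm_le_div_atTop₀ K).comp tendsto_natCast_atTop_atTop).congr fun n ↦ ?_
    simp only [Function.comp_apply, Nat.cast_le, ← Nat.cast_sum]
    congr
    rw [← add_left_inj 1, ← Ideal.card_norm_le_eq_card_norm_le_add_one,
      show Finset.Icc 1 n = Finset.Ioc 0 n from Finset.Icc_succ_left_eq_Ioc _ _,
      show 1 = Nat.card {I : Ideal (𝓞 K) // Ideal.absNorm I = 0} by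
        simp [Ideal.absNorm_eq_zero_iff],
      Finset.sum_Ioc_add_eq_sum_Icc (n.zero_le),
      ← Finset.card_preimage_eq_sum_card_image_eq
        (fun k _ ↦ Ideal.finite_setOfPred_absNorm_eq k)]
    simp [Set.coe_eq_subtype]
  exact LSeriesSummable_of_sum_norm_bigO_and_nonneg
    (f := fun n ↦ (Nat.card {I : Ideal (𝓞 K) // Ideal.absNorm I = n} : ℝ))
    (Asymptotics.isBigO_atTop_natCast_rpow_of_tendsto_div_rpow (by simpa using hlim))
    (fun _ ↦ Nat.cast_nonneg _) zero_le_one hs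

/-- The norm map on nonzero ideals. -/
noncomputable def normFib : nonZeroDivisors (Ideal (𝓞 K)) → ℕ :=
  fun I ↦ Ideal.absNorm (I : Ideal (𝓞 K))

instance normFib_finite (n : ℕ) :
    Finite {I : nonZeroDivisors (Ideal (𝓞 K)) // normFib K I = n} := by
  have h := Ideal.finite_setOfPred_absNorm_eq (S := 𝓞 K) n
  have : Finite {I : Ideal (𝓞 K) // Ideal.absNorm I = n} := h.to_subtype
  exact Finite.of_injective
    (fun I : {I : nonZeroDivisors (Ideal (𝓞 K)) // normFib K I = n} ↦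
      (⟨(I.1 : Ideal (𝓞 K)), I.2⟩ : {I : Ideal (𝓞 K) // Ideal.absNorm I = n}))
    (fun I J h ↦ by
      have h' := congrArg (fun x : {I : Ideal (𝓞 K) // Ideal.absNorm I = n} ↦ x.1) h
      exact Subtype.ext (Subtype.ext h'))

lemma normFib_card {n : ℕ} (hn : n ≠ 0) :
    Nat.card {I : nonZeroDivisors (Ideal (𝓞 K)) // normFib K I = n} =
      Nat.card {I : Ideal (𝓞 K) // Ideal.absNorm I = n} := by
  refine Nat.card_congr
    { toFun := fun I ↦ ⟨(I.1 : Ideal (𝓞 K)), I.2⟩
      invFun := fun I ↦ ⟨⟨I.1, mem_nonZeroDivisors_iff_ne_zero.mpr ?_⟩, I.2⟩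
      left_inv := fun I ↦ rfl
      right_inv := fun I ↦ rfl }
  rintro h
  have h2 := I.2
  rw [h] at h2
  simp at h2
  exact hn h2.symm

lemma normFib_tsum (s : ℝ) (n : ℕ) :
    ∑' I : {I : nonZeroDivisors (Ideal (𝓞 K)) // normFib K I = n},
      (Ideal.absNorm ((I : nonZeroDivisors (Ideal (𝓞 K))) : Ideal (𝓞 K)) : ℝ) ^ (-s) =
    ‖LSeries.term (fun n ↦ ((Nat.card {I : Ideal (𝓞 K) // Ideal.absNorm I = n} : ℝ) : ℂ)) s n‖ := by
  have h1 : ∀ I : {I : nonZeroDivisors (Ideal (𝓞 K)) // normFib K I = n},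
      (Ideal.absNorm ((I : nonZeroDivisors (Ideal (𝓞 K))) : Ideal (𝓞 K)) : ℝ) ^ (-s) =
        (n : ℝ) ^ (-s) := fun I ↦ by
    have := I.2
    simp only [normFib] at this
    rw [this]
  simp_rw [h1]
  rw [tsum_const]
  rcases eq_or_ne n 0 with rfl | hn
  · have : IsEmpty {I : nonZeroDivisors (Ideal (𝓞 K)) // normFib K I = 0} := by
      refine ⟨fun I ↦ ?_⟩
      have h2 := I.2
      simp only [normFib, Ideal.absNorm_eq_zero_iff] at h2
      exact (mem_nonZeroDivisors_iff_ne_zero.mp I.1.2) h2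
    simp
  · rw [normFib_card K hn, LSeries.term_of_ne_zero hn, norm_div, Complex.norm_real,
      Complex.norm_natCast_cpow_of_pos (Nat.pos_of_ne_zero hn), Complex.ofReal_re,
      Real.rpow_neg (Nat.cast_nonneg _), nsmul_eq_mul, div_eq_mul_inv]
    simp

/-- **E1a**: `∑_I N(I)^(-s)` over the nonzero ideals converges for `s > 1`. -/
theorem summable_absNorm_rpow {s : ℝ} (hs : 1 < s) :
    Summable fun I : nonZeroDivisors (Ideal (𝓞 K)) ↦
      (Ideal.absNorm (I : Ideal (𝓞 K)) : ℝ) ^ (-s) := by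
  rw [← (Equiv.sigmaFiberEquiv (normFib K)).summable_iff]
  refine (summable_sigma_of_nonneg (fun _ ↦ Real.rpow_nonneg (Nat.cast_nonneg _) _)).mpr
    ⟨fun n ↦ Summable.of_finite, ?_⟩
  have hL := (lseriesSummable_cardNorm K (s := (s : ℂ)) (by simpa using hs)).norm
  refine hL.congr fun n ↦ ?_
  rw [← normFib_tsum K s n]
  rfl

/-- **E1b**: the sum over nonzero ideals is the Dedekind zeta function. -/
theorem tsum_absNorm_rpow_eq_dedekindZeta {s : ℝ} (hs : 1 < s) :
    ((∑' I : nonZeroDivisors (Ideal (𝓞 K)),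
      (Ideal.absNorm (I : Ideal (𝓞 K)) : ℝ) ^ (-s) : ℝ) : ℂ) = dedekindZeta K s := by
  have hsum := summable_absNorm_rpow K hs
  have hsum' : Summable (fun p : (Σ n, {I : nonZeroDivisors (Ideal (𝓞 K)) // normFib K I = n}) ↦
      (Ideal.absNorm ((Equiv.sigmaFiberEquiv (normFib K) p :
        nonZeroDivisors (Ideal (𝓞 K))) : Ideal (𝓞 K)) : ℝ) ^ (-s)) :=
    (Equiv.sigmaFiberEquiv (normFib K)).summable_iff.mpr hsum
  rw [← (Equiv.sigmaFiberEquiv (normFib K)).tsum_eq, hsum'.tsum_sigma' (fun n ↦ Summable.of_finite)]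
  have h1 : ∀ n, ∑' I : {I : nonZeroDivisors (Ideal (𝓞 K)) // normFib K I = n},
      (Ideal.absNorm ((Equiv.sigmaFiberEquiv (normFib K) ⟨n, I⟩ :
        nonZeroDivisors (Ideal (𝓞 K))) : Ideal (𝓞 K)) : ℝ) ^ (-s) =
      ‖LSeries.term (fun n ↦ ((Nat.card {I : Ideal (𝓞 K) // Ideal.absNorm I = n} : ℝ) : ℂ)) s n‖ :=
    fun n ↦ normFib_tsum K s n
  simp_rw [h1]
  rw [Complex.ofReal_tsum, dedekindZeta, LSeries]
  congr 1
  funext n
  rcases eq_or_ne n 0 with rfl | hn
  · simp
  · rw [LSeries.term_of_ne_zero hn, LSeries.term_of_ne_zero hn, norm_div, Complex.norm_real,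
      Complex.norm_natCast_cpow_of_pos (Nat.pos_of_ne_zero hn), Complex.ofReal_re]
    simp only [Real.norm_natCast, Complex.ofReal_div, Complex.ofReal_natCast]
    congr 1
    rw [Complex.ofReal_cpow (Nat.cast_nonneg _)]
    simp

/-- **E1b'**: the same with the coercion inside the sum. -/
theorem tsum_absNorm_rpow_complex {s : ℝ} (hs : 1 < s) :
    ∑' I : nonZeroDivisors (Ideal (𝓞 K)),
      (((Ideal.absNorm (I : Ideal (𝓞 K)) : ℝ) ^ (-s) : ℝ) : ℂ) = dedekindZeta K s := by
  rw [← tsum_absNorm_rpow_eq_dedekindZeta K hs, Complex.ofReal_tsum]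

/-- Norms of prime ideals are at least `2`. -/
theorem two_le_absNorm (v : HeightOneSpectrum (𝓞 K)) : 2 ≤ Ideal.absNorm v.asIdeal := by
  have h0 : Ideal.absNorm v.asIdeal ≠ 0 := by
    rw [Ne, Ideal.absNorm_eq_zero_iff]; exact v.ne_bot
  have h1 : Ideal.absNorm v.asIdeal ≠ 1 := by
    rw [Ne, Ideal.absNorm_eq_one_iff]; exact v.isPrime.ne_top
  omega

lemma absNorm_rpow_nonneg (v : HeightOneSpectrum (𝓞 K)) (s : ℝ) :
    0 ≤ (Ideal.absNorm v.asIdeal : ℝ) ^ (-s) :=
  Real.rpow_nonneg (Nat.cast_nonneg _) _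

lemma absNorm_rpow_lt_one (v : HeightOneSpectrum (𝓞 K)) {s : ℝ} (hs : 0 < s) :
    (Ideal.absNorm v.asIdeal : ℝ) ^ (-s) < 1 :=
  Real.rpow_lt_one_of_one_lt_of_neg (by exact_mod_cast (two_le_absNorm K v)) (neg_neg_of_pos hs)

/-- The values of a class group character have norm `1`. -/
lemma norm_classChar (χ : ClassGroup (𝓞 K) →* ℂˣ) (c : ClassGroup (𝓞 K)) :
    ‖((χ c : ℂˣ) : ℂ)‖ = 1 := by
  have h : ((χ c : ℂˣ) : ℂ) ^ (orderOf c) = 1 := by
    rw [← Units.val_pow_eq_pow_val, ← map_pow, pow_orderOf_eq_one, map_one, Units.val_one]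
  exact Complex.norm_eq_one_of_pow_eq_one h (orderOf_pos c).ne'

/-- The multiplicative function `I ↦ N(I)^(-s)`. -/
noncomputable def zTerm (s : ℝ) : nonZeroDivisors (Ideal (𝓞 K)) →* ℝ where
  toFun I := (Ideal.absNorm (I : Ideal (𝓞 K)) : ℝ) ^ (-s)
  map_one' := by simp
  map_mul' I J := by
    simp only [Submonoid.coe_mul, map_mul, Nat.cast_mul]
    rw [Real.mul_rpow (Nat.cast_nonneg _) (Nat.cast_nonneg _)]

/-- The multiplicative function `I ↦ χ(I) N(I)^(-s)`. -/
noncomputable def lTerm (χ : ClassGroup (𝓞 K) →* ℂˣ) (s : ℝ) :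
    nonZeroDivisors (Ideal (𝓞 K)) →* ℂ where
  toFun I := ((χ (ClassGroup.mk0 I) : ℂˣ) : ℂ) *
    ((Ideal.absNorm (I : Ideal (𝓞 K)) : ℝ) ^ (-s) : ℝ)
  map_one' := by simp
  map_mul' I J := by
    simp only [Submonoid.coe_mul, map_mul, Nat.cast_mul, Units.val_mul]
    rw [Real.mul_rpow (Nat.cast_nonneg _) (Nat.cast_nonneg _)]
    push_cast
    ring

lemma norm_lTerm (χ : ClassGroup (𝓞 K) →* ℂˣ) (s : ℝ) (I : nonZeroDivisors (Ideal (𝓞 K))) :
    ‖lTerm K χ s I‖ = (Ideal.absNorm (I : Ideal (𝓞 K)) : ℝ) ^ (-s) := by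
  simp only [lTerm, MonoidHom.coe_mk, OneHom.coe_mk, norm_mul, norm_classChar, one_mul,
    Complex.norm_real, Real.norm_eq_abs]
  exact abs_of_nonneg (Real.rpow_nonneg (Nat.cast_nonneg _) _)

lemma zTerm_summable_norm {s : ℝ} (hs : 1 < s) : Summable (fun I ↦ ‖zTerm K s I‖) := by
  refine (summable_absNorm_rpow K hs).congr fun I ↦ ?_
  simp only [zTerm, MonoidHom.coe_mk, OneHom.coe_mk, Real.norm_eq_abs]
  exact (abs_of_nonneg (Real.rpow_nonneg (Nat.cast_nonneg _) _)).symm

lemma zTerm_norm_lt_one {s : ℝ} (hs : 1 < s) (v : HeightOneSpectrum (𝓞 K)) :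
    ‖zTerm K s (primeIdeal₀ v)‖ < 1 := by
  simp only [zTerm, MonoidHom.coe_mk, OneHom.coe_mk, Real.norm_eq_abs, coe_primeIdeal₀]
  rw [abs_of_nonneg (absNorm_rpow_nonneg K v s)]
  exact absNorm_rpow_lt_one K v (by linarith)

/-- **E3 (zeta)**: Euler product of the Dedekind zeta function, real form. -/
theorem hasProd_zeta {s : ℝ} (hs : 1 < s) :
    HasProd (fun v : HeightOneSpectrum (𝓞 K) ↦ (1 - (Ideal.absNorm v.asIdeal : ℝ) ^ (-s))⁻¹)
      (∑' I : nonZeroDivisors (Ideal (𝓞 K)), (Ideal.absNorm (I : Ideal (𝓞 K)) : ℝ) ^ (-s)) :=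
  eulerHasProd (zTerm K s) (zTerm_summable_norm K hs) (zTerm_norm_lt_one K hs)

/-- **E3**: Euler product for the `L`-series of a class group character. -/
theorem hasProd_classChar {s : ℝ} (hs : 1 < s) (χ : ClassGroup (𝓞 K) →* ℂˣ) :
    HasProd (fun v : HeightOneSpectrum (𝓞 K) ↦
        (1 - ((χ (primeClass v) : ℂˣ) : ℂ) * ((Ideal.absNorm v.asIdeal : ℝ) ^ (-s) : ℝ))⁻¹)
      (∑' I : nonZeroDivisors (Ideal (𝓞 K)),
        ((χ (ClassGroup.mk0 I) : ℂˣ) : ℂ) *
          ((Ideal.absNorm (I : Ideal (𝓞 K)) : ℝ) ^ (-s) : ℝ)) := by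
  have hsum : Summable (fun I ↦ ‖lTerm K χ s I‖) := by
    simp_rw [norm_lTerm]
    exact summable_absNorm_rpow K hs
  have hlt : ∀ v : HeightOneSpectrum (𝓞 K), ‖lTerm K χ s (primeIdeal₀ v)‖ < 1 := fun v ↦ by
    rw [norm_lTerm]
    exact absNorm_rpow_lt_one K v (by linarith)
  exact eulerHasProd (lTerm K χ s) hsum hlt

/-- **E3 (norm form)**, in the shape consumed by N4d. -/
theorem tendsto_prod_norm_classChar (χ : ClassGroup (𝓞 K) →* ℂˣ) (s : ℝ) (hs : 1 < s) :
    Filter.Tendsto (fun T : Finset (HeightOneSpectrum (𝓞 K)) =>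
        ∏ v ∈ T, ‖(1 : ℂ) - ((χ (primeClass v) : ℂˣ) : ℂ) *
          (((Ideal.absNorm v.asIdeal : ℝ) ^ (-s) : ℝ) : ℂ)‖⁻¹)
      Filter.atTop
      (nhds ‖∑' I : nonZeroDivisors (Ideal (𝓞 K)),
          ((χ (ClassGroup.mk0 I) : ℂˣ) : ℂ) *
            (((Ideal.absNorm (I : Ideal (𝓞 K)) : ℝ) ^ (-s) : ℝ) : ℂ)‖) := by
  have h := (hasProd_classChar K hs χ).norm
  simp only [norm_inv] at h
  exact h

/-- **E2**: finite Euler products are bounded by the zeta sum. -/
theorem prod_one_sub_inv_le_zeta {s : ℝ} (hs : 1 < s) (T : Finset (HeightOneSpectrum (𝓞 K))) :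
    ∏ v ∈ T, (1 - (Ideal.absNorm v.asIdeal : ℝ) ^ (-s))⁻¹ ≤
      ∑' I : nonZeroDivisors (Ideal (𝓞 K)), (Ideal.absNorm (I : Ideal (𝓞 K)) : ℝ) ^ (-s) := by
  have h := eulerSmooth_summable_hasSum (zTerm K s) (zTerm_summable_norm K hs)
    (zTerm_norm_lt_one K hs) T
  have h2 : ∏ v ∈ T, (1 - (Ideal.absNorm v.asIdeal : ℝ) ^ (-s))⁻¹ =
      ∑' I : eulerSmooth T, (Ideal.absNorm ((I : nonZeroDivisors (Ideal (𝓞 K))) :
        Ideal (𝓞 K)) : ℝ) ^ (-s) := h.tsum_eq.symm
  rw [h2]
  exact (summable_absNorm_rpow K hs).tsum_subtype_le _ (eulerSmooth T)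
    (fun _ ↦ Real.rpow_nonneg (Nat.cast_nonneg _) _)

end NumberFieldEuler

end Fermat.Agent.S14
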