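import Fermat.Agent.S14.GoodPrime

/-!
# S14, piece N4a (part): auxiliary bounds for the Euler products

* `exists_sum_not_prime_le` (E4): the primes of a number field whose norm is not a prime number
  contribute a bounded amount to `∑ N(v)^(-s)`, uniformly in `s ≥ 1`.
* `exists_prod_not_prime_le` (E4p): the same for the Euler factors.
* `exists_zeta_le_of`, `exists_le_zeta_of` (E1c, E1d): `ζ_K(s) ≍ 1/(s-1)` on `(1, 2]`, given
  that `ζ_K(s)` is the sum of `N(I)^(-s)` over the nonzero ideals (E1a, E1b).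
-/

set_option autoImplicit false

open NumberField IsDedekindDomain Filter Topology

namespace Fermat.Agent.S14

section NotPrime

variable (K : Type) [Field K] [NumberField K]

/-- The rational prime below a prime of `K`. -/
noncomputable def primeBelow {K : Type} [Field K] [NumberField K]
    (v : HeightOneSpectrum (𝓞 K)) : ℕ :=
  Ideal.absNorm (Ideal.under ℤ v.asIdeal)

theorem primeBelow_prime {K : Type} [Field K] [NumberField K]
    (v : HeightOneSpectrum (𝓞 K)) : (primeBelow v).Prime := by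
  have : NeZero v.asIdeal := ⟨v.ne_bot⟩
  have := v.isPrime
  exact Nat.absNorm_under_prime v.asIdeal

theorem absNorm_eq_primeBelow_pow {K : Type} [Field K] [NumberField K]
    (v : HeightOneSpectrum (𝓞 K)) : ∃ f : ℕ, Ideal.absNorm v.asIdeal = primeBelow v ^ f := by
  have := v.isPrime
  have : v.asIdeal.LiesOver (Ideal.span {((primeBelow v : ℕ) : ℤ)}) :=
    Int.liesOver_span_absNorm v.asIdeal
  exact ⟨_, Ideal.absNorm_eq_pow_inertiaDeg' v.asIdeal (primeBelow_prime v)⟩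

theorem primeBelow_sq_le {K : Type} [Field K] [NumberField K]
    (v : HeightOneSpectrum (𝓞 K)) (hv : ¬ (Ideal.absNorm v.asIdeal).Prime) :
    primeBelow v ^ 2 ≤ Ideal.absNorm v.asIdeal := by
  obtain ⟨f, hf⟩ := absNorm_eq_primeBelow_pow v
  have h2 := gp_two_le_absNorm v
  have hp := primeBelow_prime v
  rw [hf]
  refine Nat.pow_le_pow_right hp.pos ?_
  by_contra hlt
  have hf01 : f = 0 ∨ f = 1 := by omega
  rcases hf01 with h | h
  · rw [h, pow_zero] at hf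
    omega
  · rw [h, pow_one] at hf
    exact hv (hf ▸ hp)

theorem card_filter_primeBelow_le (F : Finset (HeightOneSpectrum (𝓞 K))) (ℓ : ℕ)
    [DecidablePred fun v : HeightOneSpectrum (𝓞 K) => primeBelow v = ℓ] :
    (F.filter (fun v => primeBelow v = ℓ)).card ≤ Module.finrank ℚ K := by
  classical
  by_cases hne : (F.filter (fun v => primeBelow v = ℓ)).Nonempty
  swap
  · rw [Finset.not_nonempty_iff_eq_empty] at hne
    rw [hne, Finset.card_empty]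
    exact Nat.zero_le _
  obtain ⟨v₀, hv₀⟩ := hne
  have hℓ : ℓ.Prime := (Finset.mem_filter.mp hv₀).2 ▸ primeBelow_prime v₀
  have hp0 : (Ideal.span {(ℓ : ℤ)} : Ideal ℤ) ≠ ⊥ := by
    rw [Ne, Ideal.span_singleton_eq_bot]
    exact_mod_cast hℓ.ne_zero
  have hfact : Fact ℓ.Prime := ⟨hℓ⟩
  have : (Ideal.span {(ℓ : ℤ)} : Ideal ℤ).IsMaximal := Int.ideal_span_isMaximal_of_prime ℓ
  have hcard := Ideal.card_primesOverFinset_le_finrank (R := ℤ) (S := 𝓞 K) (K := ℚ) (L := K)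
    (p := Ideal.span {(ℓ : ℤ)}) hp0
  refine le_trans ?_ hcard
  refine Finset.card_le_card_of_injOn (fun v => v.asIdeal) ?_ ?_
  · intro v hv
    have hvℓ : primeBelow v = ℓ := (Finset.mem_filter.mp hv).2
    rw [Finset.mem_coe, IsDedekindDomain.mem_primesOverFinset_iff hp0]
    refine ⟨v.isPrime, ?_⟩
    have := Int.liesOver_span_absNorm v.asIdeal
    rw [show Ideal.absNorm (Ideal.under ℤ v.asIdeal) = ℓ from hvℓ] at this
    exact this
  · intro v _ w _ hvw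
    exact HeightOneSpectrum.ext hvw

/-- (E4) the primes whose norm is not a prime number contribute a bounded amount. -/
theorem exists_sum_not_prime_le :
    ∃ C : ℝ, ∀ s : ℝ, 1 ≤ s → ∀ F : Finset (HeightOneSpectrum (𝓞 K)),
      (∀ v ∈ F, ¬ (Ideal.absNorm v.asIdeal).Prime) →
      ∑ v ∈ F, (Ideal.absNorm v.asIdeal : ℝ) ^ (-s) ≤ C := by
  classical
  refine ⟨(Module.finrank ℚ K : ℝ) * (Real.pi ^ 2 / 6), fun s hs F hF => ?_⟩
  -- termwise bound by `1 / ℓ_v ^ 2`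
  have hterm : ∀ v ∈ F, (Ideal.absNorm v.asIdeal : ℝ) ^ (-s) ≤ 1 / ((primeBelow v : ℕ) : ℝ) ^ 2 := by
    intro v hv
    have h2 : (2 : ℝ) ≤ (Ideal.absNorm v.asIdeal : ℝ) := by exact_mod_cast gp_two_le_absNorm v
    have hpos : (0 : ℝ) < (Ideal.absNorm v.asIdeal : ℝ) := by linarith
    have hsq : ((primeBelow v : ℕ) : ℝ) ^ 2 ≤ (Ideal.absNorm v.asIdeal : ℝ) := by
      exact_mod_cast primeBelow_sq_le v (hF v hv)
    have hℓpos : (0 : ℝ) < ((primeBelow v : ℕ) : ℝ) ^ 2 := by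
      have : (0 : ℝ) < ((primeBelow v : ℕ) : ℝ) := by exact_mod_cast (primeBelow_prime v).pos
      positivity
    calc (Ideal.absNorm v.asIdeal : ℝ) ^ (-s)
        ≤ (Ideal.absNorm v.asIdeal : ℝ) ^ (-1 : ℝ) :=
          Real.rpow_le_rpow_of_exponent_le (by linarith) (by linarith)
      _ = 1 / (Ideal.absNorm v.asIdeal : ℝ) := by rw [Real.rpow_neg_one, one_div]
      _ ≤ 1 / ((primeBelow v : ℕ) : ℝ) ^ 2 := one_div_le_one_div_of_le hℓpos hsq
  refine (Finset.sum_le_sum hterm).trans ?_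
  rw [Finset.sum_comp (fun ℓ : ℕ => 1 / ((ℓ : ℕ) : ℝ) ^ 2) primeBelow]
  calc ∑ ℓ ∈ F.image primeBelow,
        (F.filter (fun v => primeBelow v = ℓ)).card • (1 / ((ℓ : ℕ) : ℝ) ^ 2)
      ≤ ∑ ℓ ∈ F.image primeBelow, (Module.finrank ℚ K : ℝ) * (1 / ((ℓ : ℕ) : ℝ) ^ 2) := by
        refine Finset.sum_le_sum (fun ℓ _ => ?_)
        rw [nsmul_eq_mul]
        refine mul_le_mul_of_nonneg_right ?_ (by positivity)
        exact_mod_cast card_filter_primeBelow_le K F ℓ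
    _ = (Module.finrank ℚ K : ℝ) * ∑ ℓ ∈ F.image primeBelow, 1 / ((ℓ : ℕ) : ℝ) ^ 2 := by
        rw [Finset.mul_sum]
    _ ≤ (Module.finrank ℚ K : ℝ) * (Real.pi ^ 2 / 6) := by
        refine mul_le_mul_of_nonneg_left ?_ (by positivity)
        exact sum_le_hasSum _ (fun ℓ _ => by positivity) hasSum_zeta_two

/-- (E4p) the Euler factors at the primes whose norm is not a prime number have bounded
products. -/
theorem exists_prod_not_prime_le :
    ∃ C : ℝ, ∀ s : ℝ, 1 ≤ s → ∀ F : Finset (HeightOneSpectrum (𝓞 K)),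
      (∀ v ∈ F, ¬ (Ideal.absNorm v.asIdeal).Prime) →
      ∏ v ∈ F, (1 - (Ideal.absNorm v.asIdeal : ℝ) ^ (-s))⁻¹ ≤ C := by
  obtain ⟨C, hC⟩ := exists_sum_not_prime_le K
  refine ⟨Real.exp (2 * C), fun s hs F hF => ?_⟩
  calc ∏ v ∈ F, (1 - (Ideal.absNorm v.asIdeal : ℝ) ^ (-s))⁻¹
      ≤ ∏ v ∈ F, Real.exp (2 * (Ideal.absNorm v.asIdeal : ℝ) ^ (-s)) := by
        refine Finset.prod_le_prod (fun v _ => ?_) (fun v _ => ?_)
        · have := gp_x_le_half v hs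
          exact inv_nonneg.mpr (by linarith)
        · exact gp_inv_le_exp (gp_x_pos v s).le (gp_x_le_half v hs)
    _ = Real.exp (2 * ∑ v ∈ F, (Ideal.absNorm v.asIdeal : ℝ) ^ (-s)) := by
        rw [← Real.exp_sum, Finset.mul_sum]
    _ ≤ Real.exp (2 * C) := by
        apply Real.exp_le_exp.mpr
        have := hC s hs F hF
        linarith

end NotPrime

/-! ## `ζ_K(s) ≍ 1/(s-1)` on `(1, 2]` -/

section Zeta

variable (K : Type) [Field K] [NumberField K]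

/-- `(s - 1) * ∑ N(I)^(-s)` tends to the residue as `s → 1⁺` (real form of Mathlib's class
number formula), given (E1b). -/
theorem tendsto_sub_one_mul_idealSum
    (hzeta : ∀ s : ℝ, 1 < s →
      ((∑' I : nonZeroDivisors (Ideal (𝓞 K)),
        (Ideal.absNorm (I : Ideal (𝓞 K)) : ℝ) ^ (-s) : ℝ) : ℂ) = dedekindZeta K s) :
    Tendsto (fun s : ℝ => (s - 1) * ∑' I : nonZeroDivisors (Ideal (𝓞 K)),
        (Ideal.absNorm (I : Ideal (𝓞 K)) : ℝ) ^ (-s)) (𝓝[>] 1) (𝓝 (dedekindZeta_residue K)) := by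
  have h := tendsto_sub_one_mul_dedekindZeta_nhdsGT K
  have h' : Tendsto (fun s : ℝ => (((s : ℂ) - 1) * dedekindZeta K s).re) (𝓝[>] 1)
      (𝓝 ((dedekindZeta_residue K : ℝ) : ℂ).re) :=
    (Complex.continuous_re.tendsto _).comp h
  rw [Complex.ofReal_re] at h'
  refine h'.congr' ?_
  filter_upwards [self_mem_nhdsWithin] with s hs
  rw [← hzeta s hs, ← Complex.ofReal_one, ← Complex.ofReal_sub, ← Complex.ofReal_mul,
    Complex.ofReal_re]

theorem idealSum_antitone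
    (hsum : ∀ s : ℝ, 1 < s → Summable fun I : nonZeroDivisors (Ideal (𝓞 K)) =>
      (Ideal.absNorm (I : Ideal (𝓞 K)) : ℝ) ^ (-s))
    {s t : ℝ} (hs : 1 < s) (hst : s ≤ t) :
    ∑' I : nonZeroDivisors (Ideal (𝓞 K)), (Ideal.absNorm (I : Ideal (𝓞 K)) : ℝ) ^ (-t) ≤
      ∑' I : nonZeroDivisors (Ideal (𝓞 K)), (Ideal.absNorm (I : Ideal (𝓞 K)) : ℝ) ^ (-s) := by
  refine (hsum t (lt_of_lt_of_le hs hst)).tsum_le_tsum (fun I => ?_) (hsum s hs)
  have h1 : (1 : ℝ) ≤ (Ideal.absNorm (I : Ideal (𝓞 K)) : ℝ) := by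
    have : Ideal.absNorm (I : Ideal (𝓞 K)) ≠ 0 := by
      rw [Ne, Ideal.absNorm_eq_zero_iff]
      exact nonZeroDivisors.coe_ne_zero I
    exact_mod_cast Nat.one_le_iff_ne_zero.mpr this
  exact Real.rpow_le_rpow_of_exponent_le h1 (by linarith)

theorem one_le_idealSum
    (hsum : ∀ s : ℝ, 1 < s → Summable fun I : nonZeroDivisors (Ideal (𝓞 K)) =>
      (Ideal.absNorm (I : Ideal (𝓞 K)) : ℝ) ^ (-s))
    {s : ℝ} (hs : 1 < s) :
    1 ≤ ∑' I : nonZeroDivisors (Ideal (𝓞 K)), (Ideal.absNorm (I : Ideal (𝓞 K)) : ℝ) ^ (-s) := by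
  have h := (hsum s hs).le_tsum (⟨⊤, mem_nonZeroDivisors_iff_ne_zero.mpr (by
    rw [Ne, Ideal.zero_eq_bot]; exact top_ne_bot)⟩ : nonZeroDivisors (Ideal (𝓞 K)))
    (fun I _ => Real.rpow_nonneg (Nat.cast_nonneg _) _)
  simpa using h

/-- (E1c) `ζ_K(s) ≤ C / (s - 1)` on `(1, 2]`, given (E1a), (E1b). -/
theorem exists_zeta_le_of
    (hsum : ∀ s : ℝ, 1 < s → Summable fun I : nonZeroDivisors (Ideal (𝓞 K)) =>
      (Ideal.absNorm (I : Ideal (𝓞 K)) : ℝ) ^ (-s))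
    (hzeta : ∀ s : ℝ, 1 < s →
      ((∑' I : nonZeroDivisors (Ideal (𝓞 K)),
        (Ideal.absNorm (I : Ideal (𝓞 K)) : ℝ) ^ (-s) : ℝ) : ℂ) = dedekindZeta K s) :
    ∃ C : ℝ, 0 < C ∧ ∀ s : ℝ, 1 < s → s ≤ 2 →
      ∑' I : nonZeroDivisors (Ideal (𝓞 K)), (Ideal.absNorm (I : Ideal (𝓞 K)) : ℝ) ^ (-s) ≤
        C / (s - 1) := by
  have hκ := dedekindZeta_residue_pos K
  have hlim := tendsto_sub_one_mul_idealSum K hzeta
  have hev : ∀ᶠ s in 𝓝[>] (1 : ℝ), (s - 1) * ∑' I : nonZeroDivisors (Ideal (𝓞 K)),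
      (Ideal.absNorm (I : Ideal (𝓞 K)) : ℝ) ^ (-s) < dedekindZeta_residue K + 1 :=
    (tendsto_order.1 hlim).2 _ (by linarith)
  obtain ⟨u, hu, hsub⟩ := mem_nhdsGT_iff_exists_Ioo_subset.mp hev
  rw [Set.mem_Ioi] at hu
  set s₀ : ℝ := (1 + u) / 2 with hs₀
  have hs₀1 : 1 < s₀ := by rw [hs₀]; linarith
  have hs₀u : s₀ < u := by rw [hs₀]; linarith
  set Z₀ : ℝ := ∑' I : nonZeroDivisors (Ideal (𝓞 K)),
    (Ideal.absNorm (I : Ideal (𝓞 K)) : ℝ) ^ (-s₀) with hZ₀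
  have hZ₀1 : 1 ≤ Z₀ := one_le_idealSum K hsum hs₀1
  refine ⟨max (dedekindZeta_residue K + 1) Z₀, lt_max_of_lt_left (by linarith),
    fun s hs hs2 => ?_⟩
  have hs' : 0 < s - 1 := sub_pos.mpr hs
  rw [le_div_iff₀ hs', mul_comm]
  by_cases hsu : s < u
  · exact (hsub ⟨hs, hsu⟩).le.trans (le_max_left _ _)
  · have hge : s₀ ≤ s := by linarith [not_lt.mp hsu]
    have hZ := idealSum_antitone K hsum hs₀1 hge
    have hZnn : 0 ≤ ∑' I : nonZeroDivisors (Ideal (𝓞 K)),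
        (Ideal.absNorm (I : Ideal (𝓞 K)) : ℝ) ^ (-s) := by
      linarith [one_le_idealSum K hsum hs]
    calc (s - 1) * ∑' I : nonZeroDivisors (Ideal (𝓞 K)),
          (Ideal.absNorm (I : Ideal (𝓞 K)) : ℝ) ^ (-s)
        ≤ 1 * Z₀ := mul_le_mul (by linarith) hZ hZnn (by norm_num)
      _ = Z₀ := one_mul _
      _ ≤ max (dedekindZeta_residue K + 1) Z₀ := le_max_right _ _

/-- (E1d) `c / (s - 1) ≤ ζ_K(s)` on `(1, 2]`, given (E1a), (E1b). -/
theorem exists_le_zeta_of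
    (hsum : ∀ s : ℝ, 1 < s → Summable fun I : nonZeroDivisors (Ideal (𝓞 K)) =>
      (Ideal.absNorm (I : Ideal (𝓞 K)) : ℝ) ^ (-s))
    (hzeta : ∀ s : ℝ, 1 < s →
      ((∑' I : nonZeroDivisors (Ideal (𝓞 K)),
        (Ideal.absNorm (I : Ideal (𝓞 K)) : ℝ) ^ (-s) : ℝ) : ℂ) = dedekindZeta K s) :
    ∃ c : ℝ, 0 < c ∧ ∀ s : ℝ, 1 < s → s ≤ 2 →
      c / (s - 1) ≤
        ∑' I : nonZeroDivisors (Ideal (𝓞 K)), (Ideal.absNorm (I : Ideal (𝓞 K)) : ℝ) ^ (-s) := by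
  have hκ := dedekindZeta_residue_pos K
  have hlim := tendsto_sub_one_mul_idealSum K hzeta
  have hev : ∀ᶠ s in 𝓝[>] (1 : ℝ), dedekindZeta_residue K / 2 <
      (s - 1) * ∑' I : nonZeroDivisors (Ideal (𝓞 K)),
        (Ideal.absNorm (I : Ideal (𝓞 K)) : ℝ) ^ (-s) :=
    (tendsto_order.1 hlim).1 _ (by linarith)
  obtain ⟨u, hu, hsub⟩ := mem_nhdsGT_iff_exists_Ioo_subset.mp hev
  rw [Set.mem_Ioi] at hu
  refine ⟨min (dedekindZeta_residue K / 2) (u - 1), lt_min (by linarith) (by linarith),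
    fun s hs hs2 => ?_⟩
  have hs' : 0 < s - 1 := sub_pos.mpr hs
  rw [div_le_iff₀ hs', mul_comm]
  by_cases hsu : s < u
  · exact (min_le_left _ _).trans (hsub ⟨hs, hsu⟩).le
  · have h1 := one_le_idealSum K hsum hs
    calc min (dedekindZeta_residue K / 2) (u - 1) ≤ u - 1 := min_le_right _ _
      _ ≤ s - 1 := by linarith [not_lt.mp hsu]
      _ = (s - 1) * 1 := (mul_one _).symm
      _ ≤ (s - 1) * ∑' I : nonZeroDivisors (Ideal (𝓞 K)),
          (Ideal.absNorm (I : Ideal (𝓞 K)) : ℝ) ^ (-s) := by gcongr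

end Zeta

end Fermat.Agent.S14
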