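import Mathlib
import Fermat.Prelude.Def_FLTPrelim_Ramification
import Fermat.Agent.Common.FrobProfinite
import Fermat.Agent.S05.Inertia

/-!
# S14, shared valuation tools T1 and T2 (Galois side)

For an intermediate field `F` of `ℚ̄ / ℚ` and valuation subrings of `ℚ̄`:

* `Fermat.Agent.S14.exists_fixing_smul_eq` (T1): `Gal(ℚ̄/F)` acts transitively on the valuation
  subrings of `ℚ̄` with a given trace on `F`;
* `Fermat.Agent.S14.exists_inertia_agree` (T2): an element of the decomposition group of `A`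
  which maps `F` into `F` and acts trivially on the residue field of `A ∩ F` agrees on `F` with
  an element of the inertia group of `A`.
-/

set_option autoImplicit false
set_option linter.style.haveILetI false

open scoped Pointwise

namespace Fermat.Agent.S14

section Split

variable {L : Type*} [Field L]

/-- Splitting a polynomial relation at the index `s`. -/
theorem valGalois_split (c : ℕ → L) (n s : ℕ) (hs : s ≤ n) (x : L) (hx : x ≠ 0)
    (h0 : ∑ i ∈ Finset.range (n + 1), c i * x ^ i = 0) :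
    (∑ j ∈ Finset.range (n + 1 - s), c (s + j) * x ^ j =
        -∑ i ∈ Finset.range s, c i * x⁻¹ ^ (s - i)) ∧
    (x * ∑ j ∈ Finset.range (n + 1 - s), c (s + j) * x ^ j =
        -∑ i ∈ Finset.range s, c i * x⁻¹ ^ (s - i - 1)) := by
  have hn : n + 1 = s + (n + 1 - s) := by omega
  rw [hn, Finset.sum_range_add] at h0
  have h1 : ∑ j ∈ Finset.range (n + 1 - s), c (s + j) * x ^ (s + j) =
      x ^ s * ∑ j ∈ Finset.range (n + 1 - s), c (s + j) * x ^ j := by
    rw [Finset.mul_sum]
    refine Finset.sum_congr rfl fun j _ => ?_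
    rw [pow_add]; ring
  rw [h1] at h0
  have hxs : x ^ s ≠ 0 := pow_ne_zero _ hx
  have h2 : ∑ j ∈ Finset.range (n + 1 - s), c (s + j) * x ^ j =
      -((∑ i ∈ Finset.range s, c i * x ^ i) * (x ^ s)⁻¹) := by
    have : x ^ s * ∑ j ∈ Finset.range (n + 1 - s), c (s + j) * x ^ j =
        -∑ i ∈ Finset.range s, c i * x ^ i := by
      linear_combination h0
    field_simp
    linear_combination this
  have h3 : (∑ i ∈ Finset.range s, c i * x ^ i) * (x ^ s)⁻¹ =
      ∑ i ∈ Finset.range s, c i * x⁻¹ ^ (s - i) := by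
    rw [Finset.sum_mul]
    refine Finset.sum_congr rfl fun i hi => ?_
    have his : i < s := Finset.mem_range.mp hi
    have e : s = i + (s - i) := by omega
    have : x ^ s = x ^ i * x ^ (s - i) := by rw [← pow_add, ← e]
    rw [this, inv_pow]
    have hxi : x ^ i ≠ 0 := pow_ne_zero _ hx
    have hxsi : x ^ (s - i) ≠ 0 := pow_ne_zero _ hx
    field_simp
  refine ⟨by rw [h2, h3], ?_⟩
  rw [h2, h3, mul_neg, Finset.mul_sum]
  congr 1
  refine Finset.sum_congr rfl fun i hi => ?_
  have his : i < s := Finset.mem_range.mp hi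
  have e : s - i = (s - i - 1) + 1 := by omega
  rw [e, pow_succ]
  have : s - i - 1 + 1 - 1 = s - i - 1 := by omega
  rw [this]
  field_simp

end Split

section Trace

/-- The intersection of all valuation subrings of `ℚ̄` containing `A ∩ F`. -/
def traceSubring (F : IntermediateField ℚ (AlgebraicClosure ℚ))
    (A : ValuationSubring (AlgebraicClosure ℚ)) : Subring (AlgebraicClosure ℚ) where
  carrier := {b | ∀ V : ValuationSubring (AlgebraicClosure ℚ),
    (∀ z ∈ F, z ∈ A → z ∈ V) → b ∈ V}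
  mul_mem' := fun ha hb V hV => V.mul_mem _ _ (ha V hV) (hb V hV)
  one_mem' := fun V _ => V.one_mem
  add_mem' := fun ha hb V hV => V.add_mem _ _ (ha V hV) (hb V hV)
  zero_mem' := fun V _ => V.zero_mem
  neg_mem' := fun ha V hV => V.neg_mem _ (ha V hV)

theorem mem_traceSubring {F : IntermediateField ℚ (AlgebraicClosure ℚ)}
    {A : ValuationSubring (AlgebraicClosure ℚ)} {b : AlgebraicClosure ℚ} :
    b ∈ traceSubring F A ↔ ∀ V : ValuationSubring (AlgebraicClosure ℚ),
      (∀ z ∈ F, z ∈ A → z ∈ V) → b ∈ V :=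
  Iff.rfl

theorem traceSubring_le (F : IntermediateField ℚ (AlgebraicClosure ℚ))
    (A : ValuationSubring (AlgebraicClosure ℚ)) : traceSubring F A ≤ A.toSubring :=
  fun _ hb => hb A fun _ _ h => h

/-- **Localisation lemma**: every element of `A` is a quotient `u / y` of elements of the
trace subring with `y` a unit of `A`. -/
theorem exists_mul_eq_of_mem (F : IntermediateField ℚ (AlgebraicClosure ℚ))
    (A : ValuationSubring (AlgebraicClosure ℚ)) {x : AlgebraicClosure ℚ} (hx : x ∈ A) :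
    ∃ u y : AlgebraicClosure ℚ, x * y = u ∧ A.valuation y = 1 ∧
      u ∈ traceSubring F A ∧ y ∈ traceSubring F A := by
  classical
  by_cases hx0 : x = 0
  · exact ⟨0, 1, by simp [hx0], map_one _, Subring.zero_mem _, Subring.one_mem _⟩
  haveI := Fermat.Agent.Common.isAlgClosure_rat_qbar
  have halg : IsIntegral ℚ x := (IsAlgClosure.isAlgebraic.isAlgebraic x).isIntegral
  have hp0 : minpoly ℚ x ≠ 0 := minpoly.ne_zero halg
  obtain ⟨n, hn⟩ : ∃ n, n = (minpoly ℚ x).natDegree := ⟨_, rfl⟩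
  obtain ⟨a, ha⟩ : ∃ a : ℕ → AlgebraicClosure ℚ,
      a = fun i => algebraMap ℚ (AlgebraicClosure ℚ) ((minpoly ℚ x).coeff i) := ⟨_, rfl⟩
  have haF : ∀ i, a i ∈ F := fun i => by rw [ha]; exact F.algebraMap_mem _
  have hsum : ∑ i ∈ Finset.range (n + 1), a i * x ^ i = 0 := by
    have h := minpoly.aeval ℚ x
    rw [Polynomial.aeval_eq_sum_range] at h
    rw [ha, hn]
    simpa [Algebra.smul_def] using h
  have han : a n ≠ 0 := by
    rw [ha, hn]
    simpa using hp0
  -- maximal valuation of a coefficient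
  obtain ⟨j, hj, hjmax⟩ := Finset.exists_max_image (Finset.range (n + 1))
    (fun i => A.valuation (a i)) ⟨0, by simp⟩
  obtain ⟨T, hTdef⟩ : ∃ T : Finset ℕ, T = (Finset.range (n + 1)).filter
      (fun i => A.valuation (a i) = A.valuation (a j)) := ⟨_, rfl⟩
  have hT : T.Nonempty := ⟨j, by rw [hTdef]; simp [Finset.mem_range.mp hj]⟩
  obtain ⟨s, hs⟩ : ∃ s, s = T.max' hT := ⟨_, rfl⟩
  have hsT : s ∈ T := by rw [hs]; exact Finset.max'_mem _ _
  have hsT' := hsT
  rw [hTdef, Finset.mem_filter, Finset.mem_range] at hsT'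
  obtain ⟨hsn, hvs⟩ := hsT'
  have hs_le : s ≤ n := by omega
  have hmax : ∀ i, i ≤ n → A.valuation (a i) ≤ A.valuation (a s) := by
    intro i hi
    rw [hvs]
    exact hjmax i (Finset.mem_range.mpr (by omega))
  have hlt : ∀ i, s < i → i ≤ n → A.valuation (a i) < A.valuation (a s) := by
    intro i hsi hi
    refine lt_of_le_of_ne (hmax i hi) fun heq => ?_
    have hiT : i ∈ T := by
      rw [hTdef, Finset.mem_filter, Finset.mem_range]
      exact ⟨by omega, by rw [heq, hvs]⟩
    have := Finset.le_max' T i hiT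
    rw [← hs] at this
    omega
  have hvs0 : A.valuation (a s) ≠ 0 := by
    have h1 := hmax n le_rfl
    have h2 : A.valuation (a n) ≠ 0 := (Valuation.ne_zero_iff _).2 han
    intro h
    rw [h] at h1
    exact h2 (le_antisymm h1 zero_le)
  have has0 : a s ≠ 0 := (Valuation.ne_zero_iff _).1 hvs0
  -- normalised coefficients
  obtain ⟨c, hc⟩ : ∃ c : ℕ → AlgebraicClosure ℚ, c = fun i => a i / a s := ⟨_, rfl⟩
  have hcF : ∀ i, c i ∈ F := fun i => by rw [hc]; exact F.div_mem (haF i) (haF s)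
  have hcs : c s = 1 := by rw [hc]; exact div_self has0
  have hcle : ∀ i, i ≤ n → A.valuation (c i) ≤ 1 := by
    intro i hi
    rw [hc]
    simp only [map_div₀]
    exact (div_le_one₀ (zero_lt_iff.mpr hvs0)).mpr (hmax i hi)
  have hclt : ∀ i, s < i → i ≤ n → A.valuation (c i) < 1 := by
    intro i hsi hi
    rw [hc]
    simp only [map_div₀]
    exact (div_lt_one₀ (zero_lt_iff.mpr hvs0)).mpr (hlt i hsi hi)
  have hcA : ∀ i, i ≤ n → c i ∈ A := fun i hi =>
    (A.valuation_le_one_iff _).mp (hcle i hi)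
  have hcsum : ∑ i ∈ Finset.range (n + 1), c i * x ^ i = 0 := by
    have : ∑ i ∈ Finset.range (n + 1), c i * x ^ i =
        (∑ i ∈ Finset.range (n + 1), a i * x ^ i) * (a s)⁻¹ := by
      rw [Finset.sum_mul]
      refine Finset.sum_congr rfl fun i _ => ?_
      rw [hc]; ring
    rw [this, hsum, zero_mul]
  obtain ⟨hy1, hy2⟩ := valGalois_split c n s hs_le x hx0 hcsum
  obtain ⟨y, hy⟩ : ∃ y, y = ∑ j ∈ Finset.range (n + 1 - s), c (s + j) * x ^ j := ⟨_, rfl⟩
  rw [← hy] at hy1 hy2
  have hvx : A.valuation x ≤ 1 := (A.valuation_le_one_iff _).mpr hx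
  -- `y` is a unit of `A`
  have hyv : A.valuation y = 1 := by
    have e : n + 1 - s = (n - s) + 1 := by omega
    rw [e, Finset.sum_range_succ'] at hy
    simp only [add_zero, pow_zero, mul_one, hcs] at hy
    have hlt1 : A.valuation (∑ k ∈ Finset.range (n - s), c (s + (k + 1)) * x ^ (k + 1)) < 1 := by
      refine Valuation.map_sum_lt _ one_ne_zero fun k hk => ?_
      have hk' : k < n - s := Finset.mem_range.mp hk
      rw [map_mul, map_pow]
      have h1 : A.valuation (c (s + (k + 1))) < 1 := hclt _ (by omega) (by omega)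
      have h2 : A.valuation x ^ (k + 1) ≤ 1 := pow_le_one₀ zero_le hvx
      calc A.valuation (c (s + (k + 1))) * A.valuation x ^ (k + 1)
          ≤ A.valuation (c (s + (k + 1))) * 1 := by gcongr
        _ < 1 := by rw [mul_one]; exact h1
    rw [hy, add_comm]
    exact Valuation.map_one_add_of_lt _ hlt1
  refine ⟨x * y, y, rfl, hyv, ?_, ?_⟩
  · intro V hV
    by_cases hxV : x ∈ V
    · refine V.mul_mem _ _ hxV ?_
      rw [hy]
      refine Subring.sum_mem V.toSubring fun k hk => ?_
      have hk' : k < n + 1 - s := Finset.mem_range.mp hk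
      exact V.mul_mem _ _ (hV _ (hcF _) (hcA _ (by omega))) (pow_mem hxV _)
    · have hxi : x⁻¹ ∈ V := (V.mem_or_inv_mem x).resolve_left hxV
      rw [hy2]
      refine V.neg_mem _ (Subring.sum_mem V.toSubring fun i hi => ?_)
      have hi' : i < s := Finset.mem_range.mp hi
      exact V.mul_mem _ _ (hV _ (hcF _) (hcA _ (by omega))) (pow_mem hxi _)
  · intro V hV
    by_cases hxV : x ∈ V
    · rw [hy]
      refine Subring.sum_mem V.toSubring fun k hk => ?_
      have hk' : k < n + 1 - s := Finset.mem_range.mp hk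
      exact V.mul_mem _ _ (hV _ (hcF _) (hcA _ (by omega))) (pow_mem hxV _)
    · have hxi : x⁻¹ ∈ V := (V.mem_or_inv_mem x).resolve_left hxV
      rw [hy1]
      refine V.neg_mem _ (Subring.sum_mem V.toSubring fun i hi => ?_)
      have hi' : i < s := Finset.mem_range.mp hi
      exact V.mul_mem _ _ (hV _ (hcF _) (hcA _ (by omega))) (pow_mem hxi _)

/-- The trace subring only depends on the trace of `A` on `F`. -/
theorem traceSubring_congr {F : IntermediateField ℚ (AlgebraicClosure ℚ)}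
    {A A' : ValuationSubring (AlgebraicClosure ℚ)} (h : ∀ x ∈ F, x ∈ A ↔ x ∈ A') :
    traceSubring F A = traceSubring F A' := by
  ext b
  simp only [mem_traceSubring]
  refine ⟨fun hb V hV => hb V fun z hzF hzA => hV z hzF ((h z hzF).mp hzA),
    fun hb V hV => hb V fun z hzF hzA => hV z hzF ((h z hzF).mpr hzA)⟩

/-- The trace subring is stable under automorphisms mapping `A ∩ F` into itself. -/
theorem apply_mem_traceSubring {F : IntermediateField ℚ (AlgebraicClosure ℚ)}
    {A : ValuationSubring (AlgebraicClosure ℚ)}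
    (g : AlgebraicClosure ℚ ≃ₐ[ℚ] AlgebraicClosure ℚ)
    (hg : ∀ z ∈ F, z ∈ A → g z ∈ F ∧ g z ∈ A)
    {b : AlgebraicClosure ℚ} (hb : b ∈ traceSubring F A) : g b ∈ traceSubring F A := by
  intro V hV
  have h1 := hb (V.comap (g : AlgebraicClosure ℚ →+* AlgebraicClosure ℚ)) (fun z hzF hzA => by
    rw [ValuationSubring.mem_comap]
    exact hV _ (hg z hzF hzA).1 (hg z hzF hzA).2)
  rw [ValuationSubring.mem_comap] at h1
  exact h1

theorem nonunits_iff_inv_not_mem (A : ValuationSubring (AlgebraicClosure ℚ))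
    (x : AlgebraicClosure ℚ) : x ∈ A.nonunits ↔ x = 0 ∨ x⁻¹ ∉ A := by
  rw [ValuationSubring.mem_nonunits_iff, ← A.valuation_le_one_iff]
  by_cases hx : x = 0
  · simp [hx]
  · have hv : A.valuation x ≠ 0 := (Valuation.ne_zero_iff _).2 hx
    simp only [hx, false_or, map_inv₀, not_le]
    rw [one_lt_inv₀ (zero_lt_iff.mpr hv)]

/-- Transport of membership along an automorphism which respects the trace subring and the
maximal ideals on it. -/
theorem apply_mem_of_respects {F : IntermediateField ℚ (AlgebraicClosure ℚ)}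
    {A A' : ValuationSubring (AlgebraicClosure ℚ)}
    (g : AlgebraicClosure ℚ ≃ₐ[ℚ] AlgebraicClosure ℚ)
    (hgB : ∀ b ∈ traceSubring F A, g b ∈ A')
    (hgP : ∀ b ∈ traceSubring F A, b ∉ A.nonunits → g b ∉ A'.nonunits)
    {x : AlgebraicClosure ℚ} (hx : x ∈ A) : g x ∈ A' := by
  obtain ⟨u, y, hxy, hyv, hu, hy⟩ := exists_mul_eq_of_mem F A hx
  have hynu : y ∉ A.nonunits := by
    rw [ValuationSubring.mem_nonunits_iff, hyv]
    exact lt_irrefl _
  have h1 : A'.valuation (g y) = 1 := by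
    have h2 : A'.valuation (g y) ≤ 1 := (A'.valuation_le_one_iff _).mpr (hgB y hy)
    have h3 : ¬ A'.valuation (g y) < 1 := by
      rw [← ValuationSubring.mem_nonunits_iff]
      exact hgP y hy hynu
    exact le_antisymm h2 (not_lt.mp h3)
  have h4 : A'.valuation (g u) ≤ 1 := (A'.valuation_le_one_iff _).mpr (hgB u hu)
  rw [← A'.valuation_le_one_iff]
  have h5 : g x * g y = g u := by rw [← map_mul, hxy]
  have h6 : A'.valuation (g x) * A'.valuation (g y) = A'.valuation (g u) := by
    rw [← map_mul, h5]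
  rw [h1, mul_one] at h6
  rw [h6]
  exact h4

end Trace

section Profinite

variable (F : IntermediateField ℚ (AlgebraicClosure ℚ))
  (A : ValuationSubring (AlgebraicClosure ℚ))

instance traceSubring_isInvariant :
    IsInvariantSubring (↥F.fixingSubgroup) (traceSubring F A) where
  smul_mem := fun m x hx => by
    have hm : ∀ z ∈ F, (m : AlgebraicClosure ℚ ≃ₐ[ℚ] AlgebraicClosure ℚ) z = z := fun z hz =>
      m.2 ⟨z, hz⟩
    exact apply_mem_traceSubring (m : AlgebraicClosure ℚ ≃ₐ[ℚ] AlgebraicClosure ℚ)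
      (fun z hzF hzA => by rw [hm z hzF]; exact ⟨hzF, hzA⟩) hx

/-- The prime of the trace subring cut out by a valuation subring `V` containing it. -/
noncomputable def tracePrime (V : ValuationSubring (AlgebraicClosure ℚ))
    (hV : traceSubring F A ≤ V.toSubring) : Ideal (traceSubring F A) :=
  (IsLocalRing.maximalIdeal V).comap (Subring.inclusion hV)

theorem mem_tracePrime {V : ValuationSubring (AlgebraicClosure ℚ)}
    (hV : traceSubring F A ≤ V.toSubring) (b : traceSubring F A) :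
    b ∈ tracePrime F A V hV ↔ (b : AlgebraicClosure ℚ) ∈ V.nonunits := by
  rw [tracePrime, Ideal.mem_comap, ← ValuationSubring.coe_mem_nonunits_iff]
  rfl

instance tracePrime_isPrime {V : ValuationSubring (AlgebraicClosure ℚ)}
    (hV : traceSubring F A ≤ V.toSubring) : (tracePrime F A V hV).IsPrime :=
  Ideal.comap_isPrime _ _

/-- Elements of the trace subring fixed by `Gal(ℚ̄/F)` lie in `F`. -/
theorem coe_mem_of_mem_fixedPoints
    (a : FixedPoints.subring (traceSubring F A) (↥F.fixingSubgroup)) :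
    ((a : traceSubring F A) : AlgebraicClosure ℚ) ∈ F := by
  haveI := Fermat.Agent.Common.isAlgClosure_rat_qbar
  have h1 : ((a : traceSubring F A) : AlgebraicClosure ℚ) ∈
      IntermediateField.fixedField F.fixingSubgroup := by
    rw [IntermediateField.mem_fixedField_iff]
    intro g hg
    have := a.2 ⟨g, hg⟩
    exact congrArg Subtype.val this
  rwa [InfiniteGalois.fixedField_fixingSubgroup] at h1

end Profinite

section T1

/-- **T1**: `Gal(ℚ̄/F)` is transitive on the valuation subrings of `ℚ̄` with the same trace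
on `F`. -/
theorem exists_fixing_smul_eq (F : IntermediateField ℚ (AlgebraicClosure ℚ))
    (A A' : ValuationSubring (AlgebraicClosure ℚ))
    (h : ∀ x ∈ F, x ∈ A ↔ x ∈ A') :
    ∃ ρ : AlgebraicClosure ℚ ≃ₐ[ℚ] AlgebraicClosure ℚ,
      (∀ x ∈ F, ρ x = x) ∧ ρ • A = A' := by
  classical
  haveI := Fermat.Agent.Common.isAlgClosure_rat_qbar
  have hclosed : IsClosed (F.fixingSubgroup : Set (AlgebraicClosure ℚ ≃ₐ[ℚ] AlgebraicClosure ℚ)) :=
    InfiniteGalois.fixingSubgroup_isClosed F
  haveI : CompactSpace ↥F.fixingSubgroup := isCompact_iff_compactSpace.mp hclosed.isCompact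
  letI : TopologicalSpace (traceSubring F A) := ⊥
  haveI : DiscreteTopology (traceSubring F A) := ⟨rfl⟩
  haveI : ContinuousSMul ↥F.fixingSubgroup (traceSubring F A) := by
    rw [continuousSMul_iff_stabilizer_isOpen]
    intro b
    have h := stabilizer_isOpen_of_isIntegral (K := ℚ) (b : AlgebraicClosure ℚ)
    have e : (MulAction.stabilizer ↥F.fixingSubgroup b : Set ↥F.fixingSubgroup) =
        Subtype.val ⁻¹' (MulAction.stabilizer (AlgebraicClosure ℚ ≃ₐ[ℚ] AlgebraicClosure ℚ)
          (b : AlgebraicClosure ℚ) : Set (AlgebraicClosure ℚ ≃ₐ[ℚ] AlgebraicClosure ℚ)) := by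
      ext g
      simp only [SetLike.mem_coe, MulAction.mem_stabilizer_iff, Set.mem_preimage, Subtype.ext_iff]
      rfl
    rw [e]
    exact h.preimage continuous_subtype_val
  have hBA : traceSubring F A ≤ A.toSubring := traceSubring_le F A
  have hBA' : traceSubring F A ≤ A'.toSubring := by
    rw [traceSubring_congr h]; exact traceSubring_le F A'
  haveI : Algebra.IsInvariant (FixedPoints.subring (traceSubring F A) ↥F.fixingSubgroup)
      (traceSubring F A) ↥F.fixingSubgroup := ⟨fun b hb => ⟨⟨b, hb⟩, rfl⟩⟩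
  have hPQ : (tracePrime F A A hBA).under
        (FixedPoints.subring (traceSubring F A) ↥F.fixingSubgroup) =
      (tracePrime F A A' hBA').under
        (FixedPoints.subring (traceSubring F A) ↥F.fixingSubgroup) := by
    ext a
    have haF := coe_mem_of_mem_fixedPoints F A a
    have e1 : a ∈ (tracePrime F A A hBA).under
        (FixedPoints.subring (traceSubring F A) ↥F.fixingSubgroup) ↔
        ((a : traceSubring F A) : AlgebraicClosure ℚ) ∈ A.nonunits := by
      rw [← mem_tracePrime F A hBA]; rfl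
    have e2 : a ∈ (tracePrime F A A' hBA').under
        (FixedPoints.subring (traceSubring F A) ↥F.fixingSubgroup) ↔
        ((a : traceSubring F A) : AlgebraicClosure ℚ) ∈ A'.nonunits := by
      rw [← mem_tracePrime F A hBA']; rfl
    rw [e1, e2, nonunits_iff_inv_not_mem, nonunits_iff_inv_not_mem, h _ (F.inv_mem haF)]
  obtain ⟨g, hg⟩ := Algebra.IsInvariant.exists_smul_of_under_eq_of_profinite
    (A := FixedPoints.subring (traceSubring F A) ↥F.fixingSubgroup)
    (G := ↥F.fixingSubgroup) (tracePrime F A A hBA) (tracePrime F A A' hBA') hPQ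
  have hgF : ∀ x ∈ F, (g : AlgebraicClosure ℚ ≃ₐ[ℚ] AlgebraicClosure ℚ) x = x :=
    fun x hx => g.2 ⟨x, hx⟩
  have hgiF : ∀ x ∈ F, (g⁻¹ : AlgebraicClosure ℚ ≃ₐ[ℚ] AlgebraicClosure ℚ) x = x :=
    fun x hx => (g⁻¹).2 ⟨x, hx⟩
  refine ⟨g.1, hgF, ?_⟩
  -- `g` maps `A` into `A'`
  have hfwd : ∀ x ∈ A, (g : AlgebraicClosure ℚ ≃ₐ[ℚ] AlgebraicClosure ℚ) x ∈ A' := by
    intro x hx
    refine apply_mem_of_respects (F := F) (A := A) (A' := A') g.1 ?_ ?_ hx
    · intro b hb
      exact hBA' (apply_mem_traceSubring g.1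
        (fun z hzF hzA => by rw [hgF z hzF]; exact ⟨hzF, hzA⟩) hb)
    · intro b hb hbn hgb
      have hgbB : (g : AlgebraicClosure ℚ ≃ₐ[ℚ] AlgebraicClosure ℚ) b ∈ traceSubring F A :=
        apply_mem_traceSubring g.1
          (fun z hzF hzA => by rw [hgF z hzF]; exact ⟨hzF, hzA⟩) hb
      have h1 : (⟨_, hgbB⟩ : traceSubring F A) ∈ tracePrime F A A' hBA' :=
        (mem_tracePrime F A hBA' _).mpr hgb
      rw [hg, Ideal.mem_pointwise_smul_iff_inv_smul_mem] at h1
      have h2 : g⁻¹ • (⟨_, hgbB⟩ : traceSubring F A) = ⟨b, hb⟩ := by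
        apply Subtype.ext
        show (g⁻¹ : AlgebraicClosure ℚ ≃ₐ[ℚ] AlgebraicClosure ℚ)
          ((g : AlgebraicClosure ℚ ≃ₐ[ℚ] AlgebraicClosure ℚ) b) = b
        simp
      rw [h2, mem_tracePrime] at h1
      exact hbn h1
  -- `g⁻¹` maps `A'` into `A`
  have hbwd : ∀ x ∈ A', (g⁻¹ : AlgebraicClosure ℚ ≃ₐ[ℚ] AlgebraicClosure ℚ) x ∈ A := by
    intro x hx
    have hh : ∀ x ∈ F, x ∈ A' ↔ x ∈ A := fun x hx => (h x hx).symm
    have hB' : traceSubring F A' = traceSubring F A := traceSubring_congr hh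
    refine apply_mem_of_respects (F := F) (A := A') (A' := A)
      (g⁻¹ : AlgebraicClosure ℚ ≃ₐ[ℚ] AlgebraicClosure ℚ) ?_ ?_ hx
    · intro b hb
      rw [hB'] at hb
      exact hBA (apply_mem_traceSubring _
        (fun z hzF hzA => by rw [hgiF z hzF]; exact ⟨hzF, hzA⟩) hb)
    · intro b hb hbn hgb
      rw [hB'] at hb
      have hgbB : (g⁻¹ : AlgebraicClosure ℚ ≃ₐ[ℚ] AlgebraicClosure ℚ) b ∈ traceSubring F A :=
        apply_mem_traceSubring _
          (fun z hzF hzA => by rw [hgiF z hzF]; exact ⟨hzF, hzA⟩) hb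
      have h1 : (⟨_, hgbB⟩ : traceSubring F A) ∈ tracePrime F A A hBA :=
        (mem_tracePrime F A hBA _).mpr hgb
      have h2 : (⟨b, hb⟩ : traceSubring F A) ∈ tracePrime F A A' hBA' := by
        rw [hg, Ideal.mem_pointwise_smul_iff_inv_smul_mem]
        exact h1
      rw [mem_tracePrime] at h2
      exact hbn h2
  apply le_antisymm
  · intro x hx
    rw [ValuationSubring.mem_pointwise_smul_iff_inv_smul_mem] at hx
    have := hfwd _ hx
    simpa using this
  · intro x hx
    rw [ValuationSubring.mem_pointwise_smul_iff_inv_smul_mem]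
    exact hbwd x hx

end T1

section T2

/-- An automorphism mapping an intermediate field of `ℚ̄ / ℚ` into itself maps it onto itself. -/
theorem symm_apply_mem_of_forall_apply_mem (F : IntermediateField ℚ (AlgebraicClosure ℚ))
    (σ : AlgebraicClosure ℚ ≃ₐ[ℚ] AlgebraicClosure ℚ) (hσF : ∀ x ∈ F, σ x ∈ F)
    {z : AlgebraicClosure ℚ} (hz : z ∈ F) : σ⁻¹ z ∈ F := by
  haveI := Fermat.Agent.Common.isAlgClosure_rat_qbar
  haveI : Algebra.IsAlgebraic ℚ (AlgebraicClosure ℚ) := IsAlgClosure.isAlgebraic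
  haveI : Algebra.IsAlgebraic ℚ F :=
    ⟨fun x => IntermediateField.isAlgebraic_iff.mpr
      (Algebra.IsAlgebraic.isAlgebraic (R := ℚ) (x : AlgebraicClosure ℚ))⟩
  let f : F →ₐ[ℚ] F :=
    { toFun := fun x => ⟨σ x, hσF x x.2⟩
      map_one' := by ext; simp
      map_mul' := fun x y => by ext; simp
      map_zero' := by ext; simp
      map_add' := fun x y => by ext; simp
      commutes' := fun r => by ext; simp }
  have hf : Function.Bijective f := Algebra.IsAlgebraic.algHom_bijective f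
  obtain ⟨w, hw⟩ := hf.2 ⟨z, hz⟩
  have h1 : σ (w : AlgebraicClosure ℚ) = z := congrArg Subtype.val hw
  have h2 : σ⁻¹ z = w := by
    rw [← h1]
    simp
  rw [h2]
  exact w.2

/-- Membership in the prelude's inertia subgroup from the elementwise description. -/
theorem mem_inertiaSubgroupIn_of_forall (A : ValuationSubring (AlgebraicClosure ℚ))
    (τ : AlgebraicClosure ℚ ≃ₐ[ℚ] AlgebraicClosure ℚ) (hτ : τ ∈ A.decompositionSubgroup ℚ)
    (h : ∀ x ∈ A, τ x - x ∈ A.nonunits) : τ ∈ A.inertiaSubgroupIn ℚ := by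
  refine ⟨⟨τ, hτ⟩, ?_, rfl⟩
  show (⟨τ, hτ⟩ : A.decompositionSubgroup ℚ) ∈ MonoidHom.ker _
  rw [MonoidHom.mem_ker]
  ext r
  obtain ⟨x, rfl⟩ := IsLocalRing.residue_surjective r
  show IsLocalRing.residue A ((⟨τ, hτ⟩ : A.decompositionSubgroup ℚ) • x) = IsLocalRing.residue A x
  rw [← sub_eq_zero, ← map_sub, IsLocalRing.residue_eq_zero_iff]
  have h1 := h x x.2
  rw [ValuationSubring.mem_nonunits_iff_exists_mem_maximalIdeal] at h1
  obtain ⟨hmem, h2⟩ := h1
  exact h2

/-- **T2**: an element of the decomposition group of `A` that maps `F` into `F` and is trivial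
on the residue field of `A ∩ F` agrees on `F` with an element of the inertia group of `A`. -/
theorem exists_inertia_agree (F : IntermediateField ℚ (AlgebraicClosure ℚ))
    (A : ValuationSubring (AlgebraicClosure ℚ))
    (σ : AlgebraicClosure ℚ ≃ₐ[ℚ] AlgebraicClosure ℚ)
    (hσA : σ ∈ A.decompositionSubgroup ℚ)
    (hσF : ∀ x ∈ F, σ x ∈ F)
    (hres : ∀ x ∈ F, x ∈ A → σ x - x ∈ A.nonunits) :
    ∃ τ ∈ A.inertiaSubgroupIn ℚ, ∀ x ∈ F, τ x = σ x := by
  classical
  haveI := Fermat.Agent.Common.isAlgClosure_rat_qbar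
  have hclosed : IsClosed (F.fixingSubgroup : Set (AlgebraicClosure ℚ ≃ₐ[ℚ] AlgebraicClosure ℚ)) :=
    InfiniteGalois.fixingSubgroup_isClosed F
  haveI : CompactSpace ↥F.fixingSubgroup := isCompact_iff_compactSpace.mp hclosed.isCompact
  letI : TopologicalSpace (traceSubring F A) := ⊥
  haveI : DiscreteTopology (traceSubring F A) := ⟨rfl⟩
  haveI : ContinuousSMul ↥F.fixingSubgroup (traceSubring F A) := by
    rw [continuousSMul_iff_stabilizer_isOpen]
    intro b
    have h := stabilizer_isOpen_of_isIntegral (K := ℚ) (b : AlgebraicClosure ℚ)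
    have e : (MulAction.stabilizer ↥F.fixingSubgroup b : Set ↥F.fixingSubgroup) =
        Subtype.val ⁻¹' (MulAction.stabilizer (AlgebraicClosure ℚ ≃ₐ[ℚ] AlgebraicClosure ℚ)
          (b : AlgebraicClosure ℚ) : Set (AlgebraicClosure ℚ ≃ₐ[ℚ] AlgebraicClosure ℚ)) := by
      ext g
      simp only [SetLike.mem_coe, MulAction.mem_stabilizer_iff, Set.mem_preimage, Subtype.ext_iff]
      rfl
    rw [e]
    exact h.preimage continuous_subtype_val
  have hBA : traceSubring F A ≤ A.toSubring := traceSubring_le F A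
  haveI : Algebra.IsInvariant (FixedPoints.subring (traceSubring F A) ↥F.fixingSubgroup)
      (traceSubring F A) ↥F.fixingSubgroup := ⟨fun b hb => ⟨⟨b, hb⟩, rfl⟩⟩
  have hσinv : σ⁻¹ ∈ A.decompositionSubgroup ℚ := Subgroup.inv_mem _ hσA
  -- `σ` and `σ⁻¹` preserve the trace subring
  have hσB : ∀ b ∈ traceSubring F A, σ b ∈ traceSubring F A := fun b hb =>
    apply_mem_traceSubring σ (fun z hzF hzA =>
      ⟨hσF z hzF, Fermat.Agent.S05.apply_mem_of_mem_decomposition hσA hzA⟩) hb
  have hσiB : ∀ b ∈ traceSubring F A, σ⁻¹ b ∈ traceSubring F A := fun b hb =>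
    apply_mem_traceSubring σ⁻¹ (fun z hzF hzA =>
      ⟨symm_apply_mem_of_forall_apply_mem F σ hσF hzF,
        Fermat.Agent.S05.apply_mem_of_mem_decomposition hσinv hzA⟩) hb
  let Q : Ideal (traceSubring F A) := tracePrime F A A hBA
  let P : Ideal (FixedPoints.subring (traceSubring F A) ↥F.fixingSubgroup) := Q.under _
  haveI : Q.IsPrime := tracePrime_isPrime F A hBA
  haveI : Q.LiesOver P := ⟨rfl⟩
  have hQmem : ∀ b : traceSubring F A, b ∈ Q ↔ (b : AlgebraicClosure ℚ) ∈ A.nonunits :=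
    fun b => mem_tracePrime F A hBA b
  let σB : traceSubring F A →+* traceSubring F A :=
    (σ : AlgebraicClosure ℚ →+* AlgebraicClosure ℚ).restrict (traceSubring F A)
      (traceSubring F A) hσB
  have hσB_coe : ∀ b : traceSubring F A, ((σB b : traceSubring F A) : AlgebraicClosure ℚ) =
      σ (b : AlgebraicClosure ℚ) := fun b => rfl
  have hle : Q ≤ Q.comap σB := by
    intro b hb
    rw [Ideal.mem_comap, hQmem, hσB_coe]
    exact (Fermat.Agent.S05.apply_mem_nonunits_iff_of_mem_decomposition hσA _).mpr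
      ((hQmem b).mp hb)
  have hge : Q.comap σB ≤ Q := by
    intro b hb
    rw [Ideal.mem_comap, hQmem, hσB_coe] at hb
    rw [hQmem]
    exact (Fermat.Agent.S05.apply_mem_nonunits_iff_of_mem_decomposition hσA _).mp hb
  have hσBsurj : Function.Surjective σB := by
    intro b
    refine ⟨⟨σ⁻¹ (b : AlgebraicClosure ℚ), hσiB _ b.2⟩, ?_⟩
    apply Subtype.ext
    rw [hσB_coe]
    simp
  have hcomm : ∀ r : (FixedPoints.subring (traceSubring F A) ↥F.fixingSubgroup) ⧸ P,
      Ideal.quotientMap Q σB hle (algebraMap _ (traceSubring F A ⧸ Q) r) =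
        algebraMap _ (traceSubring F A ⧸ Q) r := by
    intro r
    obtain ⟨a, rfl⟩ := Ideal.Quotient.mk_surjective r
    have e1 : algebraMap ((FixedPoints.subring (traceSubring F A) ↥F.fixingSubgroup) ⧸ P)
        (traceSubring F A ⧸ Q) (Ideal.Quotient.mk P a) =
        Ideal.Quotient.mk Q (a : traceSubring F A) := rfl
    rw [e1, Ideal.quotientMap_mk, Ideal.Quotient.eq, hQmem]
    have haF := coe_mem_of_mem_fixedPoints F A a
    have haA : ((a : traceSubring F A) : AlgebraicClosure ℚ) ∈ A := hBA (a : traceSubring F A).2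
    exact hres _ haF haA
  let F₀ : (traceSubring F A ⧸ Q) →ₐ[(FixedPoints.subring (traceSubring F A)
      ↥F.fixingSubgroup) ⧸ P] (traceSubring F A ⧸ Q) :=
    { Ideal.quotientMap Q σB hle with commutes' := hcomm }
  have hF₀bij : Function.Bijective F₀ :=
    ⟨Ideal.quotientMap_injective' (H := hle) hge,
      Ideal.quotientMap_surjective (H := hle) hσBsurj⟩
  let σbar : (traceSubring F A ⧸ Q) ≃ₐ[(FixedPoints.subring (traceSubring F A)
      ↥F.fixingSubgroup) ⧸ P] (traceSubring F A ⧸ Q) :=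
    AlgEquiv.ofBijective F₀ hF₀bij
  obtain ⟨ρ, hρ⟩ := Ideal.Quotient.stabilizerHom_surjective_of_profinite
    (G := ↥F.fixingSubgroup) P Q σbar
  -- `ρ` agrees with `σ` modulo the maximal ideal on the trace subring
  have hρσ : ∀ b ∈ traceSubring F A,
      (ρ.1 : AlgebraicClosure ℚ ≃ₐ[ℚ] AlgebraicClosure ℚ) b - σ b ∈ A.nonunits := by
    intro b hb
    have h1 := congrArg (fun f => f (Ideal.Quotient.mk Q ⟨b, hb⟩)) hρ
    simp only [Ideal.Quotient.stabilizerHom_apply] at h1
    have h2 : σbar (Ideal.Quotient.mk Q ⟨b, hb⟩) = Ideal.Quotient.mk Q (σB ⟨b, hb⟩) := rfl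
    rw [h2, Ideal.Quotient.eq, hQmem] at h1
    exact h1
  obtain ⟨r, hr⟩ : ∃ r : AlgebraicClosure ℚ ≃ₐ[ℚ] AlgebraicClosure ℚ,
      r = ((ρ.1 : ↥F.fixingSubgroup) : AlgebraicClosure ℚ ≃ₐ[ℚ] AlgebraicClosure ℚ) := ⟨_, rfl⟩
  rw [← hr] at hρσ
  have hrF : ∀ x ∈ F, r x = x := fun x hx => by rw [hr]; exact ρ.1.2 ⟨x, hx⟩
  have hriF : ∀ x ∈ F, r⁻¹ x = x := fun x hx => by
    have h1 := hrF x hx
    calc r⁻¹ x = r⁻¹ (r x) := by rw [h1]
      _ = x := by simp
  have hrB : ∀ b ∈ traceSubring F A, r b ∈ traceSubring F A := fun b hb =>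
    apply_mem_traceSubring r (fun z hzF hzA => by rw [hrF z hzF]; exact ⟨hzF, hzA⟩) hb
  have hriB : ∀ b ∈ traceSubring F A, r⁻¹ b ∈ traceSubring F A := fun b hb =>
    apply_mem_traceSubring r⁻¹ (fun z hzF hzA => by rw [hriF z hzF]; exact ⟨hzF, hzA⟩) hb
  have hρQ : (ρ.1 : ↥F.fixingSubgroup) • Q = Q := ρ.2
  have hsmul : ∀ (b : AlgebraicClosure ℚ) (hb : b ∈ traceSubring F A),
      (ρ.1 : ↥F.fixingSubgroup) • (⟨b, hb⟩ : traceSubring F A) = ⟨r b, hrB b hb⟩ := by
    intro b hb
    apply Subtype.ext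
    subst hr
    rfl
  have hrQ_iff : ∀ (b : AlgebraicClosure ℚ) (hb : b ∈ traceSubring F A),
      r b ∈ A.nonunits ↔ b ∈ A.nonunits := by
    intro b hb
    have h1 : (ρ.1 : ↥F.fixingSubgroup) • (⟨b, hb⟩ : traceSubring F A) ∈
        (ρ.1 : ↥F.fixingSubgroup) • Q ↔ (⟨b, hb⟩ : traceSubring F A) ∈ Q :=
      Ideal.smul_mem_pointwise_smul_iff
    rw [hρQ, hsmul b hb, hQmem, hQmem] at h1
    exact h1
  have hrA : ∀ x ∈ A, r x ∈ A := fun x hx =>
    apply_mem_of_respects (F := F) (A := A) (A' := A) r (fun b hb => hBA (hrB b hb))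
      (fun b hb hbn h => hbn ((hrQ_iff b hb).mp h)) hx
  have hriA : ∀ x ∈ A, r⁻¹ x ∈ A := fun x hx =>
    apply_mem_of_respects (F := F) (A := A) (A' := A) r⁻¹ (fun b hb => hBA (hriB b hb))
      (fun b hb hbn h => hbn (by
        have h1 := (hrQ_iff (r⁻¹ b) (hriB b hb)).mpr h
        simpa using h1)) hx
  have hrD : r ∈ A.decompositionSubgroup ℚ := by
    show r • A = A
    apply le_antisymm
    · intro x hx
      rw [ValuationSubring.mem_pointwise_smul_iff_inv_smul_mem] at hx
      have := hrA _ hx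
      simpa using this
    · intro x hx
      rw [ValuationSubring.mem_pointwise_smul_iff_inv_smul_mem]
      exact hriA x hx
  have hτD : σ * r⁻¹ ∈ A.decompositionSubgroup ℚ :=
    Subgroup.mul_mem _ hσA (Subgroup.inv_mem _ hrD)
  refine ⟨σ * r⁻¹, mem_inertiaSubgroupIn_of_forall A _ hτD ?_, fun x hx => by
    show σ (r⁻¹ x) = σ x
    rw [hriF x hx]⟩
  intro x hx
  have hx' : r⁻¹ x ∈ A := hriA x hx
  obtain ⟨u, y, hxy, hyv, hu, hy⟩ := exists_mul_eq_of_mem F A hx'
  have hrx : r (r⁻¹ x) = x := by simp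
  have e0 : (σ * r⁻¹) x - x = σ (r⁻¹ x) - r (r⁻¹ x) := by
    rw [hrx]; rfl
  rw [e0, ValuationSubring.mem_nonunits_iff]
  have h1 : σ (r⁻¹ x) * σ y = σ u := by rw [← map_mul, hxy]
  have h2 : r (r⁻¹ x) * r y = r u := by rw [← map_mul, hxy]
  have hvσy : A.valuation (σ y) = 1 :=
    (Fermat.Agent.S05.valuation_apply_eq_one_iff hσA y).mpr hyv
  have hu' : A.valuation (r u - σ u) < 1 := by
    rw [← ValuationSubring.mem_nonunits_iff]; exact hρσ u hu
  have hy' : A.valuation (r y - σ y) < 1 := by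
    rw [← ValuationSubring.mem_nonunits_iff]; exact hρσ y hy
  have hxle : A.valuation (r (r⁻¹ x)) ≤ 1 := by
    rw [hrx]; exact (A.valuation_le_one_iff _).mpr hx
  have key : (σ (r⁻¹ x) - r (r⁻¹ x)) * σ y =
      -(r u - σ u) + r (r⁻¹ x) * (r y - σ y) := by
    linear_combination h1 - h2
  have hlt : A.valuation ((σ (r⁻¹ x) - r (r⁻¹ x)) * σ y) < 1 := by
    rw [key]
    refine lt_of_le_of_lt (Valuation.map_add _ _ _) (max_lt ?_ ?_)
    · rw [Valuation.map_neg]; exact hu'
    · rw [map_mul]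
      calc A.valuation (r (r⁻¹ x)) * A.valuation (r y - σ y)
          ≤ 1 * A.valuation (r y - σ y) := by gcongr
        _ < 1 := by rw [one_mul]; exact hy'
  rw [map_mul, hvσy, mul_one] at hlt
  exact hlt

end T2

end Fermat.Agent.S14
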