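import Fermat.Agent.S14.Euler
import Fermat.Agent.S14.EulerAux

/-!
# S14, piece N4d: the good prime (final form)

`goodPrimeStatement : LBoundedStatement → SplitBoundStatement p → GoodPrimeStatement p`,
obtained from `goodPrimeStatement_of_euler` (GoodPrime.lean) and the Euler products of
Euler.lean / EulerAux.lean. Also the N4a statements E1c, E1d in their final form and
`idealZetaStatement` (N4c-Z).
-/

set_option autoImplicit false

open NumberField IsDedekindDomain

namespace Fermat.Agent.S14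

theorem eulerE1 : EulerE1 := fun K _ _ _ hs => tsum_absNorm_rpow_complex K hs

theorem eulerE3 : EulerE3 := fun K _ _ χ s hs => tendsto_prod_norm_classChar K χ s hs

theorem eulerE4 : EulerE4 := fun K _ _ => by
  obtain ⟨C, hC⟩ := exists_sum_not_prime_le K
  exact ⟨C, fun s hs => hC s hs.le⟩

/-- **N4d (good prime)**. -/
theorem goodPrimeStatement {p : ℕ} [Fact p.Prime] (h3 : 3 ≤ p) :
    LBoundedStatement → SplitBoundStatement p → GoodPrimeStatement p :=
  goodPrimeStatement_of_euler h3 eulerE1 eulerE3 eulerE4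

section Zeta

variable (K : Type) [Field K] [NumberField K]

/-- (E1c) `ζ_K(s) ≤ C / (s - 1)` on `(1, 2]`. -/
theorem exists_zeta_le : ∃ C : ℝ, 0 < C ∧ ∀ s : ℝ, 1 < s → s ≤ 2 →
    ∑' I : nonZeroDivisors (Ideal (𝓞 K)), (Ideal.absNorm (I : Ideal (𝓞 K)) : ℝ) ^ (-s) ≤
      C / (s - 1) :=
  exists_zeta_le_of K (fun _ hs => summable_absNorm_rpow K hs)
    (fun _ hs => tsum_absNorm_rpow_eq_dedekindZeta K hs)

/-- (E1d) `c / (s - 1) ≤ ζ_K(s)` on `(1, 2]`. -/
theorem exists_le_zeta : ∃ c : ℝ, 0 < c ∧ ∀ s : ℝ, 1 < s → s ≤ 2 →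
    c / (s - 1) ≤
      ∑' I : nonZeroDivisors (Ideal (𝓞 K)), (Ideal.absNorm (I : Ideal (𝓞 K)) : ℝ) ^ (-s) :=
  exists_le_zeta_of K (fun _ hs => summable_absNorm_rpow K hs)
    (fun _ hs => tsum_absNorm_rpow_eq_dedekindZeta K hs)

end Zeta

end Fermat.Agent.S14
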