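import Mathlib

/-!
# S14, piece G4 (abstract part)

`L/K` a finite Galois extension of the fraction field of a Dedekind domain `R`, `S` the integral
closure, `w | v` primes with trivial decomposition group. Then `e = f = 1`, and for `a ∈ L` with
`a ^ p = α ∈ K`: `p ∣ ord_v α` and `α` is a `p`-th power modulo `v ^ 3` (if `ord_v p ≥ 2`).
-/

set_option autoImplicit false
set_option linter.style.haveILetI false
set_option linter.unusedSectionVars false

open IsDedekindDomain WithZero

namespace Fermat.Agent.S14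

/-- Binomial estimate: `ord ((1 + m) ^ p - 1) ≥ 3` if `ord m ≥ 1`, `ord p ≥ 2`, `p ≥ 3`. -/
theorem g4_binom {L : Type*} [Field L] (V : Valuation L ℤᵐ⁰) (p : ℕ) (hp : p.Prime)
    (hp3 : 3 ≤ p) (hVp : V (p : L) ≤ WithZero.exp (-2 : ℤ)) (m : L)
    (hm : V m ≤ WithZero.exp (-1 : ℤ)) :
    V ((1 + m) ^ p - 1) ≤ WithZero.exp (-3 : ℤ) := by
  have hm1 : V m ≤ 1 := hm.trans (by rw [← WithZero.exp_zero, WithZero.exp_le_exp]; norm_num)
  let m' : V.integer := ⟨m, hm1⟩
  obtain ⟨r, hr⟩ := exists_add_pow_prime_eq hp m' 1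
  have hr' : (m + 1) ^ p = m ^ p + 1 + (p : L) * m * 1 * (r : L) := by
    have := congrArg (fun t : V.integer => (t : L)) hr
    simpa [m'] using this
  have hrv : V (r : L) ≤ 1 := r.2
  have h1 : (1 + m) ^ p - 1 = m ^ p + (p : L) * m * (r : L) := by
    rw [add_comm 1 m, hr']; ring
  rw [h1]
  refine (Valuation.map_add _ _ _).trans (max_le ?_ ?_)
  · rw [map_pow]
    calc V m ^ p ≤ WithZero.exp (-1 : ℤ) ^ p := pow_le_pow_left' hm p
      _ = WithZero.exp (p • (-1 : ℤ)) := (WithZero.exp_nsmul p (-1 : ℤ)).symm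
      _ ≤ WithZero.exp (-3 : ℤ) := by
        rw [WithZero.exp_le_exp]
        simp only [nsmul_eq_mul, mul_neg, mul_one, neg_le_neg_iff]
        exact_mod_cast hp3
  · rw [map_mul, map_mul]
    calc V (p : L) * V m * V (r : L) ≤ WithZero.exp (-2 : ℤ) * WithZero.exp (-1 : ℤ) * 1 :=
          mul_le_mul' (mul_le_mul' hVp hm) hrv
      _ = WithZero.exp (-3 : ℤ) := by
        rw [mul_one, ← WithZero.exp_add]; norm_num

section g4abs

variable {R S K L : Type*} [CommRing R] [IsDedekindDomain R] [CommRing S] [IsDedekindDomain S]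
  [Algebra R S] [Module.IsTorsionFree R S]
  [Field K] [Field L] [Algebra K L] [Algebra R K] [IsFractionRing R K] [Algebra R L]
  [IsScalarTower R K L] [Algebra S L] [IsFractionRing S L] [IsScalarTower R S L]

/-- If `e(w|v) = 1` the valuations agree on `K`. -/
theorem g4_val_eq (v : HeightOneSpectrum R) (w : HeightOneSpectrum S)
    [w.asIdeal.LiesOver v.asIdeal]
    (he : v.asIdeal.ramificationIdx' w.asIdeal = 1) (x : K) :
    w.valuation L (algebraMap K L x) = v.valuation K x := by
  rw [← HeightOneSpectrum.valuation_liesOver L v w, he, pow_one]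

/-- If the residue extension is trivial, `w`-integers of `L` are congruent to elements of `R`. -/
theorem g4_approx (v : HeightOneSpectrum R) (w : HeightOneSpectrum S)
    [w.asIdeal.LiesOver v.asIdeal]
    (hf : Function.Surjective (algebraMap (R ⧸ v.asIdeal) (S ⧸ w.asIdeal)))
    (x : L) (hx : w.valuation L x ≤ 1) :
    ∃ c : R, w.valuation L (x - algebraMap R L c) < 1 := by
  obtain ⟨y, hy⟩ := HeightOneSpectrum.exists_valuation_sub_lt_of_integer (K := L) w hx 1
  obtain ⟨c', hc'⟩ := hf (Ideal.Quotient.mk _ y)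
  obtain ⟨c, rfl⟩ := Ideal.Quotient.mk_surjective c'
  refine ⟨c, ?_⟩
  have h1 : algebraMap R S c - y ∈ w.asIdeal := by
    rw [← Ideal.Quotient.eq]
    exact hc'
  have h2 : w.valuation L (algebraMap S L (algebraMap R S c - y)) < 1 :=
    (HeightOneSpectrum.valuation_lt_one_iff_mem w _).mpr h1
  have h3 : x - algebraMap R L c =
      -(algebraMap S L y - x) - algebraMap S L (algebraMap R S c - y) := by
    rw [map_sub, ← IsScalarTower.algebraMap_apply R S L]
    ring
  rw [h3]
  refine lt_of_le_of_lt (Valuation.map_sub _ _ _) (max_lt ?_ h2)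
  rw [Valuation.map_neg]
  simpa using hy

open scoped Pointwise in
/-- Trivial decomposition group implies `e = f = 1`. -/
theorem g4_ef_one [Module.Finite R S] [FiniteDimensional K L] [IsGalois K L]
    [IsIntegralClosure S R L]
    (v : HeightOneSpectrum R) [Finite (R ⧸ v.asIdeal)] (w : HeightOneSpectrum S)
    [w.asIdeal.LiesOver v.asIdeal]
    (hstab : ∀ σ : L ≃ₐ[K] L,
      (∀ x : S, galRestrict R K L S σ x ∈ w.asIdeal ↔ x ∈ w.asIdeal) → σ = 1) :
    v.asIdeal.ramificationIdx' w.asIdeal = 1 ∧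
      Function.Surjective (algebraMap (R ⧸ v.asIdeal) (S ⧸ w.asIdeal)) := by
  letI : MulSemiringAction Gal(L/K) S := IsIntegralClosure.MulSemiringAction R K L S
  haveI : IsGaloisGroup Gal(L/K) R S := IsGaloisGroup.of_isFractionRing _ _ _ K L
  haveI : v.asIdeal.IsMaximal := v.isMaximal
  haveI : w.asIdeal.IsMaximal := w.isMaximal
  haveI : Finite v.asIdeal.ResidueField := inferInstance
  haveI : PerfectField v.asIdeal.ResidueField := inferInstance
  have hcard := Ideal.card_stabilizer_eq (G := Gal(L/K)) v.asIdeal w.asIdeal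
  have hbot : MulAction.stabilizer Gal(L/K) w.asIdeal = ⊥ := by
    rw [eq_bot_iff]
    intro σ hσ
    rw [MulAction.mem_stabilizer_iff] at hσ
    rw [Subgroup.mem_bot]
    apply hstab
    intro x
    have h := Ideal.smul_mem_pointwise_smul_iff (a := σ) (S := w.asIdeal) (x := x)
    rw [hσ] at h
    exact h
  rw [hbot, Subgroup.card_bot] at hcard
  have he : v.asIdeal.ramificationIdxIn S = 1 := Nat.eq_one_of_mul_eq_one_right hcard.symm
  have hf : v.asIdeal.inertiaDegIn S = 1 := Nat.eq_one_of_mul_eq_one_left hcard.symm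
  rw [Ideal.ramificationIdxIn_eq_ramificationIdx v.asIdeal w.asIdeal Gal(L/K)] at he
  rw [Ideal.inertiaDegIn_eq_inertiaDeg v.asIdeal w.asIdeal Gal(L/K)] at hf
  refine ⟨?_, ?_⟩
  · rw [Ideal.ramificationIdx'_eq_ramificationIdx _ _ v.ne_bot]
    exact he
  · rw [Ideal.inertiaDeg_eq_of_isMaximal v.asIdeal] at hf
    letI : Field (R ⧸ v.asIdeal) := Ideal.Quotient.field _
    letI : Field (S ⧸ w.asIdeal) := Ideal.Quotient.field _
    exact (Module.Free.bijective_algebraMap_of_finrank_eq_one hf).2

/-- **G4, abstract form.** -/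
theorem g4_main [Module.Finite R S] [FiniteDimensional K L] [IsGalois K L]
    [IsIntegralClosure S R L]
    (v : HeightOneSpectrum R) [Finite (R ⧸ v.asIdeal)] (w : HeightOneSpectrum S)
    [w.asIdeal.LiesOver v.asIdeal]
    (hstab : ∀ σ : L ≃ₐ[K] L,
      (∀ x : S, galRestrict R K L S σ x ∈ w.asIdeal ↔ x ∈ w.asIdeal) → σ = 1)
    (p : ℕ) (hp : p.Prime) (hp3 : 3 ≤ p)
    (hvp : v.valuation K (p : K) ≤ WithZero.exp (-2 : ℤ))
    (α : K) (a : L) (ha : a ≠ 0) (haα : a ^ p = algebraMap K L α) :
    (∃ n : ℤ, v.valuation K α = WithZero.exp ((p : ℤ) * n)) ∧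
    ∃ b : K, b ≠ 0 ∧ v.valuation K (α / b ^ p - 1) ≤ WithZero.exp (-3 : ℤ) := by
  obtain ⟨he, hf⟩ := g4_ef_one (K := K) (L := L) v w hstab
  have hval : ∀ x : K, w.valuation L (algebraMap K L x) = v.valuation K x :=
    g4_val_eq v w he
  have hwa : w.valuation L a ≠ 0 := (Valuation.ne_zero_iff _).mpr ha
  set n : ℤ := WithZero.log (w.valuation L a) with hn
  have hwa' : w.valuation L a = WithZero.exp n := (WithZero.exp_log hwa).symm
  have hα : v.valuation K α = WithZero.exp ((p : ℤ) * n) := by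
    rw [← hval, ← haα, map_pow, hwa', ← WithZero.exp_nsmul, nsmul_eq_mul]
  refine ⟨⟨n, hα⟩, ?_⟩
  obtain ⟨π, hπ⟩ := v.valuation_exists_uniformizer K
  have hπ0 : π ≠ 0 := by
    intro h
    rw [h, map_zero] at hπ
    exact WithZero.exp_ne_zero hπ.symm
  -- t has valuation exp (-n)
  set t : K := π ^ n with ht
  have ht0 : t ≠ 0 := zpow_ne_zero _ hπ0
  have hvt : v.valuation K t = WithZero.exp (-n) := by
    rw [ht, map_zpow₀, hπ, ← WithZero.exp_zsmul]
    simp
  set a' : L := a * algebraMap K L t with ha'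
  have hwa1 : w.valuation L a' = 1 := by
    rw [ha', map_mul, hval, hvt, hwa', ← WithZero.exp_add]
    simp
  obtain ⟨c, hc⟩ := g4_approx (L := L) v w hf a' hwa1.le
  have hwc : w.valuation L (algebraMap R L c) = 1 := by
    have h1 : w.valuation L (algebraMap R L c - a') < w.valuation L a' := by
      rw [Valuation.map_sub_swap, hwa1]; exact hc
    rw [Valuation.map_eq_of_sub_lt _ h1, hwa1]
  set c' : K := algebraMap R K c with hc'
  have hcc : algebraMap K L c' = algebraMap R L c := by
    rw [hc', ← IsScalarTower.algebraMap_apply]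
  have hvc : v.valuation K c' = 1 := by rw [← hval, hcc, hwc]
  have hc0 : c' ≠ 0 := by
    intro h
    rw [h, map_zero] at hvc
    exact zero_ne_one hvc
  set b : K := c' / t with hb
  have hb0 : b ≠ 0 := div_ne_zero hc0 ht0
  refine ⟨b, hb0, ?_⟩
  have hbL : algebraMap K L b ≠ 0 := by
    rw [Ne, map_eq_zero_iff _ (algebraMap K L).injective]; exact hb0
  have hcL : algebraMap K L c' ≠ 0 := by
    rw [Ne, map_eq_zero_iff _ (algebraMap K L).injective]; exact hc0
  have htL : algebraMap K L t ≠ 0 := by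
    rw [Ne, map_eq_zero_iff _ (algebraMap K L).injective]; exact ht0
  set m : L := a / algebraMap K L b - 1 with hm
  have hm' : m = (a' - algebraMap R L c) / algebraMap K L c' := by
    rw [hm, hb, map_div₀, ha', ← hcc]
    field_simp
  have hwm : w.valuation L m ≤ WithZero.exp (-1 : ℤ) := by
    have h1 : w.valuation L m < 1 := by
      rw [hm', map_div₀, hcc, hwc, div_one]; exact hc
    have h2 : w.valuation L m < WithZero.exp (-1 : ℤ) * WithZero.exp (1 : ℤ) := by
      rw [← WithZero.exp_add]; simpa using h1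
    exact (WithZero.lt_mul_exp_iff_le WithZero.exp_ne_zero).mp h2
  have hwp : w.valuation L (p : L) ≤ WithZero.exp (-2 : ℤ) := by
    have : (p : L) = algebraMap K L (p : K) := by simp
    rw [this, hval]; exact hvp
  have key := g4_binom (w.valuation L) p hp hp3 hwp m hwm
  have h3 : algebraMap K L (α / b ^ p - 1) = (1 + m) ^ p - 1 := by
    rw [map_sub, map_div₀, map_pow, map_one, ← haα, hm, ← div_pow]
    congr 2
    ring
  rw [← hval, h3]
  exact key

end g4abs

end Fermat.Agent.S14
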