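import Mathlib

/-!
# S14, piece G4-C: `ord_v(p) ≥ 2` in `ℚ(ζ_p)` for `p ≥ 3`
-/

set_option autoImplicit false

open NumberField IsDedekindDomain

namespace Fermat.Agent.S14

/-- In any number field containing a primitive `p`-th root of unity (`p ≥ 3` prime), a prime `v`
above `p` satisfies `ord_v(p) ≥ 2`. -/
theorem g4_val_p_aux {p : ℕ} [Fact p.Prime] (h3 : 3 ≤ p) {K : Type*} [Field K] [NumberField K]
    (ζ : K) (hζ : IsPrimitiveRoot ζ p)
    (v : HeightOneSpectrum (𝓞 K)) (hv : (p : 𝓞 K) ∈ v.asIdeal) :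
    v.valuation K (p : K) ≤ WithZero.exp (-2 : ℤ) := by
  have hassoc := IsCyclotomicExtension.Rat.associated_zeta_sub_one_pow_prime p hζ
  obtain ⟨u, hu⟩ := hassoc
  -- `ζ - 1 ∈ v`
  have h1 : (hζ.toInteger - 1) ^ (p - 1) ∈ v.asIdeal := by
    have h2 : (hζ.toInteger - 1) ^ (p - 1) = (p : 𝓞 K) * ((u⁻¹ : (𝓞 K)ˣ) : 𝓞 K) := by
      rw [← hu, mul_assoc, Units.mul_inv, mul_one]
    rw [h2]
    exact Ideal.mul_mem_right _ _ hv
  have h3' : hζ.toInteger - 1 ∈ v.asIdeal := v.isPrime.mem_of_pow_mem _ h1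
  -- `p ∈ v ^ 2`
  have h4 : (p : 𝓞 K) ∈ v.asIdeal ^ 2 := by
    rw [← hu]
    refine Ideal.mul_mem_right _ _ ?_
    have e : p - 1 = 2 + (p - 3) := by omega
    rw [e, pow_add]
    refine Ideal.mul_mem_right _ _ ?_
    exact Ideal.pow_mem_pow h3' 2
  have h5 : v.intValuation (p : 𝓞 K) ≤ WithZero.exp (-((2 : ℕ) : ℤ)) :=
    (v.intValuation_le_pow_iff_mem _ 2).mpr h4
  have h6 : v.valuation K (algebraMap (𝓞 K) K (p : 𝓞 K)) = v.intValuation (p : 𝓞 K) :=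
    v.valuation_of_algebraMap _
  rw [map_natCast] at h6
  rw [h6]
  simpa using h5

theorem g4_val_p {p : ℕ} [Fact p.Prime] (h3 : 3 ≤ p) (ζ : AlgebraicClosure ℚ)
    (hζ : IsPrimitiveRoot ζ p) [NumberField (IntermediateField.adjoin ℚ {ζ})]
    (v : HeightOneSpectrum (𝓞 (IntermediateField.adjoin ℚ {ζ})))
    (hv : (p : 𝓞 (IntermediateField.adjoin ℚ {ζ})) ∈ v.asIdeal) :
    v.valuation (IntermediateField.adjoin ℚ {ζ}) (p : IntermediateField.adjoin ℚ {ζ}) ≤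
      WithZero.exp (-2 : ℤ) := by
  have hζ' : IsPrimitiveRoot
      (⟨ζ, IntermediateField.mem_adjoin_simple_self ℚ ζ⟩ : IntermediateField.adjoin ℚ {ζ}) p := by
    refine IsPrimitiveRoot.of_map_of_injective
      (f := algebraMap (IntermediateField.adjoin ℚ {ζ}) (AlgebraicClosure ℚ)) ?_
      (algebraMap (IntermediateField.adjoin ℚ {ζ}) (AlgebraicClosure ℚ)).injective
    exact hζ
  exact g4_val_p_aux h3 _ hζ' v hv

end Fermat.Agent.S14
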