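import Mathlib

/-!
# S14, piece G4-D: `K(a)/K` is Galois for `a ^ p ∈ K ∋ ζ_p`, and an automorphism of `K(a)` fixing
`a` is the identity.
-/

set_option autoImplicit false

open NumberField IsDedekindDomain Polynomial

namespace Fermat.Agent.S14

theorem g4_isGalois {p : ℕ} [Fact p.Prime] (ζ : AlgebraicClosure ℚ) (hζ : IsPrimitiveRoot ζ p)
    (α : IntermediateField.adjoin ℚ {ζ}) (a : AlgebraicClosure ℚ) (ha : a ≠ 0)
    (haα : a ^ p = (α : AlgebraicClosure ℚ)) :
    IsGalois (IntermediateField.adjoin ℚ {ζ})
      (IntermediateField.adjoin (IntermediateField.adjoin ℚ {ζ}) {a}) := by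
  have hp : 0 < p := (Fact.out : p.Prime).pos
  have : NeZero p := ⟨hp.ne'⟩
  set f : (IntermediateField.adjoin ℚ {ζ})[X] := X ^ p - C α with hf
  have hf0 : f ≠ 0 := (monic_X_pow_sub_C α hp.ne').ne_zero
  have hsplit : (f.map (algebraMap (IntermediateField.adjoin ℚ {ζ}) (AlgebraicClosure ℚ))).Splits :=
    IsAlgClosed.splits _
  have hζK : ζ ∈ IntermediateField.adjoin (IntermediateField.adjoin ℚ {ζ}) {a} := by
    have h1 : ζ ∈ IntermediateField.adjoin ℚ {ζ} := IntermediateField.mem_adjoin_simple_self ℚ ζ
    exact (IntermediateField.adjoin (IntermediateField.adjoin ℚ {ζ}) {a}).algebraMap_mem ⟨ζ, h1⟩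
  have key : IntermediateField.adjoin (IntermediateField.adjoin ℚ {ζ}) {a} =
      IntermediateField.adjoin (IntermediateField.adjoin ℚ {ζ})
        (f.rootSet (AlgebraicClosure ℚ)) := by
    apply le_antisymm
    · apply IntermediateField.adjoin.mono
      rw [Set.singleton_subset_iff, mem_rootSet]
      refine ⟨hf0, ?_⟩
      simp only [hf, map_sub, map_pow, aeval_X, aeval_C]
      rw [haα, sub_eq_zero]
      rfl
    · rw [IntermediateField.adjoin_le_iff]
      intro b hb
      rw [mem_rootSet] at hb
      have hb' : b ^ p = a ^ p := by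
        have h2 := hb.2
        simp only [hf, map_sub, map_pow, aeval_X, aeval_C] at h2
        rw [haα, sub_eq_zero.1 h2]
        rfl
      obtain ⟨i, -, hi⟩ := hζ.eq_pow_of_pow_eq_one (ξ := b / a)
        (by rw [div_pow, hb', div_self (pow_ne_zero _ ha)])
      have hba : b = ζ ^ i * a := by
        rw [hi]; field_simp
      rw [hba]
      exact mul_mem (pow_mem hζK i)
        (IntermediateField.mem_adjoin_simple_self (IntermediateField.adjoin ℚ {ζ}) a)
  rw [key]
  have hsf := IntermediateField.adjoin_rootSet_isSplittingField hsplit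
  have hnormal : Normal (IntermediateField.adjoin ℚ {ζ})
      (IntermediateField.adjoin (IntermediateField.adjoin ℚ {ζ})
        (f.rootSet (AlgebraicClosure ℚ))) := Normal.of_isSplittingField f
  have halg : Algebra.IsAlgebraic (IntermediateField.adjoin ℚ {ζ})
      (IntermediateField.adjoin (IntermediateField.adjoin ℚ {ζ})
        (f.rootSet (AlgebraicClosure ℚ))) := hnormal.toIsAlgebraic
  exact isGalois_iff.2 ⟨Algebra.IsAlgebraic.isSeparable_of_perfectField, hnormal⟩

theorem g4_eq_one_of_fix (K : IntermediateField ℚ (AlgebraicClosure ℚ)) (a : AlgebraicClosure ℚ)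
    (σ : IntermediateField.adjoin K {a} ≃ₐ[K] IntermediateField.adjoin K {a})
    (h : ((σ ⟨a, IntermediateField.mem_adjoin_simple_self K a⟩ :
      IntermediateField.adjoin K {a}) : AlgebraicClosure ℚ) = a) : σ = 1 := by
  have h1 : (σ : IntermediateField.adjoin K {a} →ₐ[K] IntermediateField.adjoin K {a}) =
      AlgHom.id K _ := by
    apply IntermediateField.adjoin_algHom_ext
    intro x hx
    rw [Set.mem_singleton_iff] at hx
    subst hx
    apply Subtype.ext
    simpa using h
  ext x
  have := congrArg (fun φ => (φ x : AlgebraicClosure ℚ)) h1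
  simpa using this

end Fermat.Agent.S14
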