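import Mathlib
import Fermat.Agent.S14.Plan
import Fermat.Agent.S14.ValGalois
import Fermat.Agent.S14.DecompAbs
import Fermat.Agent.S14.DecompCyc
import Fermat.Agent.S14.DecompKummer

/-!
# S14, piece G4: `decompStatement`

If the elements of the decomposition groups above `p` that fix `ζ_p` also fix a `p`-th root `a`
of `α ∈ K = ℚ(ζ_p)`, then `p ∣ ord_v(α)` and `α` is a local `p`-th power at the prime `v ∣ p`.

Route: `L = K(a)` is Galois over `K` (`g4_isGalois`, helper50); for a valuation subring `A` of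
`ℚ̄` over `v` and the prime `w` of `𝓞 L` below `A`, the decomposition group `D(w|v)` is trivial
(lift to `ℚ̄`, correct by T1 = `exists_fixing_smul_eq` of helper95, apply the hypothesis), so
`e = f = 1` and the abstract theorem `g4_main` (DecompAbs.lean) applies; `ord_v(p) ≥ 2` is
`g4_val_p` (helper95).
-/

set_option autoImplicit false
set_option linter.style.haveILetI false
set_option linter.unusedSectionVars false

open NumberField IsDedekindDomain
open scoped Pointwise

namespace Fermat.Agent.S14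

section Dict

variable {L : Type} [Field L] [NumberField L] [Algebra L (AlgebraicClosure ℚ)]
  (A : ValuationSubring (AlgebraicClosure ℚ))

/-- Algebraic integers lie in every valuation subring. -/
theorem g4_int_mem (x : 𝓞 L) : algebraMap L (AlgebraicClosure ℚ) (x : L) ∈ A := by
  have h1 : IsIntegral ℤ (algebraMap L (AlgebraicClosure ℚ) (x : L)) :=
    (RingOfIntegers.isIntegral_coe x).map (algebraMap L (AlgebraicClosure ℚ)).toIntAlgHom
  have h2 : IsIntegral A (algebraMap L (AlgebraicClosure ℚ) (x : L)) := h1.tower_top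
  obtain ⟨y, hy⟩ := IsIntegrallyClosed.isIntegral_iff.mp h2
  rw [← hy]
  exact y.2

/-- The ring homomorphism `𝓞 L → A`. -/
noncomputable def g4Hom : 𝓞 L →+* A :=
  ((algebraMap L (AlgebraicClosure ℚ)).comp (algebraMap (𝓞 L) L)).codRestrict A.toSubring
    (fun x => g4_int_mem A x)

@[simp] theorem g4Hom_coe (x : 𝓞 L) :
    ((g4Hom A x : A) : AlgebraicClosure ℚ) = algebraMap L (AlgebraicClosure ℚ) (x : L) := rfl

/-- The prime of `𝓞 L` below `A`. -/
noncomputable def g4Prime : Ideal (𝓞 L) :=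
  Ideal.comap (g4Hom (L := L) A) (IsLocalRing.maximalIdeal A)

instance g4Prime_isPrime : (g4Prime (L := L) A).IsPrime := by
  unfold g4Prime
  infer_instance

theorem mem_g4Prime (x : 𝓞 L) :
    x ∈ g4Prime (L := L) A ↔ algebraMap L (AlgebraicClosure ℚ) (x : L) ∈ A.nonunits := by
  unfold g4Prime
  rw [Ideal.mem_comap, ← ValuationSubring.coe_mem_nonunits_iff, g4Hom_coe]

theorem g4Prime_ne_bot {q : ℕ} (hq : q.Prime) (hA : A.LiesOverPrime q) :
    g4Prime (L := L) A ≠ ⊥ := by
  intro h
  have h1 : (q : 𝓞 L) ∈ g4Prime (L := L) A := by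
    rw [mem_g4Prime]
    have hA' : (q : AlgebraicClosure ℚ) ∈ A.nonunits := hA
    simpa using hA'
  rw [h, Ideal.mem_bot] at h1
  exact hq.ne_zero (by exact_mod_cast h1)

/-- The height one prime of `𝓞 L` below `A`. -/
noncomputable def g4Spec {q : ℕ} (hq : q.Prime) (hA : A.LiesOverPrime q) :
    HeightOneSpectrum (𝓞 L) :=
  ⟨g4Prime (L := L) A, inferInstance, g4Prime_ne_bot A hq hA⟩

theorem g4Spec_asIdeal {q : ℕ} (hq : q.Prime) (hA : A.LiesOverPrime q) :
    (g4Spec (L := L) A hq hA).asIdeal = g4Prime (L := L) A := rfl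

theorem g4_val_d {q : ℕ} (hq : q.Prime) (hA : A.LiesOverPrime q)
    (d : (g4Spec (L := L) A hq hA).asIdeal.primeCompl) :
    A.valuation (algebraMap L (AlgebraicClosure ℚ) ((d : 𝓞 L) : L)) = 1 := by
  have h1 : algebraMap L (AlgebraicClosure ℚ) ((d : 𝓞 L) : L) ∈ A := g4_int_mem A _
  have h2 : algebraMap L (AlgebraicClosure ℚ) ((d : 𝓞 L) : L) ∉ A.nonunits := by
    rw [← mem_g4Prime]
    exact d.2
  rw [ValuationSubring.mem_nonunits_iff] at h2
  exact le_antisymm ((ValuationSubring.valuation_le_one_iff A _).mpr h1) (not_lt.mp h2)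

theorem g4_mem_of_val_le {q : ℕ} (hq : q.Prime) (hA : A.LiesOverPrime q) (y : L)
    (hy : (g4Spec (L := L) A hq hA).valuation L y ≤ 1) :
    algebraMap L (AlgebraicClosure ℚ) y ∈ A := by
  obtain ⟨n, d, h⟩ :=
    HeightOneSpectrum.exists_primeCompl_mul_eq_of_integer (g4Spec (L := L) A hq hA) y hy
  have h1 := congrArg (fun t => A.valuation (algebraMap L (AlgebraicClosure ℚ) t)) h
  simp only [map_mul] at h1
  rw [g4_val_d A hq hA d, mul_one] at h1
  rw [← ValuationSubring.valuation_le_one_iff, h1, ValuationSubring.valuation_le_one_iff]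
  exact g4_int_mem A n

theorem g4_nonunit_of_val_lt {q : ℕ} (hq : q.Prime) (hA : A.LiesOverPrime q) (y : L)
    (hy : (g4Spec (L := L) A hq hA).valuation L y < 1) :
    algebraMap L (AlgebraicClosure ℚ) y ∈ A.nonunits := by
  obtain ⟨n, d, h⟩ :=
    HeightOneSpectrum.exists_primeCompl_mul_eq_of_integer (g4Spec (L := L) A hq hA) y hy.le
  have h1 := congrArg (fun t => A.valuation (algebraMap L (AlgebraicClosure ℚ) t)) h
  simp only [map_mul] at h1
  rw [g4_val_d A hq hA d, mul_one] at h1
  have h2 := congrArg (fun t => (g4Spec (L := L) A hq hA).valuation L t) h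
  simp only [map_mul] at h2
  have hd1 : (g4Spec (L := L) A hq hA).valuation L (algebraMap (𝓞 L) L d) = 1 := by
    rw [HeightOneSpectrum.valuation_of_algebraMap,
      HeightOneSpectrum.intValuation_eq_one_iff_mem_primeCompl]
    exact d.2
  rw [hd1, mul_one] at h2
  have hn : n ∈ g4Prime (L := L) A := by
    rw [← g4Spec_asIdeal A hq hA, ← HeightOneSpectrum.valuation_lt_one_iff_mem (K := L), ← h2]
    exact hy
  rw [ValuationSubring.mem_nonunits_iff, h1, ← ValuationSubring.mem_nonunits_iff, ← mem_g4Prime]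
  exact hn

theorem g4_mem_iff {q : ℕ} (hq : q.Prime) (hA : A.LiesOverPrime q) (y : L) :
    algebraMap L (AlgebraicClosure ℚ) y ∈ A ↔ (g4Spec (L := L) A hq hA).valuation L y ≤ 1 := by
  refine ⟨fun h => ?_, g4_mem_of_val_le A hq hA y⟩
  by_contra hlt
  rw [not_le] at hlt
  have hy0 : y ≠ 0 := by
    rintro rfl
    simp at hlt
  have h1 : (g4Spec (L := L) A hq hA).valuation L y⁻¹ < 1 := by
    rw [map_inv₀]
    exact inv_lt_one_of_one_lt₀ hlt
  have h2 := g4_nonunit_of_val_lt A hq hA y⁻¹ h1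
  rw [ValuationSubring.mem_nonunits_iff, map_inv₀, map_inv₀] at h2
  have h3 := (ValuationSubring.valuation_le_one_iff A _).mpr h
  have h4 : A.valuation (algebraMap L (AlgebraicClosure ℚ) y) ≠ 0 := by
    rw [Valuation.ne_zero_iff]
    exact (map_ne_zero _).mpr hy0
  have h5 := (inv_lt_one₀ (zero_lt_iff.mpr h4)).mp h2
  exact absurd h3 (not_le.mpr h5)

end Dict

section Exists

variable {K : Type} [Field K] [NumberField K] [Algebra K (AlgebraicClosure ℚ)]

/-- A valuation subring of `ℚ̄` over a given prime of a number field. -/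
theorem g4_exists_A (v : HeightOneSpectrum (𝓞 K)) :
    ∃ A : ValuationSubring (AlgebraicClosure ℚ),
      ∀ x ∈ v.asIdeal, algebraMap K (AlgebraicClosure ℚ) (x : K) ∈ A.nonunits := by
  set f : 𝓞 K →+* AlgebraicClosure ℚ :=
    (algebraMap K (AlgebraicClosure ℚ)).comp (algebraMap (𝓞 K) K) with hf
  have hfinj : Function.Injective f :=
    (algebraMap K (AlgebraicClosure ℚ)).injective.comp RingOfIntegers.coe_injective
  have hsurj : Function.Surjective f.rangeRestrict := f.rangeRestrict_surjective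
  have hI : Ideal.map f.rangeRestrict v.asIdeal ≠ ⊤ := by
    intro h
    have h1 : (1 : f.range) ∈ Ideal.map f.rangeRestrict v.asIdeal := by rw [h]; trivial
    obtain ⟨x, hx, hx1⟩ := (Ideal.mem_map_iff_of_surjective _ hsurj).mp h1
    have h2 : f x = f 1 := by
      have := congrArg Subtype.val hx1
      simpa using this
    rw [hfinj h2] at hx
    exact v.isPrime.ne_top ((Ideal.eq_top_iff_one _).mpr hx)
  obtain ⟨B, -, hB⟩ := Ideal.image_subset_nonunits_valuationSubring _ hI
  refine ⟨B, fun x hx => hB ⟨f.rangeRestrict x, Ideal.mem_map_of_mem _ hx, rfl⟩⟩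

end Exists

section Tower

variable {K L : Type} [Field K] [NumberField K] [Field L] [NumberField L] [Algebra K L]
  [Algebra K (AlgebraicClosure ℚ)] [Algebra L (AlgebraicClosure ℚ)]
  [IsScalarTower K L (AlgebraicClosure ℚ)]
  (A : ValuationSubring (AlgebraicClosure ℚ))

theorem g4_liesOver {q : ℕ} (hq : q.Prime) (hA : A.LiesOverPrime q)
    (v : HeightOneSpectrum (𝓞 K))
    (hAv : ∀ x ∈ v.asIdeal, algebraMap K (AlgebraicClosure ℚ) (x : K) ∈ A.nonunits) :
    (g4Spec (L := L) A hq hA).asIdeal.LiesOver v.asIdeal := by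
  rw [Ideal.liesOver_iff]
  haveI : v.asIdeal.IsMaximal := v.isMaximal
  refine Ideal.IsMaximal.eq_of_le inferInstance ?_ ?_
  · exact (Ideal.IsPrime.under (𝓞 K) (g4Spec (L := L) A hq hA).asIdeal).ne_top
  · intro x hx
    rw [Ideal.under_def, Ideal.mem_comap, g4Spec_asIdeal, mem_g4Prime]
    have := hAv x hx
    rwa [IsScalarTower.algebraMap_apply K L (AlgebraicClosure ℚ)] at this

theorem g4_stab_mem {q : ℕ} (hq : q.Prime) (hA : A.LiesOverPrime q) (σ : L ≃ₐ[K] L)
    (hσ : ∀ x : 𝓞 L, galRestrict (𝓞 K) K L (𝓞 L) σ x ∈ (g4Spec (L := L) A hq hA).asIdeal ↔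
      x ∈ (g4Spec (L := L) A hq hA).asIdeal)
    (y : L) (hy : algebraMap L (AlgebraicClosure ℚ) y ∈ A) :
    algebraMap L (AlgebraicClosure ℚ) (σ y) ∈ A := by
  rw [g4_mem_iff A hq hA] at hy ⊢
  obtain ⟨n, d, h⟩ :=
    HeightOneSpectrum.exists_primeCompl_mul_eq_of_integer (g4Spec (L := L) A hq hA) y hy
  have h1 := congrArg (fun t => (g4Spec (L := L) A hq hA).valuation L (σ t)) h
  simp only [map_mul] at h1
  rw [← algebraMap_galRestrict_apply (𝓞 K) σ, ← algebraMap_galRestrict_apply (𝓞 K) σ] at h1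
  have hd1 : (g4Spec (L := L) A hq hA).valuation L
      (algebraMap (𝓞 L) L (galRestrict (𝓞 K) K L (𝓞 L) σ d)) = 1 := by
    rw [HeightOneSpectrum.valuation_of_algebraMap,
      HeightOneSpectrum.intValuation_eq_one_iff_mem_primeCompl]
    intro hmem
    exact d.2 ((hσ d).mp hmem)
  rw [hd1, mul_one] at h1
  rw [h1]
  exact HeightOneSpectrum.valuation_le_one _ _

end Tower

section Concrete

theorem g4_concrete (K : IntermediateField ℚ (AlgebraicClosure ℚ)) [NumberField K]
    (p : ℕ) [Fact p.Prime] (h3 : 3 ≤ p) (ζ : AlgebraicClosure ℚ) (hζK : ζ ∈ K)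
    (α : K) (a : AlgebraicClosure ℚ) (ha : a ≠ 0) (haα : a ^ p = (α : AlgebraicClosure ℚ))
    [IsGalois K (IntermediateField.adjoin K {a})]
    (hfix : ∀ σ : IntermediateField.adjoin K {a} ≃ₐ[K] IntermediateField.adjoin K {a},
      ((σ ⟨a, IntermediateField.mem_adjoin_simple_self K a⟩ :
        IntermediateField.adjoin K {a}) : AlgebraicClosure ℚ) = a → σ = 1)
    (H : ∀ A : ValuationSubring (AlgebraicClosure ℚ), A.LiesOverPrime p →
      ∀ σ ∈ A.decompositionSubgroup ℚ, σ ζ = ζ → σ a = a)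
    (v : HeightOneSpectrum (𝓞 K)) (hv : (p : 𝓞 K) ∈ v.asIdeal)
    (hvp : v.valuation K (p : K) ≤ WithZero.exp (-2 : ℤ)) :
    PDvdOrd p v α ∧ LocPow p v α := by
  classical
  have hp : p.Prime := Fact.out
  haveI := Fermat.Agent.Common.isAlgClosure_rat_qbar
  have haint : IsIntegral K a := by
    have : IsIntegral ℚ a := (IsAlgClosure.isAlgebraic.isAlgebraic a).isIntegral
    exact this.tower_top
  haveI : FiniteDimensional K (IntermediateField.adjoin K {a}) :=
    IntermediateField.adjoin.finiteDimensional haint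
  haveI : NumberField (IntermediateField.adjoin K {a}) :=
    NumberField.of_module_finite K (IntermediateField.adjoin K {a})
  obtain ⟨A, hAv⟩ := g4_exists_A v
  have hA : A.LiesOverPrime p := by
    have := hAv (p : 𝓞 K) hv
    show (p : AlgebraicClosure ℚ) ∈ A.nonunits
    simpa using this
  haveI : (g4Spec (L := IntermediateField.adjoin K {a}) A hp hA).asIdeal.LiesOver v.asIdeal :=
    g4_liesOver A hp hA v hAv
  have hstab : ∀ σ : IntermediateField.adjoin K {a} ≃ₐ[K] IntermediateField.adjoin K {a},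
      (∀ x : 𝓞 (IntermediateField.adjoin K {a}),
        galRestrict (𝓞 K) K (IntermediateField.adjoin K {a})
          (𝓞 (IntermediateField.adjoin K {a})) σ x ∈
            (g4Spec (L := IntermediateField.adjoin K {a}) A hp hA).asIdeal ↔
        x ∈ (g4Spec (L := IntermediateField.adjoin K {a}) A hp hA).asIdeal) → σ = 1 := by
    intro σ hσ
    apply hfix
    haveI : Algebra.IsAlgebraic K (AlgebraicClosure ℚ) :=
      Algebra.IsAlgebraic.tower_top (K := ℚ) K
    haveI : IsAlgClosure K (AlgebraicClosure ℚ) := ⟨inferInstance, inferInstance⟩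
    haveI : Normal K (AlgebraicClosure ℚ) := inferInstance
    set σ₀ : AlgebraicClosure ℚ ≃ₐ[K] AlgebraicClosure ℚ :=
      σ.liftNormal (AlgebraicClosure ℚ) with hσ₀
    set σ₁ : AlgebraicClosure ℚ ≃ₐ[ℚ] AlgebraicClosure ℚ := σ₀.restrictScalars ℚ with hσ₁
    have hσL : ∀ y : IntermediateField.adjoin K {a},
        σ₁ (y : AlgebraicClosure ℚ) = ((σ y : IntermediateField.adjoin K {a}) :
          AlgebraicClosure ℚ) := fun y => σ.liftNormal_commutes (AlgebraicClosure ℚ) y
    have hσK : ∀ x ∈ K, σ₁ x = x := fun x hx => σ₀.commutes ⟨x, hx⟩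
    have hσ' : ∀ x : 𝓞 (IntermediateField.adjoin K {a}),
        galRestrict (𝓞 K) K (IntermediateField.adjoin K {a})
          (𝓞 (IntermediateField.adjoin K {a})) σ⁻¹ x ∈
            (g4Spec (L := IntermediateField.adjoin K {a}) A hp hA).asIdeal ↔
        x ∈ (g4Spec (L := IntermediateField.adjoin K {a}) A hp hA).asIdeal := by
      intro x
      rw [← hσ (galRestrict (𝓞 K) K (IntermediateField.adjoin K {a})
          (𝓞 (IntermediateField.adjoin K {a})) σ⁻¹ x)]
      have : galRestrict (𝓞 K) K (IntermediateField.adjoin K {a})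
          (𝓞 (IntermediateField.adjoin K {a})) σ
          (galRestrict (𝓞 K) K (IntermediateField.adjoin K {a})
          (𝓞 (IntermediateField.adjoin K {a})) σ⁻¹ x) = x := by
        rw [← AlgEquiv.mul_apply, ← map_mul, mul_inv_cancel, map_one, AlgEquiv.one_apply]
      rw [this]
    set F : IntermediateField ℚ (AlgebraicClosure ℚ) :=
      (IntermediateField.adjoin K {a}).restrictScalars ℚ with hF
    have hT : ∀ x ∈ F, x ∈ σ₁ • A ↔ x ∈ A := by
      intro x hx
      have hx' : x ∈ IntermediateField.adjoin K {a} := hx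
      rw [ValuationSubring.mem_pointwise_smul_iff_inv_smul_mem]
      have h1 : σ₁⁻¹ • x = ((σ⁻¹ (⟨x, hx'⟩ : IntermediateField.adjoin K {a}) :
          IntermediateField.adjoin K {a}) : AlgebraicClosure ℚ) := by
        have h2 := hσL (σ⁻¹ (⟨x, hx'⟩ : IntermediateField.adjoin K {a}))
        have h3 : σ (σ⁻¹ (⟨x, hx'⟩ : IntermediateField.adjoin K {a})) = ⟨x, hx'⟩ := by
          rw [← AlgEquiv.mul_apply, mul_inv_cancel, AlgEquiv.one_apply]
        rw [h3] at h2
        have h2' : σ₁ ((σ⁻¹ (⟨x, hx'⟩ : IntermediateField.adjoin K {a}) :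
          IntermediateField.adjoin K {a}) : AlgebraicClosure ℚ) = x := h2
        calc σ₁⁻¹ • x = σ₁.symm x := rfl
          _ = σ₁.symm (σ₁ ((σ⁻¹ (⟨x, hx'⟩ : IntermediateField.adjoin K {a}) :
                IntermediateField.adjoin K {a}) : AlgebraicClosure ℚ)) := by rw [h2']
          _ = _ := σ₁.symm_apply_apply _
      rw [h1]
      constructor
      · intro h
        have := g4_stab_mem A hp hA σ hσ _ h
        rw [← AlgEquiv.mul_apply, mul_inv_cancel, AlgEquiv.one_apply] at this
        exact this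
      · intro h
        exact g4_stab_mem A hp hA σ⁻¹ hσ' ⟨x, hx'⟩ h
    obtain ⟨ρ, hρF, hρA⟩ := exists_fixing_smul_eq F (σ₁ • A) A hT
    have hg : ρ * σ₁ ∈ A.decompositionSubgroup ℚ := by
      show ρ * σ₁ ∈ MulAction.stabilizer _ A
      rw [MulAction.mem_stabilizer_iff, mul_smul, hρA]
    have hKF : ∀ x ∈ K, x ∈ F := by
      intro x hx
      show x ∈ IntermediateField.adjoin K {a}
      exact (IntermediateField.adjoin K {a}).algebraMap_mem ⟨x, hx⟩
    have hgζ : (ρ * σ₁) ζ = ζ := by
      rw [AlgEquiv.mul_apply, hσK ζ hζK, hρF ζ (hKF ζ hζK)]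
    have hga := H A hA (ρ * σ₁) hg hgζ
    rw [AlgEquiv.mul_apply] at hga
    have h4 := hσL ⟨a, IntermediateField.mem_adjoin_simple_self K a⟩
    simp only at h4
    rw [h4] at hga
    rw [hρF _ (SetLike.coe_mem _)] at hga
    exact hga
  have hmem : a ∈ IntermediateField.adjoin K {a} := IntermediateField.mem_adjoin_simple_self K a
  have key := g4_main (R := 𝓞 K) (S := 𝓞 (IntermediateField.adjoin K {a})) (K := K)
    (L := IntermediateField.adjoin K {a}) v
    (g4Spec (L := IntermediateField.adjoin K {a}) A hp hA) hstab p hp h3 hvp α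
    ⟨a, hmem⟩ (by
      intro h
      exact ha (congrArg Subtype.val h)) (by
      apply Subtype.ext
      simpa using haα)
  exact key

/-- **G4**. -/
theorem decompStatement {p : ℕ} [Fact p.Prime] (h3 : 3 ≤ p) : DecompStatement p := by
  intro ζ hζ _ α a ha haα H v hv
  haveI := g4_isGalois ζ hζ α a ha haα
  exact g4_concrete (IntermediateField.adjoin ℚ {ζ}) p h3 ζ
    (IntermediateField.mem_adjoin_simple_self ℚ ζ) α a ha haα
    (g4_eq_one_of_fix (IntermediateField.adjoin ℚ {ζ}) a) H v hv (g4_val_p h3 ζ hζ v hv)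

end Concrete

end Fermat.Agent.S14
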