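import Mathlib

/-!
# S14, lemma U, representation part (pure field theory)

Every element of `K⟮a⟯`, where `a ^ p = α ∈ K`, is of the form `∑_{i<p} c_i a^i` with `c_i ∈ K`.
-/

set_option autoImplicit false

open Polynomial

namespace Fermat.Agent.S14.ValRep

theorem exists_sum_eq_of_mem_adjoin (K : IntermediateField ℚ (AlgebraicClosure ℚ)) {p : ℕ}
    (hp : 0 < p) {a : AlgebraicClosure ℚ} (α : K) (ha : a ^ p = (α : AlgebraicClosure ℚ))
    {x : AlgebraicClosure ℚ} (hx : x ∈ IntermediateField.adjoin K {a}) :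
    ∃ c : ℕ → K, x = ∑ i ∈ Finset.range p, (c i : AlgebraicClosure ℚ) * a ^ i := by
  -- the monic polynomial `X ^ p - C α`
  set f : (K)[X] := X ^ p - C α with hf
  have hmonic : f.Monic := monic_X_pow_sub_C α hp.ne'
  have hfa : aeval a f = 0 := by
    simp only [hf, map_sub, map_pow, aeval_X, aeval_C]
    rw [ha, sub_eq_zero]
    rfl
  have hint : IsIntegral K a := ⟨f, hmonic, hfa⟩
  have hx' : x ∈ Algebra.adjoin K {a} := by
    rw [← IntermediateField.adjoin_simple_toSubalgebra_of_isAlgebraic hint.isAlgebraic]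
    exact hx
  rw [Algebra.adjoin_singleton_eq_range_aeval] at hx'
  obtain ⟨q, rfl⟩ := hx'
  have hdeg : (q %ₘ f).natDegree < p := by
    have h1 : f.natDegree = p := natDegree_X_pow_sub_C
    have h2 := natDegree_modByMonic_lt q hmonic (by
      intro h
      rw [h] at h1
      simp at h1
      exact hp.ne' h1.symm)
    rwa [h1] at h2
  have hq : aeval a q = aeval a (q %ₘ f) := by
    conv_lhs => rw [← modByMonic_add_div q f]
    rw [map_add, map_mul, hfa, zero_mul, add_zero]
  refine ⟨fun i => (q %ₘ f).coeff i, ?_⟩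
  change (aeval a) q = _
  rw [hq, aeval_eq_sum_range' hdeg]
  refine Finset.sum_congr rfl fun i _ => ?_
  rw [Algebra.smul_def]
  rfl

theorem sum_mem_adjoin (K : IntermediateField ℚ (AlgebraicClosure ℚ)) (p : ℕ)
    (a : AlgebraicClosure ℚ) (c : ℕ → K) :
    (∑ i ∈ Finset.range p, (c i : AlgebraicClosure ℚ) * a ^ i) ∈
      IntermediateField.adjoin K {a} := by
  refine sum_mem fun i _ => mul_mem ?_ (pow_mem (IntermediateField.mem_adjoin_simple_self K a) i)
  exact (IntermediateField.adjoin K {a}).algebraMap_mem (c i)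

end Fermat.Agent.S14.ValRep
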