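import Mathlib
import Fermat.Prelude.Def_FLTPrelim_Ramification
import Fermat.Agent.S14.Plan

/-!
# S14, shared valuation tools for G3 / G4: lemma (U)

`Qb = AlgebraicClosure ℚ`, `K` a number field inside `Qb` (an `IntermediateField ℚ Qb`),
`v` a height one prime of `𝓞 K`.

* `LiesOverV K v A` : the valuation subring `A` of `Qb` induces `v` on `K`.
* `exists_liesOverV` : such an `A` exists.
* `LiesOverV.smul`   : stability under `τ ∈ Gal(Qb/K)`.
* lemma (U): if `a ^ p = α ∈ K` and `p ∤ ord_v α`, then for `c i ∈ K`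
  `∑ i < p, c i * a ^ i ∈ A ↔ ∀ i < p, v (c i ^ p * α ^ i) ≤ 1` (`sum_mem_iff`),
  the terms with `i ≥ 1` are then in the maximal ideal (`term_mem_nonunits`),
  and every element of `K(a)` is such a sum (`exists_sum_eq_of_mem_adjoin`).

Namespace `Fermat.Agent.S14.ValTools`.
-/

set_option autoImplicit false
set_option linter.style.haveILetI false

open scoped Pointwise
open NumberField IsDedekindDomain

namespace Fermat.Agent.S14.ValTools

section General

variable {K L : Type*} [Field K] [Field L] [Algebra K L]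

theorem mem_smul_iff (A : ValuationSubring L) (g : L ≃ₐ[K] L) (x : L) :
    x ∈ g • A ↔ g⁻¹ x ∈ A := by
  rw [ValuationSubring.mem_pointwise_smul_iff_inv_smul_mem]
  rfl

theorem mem_nonunits_smul_iff (A : ValuationSubring L) (g : L ≃ₐ[K] L) (x : L) :
    x ∈ (g • A).nonunits ↔ g⁻¹ x ∈ A.nonunits := by
  rw [ValuationSubring.mem_nonunits_iff_or, ValuationSubring.mem_nonunits_iff_or, mem_smul_iff,
    map_inv₀, map_eq_zero_iff _ (g⁻¹ : L ≃ₐ[K] L).injective]

/-- In a valuation subring, `x ∉ A` iff `x ≠ 0` and `x⁻¹` is a non-unit. -/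
theorem not_mem_iff_inv_mem_nonunits (A : ValuationSubring L) (x : L) :
    x ∉ A ↔ x⁻¹ ∈ A.nonunits ∧ x ≠ 0 := by
  rw [ValuationSubring.mem_nonunits_iff, ← A.valuation_le_one_iff, not_le, map_inv₀]
  constructor
  · intro h
    have hx : x ≠ 0 := by
      rintro rfl
      simp at h
    have h0 : A.valuation x ≠ 0 := (Valuation.ne_zero_iff _).2 hx
    exact ⟨(inv_lt_one₀ (zero_lt_iff.2 h0)).2 h, hx⟩
  · rintro ⟨h, hx⟩
    have h0 : A.valuation x ≠ 0 := (Valuation.ne_zero_iff _).2 hx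
    exact (inv_lt_one₀ (zero_lt_iff.2 h0)).1 h

end General

section LiesOver

variable (K : IntermediateField ℚ (AlgebraicClosure ℚ)) [NumberField K]
  (v : HeightOneSpectrum (𝓞 K))

/-- The valuation subring `A` of `ℚ̄` induces the `v`-adic valuation ring on `K`. -/
def LiesOverV (A : ValuationSubring (AlgebraicClosure ℚ)) : Prop :=
  ∀ x : K, (x : AlgebraicClosure ℚ) ∈ A ↔ v.valuation K x ≤ 1

variable {K v}

theorem LiesOverV.mem_nonunits_iff {A : ValuationSubring (AlgebraicClosure ℚ)}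
    (hA : LiesOverV K v A) (x : K) :
    (x : AlgebraicClosure ℚ) ∈ A.nonunits ↔ v.valuation K x < 1 := by
  rw [ValuationSubring.mem_nonunits_iff_or]
  rcases eq_or_ne x 0 with rfl | hx
  · simp
  · have h1 : ((x : AlgebraicClosure ℚ))⁻¹ = ((x⁻¹ : K) : AlgebraicClosure ℚ) := by simp
    have h0 : v.valuation K x ≠ 0 := (Valuation.ne_zero_iff _).2 hx
    have hx' : (x : AlgebraicClosure ℚ) ≠ 0 := by simpa using hx
    rw [h1, hA, map_inv₀, not_le, one_lt_inv₀ (zero_lt_iff.2 h0)]
    simp [hx']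

/-- Comparison of values of elements of `K` can be done in `K`. -/
theorem LiesOverV.valuation_le_iff {A : ValuationSubring (AlgebraicClosure ℚ)}
    (hA : LiesOverV K v A) (x y : K) :
    A.valuation (x : AlgebraicClosure ℚ) ≤ A.valuation (y : AlgebraicClosure ℚ) ↔
      v.valuation K x ≤ v.valuation K y := by
  rcases eq_or_ne y 0 with rfl | hy
  · simp
  · have hy' : (y : AlgebraicClosure ℚ) ≠ 0 := by simpa using hy
    have h0 : v.valuation K y ≠ 0 := (Valuation.ne_zero_iff _).2 hy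
    have h0' : A.valuation (y : AlgebraicClosure ℚ) ≠ 0 := (Valuation.ne_zero_iff _).2 hy'
    have e1 : A.valuation (x : AlgebraicClosure ℚ) ≤ A.valuation (y : AlgebraicClosure ℚ) ↔
        A.valuation (((x / y : K)) : AlgebraicClosure ℚ) ≤ 1 := by
      have : (((x / y : K)) : AlgebraicClosure ℚ) =
          (x : AlgebraicClosure ℚ) / (y : AlgebraicClosure ℚ) := by simp
      rw [this, map_div₀, div_le_one₀ (zero_lt_iff.2 h0')]
    have e2 : v.valuation K x ≤ v.valuation K y ↔ v.valuation K (x / y) ≤ 1 := by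
      rw [map_div₀, div_le_one₀ (zero_lt_iff.2 h0)]
    rw [e1, e2, A.valuation_le_one_iff, hA]

theorem LiesOverV.valuation_eq_iff {A : ValuationSubring (AlgebraicClosure ℚ)}
    (hA : LiesOverV K v A) (x y : K) :
    A.valuation (x : AlgebraicClosure ℚ) = A.valuation (y : AlgebraicClosure ℚ) ↔
      v.valuation K x = v.valuation K y := by
  rw [le_antisymm_iff, le_antisymm_iff, hA.valuation_le_iff, hA.valuation_le_iff]

/-- Stability under the Galois group of `ℚ̄ / K`. -/
theorem LiesOverV.smul {A : ValuationSubring (AlgebraicClosure ℚ)} (hA : LiesOverV K v A)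
    (τ : AlgebraicClosure ℚ ≃ₐ[ℚ] AlgebraicClosure ℚ)
    (hτ : ∀ x : K, τ (x : AlgebraicClosure ℚ) = x) : LiesOverV K v (τ • A) := by
  intro x
  rw [mem_smul_iff, ← hA x]
  have : τ⁻¹ (x : AlgebraicClosure ℚ) = x := by
    have h1 := hτ x
    calc τ⁻¹ (x : AlgebraicClosure ℚ) = τ⁻¹ (τ (x : AlgebraicClosure ℚ)) := by rw [h1]
      _ = x := by
        rw [← AlgEquiv.mul_apply, inv_mul_cancel, AlgEquiv.one_apply]
  rw [this]

theorem LiesOverV.liesOverPrime {A : ValuationSubring (AlgebraicClosure ℚ)}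
    (hA : LiesOverV K v A) {ℓ : ℕ} (hℓ : (ℓ : 𝓞 K) ∈ v.asIdeal) : A.LiesOverPrime ℓ := by
  change (ℓ : AlgebraicClosure ℚ) ∈ A.nonunits
  have h1 : ((ℓ : K) : AlgebraicClosure ℚ) = (ℓ : AlgebraicClosure ℚ) := by simp
  rw [← h1, hA.mem_nonunits_iff]
  have h2 : (ℓ : K) = algebraMap (𝓞 K) K (ℓ : 𝓞 K) := by simp
  rw [h2, HeightOneSpectrum.valuation_lt_one_iff_mem]
  exact hℓ

/-- The image in `ℚ̄` of the valuation ring of `v`. -/
noncomputable def imageSubring (K : IntermediateField ℚ (AlgebraicClosure ℚ)) [NumberField K]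
    (v : HeightOneSpectrum (𝓞 K)) : Subring (AlgebraicClosure ℚ) :=
  ((v.valuation K).valuationSubring.toSubring).map (algebraMap K (AlgebraicClosure ℚ))

theorem mem_imageSubring {x : AlgebraicClosure ℚ} :
    x ∈ imageSubring K v ↔ ∃ y : K, v.valuation K y ≤ 1 ∧ (y : AlgebraicClosure ℚ) = x := by
  rw [imageSubring, Subring.mem_map]
  constructor
  · rintro ⟨y, hy, rfl⟩
    exact ⟨y, (Valuation.mem_valuationSubring_iff _ _).1 hy, rfl⟩
  · rintro ⟨y, hy, rfl⟩
    exact ⟨y, (Valuation.mem_valuationSubring_iff _ _).2 hy, rfl⟩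

variable (K v) in
/-- A valuation subring of `ℚ̄` over `v` exists. -/
theorem exists_liesOverV : ∃ A : ValuationSubring (AlgebraicClosure ℚ), LiesOverV K v A := by
  obtain ⟨π, hπ⟩ := v.valuation_exists_uniformizer K
  have hπ1 : v.valuation K π ≤ 1 := by
    rw [hπ]
    exact le_of_lt (by rw [← WithZero.exp_zero, WithZero.exp_lt_exp]; norm_num)
  have hπ0 : π ≠ 0 := by
    rintro rfl
    rw [map_zero] at hπ
    exact WithZero.exp_ne_zero hπ.symm
  let π' : imageSubring K v := ⟨(π : AlgebraicClosure ℚ), mem_imageSubring.2 ⟨π, hπ1, rfl⟩⟩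
  have hI : Ideal.span {π'} ≠ ⊤ := by
    intro htop
    rw [Ideal.span_singleton_eq_top] at htop
    obtain ⟨⟨y, hy⟩, hy'⟩ := htop.exists_right_inv
    obtain ⟨z, hz, rfl⟩ := mem_imageSubring.1 hy
    have h1 : (π : AlgebraicClosure ℚ) * (z : AlgebraicClosure ℚ) = 1 := congrArg Subtype.val hy'
    have h2 : π * z = 1 := by
      have : ((π * z : K) : AlgebraicClosure ℚ) = ((1 : K) : AlgebraicClosure ℚ) := by
        simpa using h1
      exact_mod_cast this
    have h3 : v.valuation K π * v.valuation K z = 1 := by rw [← map_mul, h2, map_one]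
    have h4 : v.valuation K π * v.valuation K z < 1 := by
      have hlt : v.valuation K π < 1 := by
        rw [hπ, ← WithZero.exp_zero, WithZero.exp_lt_exp]; norm_num
      calc v.valuation K π * v.valuation K z ≤ v.valuation K π * 1 := by gcongr
        _ = v.valuation K π := mul_one _
        _ < 1 := hlt
    rw [h3] at h4
    exact lt_irrefl _ h4
  obtain ⟨B, hB1, hB2⟩ := Ideal.image_subset_nonunits_valuationSubring (Ideal.span {π'}) hI
  have key : ∀ x : K, v.valuation K x < 1 → (x : AlgebraicClosure ℚ) ∈ B.nonunits := by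
    intro x hx
    have hxπ : v.valuation K (x / π) ≤ 1 := by
      rw [map_div₀, hπ]
      have h0 : (0 : WithZero (Multiplicative ℤ)) < WithZero.exp (-1 : ℤ) := WithZero.exp_pos
      rw [div_le_one₀ h0]
      rcases eq_or_ne x 0 with rfl | hx0
      · simp
      · obtain ⟨n, hn⟩ : ∃ n : ℤ, v.valuation K x = WithZero.exp n := by
          have := (Valuation.ne_zero_iff (v.valuation K)).2 hx0
          exact ⟨WithZero.log (v.valuation K x), (WithZero.exp_log this).symm⟩
        rw [hn, ← WithZero.exp_zero, WithZero.exp_lt_exp] at hx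
        rw [hn, WithZero.exp_le_exp]
        omega
    let q : imageSubring K v :=
      ⟨((x / π : K) : AlgebraicClosure ℚ), mem_imageSubring.2 ⟨x / π, hxπ, rfl⟩⟩
    have hmem : π' * q ∈ Ideal.span {π'} := Ideal.mul_mem_right _ _ (Ideal.subset_span rfl)
    have := hB2 ⟨π' * q, hmem, rfl⟩
    have e : ((imageSubring K v).subtype (π' * q) : AlgebraicClosure ℚ) =
        (x : AlgebraicClosure ℚ) := by
      change (π : AlgebraicClosure ℚ) * ((x / π : K) : AlgebraicClosure ℚ) = x
      have : π * (x / π) = x := by field_simp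
      exact_mod_cast congrArg (fun t : K => (t : AlgebraicClosure ℚ)) this
    rwa [e] at this
  refine ⟨B, fun x => ⟨fun hx => ?_, fun hx => hB1 (mem_imageSubring.2 ⟨x, hx, rfl⟩)⟩⟩
  by_contra hcon
  rw [not_le] at hcon
  have hx0 : x ≠ 0 := by
    rintro rfl
    simp at hcon
  have h0 : v.valuation K x ≠ 0 := (Valuation.ne_zero_iff _).2 hx0
  have hinv : v.valuation K x⁻¹ < 1 := by
    rw [map_inv₀]
    exact (inv_lt_one₀ (zero_lt_iff.2 h0)).2 hcon
  have h1 := key x⁻¹ hinv
  have h2 : ((x⁻¹ : K) : AlgebraicClosure ℚ) = ((x : AlgebraicClosure ℚ))⁻¹ := by simp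
  rw [h2] at h1
  have := (not_mem_iff_inv_mem_nonunits B (x : AlgebraicClosure ℚ)).2
    ⟨h1, by simpa using hx0⟩
  exact this hx

end LiesOver

section U

variable {K : IntermediateField ℚ (AlgebraicClosure ℚ)} [NumberField K]
  {v : HeightOneSpectrum (𝓞 K)}

theorem exists_valuation_eq_exp {x : K} (hx : x ≠ 0) :
    ∃ n : ℤ, v.valuation K x = WithZero.exp n :=
  ⟨WithZero.log (v.valuation K x),
    (WithZero.exp_log ((Valuation.ne_zero_iff (v.valuation K)).2 hx)).symm⟩

omit [NumberField K] in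
/-- The value of `(c * a ^ i) ^ p` is the value of `c ^ p * α ^ i ∈ K`. -/
theorem valuation_term_pow {A : ValuationSubring (AlgebraicClosure ℚ)} {p : ℕ} {α : K}
    {a : AlgebraicClosure ℚ} (ha : a ^ p = (α : AlgebraicClosure ℚ)) (c : K) (i : ℕ) :
    A.valuation ((c : AlgebraicClosure ℚ) * a ^ i) ^ p =
      A.valuation (((c ^ p * α ^ i : K)) : AlgebraicClosure ℚ) := by
  rw [← map_pow]
  congr 1
  have : ((c ^ p * α ^ i : K) : AlgebraicClosure ℚ) =
      (c : AlgebraicClosure ℚ) ^ p * (α : AlgebraicClosure ℚ) ^ i := by simp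
  rw [this, ← ha, mul_pow, ← pow_mul, ← pow_mul, mul_comm i p]

/-- **Distinct values.** If `p ∤ ord_v α` and `a ^ p = α`, then the values of `c * a ^ i` and
`d * a ^ j` (`c, d ∈ Kˣ`, `i ≠ j < p`) are different. -/
theorem valuation_term_ne {A : ValuationSubring (AlgebraicClosure ℚ)} (hA : LiesOverV K v A)
    {p : ℕ} (hp : p.Prime) {α : K} {a : AlgebraicClosure ℚ}
    (ha : a ^ p = (α : AlgebraicClosure ℚ)) (hα : α ≠ 0) (hnd : ¬ PDvdOrd p v α)
    {c d : K} (hc : c ≠ 0) (hd : d ≠ 0) {i j : ℕ} (hi : i < p) (hj : j < p) (hij : i ≠ j) :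
    A.valuation ((c : AlgebraicClosure ℚ) * a ^ i) ≠
      A.valuation ((d : AlgebraicClosure ℚ) * a ^ j) := by
  intro h
  have h1 := congrArg (fun t => t ^ p) h
  simp only [valuation_term_pow ha] at h1
  rw [hA.valuation_eq_iff] at h1
  obtain ⟨nc, hnc⟩ := exists_valuation_eq_exp (v := v) hc
  obtain ⟨nd, hnd'⟩ := exists_valuation_eq_exp (v := v) hd
  obtain ⟨m, hm⟩ := exists_valuation_eq_exp (v := v) hα
  rw [map_mul, map_mul, map_pow, map_pow, map_pow, map_pow, hnc, hnd', hm,
    ← WithZero.exp_nsmul, ← WithZero.exp_nsmul, ← WithZero.exp_nsmul, ← WithZero.exp_nsmul,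
    ← WithZero.exp_add, ← WithZero.exp_add, WithZero.exp_inj] at h1
  simp only [nsmul_eq_mul] at h1
  -- `p * nc + i * m = p * nd + j * m`
  apply hnd
  have hdvd : (p : ℤ) ∣ ((i : ℤ) - j) * m := ⟨nd - nc, by linarith⟩
  have hpZ : Prime (p : ℤ) := Nat.prime_iff_prime_int.mp hp
  rcases hpZ.dvd_or_dvd hdvd with h2 | h2
  · exfalso
    have h3 : ((i : ℤ) - j).natAbs < p := by omega
    have h4 : ((i : ℤ) - j) ≠ 0 := by omega
    have h5 := Int.natAbs_dvd_natAbs.2 h2
    rw [Int.natAbs_natCast] at h5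
    have h6 := Nat.le_of_dvd (Int.natAbs_pos.2 h4) h5
    omega
  · obtain ⟨k, hk⟩ := h2
    exact ⟨k, by rw [hm, hk]⟩

theorem valuation_term_le_one_iff {A : ValuationSubring (AlgebraicClosure ℚ)}
    (hA : LiesOverV K v A) {p : ℕ} (hp : p.Prime) {α : K} {a : AlgebraicClosure ℚ}
    (ha : a ^ p = (α : AlgebraicClosure ℚ)) (c : K) (i : ℕ) :
    (c : AlgebraicClosure ℚ) * a ^ i ∈ A ↔ v.valuation K (c ^ p * α ^ i) ≤ 1 := by
  rw [← hA, ← A.valuation_le_one_iff, ← A.valuation_le_one_iff, ← valuation_term_pow ha,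
    pow_le_one_iff_of_nonneg zero_le hp.ne_zero]

/-- Terms of positive index which are integral lie in the maximal ideal. -/
theorem term_mem_nonunits {A : ValuationSubring (AlgebraicClosure ℚ)} (hA : LiesOverV K v A)
    {p : ℕ} (hp : p.Prime) {α : K} {a : AlgebraicClosure ℚ}
    (ha : a ^ p = (α : AlgebraicClosure ℚ)) (hα : α ≠ 0) (hnd : ¬ PDvdOrd p v α)
    (c : K) {i : ℕ} (hi0 : 0 < i) (hi : i < p)
    (hmem : (c : AlgebraicClosure ℚ) * a ^ i ∈ A) :
    (c : AlgebraicClosure ℚ) * a ^ i ∈ A.nonunits := by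
  rw [ValuationSubring.mem_nonunits_iff]
  rcases eq_or_ne c 0 with rfl | hc
  · simp
  · have h1 : A.valuation ((c : AlgebraicClosure ℚ) * a ^ i) ≤ 1 :=
      (A.valuation_le_one_iff _).2 hmem
    have h2 := valuation_term_ne hA hp ha hα hnd hc (one_ne_zero : (1 : K) ≠ 0) hi
      (lt_of_le_of_lt (Nat.zero_le _) hi) hi0.ne'
    have h3 : A.valuation (((1 : K) : AlgebraicClosure ℚ) * a ^ 0) = 1 := by simp
    rw [h3] at h2
    exact lt_of_le_of_ne h1 h2

/-- **Lemma (U).** `∑ i < p, c i * a ^ i ∈ A` iff every term is in `A`, and this is decided by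
`v` alone. -/
theorem sum_mem_iff {A : ValuationSubring (AlgebraicClosure ℚ)} (hA : LiesOverV K v A)
    {p : ℕ} (hp : p.Prime) {α : K} {a : AlgebraicClosure ℚ}
    (ha : a ^ p = (α : AlgebraicClosure ℚ)) (hα : α ≠ 0) (hnd : ¬ PDvdOrd p v α)
    (c : ℕ → K) :
    (∑ i ∈ Finset.range p, (c i : AlgebraicClosure ℚ) * a ^ i) ∈ A ↔
      ∀ i < p, v.valuation K (c i ^ p * α ^ i) ≤ 1 := by
  constructor
  · intro hsum
    by_contra hcon
    push Not at hcon
    obtain ⟨i₁, hi₁, hbad⟩ := hcon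
    have hne : (Finset.range p).Nonempty := ⟨i₁, Finset.mem_range.2 hi₁⟩
    obtain ⟨i₀, hi₀, hmax⟩ := Finset.exists_max_image (Finset.range p)
      (fun i => A.valuation ((c i : AlgebraicClosure ℚ) * a ^ i)) hne
    have hi₀' : i₀ < p := Finset.mem_range.1 hi₀
    have hbig : 1 < A.valuation ((c i₀ : AlgebraicClosure ℚ) * a ^ i₀) := by
      have h1 : ¬ ((c i₁ : AlgebraicClosure ℚ) * a ^ i₁ ∈ A) := by
        rw [valuation_term_le_one_iff hA hp ha]
        exact not_le.2 hbad
      rw [← A.valuation_le_one_iff, not_le] at h1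
      exact lt_of_lt_of_le h1 (hmax i₁ (Finset.mem_range.2 hi₁))
    have hc₀ : c i₀ ≠ 0 := by
      intro h0
      rw [h0] at hbig
      simp at hbig
    have hrest : A.valuation (∑ i ∈ (Finset.range p).erase i₀,
        (c i : AlgebraicClosure ℚ) * a ^ i) <
        A.valuation ((c i₀ : AlgebraicClosure ℚ) * a ^ i₀) := by
      refine Valuation.map_sum_lt _ (ne_of_gt (lt_trans zero_lt_one hbig)) (fun i hi => ?_)
      have hi' : i < p := Finset.mem_range.1 (Finset.mem_of_mem_erase hi)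
      have hii : i ≠ i₀ := Finset.ne_of_mem_erase hi
      rcases eq_or_ne (c i) 0 with h0 | h0
      · rw [h0]
        simp only [ZeroMemClass.coe_zero, zero_mul, map_zero]
        exact lt_trans zero_lt_one hbig
      · exact lt_of_le_of_ne (hmax i (Finset.mem_range.2 hi'))
          (valuation_term_ne hA hp ha hα hnd h0 hc₀ hi' hi₀' hii)
    have hsplit : (∑ i ∈ Finset.range p, (c i : AlgebraicClosure ℚ) * a ^ i) =
        (c i₀ : AlgebraicClosure ℚ) * a ^ i₀ +
          ∑ i ∈ (Finset.range p).erase i₀, (c i : AlgebraicClosure ℚ) * a ^ i :=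
      (Finset.add_sum_erase _ _ hi₀).symm
    have hval : A.valuation (∑ i ∈ Finset.range p, (c i : AlgebraicClosure ℚ) * a ^ i) =
        A.valuation ((c i₀ : AlgebraicClosure ℚ) * a ^ i₀) := by
      rw [hsplit]
      exact Valuation.map_add_eq_of_lt_left _ hrest
    have := (A.valuation_le_one_iff _).2 hsum
    rw [hval] at this
    exact not_lt.2 this hbig
  · intro h
    refine sum_mem fun i hi => ?_
    rw [valuation_term_le_one_iff hA hp ha]
    exact h i (Finset.mem_range.1 hi)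

end U

end Fermat.Agent.S14.ValTools
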