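import Fermat.Agent.S14.SplitBoundCore
import Fermat.Agent.S14.Euler
import Fermat.Agent.S14.EulerAux

/-!
# S14, piece N4b (final): the split bound statement

`splitBoundStatement : SplitBoundStatement p`, obtained from `splitBound_of_eulerBound`
(`SplitBoundCore.lean`), the bound of finite Euler products by the zeta sum
(`prod_one_sub_inv_le_zeta`, `Euler.lean`) and the bound `ζ_M(s) ≤ C / (s - 1)` on `(1, 2]`
(`exists_zeta_le_of`, `EulerAux.lean`).
-/

set_option autoImplicit false

open NumberField IsDedekindDomain

namespace Fermat.Agent.S14

/-- Every number field satisfies the Euler bound. -/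
theorem eulerBound_numberField (M : Type) [Field M] [NumberField M] : EulerBound M := by
  refine eulerBound_of_heightOne M ?_
  obtain ⟨C, -, hC⟩ := exists_zeta_le_of M (fun s hs => summable_absNorm_rpow M hs)
    (fun s hs => tsum_absNorm_rpow_eq_dedekindZeta M hs)
  exact ⟨C, fun s hs1 hs2 T => (prod_one_sub_inv_le_zeta M hs1 T).trans (hC s hs1 hs2)⟩

/-- **N4b**: the split bound statement. -/
theorem splitBoundStatement {p : ℕ} [Fact p.Prime] : SplitBoundStatement p :=
  splitBound_of_eulerBound (fun M _ _ => eulerBound_numberField M)

end Fermat.Agent.S14
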