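/-
S14 piece N7 (helper92): the local computation for Thaine's unit.

`thaineElt p ζ = ∏_e (1 + ζ^e)^(e⁻²)` is a unit in the `ω²`-eigenspace, and no `thaineElt^k · w^p`
with `p ∤ k` is a local `p`-th power (mod `π³`) at the prime above `p`.

Method: the ring homomorphism `Φ : 𝓞 K → 𝔽_p[T, ε]/(T², ε²)`, `ζ ↦ 1 + T + ε`, kills `π³`
(`π = ζ - 1 ↦ T + ε`), `p`-th powers go to constants, and the logarithmic derivative
`δ u = snd (Φ u) / fst (Φ u)` is a homomorphism with `δ (thaineElt) = -T/4 ≠ 0`.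
-/
import Fermat.Agent.S14.Plan

set_option autoImplicit false
set_option linter.unusedSectionVars false
set_option linter.unusedSimpArgs false
set_option linter.unusedVariables false

namespace Fermat.Agent.S14

open Polynomial NumberField IsDedekindDomain

noncomputable section

/-! ### The target ring `𝔽_p[T, ε]/(T², ε²)` -/

/-- `𝔽_p[T]/(T²)`. -/
abbrev TLD1 (p : ℕ) : Type := DualNumber (ZMod p)

/-- `𝔽_p[T, ε]/(T², ε²)`. -/
abbrev TLD2 (p : ℕ) : Type := DualNumber (TLD1 p)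

/-- The class of `T` in `TLD1`. -/
def tlT (p : ℕ) : TLD1 p := TrivSqZeroExt.inr 1

/-- The element `s = T + ε` (the image of `ζ - 1`). -/
def tlS (p : ℕ) : TLD2 p := TrivSqZeroExt.inl (tlT p) + TrivSqZeroExt.inr 1

/-- The image of `ζ`: `1 + T + ε`. -/
def tlZeta (p : ℕ) : TLD2 p := 1 + tlS p

lemma tlT_sq (p : ℕ) : tlT p * tlT p = 0 := by
  ext <;> simp [tlT]

lemma tlS_cube (p : ℕ) : tlS p ^ 3 = 0 := by
  have h := tlT_sq p
  ext
  · simp [tlS, pow_succ, h]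
  · simp [tlS, pow_succ, h]
  · simp [tlS, pow_succ, h]
  · simp [tlS, pow_succ, h]

lemma tlS_pow (p : ℕ) {n : ℕ} (hn : 3 ≤ n) : tlS p ^ n = 0 := by
  obtain ⟨m, rfl⟩ := Nat.exists_eq_add_of_le hn
  rw [pow_add, tlS_cube, zero_mul]

variable (p : ℕ) [hp : Fact p.Prime]

lemma tl_aeval_cyclotomic (h5 : 5 ≤ p) : aeval (tlZeta p) (cyclotomic p ℤ) = 0 := by
  have h1 : cyclotomic p (ZMod p) = (X - 1) ^ (p - 1) := by
    have := cyclotomic_mul_prime_pow_eq (ZMod p) (p := p) (m := 1) (by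
      intro h; exact hp.out.one_lt.ne' (Nat.dvd_one.mp h)) (k := 1) one_pos
    simpa [cyclotomic_one] using this
  have h2 : aeval (tlZeta p) (cyclotomic p ℤ) = aeval (tlZeta p) (cyclotomic p (ZMod p)) := by
    rw [← map_cyclotomic_int p (ZMod p), aeval_def, aeval_def, eval₂_map]
    congr 1
  rw [h2, h1]
  simp [tlZeta, tlS_pow p (by omega : 3 ≤ p - 1)]

variable {K : Type} [Field K] [NumberField K] [IsCyclotomicExtension {p} ℚ K]

lemma tlPhi_aux (h5 : 5 ≤ p) {ζ : K} (hζ : IsPrimitiveRoot ζ p) :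
    aeval (tlZeta p) (minpoly ℤ hζ.integralPowerBasis.gen) = 0 := by
  rw [hζ.integralPowerBasis_gen, ← RingOfIntegers.minpoly_coe]
  have h1 : ((hζ.toInteger : 𝓞 K) : K) = ζ := rfl
  rw [h1, ← cyclotomic_eq_minpoly hζ hp.out.pos]
  exact tl_aeval_cyclotomic p h5

/-- The ring homomorphism `𝓞 K → 𝔽_p[T, ε]/(T², ε²)`, `ζ ↦ 1 + T + ε`. -/
def tlPhi (h5 : 5 ≤ p) {ζ : K} (hζ : IsPrimitiveRoot ζ p) : 𝓞 K →ₐ[ℤ] TLD2 p :=
  hζ.integralPowerBasis.lift (tlZeta p) (tlPhi_aux p h5 hζ)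

lemma tlPhi_zeta (h5 : 5 ≤ p) {ζ : K} (hζ : IsPrimitiveRoot ζ p) :
    tlPhi p h5 hζ hζ.toInteger = tlZeta p := by
  have := hζ.integralPowerBasis.lift_gen (tlZeta p) (tlPhi_aux p h5 hζ)
  rw [hζ.integralPowerBasis_gen] at this
  exact this

lemma tlPhi_sub_one (h5 : 5 ≤ p) {ζ : K} (hζ : IsPrimitiveRoot ζ p) :
    tlPhi p h5 hζ (hζ.toInteger - 1) = tlS p := by
  rw [map_sub, tlPhi_zeta, map_one, tlZeta, add_sub_cancel_left]

lemma tlPhi_natCast_p (h5 : 5 ≤ p) {ζ : K} (hζ : IsPrimitiveRoot ζ p) :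
    tlPhi p h5 hζ (p : 𝓞 K) = 0 := by
  rw [map_natCast, ← map_natCast (algebraMap (ZMod p) (TLD2 p)), ZMod.natCast_self, map_zero]

/-! ### Frobenius collapses `TLD2` to the constants -/

lemma tl_nilp (n : TLD2 p) (h : n.fst.fst = 0) : n ^ 3 = 0 := by
  ext
  · simp [pow_succ, h]
  · simp [pow_succ, h]
  · simp [pow_succ, h]
  · simp [pow_succ, h]

@[simp] lemma tl_algebraMap_fst_fst (a : ZMod p) :
    (algebraMap (ZMod p) (TLD2 p) a).fst.fst = a := rfl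

@[simp] lemma tl_algebraMap_fst_snd (a : ZMod p) :
    (algebraMap (ZMod p) (TLD2 p) a).fst.snd = 0 := rfl

@[simp] lemma tl_algebraMap_snd (a : ZMod p) :
    (algebraMap (ZMod p) (TLD2 p) a).snd = 0 := rfl

instance tl_charP : CharP (TLD2 p) p :=
  charP_of_injective_algebraMap (algebraMap (ZMod p) (TLD2 p)).injective p

lemma tl_pow_p (h3 : 3 ≤ p) (y : TLD2 p) :
    y ^ p = algebraMap (ZMod p) (TLD2 p) y.fst.fst := by
  have hy : y = algebraMap (ZMod p) (TLD2 p) y.fst.fst +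
      (y - algebraMap (ZMod p) (TLD2 p) y.fst.fst) := by ring
  have hn : (y - algebraMap (ZMod p) (TLD2 p) y.fst.fst) ^ p = 0 := by
    refine pow_eq_zero_of_le h3 (tl_nilp p _ ?_)
    rw [TrivSqZeroExt.fst_sub, TrivSqZeroExt.fst_sub, tl_algebraMap_fst_fst, sub_self]
  have key := add_pow_char (R := TLD2 p) (p := p)
    (algebraMap (ZMod p) (TLD2 p) y.fst.fst) (y - algebraMap (ZMod p) (TLD2 p) y.fst.fst)
  rw [← hy, hn, add_zero, ← map_pow, ZMod.pow_card] at key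
  exact key

/-! ### Components of products and powers of `tlZeta` -/

lemma tl_mul_ff (x y : TLD2 p) : (x * y).fst.fst = x.fst.fst * y.fst.fst := by
  simp

lemma tl_mul_fs (x y : TLD2 p) :
    (x * y).fst.snd = x.fst.fst * y.fst.snd + x.fst.snd * y.fst.fst := by
  simp [mul_comm]

lemma tl_mul_sf (x y : TLD2 p) :
    (x * y).snd.fst = x.fst.fst * y.snd.fst + x.snd.fst * y.fst.fst := by
  simp [mul_comm]

lemma tl_mul_ss (x y : TLD2 p) :
    (x * y).snd.snd = x.fst.fst * y.snd.snd + x.fst.snd * y.snd.fst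
      + x.snd.fst * y.fst.snd + x.snd.snd * y.fst.fst := by
  simp [mul_comm]
  ring

lemma tlZeta_ff : (tlZeta p).fst.fst = 1 := by simp [tlZeta, tlS, tlT]
lemma tlZeta_fs : (tlZeta p).fst.snd = 1 := by simp [tlZeta, tlS, tlT]
lemma tlZeta_sf : (tlZeta p).snd.fst = 1 := by simp [tlZeta, tlS, tlT]
lemma tlZeta_ss : (tlZeta p).snd.snd = 0 := by simp [tlZeta, tlS, tlT]

lemma tlZeta_pow_ff (n : ℕ) : (tlZeta p ^ n).fst.fst = 1 := by
  induction n with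
  | zero => simp
  | succ n ih => rw [pow_succ, tl_mul_ff, ih, tlZeta_ff, mul_one]

lemma tlZeta_pow_fs (n : ℕ) : (tlZeta p ^ n).fst.snd = n := by
  induction n with
  | zero => simp
  | succ n ih =>
    rw [pow_succ, tl_mul_fs, ih, tlZeta_pow_ff, tlZeta_ff, tlZeta_fs]
    push_cast; ring

lemma tlZeta_pow_sf (n : ℕ) : (tlZeta p ^ n).snd.fst = n := by
  induction n with
  | zero => simp
  | succ n ih =>
    rw [pow_succ, tl_mul_sf, ih, tlZeta_pow_ff, tlZeta_ff, tlZeta_sf]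
    push_cast; ring

lemma tlZeta_pow_ss (n : ℕ) : (tlZeta p ^ n).snd.snd = (n : ZMod p) * ((n : ZMod p) - 1) := by
  induction n with
  | zero => simp
  | succ n ih =>
    rw [pow_succ, tl_mul_ss, ih, tlZeta_pow_ff, tlZeta_pow_fs, tlZeta_pow_sf, tlZeta_ff,
      tlZeta_fs, tlZeta_sf, tlZeta_ss]
    push_cast; ring

/-! ### The logarithmic derivative -/

/-- The logarithmic derivative `snd (Φ u) / fst (Φ u)`. -/
def tlDelta (h5 : 5 ≤ p) {ζ : K} (hζ : IsPrimitiveRoot ζ p) (u : (𝓞 K)ˣ) : TLD1 p :=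
  (tlPhi p h5 hζ (u : 𝓞 K)).snd * (tlPhi p h5 hζ ((u⁻¹ : (𝓞 K)ˣ) : 𝓞 K)).fst

lemma tlPhi_fst_mul_inv (h5 : 5 ≤ p) {ζ : K} (hζ : IsPrimitiveRoot ζ p) (u : (𝓞 K)ˣ) :
    (tlPhi p h5 hζ (u : 𝓞 K)).fst * (tlPhi p h5 hζ ((u⁻¹ : (𝓞 K)ˣ) : 𝓞 K)).fst = 1 := by
  rw [← TrivSqZeroExt.fst_mul, ← map_mul, ← Units.val_mul, mul_inv_cancel]
  simp

lemma tlDelta_mul (h5 : 5 ≤ p) {ζ : K} (hζ : IsPrimitiveRoot ζ p) (u v : (𝓞 K)ˣ) :
    tlDelta p h5 hζ (u * v) = tlDelta p h5 hζ u + tlDelta p h5 hζ v := by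
  have hu := tlPhi_fst_mul_inv p h5 hζ u
  have hv := tlPhi_fst_mul_inv p h5 hζ v
  simp only [tlDelta, mul_inv, Units.val_mul, map_mul, TrivSqZeroExt.fst_mul,
    TrivSqZeroExt.snd_mul, smul_eq_mul, MulOpposite.smul_eq_mul_unop, MulOpposite.unop_op]
  linear_combination
    ((tlPhi p h5 hζ (v : 𝓞 K)).snd * (tlPhi p h5 hζ ((v⁻¹ : (𝓞 K)ˣ) : 𝓞 K)).fst) * hu
    + ((tlPhi p h5 hζ (u : 𝓞 K)).snd * (tlPhi p h5 hζ ((u⁻¹ : (𝓞 K)ˣ) : 𝓞 K)).fst) * hv

lemma tlDelta_one (h5 : 5 ≤ p) {ζ : K} (hζ : IsPrimitiveRoot ζ p) :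
    tlDelta p h5 hζ 1 = 0 := by
  simp [tlDelta]

/-- The logarithmic derivative as a monoid homomorphism. -/
def tlDeltaHom (h5 : 5 ≤ p) {ζ : K} (hζ : IsPrimitiveRoot ζ p) :
    (𝓞 K)ˣ →* Multiplicative (TLD1 p) where
  toFun u := Multiplicative.ofAdd (tlDelta p h5 hζ u)
  map_one' := by simp [tlDelta_one]
  map_mul' u v := by simp [tlDelta_mul, ofAdd_add]

lemma tlDelta_pow (h5 : 5 ≤ p) {ζ : K} (hζ : IsPrimitiveRoot ζ p) (u : (𝓞 K)ˣ) (n : ℕ) :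
    tlDelta p h5 hζ (u ^ n) = n • tlDelta p h5 hζ u := by
  have := map_pow (tlDeltaHom p h5 hζ) u n
  simpa [tlDeltaHom] using congrArg Multiplicative.toAdd this

lemma tlDelta_prod (h5 : 5 ≤ p) {ζ : K} (hζ : IsPrimitiveRoot ζ p) {ι : Type*} (s : Finset ι)
    (f : ι → (𝓞 K)ˣ) :
    tlDelta p h5 hζ (∏ i ∈ s, f i) = ∑ i ∈ s, tlDelta p h5 hζ (f i) := by
  classical
  induction s using Finset.induction_on with
  | empty => simp [tlDelta_one]
  | insert a s ha ih => rw [Finset.prod_insert ha, Finset.sum_insert ha, tlDelta_mul, ih]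

lemma tlDelta_eq_of_mul_eq (h5 : 5 ≤ p) {ζ : K} (hζ : IsPrimitiveRoot ζ p) (u : (𝓞 K)ˣ)
    (q : TLD1 p)
    (h : (tlPhi p h5 hζ (u : 𝓞 K)).snd = q * (tlPhi p h5 hζ (u : 𝓞 K)).fst) :
    tlDelta p h5 hζ u = q := by
  have hu := tlPhi_fst_mul_inv p h5 hζ u
  rw [tlDelta, h, mul_assoc, hu, mul_one]

lemma tlDelta_eq_zero_of_snd (h5 : 5 ≤ p) {ζ : K} (hζ : IsPrimitiveRoot ζ p) (u : (𝓞 K)ˣ)
    (h : (tlPhi p h5 hζ (u : 𝓞 K)).snd = 0) : tlDelta p h5 hζ u = 0 := by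
  rw [tlDelta, h, zero_mul]

/-! ### The cyclotomic units `1 + ζ^m` and Thaine's unit -/

lemma tl_coprime_two (h3 : 3 ≤ p) : Nat.Coprime 2 p := by
  rw [Nat.coprime_comm, Nat.Prime.coprime_iff_not_dvd hp.out]
  intro h
  have := Nat.le_of_dvd (by norm_num) h
  omega

lemma tl_isUnit_one_add (h3 : 3 ≤ p) {ζ : 𝓞 K} (hζ : IsPrimitiveRoot ζ p) (m : ℕ)
    (hm : m.Coprime p) : IsUnit (1 + ζ ^ m) := by
  have h1 : IsPrimitiveRoot (ζ ^ m) p := hζ.pow_of_coprime m hm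
  have h2 := h1.geom_sum_isUnit hp.out.two_le (tl_coprime_two p h3)
  simpa [Finset.sum_range_succ] using h2

lemma tl_val_coprime (e : (ZMod p)ˣ) : ((e : ZMod p).val).Coprime p :=
  ZMod.val_coe_unit_coprime e

/-- The unit `1 + ζ^e`. -/
def tlUnit (h3 : 3 ≤ p) {ζ : 𝓞 K} (hζ : IsPrimitiveRoot ζ p) (e : (ZMod p)ˣ) : (𝓞 K)ˣ :=
  (tl_isUnit_one_add p h3 hζ (e : ZMod p).val (tl_val_coprime p e)).unit

@[simp] lemma tlUnit_val (h3 : 3 ≤ p) {ζ : 𝓞 K} (hζ : IsPrimitiveRoot ζ p) (e : (ZMod p)ˣ) :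
    ((tlUnit p h3 hζ e : (𝓞 K)ˣ) : 𝓞 K) = 1 + ζ ^ (e : ZMod p).val := rfl

/-- Thaine's unit, as a unit. -/
def tlEta (h3 : 3 ≤ p) {ζ : 𝓞 K} (hζ : IsPrimitiveRoot ζ p) : (𝓞 K)ˣ :=
  ∏ e : (ZMod p)ˣ, tlUnit p h3 hζ e ^ (((e⁻¹ : (ZMod p)ˣ) : ZMod p).val ^ 2)

lemma tlEta_val (h3 : 3 ≤ p) {ζ : 𝓞 K} (hζ : IsPrimitiveRoot ζ p) :
    ((tlEta p h3 hζ : (𝓞 K)ˣ) : 𝓞 K) = thaineElt p ζ := by
  rw [tlEta, thaineElt, Units.coe_prod]
  refine Finset.prod_congr rfl fun e _ => ?_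
  rw [Units.val_pow_eq_pow_val, tlUnit_val]

/-! ### The logarithmic derivative of Thaine's unit -/

lemma tl_two_ne_zero (h3 : 3 ≤ p) : (2 : ZMod p) ≠ 0 := by
  intro h
  have h2 : ((2 : ℕ) : ZMod p) = 0 := by exact_mod_cast h
  rw [ZMod.natCast_eq_zero_iff] at h2
  have := Nat.le_of_dvd (by norm_num) h2
  omega

lemma tl_sum_units (h3 : 3 ≤ p) : ∑ e : (ZMod p)ˣ, (e : ZMod p) = 0 := by
  have h2 := tl_two_ne_zero p h3
  set g : (ZMod p)ˣ := Units.mk0 2 h2 with hg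
  have h := Fintype.sum_equiv (Equiv.mulLeft g) (fun e : (ZMod p)ˣ => ((g * e : (ZMod p)ˣ) : ZMod p))
    (fun e => (e : ZMod p)) (fun e => rfl)
  simp only [Units.val_mul, ← Finset.mul_sum] at h
  have hg2 : (g : ZMod p) = 2 := rfl
  rw [hg2] at h
  have : (∑ e : (ZMod p)ˣ, (e : ZMod p)) = 0 := by linear_combination h
  exact this

lemma tl_sum_units_inv (h3 : 3 ≤ p) : ∑ e : (ZMod p)ˣ, ((e⁻¹ : (ZMod p)ˣ) : ZMod p) = 0 := by
  rw [← tl_sum_units p h3]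
  exact Fintype.sum_equiv (Equiv.inv _) _ _ (fun e => rfl)

lemma tl_card_units : ((Fintype.card (ZMod p)ˣ : ℕ) : ZMod p) = -1 := by
  rw [ZMod.card_units_eq_totient, Nat.totient_prime hp.out]
  have h1 : 1 ≤ p := hp.out.one_lt.le
  rw [Nat.cast_sub h1, ZMod.natCast_self]
  simp

/-- The value of the logarithmic derivative on `1 + ζ^m`. -/
def tlQ (m : ZMod p) : TLD1 p :=
  TrivSqZeroExt.inl (m / 2) + TrivSqZeroExt.inr (m ^ 2 / 4 - m / 2)

lemma tlPhi_unit (h5 : 5 ≤ p) {ζ : K} (hζ : IsPrimitiveRoot ζ p) (e : (ZMod p)ˣ) :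
    tlPhi p h5 hζ (tlUnit p (by omega) hζ.toInteger_isPrimitiveRoot e : 𝓞 K) =
      1 + tlZeta p ^ (e : ZMod p).val := by
  rw [tlUnit_val, map_add, map_one, map_pow, tlPhi_zeta]

lemma tlDelta_unit (h5 : 5 ≤ p) {ζ : K} (hζ : IsPrimitiveRoot ζ p) (e : (ZMod p)ˣ) :
    tlDelta p h5 hζ (tlUnit p (by omega) hζ.toInteger_isPrimitiveRoot e) = tlQ p (e : ZMod p) := by
  have h2 := tl_two_ne_zero p (by omega)
  have h4 : (4 : ZMod p) ≠ 0 := by
    have : (4 : ZMod p) = 2 * 2 := by norm_num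
    rw [this]; exact mul_ne_zero h2 h2
  have hm : (((e : ZMod p).val : ℕ) : ZMod p) = (e : ZMod p) := ZMod.natCast_zmod_val _
  apply tlDelta_eq_of_mul_eq
  rw [tlPhi_unit]
  ext
  · simp only [TrivSqZeroExt.snd_add, TrivSqZeroExt.fst_add, TrivSqZeroExt.fst_mul,
      TrivSqZeroExt.snd_one, TrivSqZeroExt.fst_one, TrivSqZeroExt.fst_zero, zero_add,
      tlZeta_pow_sf, tlZeta_pow_ff, tlQ, TrivSqZeroExt.fst_inl, TrivSqZeroExt.fst_inr, add_zero, hm]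
    field_simp
    ring
  · simp only [TrivSqZeroExt.snd_add, TrivSqZeroExt.fst_add, TrivSqZeroExt.snd_mul,
      TrivSqZeroExt.snd_one, TrivSqZeroExt.fst_one, TrivSqZeroExt.snd_zero, zero_add,
      tlZeta_pow_ss, tlZeta_pow_ff, tlZeta_pow_fs, tlQ, TrivSqZeroExt.fst_inl,
      TrivSqZeroExt.fst_inr, TrivSqZeroExt.snd_inl, TrivSqZeroExt.snd_inr, add_zero, hm,
      smul_eq_mul, MulOpposite.smul_eq_mul_unop, MulOpposite.unop_op]
    field_simp
    ring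

lemma tlDelta_eta_snd (h5 : 5 ≤ p) {ζ : K} (hζ : IsPrimitiveRoot ζ p) :
    (tlDelta p h5 hζ (tlEta p (by omega) hζ.toInteger_isPrimitiveRoot)).snd = -(1 / 4) := by
  have h2 := tl_two_ne_zero p (by omega)
  have h4 : (4 : ZMod p) ≠ 0 := by
    have : (4 : ZMod p) = 2 * 2 := by norm_num
    rw [this]; exact mul_ne_zero h2 h2
  rw [tlEta, tlDelta_prod, TrivSqZeroExt.snd_sum]
  have hterm : ∀ e : (ZMod p)ˣ,
      (tlDelta p h5 hζ (tlUnit p (by omega) hζ.toInteger_isPrimitiveRoot e ^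
        (((e⁻¹ : (ZMod p)ˣ) : ZMod p).val ^ 2))).snd
        = 1 / 4 - ((e⁻¹ : (ZMod p)ˣ) : ZMod p) / 2 := by
    intro e
    have he : (e : ZMod p) ≠ 0 := e.ne_zero
    rw [tlDelta_pow, tlDelta_unit, TrivSqZeroExt.snd_smul, nsmul_eq_mul, Nat.cast_pow,
      ZMod.natCast_zmod_val, tlQ, TrivSqZeroExt.snd_add, TrivSqZeroExt.snd_inl,
      TrivSqZeroExt.snd_inr, zero_add, Units.val_inv_eq_inv_val]
    field_simp
  rw [Finset.sum_congr rfl (fun e _ => hterm e), Finset.sum_sub_distrib, Finset.sum_const,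
    ← Finset.sum_div, tl_sum_units_inv p (by omega), zero_div, sub_zero, Finset.card_univ,
    nsmul_eq_mul, tl_card_units]
  ring

lemma tlDelta_eta_ne_zero (h5 : 5 ≤ p) {ζ : K} (hζ : IsPrimitiveRoot ζ p) :
    tlDelta p h5 hζ (tlEta p (by omega) hζ.toInteger_isPrimitiveRoot) ≠ 0 := by
  intro h
  have h1 := tlDelta_eta_snd p h5 hζ
  rw [h, TrivSqZeroExt.snd_zero] at h1
  have h2 := tl_two_ne_zero p (by omega)
  have h4 : (4 : ZMod p) ≠ 0 := by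
    have : (4 : ZMod p) = 2 * 2 := by norm_num
    rw [this]; exact mul_ne_zero h2 h2
  have : (1 : ZMod p) / 4 = 0 := by
    have h5' : -((1 : ZMod p) / 4) = 0 := h1.symm
    exact neg_eq_zero.mp h5'
  rw [div_eq_zero_iff] at this
  rcases this with h | h
  · exact one_ne_zero h
  · exact h4 h

/-- If `p ∤ k`, then `Φ (η^k)` has nonzero `ε`-part. -/
lemma tlPhi_eta_pow_snd_ne_zero (h5 : 5 ≤ p) {ζ : K} (hζ : IsPrimitiveRoot ζ p) (k : ℕ)
    (hk : ¬ p ∣ k) :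
    (tlPhi p h5 hζ ((tlEta p (by omega) hζ.toInteger_isPrimitiveRoot ^ k : (𝓞 K)ˣ) : 𝓞 K)).snd
      ≠ 0 := by
  intro h
  have h1 := tlDelta_eq_zero_of_snd p h5 hζ _ h
  rw [tlDelta_pow] at h1
  have hk' : (k : ZMod p) ≠ 0 := by
    rwa [ne_eq, ZMod.natCast_eq_zero_iff]
  apply tlDelta_eta_ne_zero p h5 hζ
  have h3 : (k : ZMod p) • tlDelta p h5 hζ (tlEta p (by omega) hζ.toInteger_isPrimitiveRoot) = 0 := by
    rw [← h1, Nat.cast_smul_eq_nsmul]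
  rcases smul_eq_zero.mp h3 with h | h
  · exact absurd h hk'
  · exact h

/-! ### The prime above `p` -/

lemma tl_asIdeal_eq {ζ : K} (hζ : IsPrimitiveRoot ζ p) (v : HeightOneSpectrum (𝓞 K))
    (hv : (p : 𝓞 K) ∈ v.asIdeal) : v.asIdeal = Ideal.span {hζ.toInteger - 1} := by
  have hass := IsCyclotomicExtension.Rat.associated_zeta_sub_one_pow_prime p hζ
  have h1 : (hζ.toInteger - 1) ^ (p - 1) ∈ v.asIdeal := by
    obtain ⟨u, hu⟩ := hass.symm
    rw [← hu]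
    exact Ideal.mul_mem_right _ _ hv
  have h2 : hζ.toInteger - 1 ∈ v.asIdeal := v.isPrime.mem_of_pow_mem _ h1
  have hprime : (Ideal.span {hζ.toInteger - 1}).IsPrime :=
    IsCyclotomicExtension.Rat.isPrime_span_zeta_sub_one' p hζ
  have hne : Ideal.span {hζ.toInteger - 1} ≠ ⊥ := by
    rw [ne_eq, Ideal.span_singleton_eq_bot]
    exact hζ.zeta_sub_one_prime'.ne_zero
  have hmax : (Ideal.span {hζ.toInteger - 1}).IsMaximal := hprime.isMaximal hne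
  exact (hmax.eq_of_le v.isPrime.ne_top ((Ideal.span_singleton_le_iff_mem _).mpr h2)).symm

lemma tlPhi_mem_cube (h5 : 5 ≤ p) {ζ : K} (hζ : IsPrimitiveRoot ζ p)
    (v : HeightOneSpectrum (𝓞 K)) (hv : (p : 𝓞 K) ∈ v.asIdeal) (r : 𝓞 K)
    (hr : r ∈ v.asIdeal ^ 3) : tlPhi p h5 hζ r = 0 := by
  rw [tl_asIdeal_eq p hζ v hv, Ideal.span_singleton_pow, Ideal.mem_span_singleton] at hr
  obtain ⟨r', rfl⟩ := hr
  rw [map_mul, map_pow, tlPhi_sub_one, tlS_cube, zero_mul]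

lemma tlPhi_ff_ne_zero (h5 : 5 ≤ p) {ζ : K} (hζ : IsPrimitiveRoot ζ p)
    (v : HeightOneSpectrum (𝓞 K)) (hv : (p : 𝓞 K) ∈ v.asIdeal) (d : 𝓞 K)
    (hd : d ∉ v.asIdeal) : (tlPhi p h5 hζ d).fst.fst ≠ 0 := by
  have hmax : v.asIdeal.IsMaximal := v.isMaximal
  obtain ⟨y, i, hi, hyi⟩ := hmax.exists_inv hd
  rw [tl_asIdeal_eq p hζ v hv, Ideal.mem_span_singleton] at hi
  obtain ⟨i', rfl⟩ := hi
  have h := congrArg (fun x => (tlPhi p h5 hζ x).fst.fst) hyi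
  simp only [map_add, map_mul, map_one, tlPhi_sub_one, TrivSqZeroExt.fst_add, tl_mul_ff,
    TrivSqZeroExt.fst_one] at h
  have hs : (tlS p).fst.fst = 0 := by simp [tlS, tlT]
  rw [hs, zero_mul, add_zero] at h
  intro h0
  rw [h0, mul_zero] at h
  exact zero_ne_one h

/-! ### The local statement -/

lemma tl_valuation_unit (v : HeightOneSpectrum (𝓞 K)) (u : (𝓞 K)ˣ) :
    v.valuation K (algebraMap (𝓞 K) K (u : 𝓞 K)) = 1 := by
  rw [HeightOneSpectrum.valuation_eq_one_iff_notMem]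
  intro h
  exact v.isPrime.ne_top (Ideal.eq_top_of_isUnit_mem _ h u.isUnit)

/-- **N7, local part**: `η^k · w^p` is not a `p`-th power modulo `π³` if `p ∤ k`. -/
theorem tl_not_locPow (h5 : 5 ≤ p) {ζ : K} (hζ : IsPrimitiveRoot ζ p) (k : ℕ) (hk : ¬ p ∣ k)
    (w : K) (hw : w ≠ 0) (v : HeightOneSpectrum (𝓞 K)) (hv : (p : 𝓞 K) ∈ v.asIdeal) :
    ¬ LocPow p v ((((tlEta p (by omega) hζ.toInteger_isPrimitiveRoot : (𝓞 K)ˣ) : 𝓞 K) : K) ^ k
      * w ^ p) := by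
  rintro ⟨b, hb, hval⟩
  set η : (𝓞 K)ˣ := tlEta p (by omega) hζ.toInteger_isPrimitiveRoot with hη
  have hp0 : p ≠ 0 := hp.out.ne_zero
  set c : K := w / b with hc
  have hc0 : c ≠ 0 := div_ne_zero hw hb
  have hexp : (WithZero.exp (-3 : ℤ) : WithZero (Multiplicative ℤ)) < 1 := by
    rw [← WithZero.exp_zero, WithZero.exp_lt_exp]; norm_num
  -- rewrite the hypothesis
  have hval' : v.valuation K (((η : 𝓞 K) : K) ^ k * c ^ p - 1) ≤ WithZero.exp (-3 : ℤ) := by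
    have : ((η : 𝓞 K) : K) ^ k * w ^ p / b ^ p = ((η : 𝓞 K) : K) ^ k * c ^ p := by
      rw [hc, div_pow, mul_div_assoc]
    rwa [this] at hval
  -- `c` is a `v`-unit
  have h1 : v.valuation K (((η : 𝓞 K) : K) ^ k * c ^ p) = 1 := by
    have := Valuation.map_eq_of_sub_lt (v.valuation K) (x := 1)
      (y := ((η : 𝓞 K) : K) ^ k * c ^ p) (by rw [map_one]; exact lt_of_le_of_lt hval' hexp)
    rw [this, map_one]
  have hηv : v.valuation K ((η : 𝓞 K) : K) = 1 := tl_valuation_unit v η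
  have hcv : v.valuation K c = 1 := by
    rw [map_mul, map_pow, map_pow, hηv, one_pow, one_mul] at h1
    exact (pow_eq_one_iff_of_nonneg zero_le hp0).mp h1
  -- write `c = n / d` with `d ∉ v`
  obtain ⟨n, d, hnd⟩ := v.exists_primeCompl_mul_eq_of_integer c hcv.le
  have hd : (d : 𝓞 K) ∉ v.asIdeal := d.2
  have hdv : v.valuation K (algebraMap (𝓞 K) K (d : 𝓞 K)) = 1 :=
    v.valuation_eq_one_iff_notMem.mpr hd
  -- the element `r = η^k n^p - d^p` lies in `v³`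
  set r : 𝓞 K := (η : 𝓞 K) ^ k * n ^ p - (d : 𝓞 K) ^ p with hr
  have hrK : algebraMap (𝓞 K) K r =
      (algebraMap (𝓞 K) K (d : 𝓞 K)) ^ p * (((η : 𝓞 K) : K) ^ k * c ^ p - 1) := by
    rw [hr, map_sub, map_mul, map_pow, map_pow, map_pow, ← hnd]
    ring
  have hrv : v.valuation K (algebraMap (𝓞 K) K r) ≤ WithZero.exp (-3 : ℤ) := by
    rw [hrK, map_mul, map_pow, hdv, one_pow, one_mul]
    exact hval'
  have hrmem : r ∈ v.asIdeal ^ 3 := by
    rw [← HeightOneSpectrum.intValuation_le_pow_iff_mem, ← HeightOneSpectrum.valuation_of_algebraMap (K := K)]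
    exact_mod_cast hrv
  have hΦr := tlPhi_mem_cube p h5 hζ v hv r hrmem
  rw [hr, map_sub, map_mul, map_pow, map_pow, map_pow, sub_eq_zero, tl_pow_p p (by omega),
    tl_pow_p p (by omega), ← map_pow] at hΦr
  -- constants
  set nb : ZMod p := (tlPhi p h5 hζ n).fst.fst with hnb
  set db : ZMod p := (tlPhi p h5 hζ (d : 𝓞 K)).fst.fst with hdb
  have hdb0 : db ≠ 0 := tlPhi_ff_ne_zero p h5 hζ v hv d hd
  have hff := congrArg (fun x : TLD2 p => x.fst.fst) hΦr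
  simp only [tl_mul_ff, tl_algebraMap_fst_fst] at hff
  have hnb0 : nb ≠ 0 := by
    intro h0
    rw [h0, mul_zero] at hff
    exact hdb0 hff.symm
  have hsnd := congrArg (fun x : TLD2 p => x.snd) hΦr
  simp only [TrivSqZeroExt.snd_mul, tl_algebraMap_snd, smul_zero, zero_add,
    MulOpposite.smul_eq_mul_unop, MulOpposite.unop_op] at hsnd
  -- `hsnd : Φ(η^k).snd * (algebraMap nb).fst = 0`
  have hΦ0 : (tlPhi p h5 hζ ((η : 𝓞 K) ^ k)).snd = 0 := by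
    have h2 : (algebraMap (ZMod p) (TLD2 p) nb).fst = algebraMap (ZMod p) (TLD1 p) nb := rfl
    rw [h2, mul_comm, ← Algebra.smul_def] at hsnd
    rcases smul_eq_zero.mp hsnd with h | h
    · exact absurd h hnb0
    · exact h
  have := tlPhi_eta_pow_snd_ne_zero p h5 hζ k hk
  rw [Units.val_pow_eq_pow_val] at this
  exact this hΦ0

/-! ### The eigenvector property -/

lemma tl_zpow_of_modEq {x : K} (hx : x ≠ 0) {A B : ℕ} (h : (A : ZMod p) = (B : ZMod p)) :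
    ∃ m : ℤ, x ^ A = x ^ B * (x ^ m) ^ p := by
  have hdvd : (p : ℤ) ∣ (A : ℤ) - (B : ℤ) := by
    have h1 : (((A : ℤ) - (B : ℤ) : ℤ) : ZMod p) = 0 := by
      push_cast
      rw [h, sub_self]
    exact (ZMod.intCast_zmod_eq_zero_iff_dvd _ _).mp h1
  obtain ⟨m, hm⟩ := hdvd
  refine ⟨m, ?_⟩
  have hA : (A : ℤ) = B + m * p := by rw [mul_comm]; linarith
  rw [← zpow_natCast x A, hA, zpow_add₀ hx, zpow_natCast, zpow_mul, zpow_natCast]

lemma tl_pow_val_mul {ζ : K} (hζ : IsPrimitiveRoot ζ p) (k : ℕ) (hk : k.Coprime p)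
    (e : (ZMod p)ˣ) :
    (ζ ^ k) ^ (e : ZMod p).val = ζ ^ ((ZMod.unitOfCoprime k hk * e : (ZMod p)ˣ) : ZMod p).val := by
  rw [← pow_mul]
  have h1 : ζ ^ p = 1 := hζ.pow_eq_one
  rw [pow_eq_pow_mod _ h1]
  congr 1
  rw [← ZMod.val_natCast]
  congr 1
  push_cast
  rw [ZMod.natCast_zmod_val, ZMod.coe_unitOfCoprime]

theorem tl_isOmegaSqEigen (h3 : 3 ≤ p) {ζ : 𝓞 K} (hζ : IsPrimitiveRoot ζ p) :
    IsOmegaSqEigen p (ζ : K) ((thaineElt p ζ : 𝓞 K) : K) := by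
  intro σ k hσ
  have hζK : IsPrimitiveRoot (ζ : K) p := hζ.map_of_injective RingOfIntegers.coe_injective
  have hk : k.Coprime p := by
    have h1 : IsPrimitiveRoot (σ (ζ : K)) p := hζK.map_of_injective σ.injective
    rw [hσ] at h1
    exact (hζK.pow_iff_coprime hp.out.pos k).mp h1
  set κ : (ZMod p)ˣ := ZMod.unitOfCoprime k hk with hκ
  -- the factors
  set U : (ZMod p)ˣ → K := fun e => 1 + (ζ : K) ^ (e : ZMod p).val with hU
  have hU0 : ∀ e, U e ≠ 0 := by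
    intro e
    have h1 := (tl_isUnit_one_add p h3 hζ (e : ZMod p).val (tl_val_coprime p e)).ne_zero
    intro h0
    apply h1
    apply RingOfIntegers.coe_injective
    simpa [hU] using h0
  have hη : ((thaineElt p ζ : 𝓞 K) : K) =
      ∏ e : (ZMod p)ˣ, U e ^ (((e⁻¹ : (ZMod p)ˣ) : ZMod p).val ^ 2) := by
    rw [thaineElt]
    simp only [map_prod, map_pow, map_add, map_one, hU]
  -- the image under `σ`
  have hση : σ ((thaineElt p ζ : 𝓞 K) : K) =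
      ∏ e : (ZMod p)ˣ, U e ^ (((κ * e⁻¹ : (ZMod p)ˣ) : ZMod p).val ^ 2) := by
    rw [hη, map_prod]
    have h1 : ∀ e : (ZMod p)ˣ, σ (U e ^ (((e⁻¹ : (ZMod p)ˣ) : ZMod p).val ^ 2)) =
        U (κ * e) ^ (((κ * (κ * e)⁻¹ : (ZMod p)ˣ) : ZMod p).val ^ 2) := by
      intro e
      have h2 : κ * (κ * e)⁻¹ = e⁻¹ := by
        rw [mul_inv_rev, mul_comm e⁻¹, ← mul_assoc, mul_inv_cancel, one_mul]
      rw [h2, map_pow]
      congr 1
      simp only [hU, map_add, map_one, map_pow, hσ]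
      rw [tl_pow_val_mul p hζK k hk e]
    rw [Finset.prod_congr rfl (fun e _ => h1 e)]
    exact Fintype.prod_equiv (Equiv.mulLeft κ) _ _ (fun e => rfl)
  -- compare exponents
  have hexp : ∀ e : (ZMod p)ˣ, ∃ m : ℤ,
      U e ^ (((κ * e⁻¹ : (ZMod p)ˣ) : ZMod p).val ^ 2) =
        U e ^ ((((e⁻¹ : (ZMod p)ˣ) : ZMod p).val ^ 2) * k ^ 2) * (U e ^ m) ^ p := by
    intro e
    have hκv : (κ : ZMod p) = k := ZMod.coe_unitOfCoprime k hk
    apply tl_zpow_of_modEq p (hU0 e)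
    simp only [Nat.cast_pow, Nat.cast_mul, ZMod.natCast_zmod_val, Units.val_mul, hκv]
    ring
  choose m hm using hexp
  refine ⟨∏ e : (ZMod p)ˣ, U e ^ m e, ?_⟩
  have hA : ∏ e : (ZMod p)ˣ, U e ^ ((((e⁻¹ : (ZMod p)ˣ) : ZMod p).val ^ 2) * k ^ 2) =
      ((thaineElt p ζ : 𝓞 K) : K) ^ k ^ 2 := by
    rw [hη, ← Finset.prod_pow]
    refine Finset.prod_congr rfl fun e _ => ?_
    rw [pow_mul]
  rw [hση, Finset.prod_congr rfl (fun e _ => hm e), Finset.prod_mul_distrib, Finset.prod_pow, hA]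

/-! ### The statement N7 -/

/-- **S14 piece N7**, with `p` explicit. -/
theorem tl_thaineLocalStatement (h5 : 5 ≤ p) : ThaineLocalStatement p := by
  intro K _ _ _ ζ hζ
  have hζK : IsPrimitiveRoot (ζ : K) p := hζ.map_of_injective RingOfIntegers.coe_injective
  have hint : hζK.toInteger = ζ := RingOfIntegers.ext rfl
  have hη : ((tlEta p (by omega) hζK.toInteger_isPrimitiveRoot : (𝓞 K)ˣ) : 𝓞 K) =
      thaineElt p ζ := by
    rw [tlEta_val, hint]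
  refine ⟨?_, tl_isOmegaSqEigen p (by omega) hζ, ?_⟩
  · rw [← hη]
    exact Units.isUnit _
  · intro k w hk hw v hv
    have := tl_not_locPow p h5 hζK k hk w hw v hv
    rwa [hη] at this

end

/-- **S14 piece N7**: `thaineElt` is a unit in the `ω²`-eigenspace, and no `thaineElt^k · w^p`
with `p ∤ k` is a local `p`-th power at the prime above `p`. -/
theorem thaineLocalStatement {p : ℕ} [Fact p.Prime] (h5 : 5 ≤ p) : ThaineLocalStatement p :=
  tl_thaineLocalStatement p h5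

end Fermat.Agent.S14
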