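import Mathlib

/-!
# S14, piece N6a-L: the projector-trace lemma

If the (unnormalised) `χ`-isotypic projector of a representation over `ZMod p` has trace `|G|`,
then the `χ`-eigenspace is a line, so two `χ`-eigenvectors are linearly dependent.
-/

set_option autoImplicit false

namespace Fermat.Agent.S14

open Module

/-- Abstract linear algebra: if the `χ`-isotypic projector has trace `1` (normalised),
the `χ`-eigenspace has dimension one, so two eigenvectors are linearly dependent. -/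
theorem unitsDim_eigen_dep {p : ℕ} [Fact p.Prime] {G : Type*} [Group G] [Fintype G]
    {V : Type*} [AddCommGroup V] [Module (ZMod p) V] [FiniteDimensional (ZMod p) V]
    (ρ : G →* Module.End (ZMod p) V) (χ : G →* (ZMod p)ˣ)
    (hG : ((Fintype.card G : ℕ) : ZMod p) ≠ 0)
    (hdim : Module.finrank (ZMod p) V < p)
    (htr : ∑ σ : G, (((χ σ)⁻¹ : (ZMod p)ˣ) : ZMod p) * LinearMap.trace (ZMod p) V (ρ σ)
      = (Fintype.card G : ZMod p))
    (v₁ v₂ : V) (h₁ : ∀ σ, ρ σ v₁ = ((χ σ : (ZMod p)ˣ) : ZMod p) • v₁)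
    (h₂ : ∀ σ, ρ σ v₂ = ((χ σ : (ZMod p)ˣ) : ZMod p) • v₂) :
    ∃ a b : ZMod p, (a ≠ 0 ∨ b ≠ 0) ∧ a • v₁ = b • v₂ := by
  classical
  obtain ⟨n, hn⟩ : ∃ n : ZMod p, n = (Fintype.card G : ZMod p) := ⟨_, rfl⟩
  rw [← hn] at hG htr
  obtain ⟨e, he⟩ : ∃ e : Module.End (ZMod p) V,
      e = ∑ σ : G, (((χ σ)⁻¹ : (ZMod p)ˣ) : ZMod p) • ρ σ := ⟨_, rfl⟩
  obtain ⟨P, hP⟩ : ∃ P : Module.End (ZMod p) V, P = n⁻¹ • e := ⟨_, rfl⟩
  have hcc : ∀ σ : G, (((χ σ)⁻¹ : (ZMod p)ˣ) : ZMod p) * ((χ σ : (ZMod p)ˣ) : ZMod p) = 1 := by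
    intro σ; rw [← Units.val_mul, inv_mul_cancel, Units.val_one]
  have hsum1 : ∑ _σ : G, (1 : ZMod p) = n := by simp [hn]
  have hτe : ∀ τ : G, ρ τ * e = ((χ τ : (ZMod p)ˣ) : ZMod p) • e := by
    intro τ
    rw [he, Finset.mul_sum, Finset.smul_sum]
    refine Fintype.sum_equiv (Equiv.mulLeft τ) _ _ (fun σ => ?_)
    simp only [Equiv.coe_mulLeft, map_mul, mul_inv_rev, Units.val_mul, mul_smul_comm, smul_smul]
    congr 1
    rw [mul_comm ((χ σ)⁻¹ : (ZMod p)ˣ).val, ← mul_assoc, ← Units.val_mul, mul_inv_cancel,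
      Units.val_one, one_mul]
  have hee : e * e = n • e := by
    have h1 : e * e = ∑ σ : G, (((χ σ)⁻¹ : (ZMod p)ˣ) : ZMod p) • (ρ σ * e) := by
      conv_lhs => rw [he]
      rw [Finset.sum_mul]
      simp only [smul_mul_assoc]
      rw [← he]
    rw [h1]
    simp only [hτe, smul_smul, hcc]
    rw [← Finset.sum_smul, hsum1]
  have hPP : P * P = P := by
    rw [hP, smul_mul_smul_comm, hee, smul_smul, mul_assoc, inv_mul_cancel₀ hG, mul_one]
  have hev : ∀ v : V, (∀ σ, ρ σ v = ((χ σ : (ZMod p)ˣ) : ZMod p) • v) → P v = v := by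
    intro v hv
    rw [hP, he, LinearMap.smul_apply, LinearMap.sum_apply]
    simp only [LinearMap.smul_apply, hv, smul_smul, hcc]
    rw [← Finset.sum_smul, smul_smul, hsum1, inv_mul_cancel₀ hG, one_smul]
  have htrP : LinearMap.trace (ZMod p) V P = 1 := by
    rw [hP, he, map_smul, map_sum]
    simp only [map_smul, smul_eq_mul]
    rw [htr, inv_mul_cancel₀ hG]
  have hproj : LinearMap.IsProj (LinearMap.range P) P := by
    refine ⟨fun x => LinearMap.mem_range_self _ _, ?_⟩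
    rintro x ⟨y, rfl⟩
    change (P * P) y = P y
    rw [hPP]
  have hfin : (Module.finrank (ZMod p) (LinearMap.range P) : ZMod p) = 1 := by
    rw [← hproj.trace, htrP]
  have hle : Module.finrank (ZMod p) (LinearMap.range P) < p :=
    lt_of_le_of_lt (Submodule.finrank_le _) hdim
  have hone : Module.finrank (ZMod p) (LinearMap.range P) = 1 := by
    have h1 : ((Module.finrank (ZMod p) (LinearMap.range P) : ℕ) : ZMod p) = ((1 : ℕ) : ZMod p) := by
      simpa using hfin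
    rw [ZMod.natCast_eq_natCast_iff'] at h1
    rwa [Nat.mod_eq_of_lt hle, Nat.mod_eq_of_lt (Fact.out : p.Prime).one_lt] at h1
  obtain ⟨w, hw0, hw⟩ := finrank_eq_one_iff'.mp hone
  have m₁ : v₁ ∈ LinearMap.range P := ⟨v₁, hev v₁ h₁⟩
  have m₂ : v₂ ∈ LinearMap.range P := ⟨v₂, hev v₂ h₂⟩
  obtain ⟨c₁, hc₁⟩ := hw ⟨v₁, m₁⟩
  obtain ⟨c₂, hc₂⟩ := hw ⟨v₂, m₂⟩
  have e₁ : v₁ = c₁ • (w : V) := by
    have := congrArg Subtype.val hc₁; simpa using this.symm
  have e₂ : v₂ = c₂ • (w : V) := by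
    have := congrArg Subtype.val hc₂; simpa using this.symm
  by_cases hc : c₁ = 0 ∧ c₂ = 0
  · refine ⟨1, 0, Or.inl one_ne_zero, ?_⟩
    rw [e₁, hc.1]; simp
  · refine ⟨c₂, c₁, ?_, ?_⟩
    · by_contra h
      rw [not_or, not_not, not_not] at h
      exact hc ⟨h.2, h.1⟩
    · rw [e₁, e₂, smul_smul, smul_smul, mul_comm]

end Fermat.Agent.S14
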