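import Mathlib

/-!
# S14, piece N6a / C-places: the action of `Gal(ℚ(ζ_p)/ℚ)` on the infinite places
-/

set_option autoImplicit false
set_option linter.style.haveILetI false
set_option linter.unusedSectionVars false

open NumberField

namespace Fermat.Agent.S14

section

variable {p : ℕ} [Fact p.Prime] (K : Type) [Field K] [NumberField K]
  [IsCyclotomicExtension {p} ℚ K]

include p in
theorem unitsPlaces_isGalois : IsGalois ℚ K :=
  IsCyclotomicExtension.isGalois {p} ℚ K

include p in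
theorem unitsPlaces_comm (σ τ : K ≃ₐ[ℚ] K) : σ * τ = τ * σ := by
  haveI : IsMulCommutative (K ≃ₐ[ℚ] K) := IsCyclotomicExtension.isMulCommutative {p} ℚ K
  exact mul_comm' σ τ

include p in
theorem unitsPlaces_transitive (w w' : InfinitePlace K) : ∃ σ : K ≃ₐ[ℚ] K, σ • w = w' := by
  haveI := unitsPlaces_isGalois (p := p) K
  exact InfinitePlace.exists_smul_eq_of_comap_eq (k := ℚ) (Subsingleton.elim _ _)

end

theorem unitsDim_places_dichotomy {p : ℕ} [Fact p.Prime] (K : Type) [Field K] [NumberField K]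
    [IsCyclotomicExtension {p} ℚ K] (σ : K ≃ₐ[ℚ] K) :
    (∀ w : InfinitePlace K, σ • w = w) ∨ (∀ w : InfinitePlace K, σ • w ≠ w) := by
  by_cases h : ∃ w₀ : InfinitePlace K, σ • w₀ = w₀
  · obtain ⟨w₀, hw₀⟩ := h
    left
    intro w
    obtain ⟨τ, rfl⟩ := unitsPlaces_transitive (p := p) K w₀ w
    rw [← mul_smul, unitsPlaces_comm (p := p) K σ τ, mul_smul, hw₀]
  · right
    intro w hw
    exact h ⟨w, hw⟩

theorem unitsDim_fix_sq {p : ℕ} [Fact p.Prime] (K : Type) [Field K] [NumberField K]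
    [IsCyclotomicExtension {p} ℚ K] (σ : K ≃ₐ[ℚ] K) (w : InfinitePlace K) (h : σ • w = w) :
    σ * σ = 1 := by
  have hσ : σ ∈ MulAction.stabilizer (K ≃ₐ[ℚ] K) w := h
  have hcard := InfinitePlace.nat_card_stabilizer_eq_one_or_two ℚ w
  have h2 : (⟨σ, hσ⟩ : MulAction.stabilizer (K ≃ₐ[ℚ] K) w) ^ 2 = 1 := by
    rcases hcard with h1 | h1
    · have := pow_card_eq_one' (G := MulAction.stabilizer (K ≃ₐ[ℚ] K) w) (x := ⟨σ, hσ⟩)
      rw [h1, pow_one] at this
      rw [this, one_pow]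
    · have := pow_card_eq_one' (G := MulAction.stabilizer (K ≃ₐ[ℚ] K) w) (x := ⟨σ, hσ⟩)
      rw [h1] at this
      exact this
  have h3 := congrArg Subtype.val h2
  simpa [pow_two] using h3

theorem unitsDim_card_fix {p : ℕ} [Fact p.Prime] (K : Type) [Field K] [NumberField K]
    [IsCyclotomicExtension {p} ℚ K] (w : InfinitePlace K) :
    Nat.card {σ : K ≃ₐ[ℚ] K // σ • w = w} * Nat.card (InfinitePlace K) =
      Nat.card (K ≃ₐ[ℚ] K) := by
  classical
  have horb : MulAction.orbit (K ≃ₐ[ℚ] K) w = Set.univ := by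
    ext w'
    simp only [Set.mem_univ, iff_true]
    obtain ⟨τ, hτ⟩ := unitsPlaces_transitive (p := p) K w w'
    exact ⟨τ, hτ⟩
  have h1 := MulAction.card_orbit_mul_card_stabilizer_eq_card_group (K ≃ₐ[ℚ] K) w
  have h2 : Nat.card (MulAction.orbit (K ≃ₐ[ℚ] K) w) = Nat.card (InfinitePlace K) := by
    rw [horb]
    exact Nat.card_congr (Equiv.Set.univ _)
  have h3 : Nat.card {σ : K ≃ₐ[ℚ] K // σ • w = w} =
      Nat.card (MulAction.stabilizer (K ≃ₐ[ℚ] K) w) := rfl
  rw [h3, mul_comm, ← h2]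
  simpa [Nat.card_eq_fintype_card] using h1

end Fermat.Agent.S14
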