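import Fermat.Agent.S14.Plan

/-!
# S14, piece N6 (units): sub-interface

* N6a `UnitsWeakDimStatement p` : the `ω²`-eigenspace of `E / (μ · E^p)` (`E = (𝓞 K)ˣ`,
  `μ` the roots of unity) has dimension at most one. This is the statement that the trace
  argument on the unit lattice modulo `p` gives directly.
* N6b `unitsDimStatement_of_weak : UnitsWeakDimStatement p → UnitsDimStatement p` (removal of the
  torsion; `UnitsFinish.lean`).
-/

set_option autoImplicit false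

open NumberField

namespace Fermat.Agent.S14

/-- `u` is `ω²`-eigen modulo torsion and `p`-th powers of units. -/
def IsWeakOmegaSqEigen (p : ℕ) {K : Type} [Field K] [NumberField K] (ζ : K) (u : (𝓞 K)ˣ) : Prop :=
  ∀ (σ : K ≃ₐ[ℚ] K) (k : ℕ), σ ζ = ζ ^ k →
    ∃ (t w : (𝓞 K)ˣ), t ∈ NumberField.Units.torsion K ∧
      σ ((u : 𝓞 K) : K) = ((u : 𝓞 K) : K) ^ (k ^ 2) * ((t : 𝓞 K) : K) * ((w : 𝓞 K) : K) ^ p

/-- **N6a**: two units that are `ω²`-eigen modulo `μ · E^p` are dependent modulo `μ · E^p`. -/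
def UnitsWeakDimStatement (p : ℕ) : Prop :=
  ∀ (K : Type) [Field K] [NumberField K] [IsCyclotomicExtension {p} ℚ K]
    (ζ : K), IsPrimitiveRoot ζ p → ∀ u₁ u₂ : (𝓞 K)ˣ,
    IsWeakOmegaSqEigen p ζ u₁ → IsWeakOmegaSqEigen p ζ u₂ →
    ∃ (i j : ℕ) (t w : (𝓞 K)ˣ), t ∈ NumberField.Units.torsion K ∧
      (¬ (p ∣ i) ∨ ¬ (p ∣ j)) ∧ u₁ ^ i = u₂ ^ j * t * w ^ p

end Fermat.Agent.S14
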