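import Mathlib
import Fermat.Agent.S14.UnitsPlan
import Fermat.Agent.S14.UnitsDimAlg
import Fermat.Agent.S14.UnitsDimGal
import Fermat.Agent.S14.UnitsCharSum
import Fermat.Agent.S14.UnitsPlaces

/-!
# S14, piece N6a: `UnitsWeakDimStatement p` (equivariant unit theorem modulo `p`)

Assembly: the representation of `Gal(K/ℚ)` on `(E/μ) ⊗ 𝔽_p` has `ω²`-isotypic part of dimension
one (trace of the projector, computed from the permutation representation on the infinite places).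
-/

set_option autoImplicit false
set_option maxSynthPendingDepth 3

namespace Fermat.Agent.S14

open NumberField NumberField.Units NumberField.InfinitePlace TensorProduct
open NumberField.Units.dirichletUnitTheorem

/-- In a free `ℤ`-module, `1 ⊗ m = 0` in `ZMod p ⊗ M` forces `m ∈ pM`. -/
lemma unitsDim_tmul_eq_zero {p : ℕ} {M : Type*} [AddCommGroup M] [Module.Free ℤ M]
    (m : M) (h : (1 : ZMod p) ⊗ₜ[ℤ] m = 0) : ∃ m' : M, m = (p : ℤ) • m' := by
  classical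
  let b := Module.Free.chooseBasis ℤ M
  have hdiv : ∀ i, (p : ℤ) ∣ b.repr m i := by
    intro i
    have h1 := b.baseChange_repr_tmul (ZMod p) (1 : ZMod p) m i
    rw [h] at h1
    simp only [map_zero, Finsupp.coe_zero, Pi.zero_apply, zsmul_eq_mul, mul_one] at h1
    exact (ZMod.intCast_zmod_eq_zero_iff_dvd _ _).mp h1.symm
  refine ⟨b.repr.symm ((b.repr m).mapRange (fun a => a / (p : ℤ)) (by simp)), ?_⟩
  apply b.repr.injective
  ext i
  simp only [map_zsmul, LinearEquiv.apply_symm_apply, Finsupp.coe_smul, Pi.smul_apply,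
    Finsupp.mapRange_apply, smul_eq_mul]
  exact (Int.mul_ediv_cancel' (hdiv i)).symm

variable (p : ℕ) [Fact p.Prime] (K : Type) [Field K] [NumberField K]

/-- The Galois representation on `(E/μ) ⊗ 𝔽_p`. -/
noncomputable def udRho : (K ≃ₐ[ℚ] K) →*
    Module.End (ZMod p) (ZMod p ⊗[ℤ] Additive ((𝓞 K)ˣ ⧸ torsion K)) where
  toFun σ := (udGalM σ).baseChange (ZMod p)
  map_one' := by
    rw [udGalM_one]; exact LinearMap.baseChange_id
  map_mul' σ τ := by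
    rw [udGalM_mul]; exact LinearMap.baseChange_comp _ _

lemma udRho_tmul (σ : K ≃ₐ[ℚ] K) (a : ZMod p) (u : (𝓞 K)ˣ) :
    udRho p K σ (a ⊗ₜ Additive.ofMul (QuotientGroup.mk u : (𝓞 K)ˣ ⧸ torsion K)) =
      a ⊗ₜ Additive.ofMul (QuotientGroup.mk (udGalUnits σ u) : (𝓞 K)ˣ ⧸ torsion K) := by
  simp [udRho]

lemma udRho_trace (σ : K ≃ₐ[ℚ] K) :
    LinearMap.trace (ZMod p) _ (udRho p K σ) =
      ((LinearMap.trace ℤ (Additive ((𝓞 K)ˣ ⧸ torsion K)) (udGalM σ) : ℤ) : ZMod p) := by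
  simp [udRho]

variable {p} {K}

lemma udRho_eigen [IsCyclotomicExtension {p} ℚ K] {ζ : K} (hζ : IsPrimitiveRoot ζ p)
    (u : (𝓞 K)ˣ) (hu : IsWeakOmegaSqEigen p ζ u) (σ : K ≃ₐ[ℚ] K) :
    udRho p K σ ((1 : ZMod p) ⊗ₜ Additive.ofMul (QuotientGroup.mk u : (𝓞 K)ˣ ⧸ torsion K)) =
      (((hζ.autToPow ℚ σ : (ZMod p)ˣ) : ZMod p) ^ 2) •
        ((1 : ZMod p) ⊗ₜ[ℤ] Additive.ofMul (QuotientGroup.mk u : (𝓞 K)ˣ ⧸ torsion K)) := by
  obtain ⟨t, w, ht, h⟩ := hu σ _ (hζ.autToPow_spec ℚ σ).symm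
  set k : ℕ := ((hζ.autToPow ℚ σ : (ZMod p)ˣ) : ZMod p).val with hk
  have hunit : udGalUnits σ u = u ^ (k ^ 2) * t * w ^ p := by
    apply Units.ext
    apply RingOfIntegers.ext
    rw [udGalUnits_coe, h]
    push_cast
    rfl
  have hmk : (QuotientGroup.mk (udGalUnits σ u) : (𝓞 K)ˣ ⧸ torsion K) =
      (QuotientGroup.mk u) ^ (k ^ 2) * (QuotientGroup.mk w) ^ p := by
    rw [hunit, QuotientGroup.mk_mul, QuotientGroup.mk_mul, QuotientGroup.mk_pow,
      QuotientGroup.mk_pow, (QuotientGroup.eq_one_iff t).mpr ht, mul_one]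
  rw [udRho_tmul, hmk, ofMul_mul, ofMul_pow, ofMul_pow, TensorProduct.tmul_add,
    TensorProduct.tmul_smul, TensorProduct.tmul_smul]
  have hp0 : (p • ((1 : ZMod p) ⊗ₜ[ℤ] Additive.ofMul (QuotientGroup.mk w : (𝓞 K)ˣ ⧸ torsion K))) = 0 := by
    rw [← Nat.cast_smul_eq_nsmul (ZMod p), ZMod.natCast_self, zero_smul]
  rw [hp0, add_zero, ← Nat.cast_smul_eq_nsmul (ZMod p)]
  congr 1
  rw [Nat.cast_pow, hk, ZMod.natCast_zmod_val]

lemma unitsDim_card_places [IsCyclotomicExtension {p} ℚ K] (h3 : 3 ≤ p) :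
    Fintype.card (InfinitePlace K) = (p - 1) / 2 := by
  rw [card_eq_nrRealPlaces_add_nrComplexPlaces,
    IsCyclotomicExtension.Rat.nrRealPlaces_eq_zero (n := p) K (by omega), zero_add,
    IsCyclotomicExtension.Rat.nrComplexPlaces_eq_totient_div_two (n := p),
    Nat.totient_prime Fact.out]

lemma unitsDim_rank [IsCyclotomicExtension {p} ℚ K] (h3 : 3 ≤ p) :
    rank K = (p - 1) / 2 - 1 := by
  rw [rank, unitsDim_card_places h3]

/-- The trace identity `∑ χ(σ)⁻¹ tr ρ(σ) = |G|` for `χ = ω²`. -/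
lemma udRho_trace_sum [IsCyclotomicExtension {p} ℚ K] (h5 : 5 ≤ p) {ζ : K}
    (hζ : IsPrimitiveRoot ζ p) :
    ∑ σ : K ≃ₐ[ℚ] K, ((((hζ.autToPow ℚ σ)⁻¹ : (ZMod p)ˣ) : ZMod p)) ^ 2 *
      LinearMap.trace (ZMod p) _ (udRho p K σ) = (Fintype.card (K ≃ₐ[ℚ] K) : ZMod p) := by
  classical
  have hterm : ∀ σ : K ≃ₐ[ℚ] K,
      ((((hζ.autToPow ℚ σ)⁻¹ : (ZMod p)ˣ) : ZMod p)) ^ 2 *
        LinearMap.trace (ZMod p) _ (udRho p K σ) =
      (if σ • (w₀ : InfinitePlace K) = w₀ then (1 : ZMod p) else 0) *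
        ((Fintype.card (InfinitePlace K) : ℕ) : ZMod p) -
        ((((hζ.autToPow ℚ σ)⁻¹ : (ZMod p)ˣ) : ZMod p)) ^ 2 := by
    intro σ
    have hcard : ((Fintype.card (InfinitePlace K) : ℕ) : ZMod p) = (rank K : ZMod p) + 1 := by
      have : Fintype.card (InfinitePlace K) = rank K + 1 := by
        rw [rank]
        have := Fintype.card_pos (α := InfinitePlace K)
        omega
      rw [this]; push_cast; rfl
    rw [udRho_trace]
    rcases unitsDim_places_dichotomy (p := p) K σ with hfix | hnfix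
    · have hsq : σ * σ = 1 := unitsDim_fix_sq (p := p) K σ w₀ (hfix _)
      have hω : (((hζ.autToPow ℚ σ)⁻¹ : (ZMod p)ˣ) : ZMod p) ^ 2 = 1 := by
        rw [← Units.val_pow_eq_pow_val, inv_pow, sq, ← map_mul, hsq, map_one, inv_one,
          Units.val_one]
      rw [udGalM_trace_of_fix σ hfix, if_pos (hfix _), hω, hcard]
      push_cast
      ring
    · rw [udGalM_trace_of_not_fix σ hnfix, if_neg (hnfix _)]
      push_cast
      ring
  simp only [hterm, Finset.sum_sub_distrib, ← Finset.sum_mul]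
  rw [unitsDim_charSum h5 K ζ hζ, sub_zero, Finset.sum_boole, ← Nat.cast_mul]
  congr 1
  have h := unitsDim_card_fix (p := p) K (w₀ : InfinitePlace K)
  rw [Nat.card_eq_fintype_card, Nat.card_eq_fintype_card, Nat.card_eq_fintype_card,
    Fintype.card_subtype] at h
  exact h

/-- Conclusion of the dependency in `(E/μ) ⊗ 𝔽_p`, back in the unit group. -/
lemma unitsDim_conclude (u₁ u₂ : (𝓞 K)ˣ) (a b : ZMod p) (hab : a ≠ 0 ∨ b ≠ 0)
    (h : a • ((1 : ZMod p) ⊗ₜ[ℤ] Additive.ofMul (QuotientGroup.mk u₁ : (𝓞 K)ˣ ⧸ torsion K)) =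
      b • ((1 : ZMod p) ⊗ₜ[ℤ] Additive.ofMul (QuotientGroup.mk u₂ : (𝓞 K)ˣ ⧸ torsion K))) :
    ∃ (i j : ℕ) (t w : (𝓞 K)ˣ), t ∈ torsion K ∧
      (¬ (p ∣ i) ∨ ¬ (p ∣ j)) ∧ u₁ ^ i = u₂ ^ j * t * w ^ p := by
  have : NeZero p := ⟨(Fact.out : p.Prime).ne_zero⟩
  have hval : ∀ c : ZMod p, c ≠ 0 → ¬ p ∣ c.val := by
    intro c hc hdvd
    apply hc
    rw [← ZMod.natCast_zmod_val c]
    exact (ZMod.natCast_eq_zero_iff _ _).mpr hdvd
  have hsm : ∀ (c : ZMod p) (u : (𝓞 K)ˣ),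
      c • ((1 : ZMod p) ⊗ₜ[ℤ] Additive.ofMul (QuotientGroup.mk u : (𝓞 K)ˣ ⧸ torsion K)) =
        (1 : ZMod p) ⊗ₜ[ℤ] Additive.ofMul (QuotientGroup.mk (u ^ c.val) : (𝓞 K)ˣ ⧸ torsion K) := by
    intro c u
    conv_lhs => rw [← ZMod.natCast_zmod_val c]
    rw [Nat.cast_smul_eq_nsmul (ZMod p), ← TensorProduct.tmul_smul, QuotientGroup.mk_pow,
      ofMul_pow]
  rw [hsm, hsm, ← sub_eq_zero, ← TensorProduct.tmul_sub] at h
  obtain ⟨m', hm'⟩ := unitsDim_tmul_eq_zero _ h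
  obtain ⟨w, hw⟩ := QuotientGroup.mk_surjective (s := torsion K) (Additive.toMul m')
  have hm'' : m' = Additive.ofMul (QuotientGroup.mk w : (𝓞 K)ˣ ⧸ torsion K) := by
    rw [hw]; rfl
  rw [hm'', sub_eq_iff_eq_add, natCast_zsmul, ← ofMul_pow, ← ofMul_mul, ← QuotientGroup.mk_pow,
    ← QuotientGroup.mk_mul] at hm'
  have hq : (QuotientGroup.mk (u₁ ^ a.val) : (𝓞 K)ˣ ⧸ torsion K) =
      QuotientGroup.mk (w ^ p * u₂ ^ b.val) := Additive.ofMul.injective hm'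
  have ht := QuotientGroup.eq.mp hq.symm
  refine ⟨a.val, b.val, (w ^ p * u₂ ^ b.val)⁻¹ * u₁ ^ a.val, w, ht, ?_, ?_⟩
  · rcases hab with ha | hb
    · exact Or.inl (hval a ha)
    · exact Or.inr (hval b hb)
  · rw [mul_assoc, mul_comm _ (w ^ p), ← mul_assoc, mul_comm (u₂ ^ b.val), mul_inv_cancel_left]

/-- **N6a**: the `ω²`-eigenspace of `E / (μ · E^p)` has dimension at most one. -/
theorem unitsWeakDimStatement {p : ℕ} [Fact p.Prime] (h3 : 3 ≤ p) : UnitsWeakDimStatement p := by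
  intro K _ _ _ ζ hζ u₁ u₂ hu₁ hu₂
  classical
  by_cases h5 : 5 ≤ p
  · let χ : (K ≃ₐ[ℚ] K) →* (ZMod p)ˣ := (powMonoidHom 2).comp (hζ.autToPow ℚ)
    have hχ0 : ∀ σ, χ σ = (hζ.autToPow ℚ σ) ^ 2 := fun σ => rfl
    have hχ : ∀ σ, ((χ σ : (ZMod p)ˣ) : ZMod p) = ((hζ.autToPow ℚ σ : (ZMod p)ˣ) : ZMod p) ^ 2 :=
      fun σ => by rw [hχ0, Units.val_pow_eq_pow_val]
    have hχi : ∀ σ, (((χ σ)⁻¹ : (ZMod p)ˣ) : ZMod p) =
        (((hζ.autToPow ℚ σ)⁻¹ : (ZMod p)ˣ) : ZMod p) ^ 2 :=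
      fun σ => by rw [hχ0, ← inv_pow, Units.val_pow_eq_pow_val]
    have hG : ((Fintype.card (K ≃ₐ[ℚ] K) : ℕ) : ZMod p) ≠ 0 := by
      rw [unitsDim_card_gal (p := p) K]
      intro h
      rw [ZMod.natCast_eq_zero_iff] at h
      have := Nat.le_of_dvd (by omega) h
      omega
    have hdim : Module.finrank (ZMod p) (ZMod p ⊗[ℤ] Additive ((𝓞 K)ˣ ⧸ torsion K)) < p := by
      rw [Module.finrank_baseChange, finrank_modTorsion, unitsDim_rank h3]
      omega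
    have htr : ∑ σ : K ≃ₐ[ℚ] K, (((χ σ)⁻¹ : (ZMod p)ˣ) : ZMod p) *
        LinearMap.trace (ZMod p) _ (udRho p K σ) = (Fintype.card (K ≃ₐ[ℚ] K) : ZMod p) := by
      simp only [hχi]
      exact udRho_trace_sum h5 hζ
    obtain ⟨a, b, hab, h⟩ := unitsDim_eigen_dep (udRho p K) χ hG hdim htr _ _
      (fun σ => by rw [hχ]; exact udRho_eigen hζ u₁ hu₁ σ)
      (fun σ => by rw [hχ]; exact udRho_eigen hζ u₂ hu₂ σ)
    exact unitsDim_conclude u₁ u₂ a b hab h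
  · have hp : p = 3 := by
      have hp4 : p ≠ 4 := by
        intro h
        have := (Fact.out : p.Prime)
        rw [h] at this
        exact absurd this (by decide)
      omega
    have hrank : Module.finrank ℤ (Additive ((𝓞 K)ˣ ⧸ torsion K)) = 0 := by
      rw [finrank_modTorsion, unitsDim_rank h3, hp]
    have : Subsingleton (Additive ((𝓞 K)ˣ ⧸ torsion K)) :=
      Module.finrank_zero_iff.mp hrank
    have h1 : (QuotientGroup.mk u₁ : (𝓞 K)ˣ ⧸ torsion K) = 1 :=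
      Additive.ofMul.injective (Subsingleton.elim _ _)
    refine ⟨1, 0, u₁, 1, (QuotientGroup.eq_one_iff u₁).mp h1, Or.inl ?_, by simp⟩
    rw [Nat.dvd_one]
    omega

end Fermat.Agent.S14
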