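import Fermat.Agent.S14.Plan

/-!
# S14, piece N1 — the ideal step

If `α ∈ ℚ(ζ_p)^×` is in the `ω²`-eigenspace modulo `p`-th powers and all its valuations are divisible
by `p`, then `(α) = I^p` and the class of `I` is killed by `p` and is an `ω²`-eigen class; if such
classes are trivial then `α = u · δ^p` with `u` a unit.
-/

set_option autoImplicit false

noncomputable section

open NumberField IsDedekindDomain UniqueFactorizationMonoid
open scoped nonZeroDivisors

namespace Fermat.Agent.S14.IdealStep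

section Dedekind

variable {R : Type*} [CommRing R] [IsDedekindDomain R]

/-- An ideal all of whose prime multiplicities are divisible by `p` is a `p`-th power. -/
theorem exists_ideal_pow_eq {p : ℕ} (hp : p ≠ 0) (J : Ideal R) (hJ : J ≠ ⊥)
    (h : ∀ q : Ideal R, q ∈ normalizedFactors J → p ∣ Multiset.count q (normalizedFactors J)) :
    ∃ I : Ideal R, I ≠ ⊥ ∧ I ^ p = J := by
  classical
  obtain ⟨u, hu⟩ := Multiset.exists_smul_of_dvd_count _ h
  have hI : u.prod ^ p = J := by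
    rw [← Multiset.prod_nsmul, ← hu, Ideal.prod_normalizedFactors_eq_self hJ]
  refine ⟨u.prod, ?_, hI⟩
  intro h0
  rw [h0] at hI
  exact hJ (by rw [← hI]; exact zero_pow hp)

/-- `p`-th roots of ideals are unique. -/
theorem ideal_pow_left_injective {p : ℕ} (hp : p ≠ 0) {I₁ I₂ : Ideal R}
    (h : I₁ ^ p = I₂ ^ p) : I₁ = I₂ := by
  classical
  by_cases h1 : I₁ = ⊥
  · rw [h1] at h ⊢
    have : I₂ ^ p = ⊥ := by rw [← h]; exact zero_pow hp
    exact (pow_eq_zero_iff hp |>.mp this).symm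
  by_cases h2 : I₂ = ⊥
  · rw [h2] at h
    have : I₁ ^ p = ⊥ := by rw [h]; exact zero_pow hp
    exact absurd (pow_eq_zero_iff hp |>.mp this) h1
  have hn := congrArg normalizedFactors h
  rw [normalizedFactors_pow, normalizedFactors_pow] at hn
  have hn' : normalizedFactors I₁ = normalizedFactors I₂ := by
    ext q
    have := congrArg (Multiset.count q) hn
    rw [Multiset.count_nsmul, Multiset.count_nsmul] at this
    exact Nat.eq_of_mul_eq_mul_left (Nat.pos_of_ne_zero hp) this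
  rw [← Ideal.prod_normalizedFactors_eq_self h1, ← Ideal.prod_normalizedFactors_eq_self h2, hn']

/-- If all valuations of `a ≠ 0` are divisible by `p`, all prime multiplicities of `(a)` are. -/
theorem dvd_count_of_valuation {K : Type*} [Field K] [Algebra R K] [IsFractionRing R K]
    {p : ℕ} (a : R) (ha : a ≠ 0)
    (h : ∀ v : HeightOneSpectrum R, ∃ n : ℤ,
      v.valuation K (algebraMap R K a) = WithZero.exp ((p : ℤ) * n)) :
    ∀ q : Ideal R, q ∈ normalizedFactors (Ideal.span {a}) →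
      p ∣ Multiset.count q (normalizedFactors (Ideal.span {a})) := by
  classical
  intro q hq
  have hJ : (Ideal.span {a} : Ideal R) ≠ 0 := by
    rw [Ne, Ideal.zero_eq_bot, Ideal.span_singleton_eq_bot]
    exact ha
  have hqp : Prime q := prime_of_normalized_factor q hq
  have hq0 : q ≠ ⊥ := hqp.ne_zero
  let v : HeightOneSpectrum R := ⟨q, Ideal.isPrime_of_prime hqp, hq0⟩
  obtain ⟨n, hn⟩ := h v
  rw [HeightOneSpectrum.valuation_of_algebraMap,
    v.intValuation_eq_exp_neg_multiplicity ha, WithZero.exp_inj] at hn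
  have hm : multiplicity q (Ideal.span {a}) = Multiset.count q (normalizedFactors (Ideal.span {a})) := by
    rw [multiplicity_eq_count_normalizedFactors hqp.irreducible hJ, normalize_eq]
  have hv : v.asIdeal = q := rfl
  rw [hv, hm] at hn
  have : (p : ℤ) ∣ (Multiset.count q (normalizedFactors (Ideal.span {a})) : ℤ) :=
    ⟨-n, by linarith⟩
  exact Int.natCast_dvd_natCast.mp this

end Dedekind

section Cyclo

open JacobiSumStickelberger

variable {p : ℕ} [NeZero p] {K : Type} [Field K] [NumberField K] [IsCyclotomicExtension {p} ℚ K]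

/-- The automorphism `σ_d` raises every primitive `p`-th root of unity to the power `d`. -/
theorem cycloGalEquiv_symm_apply_zeta {ζ : K} (hζ : IsPrimitiveRoot ζ p) (d : (ZMod p)ˣ) :
    (cycloGalEquiv p K).symm d ζ = ζ ^ (d : ZMod p).val := by
  set σ := (cycloGalEquiv p K).symm d with hσ
  have h1 : cycloGalEquiv p K σ = d := MulEquiv.apply_symm_apply _ _
  have hz := IsCyclotomicExtension.zeta_spec p ℚ K
  have h2 : hz.autToPow ℚ σ = d := by
    rw [← h1]; rfl
  have h3 := hz.autToPow_spec ℚ σ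
  rw [h2] at h3
  obtain ⟨j, -, hj⟩ := hz.eq_pow_of_pow_eq_one hζ.pow_eq_one
  rw [← hj, map_pow, ← h3, ← pow_mul, ← pow_mul, mul_comm]

/-- `clRingAction` is the restriction of `σ_d` to the ring of integers. -/
theorem coe_clRingAction (d : (ZMod p)ˣ) (x : 𝓞 K) :
    algebraMap (𝓞 K) K (clRingAction p K d x) = (cycloGalEquiv p K).symm d (algebraMap (𝓞 K) K x) := by
  show algebraMap (𝓞 K) K (galRestrict ℤ ℚ K (𝓞 K) ((cycloGalEquiv p K).symm d) x) = _
  exact algebraMap_galRestrict_apply ℤ ((cycloGalEquiv p K).symm d) x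

end Cyclo

section Integral

open JacobiSumStickelberger

variable {p : ℕ} [Fact p.Prime] {K : Type} [Field K] [NumberField K]
  [IsCyclotomicExtension {p} ℚ K]

/-- The ideal step for an integral element. -/
theorem ideal_step_integral {ζ : K} (hζ : IsPrimitiveRoot ζ p) (a : 𝓞 K) (ha : a ≠ 0)
    (heig : IsOmegaSqEigen p ζ (algebraMap (𝓞 K) K a))
    (hord : ∀ v : HeightOneSpectrum (𝓞 K), PDvdOrd p v (algebraMap (𝓞 K) K a))
    (hcl : ClassEigenTrivial p K) :
    ∃ (u : (𝓞 K)ˣ) (δ : 𝓞 K), a = (u : 𝓞 K) * δ ^ p := by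
  classical
  have hp0 : p ≠ 0 := (Fact.out : p.Prime).ne_zero
  have hJ : (Ideal.span {a} : Ideal (𝓞 K)) ≠ ⊥ := by
    rw [Ne, Ideal.span_singleton_eq_bot]; exact ha
  -- the `p`-th root of the ideal `(a)`
  obtain ⟨I, hI0, hIp⟩ := exists_ideal_pow_eq hp0 (Ideal.span {a}) hJ
    (dvd_count_of_valuation (K := K) a ha hord)
  have hImem : I ∈ (Ideal (𝓞 K))⁰ := mem_nonZeroDivisors_iff_ne_zero.mpr hI0
  set c : ClassGroup (𝓞 K) := ClassGroup.mk0 ⟨I, hImem⟩ with hc
  have hprinc : ∀ x : 𝓞 K, ∀ hx : (Ideal.span {x} : Ideal (𝓞 K)) ∈ (Ideal (𝓞 K))⁰,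
      ClassGroup.mk0 ⟨Ideal.span {x}, hx⟩ = 1 := fun x hx =>
    (ClassGroup.mk0_eq_one_iff hx).mpr ⟨⟨x, rfl⟩⟩
  -- `c ^ p = 1`
  have hcp : c ^ p = 1 := by
    rw [hc, ← map_pow]
    have : (⟨I, hImem⟩ : (Ideal (𝓞 K))⁰) ^ p
        = ⟨Ideal.span {a}, mem_nonZeroDivisors_iff_ne_zero.mpr hJ⟩ := Subtype.ext hIp
    rw [this]
    exact hprinc a _
  -- eigen property
  have hceig : ∀ d : (ZMod p)ˣ,
      ClassGroup.mulEquiv (clRingAction p K d) c = c ^ ((d : ZMod p).val ^ 2) := by
    intro d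
    set k := (d : ZMod p).val with hk
    set g := clRingAction p K d with hg
    obtain ⟨γ, hγ⟩ := heig ((cycloGalEquiv p K).symm d) k (cycloGalEquiv_symm_apply_zeta hζ d)
    rw [← coe_clRingAction] at hγ
    have haK : algebraMap (𝓞 K) K a ≠ 0 := by
      simpa using ha
    have hga : g a ≠ 0 := by
      simpa using ha
    have hγ0 : γ ≠ 0 := by
      rintro rfl
      rw [zero_pow hp0, mul_zero] at hγ
      exact hga ((FaithfulSMul.algebraMap_injective (𝓞 K) K) (by rw [hγ, map_zero]))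
    obtain ⟨num, den, hden, rfl⟩ := IsFractionRing.div_surjective (A := 𝓞 K) γ
    have hden0 : den ≠ 0 := nonZeroDivisors.ne_zero hden
    have hdenK : algebraMap (𝓞 K) K den ≠ 0 := by simpa using hden0
    have hnum0 : num ≠ 0 := by
      rintro rfl
      simp at hγ0
    -- integral identity
    have hint : g a * den ^ p = a ^ (k ^ 2) * num ^ p := by
      apply FaithfulSMul.algebraMap_injective (𝓞 K) K
      rw [map_mul, map_mul, map_pow, map_pow, map_pow, hγ, div_pow]
      field_simp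
    -- identity of ideals
    have hgI : (I.map (g : 𝓞 K →+* 𝓞 K)) ^ p = Ideal.span {g a} := by
      rw [← Ideal.map_pow, hIp, Ideal.map_span, Set.image_singleton]
      rfl
    have hid : (I.map (g : 𝓞 K →+* 𝓞 K) * Ideal.span {den}) ^ p
        = (I ^ (k ^ 2) * Ideal.span {num}) ^ p := by
      rw [mul_pow, mul_pow, hgI, Ideal.span_singleton_pow, Ideal.span_singleton_pow,
        Ideal.span_singleton_mul_span_singleton, ← pow_mul, mul_comm (k ^ 2) p, pow_mul, hIp,
        Ideal.span_singleton_pow, Ideal.span_singleton_mul_span_singleton, hint]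
    have hid' := ideal_pow_left_injective hp0 hid
    -- pass to the class group
    rw [hc, ClassGroup.mulEquiv_mk0]
    have hden_mem : (Ideal.span {den} : Ideal (𝓞 K)) ∈ (Ideal (𝓞 K))⁰ :=
      mem_nonZeroDivisors_iff_ne_zero.mpr (by
        rw [Ne, Ideal.zero_eq_bot, Ideal.span_singleton_eq_bot]; exact hden0)
    have hnum_mem : (Ideal.span {num} : Ideal (𝓞 K)) ∈ (Ideal (𝓞 K))⁰ :=
      mem_nonZeroDivisors_iff_ne_zero.mpr (by
        rw [Ne, Ideal.zero_eq_bot, Ideal.span_singleton_eq_bot]; exact hnum0)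
    have e1 : Ideal.mapNonZero g ⟨I, hImem⟩ * ⟨Ideal.span {den}, hden_mem⟩
        = (⟨I, hImem⟩ : (Ideal (𝓞 K))⁰) ^ (k ^ 2) * ⟨Ideal.span {num}, hnum_mem⟩ :=
      Subtype.ext hid'
    have e2 := congrArg (ClassGroup.mk0 (R := 𝓞 K)) e1
    rw [map_mul, map_mul, map_pow, hprinc den hden_mem, hprinc num hnum_mem, mul_one,
      mul_one] at e2
    exact e2
  -- conclusion
  have hc1 : c = 1 := hcl c hcp hceig
  rw [hc, ClassGroup.mk0_eq_one_iff hImem] at hc1
  obtain ⟨⟨δ, hδ⟩⟩ := hc1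
  have hδ' : I = Ideal.span {δ} := hδ
  rw [hδ', Ideal.span_singleton_pow, Ideal.span_singleton_eq_span_singleton] at hIp
  obtain ⟨u, hu⟩ := hIp
  exact ⟨u, δ, by rw [← hu]; ring⟩

end Integral

end Fermat.Agent.S14.IdealStep

namespace Fermat.Agent.S14

open Fermat.Agent.S14.IdealStep

/-- **N1 (ideal step)**. -/
theorem idealStatement {p : ℕ} [Fact p.Prime] : IdealStatement p := by
  intro K _ _ _ ζ hζ α hα heig hord hcl
  have hp0 : p ≠ 0 := (Fact.out : p.Prime).ne_zero
  obtain ⟨a, b, hb, rfl⟩ := IsFractionRing.div_surjective (A := 𝓞 K) α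
  have hb0 : b ≠ 0 := nonZeroDivisors.ne_zero hb
  have hbK : algebraMap (𝓞 K) K b ≠ 0 := by simpa using hb0
  have ha0 : a ≠ 0 := by
    rintro rfl
    simp at hα
  have haK : algebraMap (𝓞 K) K a ≠ 0 := by simpa using ha0
  have hp1 : p - 1 + 1 = p := Nat.sub_add_cancel (Fact.out : p.Prime).one_le
  -- the integral element `a' = a * b ^ (p - 1) = α * b ^ p`
  have hβ : algebraMap (𝓞 K) K (a * b ^ (p - 1))
      = (algebraMap (𝓞 K) K a / algebraMap (𝓞 K) K b) * (algebraMap (𝓞 K) K b) ^ p := by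
    rw [map_mul, map_pow]
    conv_rhs => rw [← hp1, pow_succ]
    field_simp
  have ha'0 : a * b ^ (p - 1) ≠ 0 := mul_ne_zero ha0 (pow_ne_zero _ hb0)
  -- eigen property of `a'`
  have heig' : IsOmegaSqEigen p ζ (algebraMap (𝓞 K) K (a * b ^ (p - 1))) := by
    intro σ k hσ
    obtain ⟨γ, hγ⟩ := heig σ k hσ
    have hB : (algebraMap (𝓞 K) K b) ^ (k ^ 2) ≠ 0 := pow_ne_zero _ hbK
    refine ⟨γ * σ (algebraMap (𝓞 K) K b) / (algebraMap (𝓞 K) K b) ^ (k ^ 2), ?_⟩
    rw [hβ, map_mul, map_pow, hγ, mul_pow _ ((algebraMap (𝓞 K) K b) ^ p), ← pow_mul,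
      mul_comm p (k ^ 2), pow_mul, div_pow (γ * σ (algebraMap (𝓞 K) K b)), mul_pow γ]
    generalize (algebraMap (𝓞 K) K b) ^ (k ^ 2) = B at hB ⊢
    generalize ((algebraMap (𝓞 K) K a) / (algebraMap (𝓞 K) K b)) ^ (k ^ 2) = A
    field_simp
  -- valuations of `a'`
  have hord' : ∀ v : HeightOneSpectrum (𝓞 K), PDvdOrd p v (algebraMap (𝓞 K) K (a * b ^ (p - 1))) := by
    intro v
    obtain ⟨n, hn⟩ := hord v
    have hvb : v.valuation K (algebraMap (𝓞 K) K b) ≠ 0 := (Valuation.ne_zero_iff _).mpr hbK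
    obtain ⟨m, hm⟩ : ∃ m : ℤ, v.valuation K (algebraMap (𝓞 K) K b) = WithZero.exp m :=
      ⟨WithZero.log _, (WithZero.exp_log hvb).symm⟩
    refine ⟨n + m, ?_⟩
    rw [hβ, map_mul, map_pow, hn, hm, ← WithZero.exp_nsmul, ← WithZero.exp_add]
    congr 1
    simp only [nsmul_eq_mul]
    ring
  obtain ⟨u, δ, hu⟩ := ideal_step_integral hζ (a * b ^ (p - 1)) ha'0 heig' hord' hcl
  have hδ0 : δ ≠ 0 := by
    rintro rfl
    rw [zero_pow hp0, mul_zero] at hu
    exact ha'0 hu
  refine ⟨u, algebraMap (𝓞 K) K δ / algebraMap (𝓞 K) K b, ?_, ?_⟩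
  · exact div_ne_zero (by simpa using hδ0) hbK
  · have h1 := congrArg (algebraMap (𝓞 K) K) hu
    rw [hβ, map_mul, map_pow] at h1
    rw [div_pow, ← mul_div_assoc, ← h1, mul_div_assoc, div_self (pow_ne_zero p hbK), mul_one]

end Fermat.Agent.S14
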