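import Fermat.Agent.S14.UnitsPlan
import Fermat.Agent.S14.IdealStep

/-!
# S14, piece N6b: removal of the torsion

`UnitsWeakDimStatement p → UnitsDimStatement p` for an odd prime `p`.
-/

set_option autoImplicit false
set_option linter.style.haveILetI false

open NumberField

namespace Fermat.Agent.S14

section Finish

variable {p : ℕ} [Fact p.Prime] {K : Type} [Field K] [NumberField K]

/-- an element of `K` whose `p`-th power is a unit of `𝓞 K` is a unit of `𝓞 K`. -/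
theorem n6b_unit_of_pow {γ : K} {c : (𝓞 K)ˣ} (h : γ ^ p = ((c : 𝓞 K) : K)) :
    ∃ w : (𝓞 K)ˣ, ((w : 𝓞 K) : K) = γ := by
  have hp : 0 < p := (Fact.out : p.Prime).pos
  have h1 : IsIntegral ℤ γ :=
    IsIntegral.of_pow hp (by rw [h]; exact RingOfIntegers.isIntegral_coe _)
  have h2 : IsIntegral ℤ γ⁻¹ := by
    refine IsIntegral.of_pow hp ?_
    have : (γ⁻¹) ^ p = (((c⁻¹ : (𝓞 K)ˣ) : 𝓞 K) : K) := by
      rw [inv_pow, h]
      have hc : ((c : 𝓞 K) : K) * (((c⁻¹ : (𝓞 K)ˣ) : 𝓞 K) : K) = 1 := by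
        rw [← map_mul, Units.mul_inv, map_one]
      exact inv_eq_of_mul_eq_one_right hc
    rw [this]
    exact RingOfIntegers.isIntegral_coe _
  have hγ0 : γ ≠ 0 := by
    intro h0
    rw [h0, zero_pow hp.ne'] at h
    exact (RingOfIntegers.coe_ne_zero_iff.mpr c.ne_zero) h.symm
  refine ⟨⟨⟨γ, h1⟩, ⟨γ⁻¹, h2⟩, ?_, ?_⟩, rfl⟩
  · apply RingOfIntegers.ext
    show γ * γ⁻¹ = 1
    exact mul_inv_cancel₀ hγ0
  · apply RingOfIntegers.ext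
    show γ⁻¹ * γ = 1
    exact inv_mul_cancel₀ hγ0

/-- the image of a unit under a Galois automorphism, as a unit of `𝓞 K`. -/
noncomputable def n6bGalUnit (σ : K ≃ₐ[ℚ] K) (u : (𝓞 K)ˣ) : (𝓞 K)ˣ :=
  Units.map ((galRestrict ℤ ℚ K (𝓞 K) σ : 𝓞 K ≃ₐ[ℤ] 𝓞 K) : 𝓞 K →* 𝓞 K) u

omit [Fact p.Prime] in
theorem n6b_coe_galUnit (σ : K ≃ₐ[ℚ] K) (u : (𝓞 K)ˣ) :
    (((n6bGalUnit σ u : (𝓞 K)ˣ) : 𝓞 K) : K) = σ ((u : 𝓞 K) : K) := by
  simp only [n6bGalUnit, Units.coe_map]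
  exact algebraMap_galRestrict_apply ℤ σ (u : 𝓞 K)

/-- a strict `ω²`-eigen unit is weakly `ω²`-eigen. -/
theorem n6b_weak_of_eigen {ζ : K} {u : (𝓞 K)ˣ} (h : IsOmegaSqEigen p ζ ((u : 𝓞 K) : K)) :
    IsWeakOmegaSqEigen p ζ u := by
  intro σ k hk
  obtain ⟨γ, hγ⟩ := h σ k hk
  have hu0 : ((u : 𝓞 K) : K) ≠ 0 := by simp
  have hc : γ ^ p = (((n6bGalUnit σ u * (u ^ (k ^ 2))⁻¹ : (𝓞 K)ˣ) : 𝓞 K) : K) := by
    have h1 : ((((u ^ (k ^ 2))⁻¹ : (𝓞 K)ˣ) : 𝓞 K) : K) = (((u : 𝓞 K) : K) ^ (k ^ 2))⁻¹ := by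
      have h2 : ((((u ^ (k ^ 2)) : (𝓞 K)ˣ) : 𝓞 K) : K) *
          ((((u ^ (k ^ 2))⁻¹ : (𝓞 K)ˣ) : 𝓞 K) : K) = 1 := by
        rw [← map_mul, Units.mul_inv, map_one]
      simp only [Units.val_pow_eq_pow_val, map_pow] at h2
      exact (inv_eq_of_mul_eq_one_right h2).symm
    simp only [Units.val_mul, map_mul]
    simp only [← RingOfIntegers.coe_eq_algebraMap]
    rw [n6b_coe_galUnit, hγ, h1]
    field_simp
  obtain ⟨w, hw⟩ := n6b_unit_of_pow hc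
  refine ⟨1, w, one_mem _, ?_⟩
  rw [hγ, hw]
  simp

end Finish

section Main

variable {p : ℕ} [Fact p.Prime]

/-- in a cyclotomic field of odd prime conductor, a `p`-th root of unity which is a `p`-th power
is trivial. -/
theorem n6b_root_eq_one (h3 : 3 ≤ p) {K : Type} [Field K] [NumberField K]
    [IsCyclotomicExtension {p} ℚ K] {ζ : K} (hζ : IsPrimitiveRoot ζ p) {c : K} {n : ℕ}
    (hc : c ^ p = ζ ^ n) : ζ ^ n = 1 := by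
  have hpp : p.Prime := Fact.out
  haveI : NeZero p := ⟨hpp.ne_zero⟩
  have hpodd : Odd p := hpp.odd_of_ne_two (by omega)
  have hcfin : IsOfFinOrder c := by
    rw [isOfFinOrder_iff_pow_eq_one]
    refine ⟨p * p, Nat.mul_pos hpp.pos hpp.pos, ?_⟩
    rw [pow_mul, hc, ← pow_mul, mul_comm, pow_mul, hζ.pow_eq_one, one_pow]
  obtain ⟨r, -, hr⟩ := hζ.exists_pow_or_neg_mul_pow_of_isOfFinOrder hpodd hcfin
  have hcp : c ^ p = 1 ∨ c ^ p = -1 := by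
    rcases hr with rfl | rfl
    · left
      rw [← pow_mul, mul_comm, pow_mul, hζ.pow_eq_one, one_pow]
    · right
      rw [neg_pow, ← pow_mul, mul_comm r p, pow_mul, hζ.pow_eq_one, one_pow, mul_one,
        hpodd.neg_one_pow]
  rcases hcp with h | h
  · rw [← hc, h]
  · exfalso
    have h1 : (ζ ^ n) ^ p = 1 := by
      rw [← pow_mul, mul_comm, pow_mul, hζ.pow_eq_one, one_pow]
    rw [← hc, h, hpodd.neg_one_pow] at h1
    have h2 : (2 : K) = 0 := by linear_combination -h1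
    exact two_ne_zero h2

/-- **N6b**: removal of the torsion. -/
theorem unitsDimStatement_of_weak (h3 : 3 ≤ p) (h : UnitsWeakDimStatement p) :
    UnitsDimStatement p := by
  intro K _ _ _ ζ hζ u₁ u₂ h₁ h₂
  have hpp : p.Prime := Fact.out
  haveI : NeZero p := ⟨hpp.ne_zero⟩
  have hpodd : Odd p := hpp.odd_of_ne_two (by omega)
  obtain ⟨i, j, t, w, ht, hij, hrel⟩ :=
    h K ζ hζ u₁ u₂ (n6b_weak_of_eigen h₁) (n6b_weak_of_eigen h₂)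
  -- the relation in `K`
  have hrelK : ((u₁ : 𝓞 K) : K) ^ i =
      ((u₂ : 𝓞 K) : K) ^ j * ((t : 𝓞 K) : K) * ((w : 𝓞 K) : K) ^ p := by
    have := congrArg (fun x : (𝓞 K)ˣ => ((x : 𝓞 K) : K)) hrel
    simpa using this
  -- `t = ± ζ ^ a`
  have htfin : IsOfFinOrder ((t : 𝓞 K) : K) := by
    have h1 : IsOfFinOrder t := (CommGroup.mem_torsion _).mp ht
    rw [isOfFinOrder_iff_pow_eq_one] at h1 ⊢
    obtain ⟨n, hn, hn1⟩ := h1
    refine ⟨n, hn, ?_⟩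
    have := congrArg (fun x : (𝓞 K)ˣ => ((x : 𝓞 K) : K)) hn1
    simpa using this
  obtain ⟨a, -, hta⟩ := hζ.exists_pow_or_neg_mul_pow_of_isOfFinOrder hpodd htfin
  -- an automorphism with `σ ζ = ζ ^ 2`
  have h2p : Nat.Coprime 2 p := by
    rw [Nat.coprime_comm]
    exact (Nat.Prime.coprime_iff_not_dvd hpp).mpr (fun h => by
      have := Nat.le_of_dvd (by norm_num) h
      omega)
  obtain ⟨σ, hσ⟩ : ∃ σ : K ≃ₐ[ℚ] K, σ ζ = ζ ^ 2 := by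
    refine ⟨(JacobiSumStickelberger.cycloGalEquiv p K).symm (ZMod.unitOfCoprime 2 h2p), ?_⟩
    rw [IdealStep.cycloGalEquiv_symm_apply_zeta hζ]
    congr 1
    rw [ZMod.coe_unitOfCoprime]
    have : ((2 : ℕ) : ZMod p).val = 2 := by
      rw [ZMod.val_natCast]
      exact Nat.mod_eq_of_lt (by omega)
    exact this
  obtain ⟨γ₁, hγ₁⟩ := h₁ σ 2 hσ
  obtain ⟨γ₂, hγ₂⟩ := h₂ σ 2 hσ
  have hu₁ : ((u₁ : 𝓞 K) : K) ≠ 0 := by simp
  have hu₂ : ((u₂ : 𝓞 K) : K) ≠ 0 := by simp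
  have hw0 : ((w : 𝓞 K) : K) ≠ 0 := by simp
  have hζ0 : ζ ≠ 0 := hζ.ne_zero hpp.ne_zero
  have hγ₁0 : γ₁ ≠ 0 := by
    intro h0
    rw [h0, zero_pow hpp.ne_zero, mul_zero] at hγ₁
    exact hu₁ ((map_eq_zero σ).mp hγ₁)
  -- the sign
  obtain ⟨ε, s, hεs, hε2, hεp, hσε, htε⟩ : ∃ (ε : K) (s : (𝓞 K)ˣ), ((s : 𝓞 K) : K) = ε ∧
      ε ^ 2 = 1 ∧ ε ^ p = ε ∧ σ ε = ε ∧ ((t : 𝓞 K) : K) = ε * ζ ^ a := by
    rcases hta with h | h
    · exact ⟨1, 1, by simp, by simp, by simp, by simp, by rw [h, one_mul]⟩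
    · refine ⟨-1, -1, by simp, by simp, hpodd.neg_one_pow, by simp, by rw [h]; ring⟩
  have hε0 : ε ≠ 0 := by
    intro h0
    rw [h0] at hε2
    simp at hε2
  -- apply `σ` to the relation
  have hσrel := congrArg σ hrelK
  rw [map_pow, map_mul, map_mul, map_pow, map_pow, hγ₁, hγ₂, htε, map_mul, map_pow, hσε, hσ]
    at hσrel
  -- compare with the fourth power of the relation
  have h4 := congrArg (fun x => x ^ 4) hrelK
  simp only [htε] at h4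
  -- `ζ ^ (2 a)` is a `p`-th power
  have hkey : (ε * γ₂ ^ j * σ ((w : 𝓞 K) : K) / (((w : 𝓞 K) : K) ^ 4 * γ₁ ^ i)) ^ p
      = ζ ^ (2 * a) := by
    have hε4 : ε ^ 4 = 1 := by
      have : ε ^ 4 = (ε ^ 2) ^ 2 := by ring
      rw [this, hε2, one_pow]
    have hden : (((w : 𝓞 K) : K) ^ 4 * γ₁ ^ i) ^ p ≠ 0 :=
      pow_ne_zero _ (mul_ne_zero (pow_ne_zero _ hw0) (pow_ne_zero _ hγ₁0))
    rw [div_pow, div_eq_iff hden, mul_pow, mul_pow, hεp]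
    have hu₂j : ((u₂ : 𝓞 K) : K) ^ (4 * j) ≠ 0 := pow_ne_zero _ hu₂
    have hζa : ζ ^ (2 * a) ≠ 0 := pow_ne_zero _ hζ0
    apply mul_left_cancel₀ hu₂j
    apply mul_left_cancel₀ hζa
    have e1 : ((u₁ : 𝓞 K) : K) ^ (4 * i) =
        ((u₂ : 𝓞 K) : K) ^ (4 * j) * ζ ^ (4 * a) * ((w : 𝓞 K) : K) ^ (4 * p) := by
      have : ((u₁ : 𝓞 K) : K) ^ (4 * i) = (((u₁ : 𝓞 K) : K) ^ i) ^ 4 := by ring
      rw [this, h4]
      have : (((u₂ : 𝓞 K) : K) ^ j * (ε * ζ ^ a) * ((w : 𝓞 K) : K) ^ p) ^ 4 =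
          ((u₂ : 𝓞 K) : K) ^ (4 * j) * ε ^ 4 * ζ ^ (4 * a) * ((w : 𝓞 K) : K) ^ (4 * p) := by ring
      rw [this, hε4, mul_one]
    have e2 : ((u₁ : 𝓞 K) : K) ^ (4 * i) * γ₁ ^ (p * i) =
        ((u₂ : 𝓞 K) : K) ^ (4 * j) * γ₂ ^ (p * j) * (ε * ζ ^ (2 * a)) *
          σ ((w : 𝓞 K) : K) ^ p := by
      have : ((u₁ : 𝓞 K) : K) ^ (4 * i) * γ₁ ^ (p * i) =
          (((u₁ : 𝓞 K) : K) ^ 2 ^ 2 * γ₁ ^ p) ^ i := by ring
      rw [this, hσrel]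
      ring
    rw [e1] at e2
    linear_combination -e2
  have hζ2a : ζ ^ (2 * a) = 1 := n6b_root_eq_one h3 hζ hkey
  have hdvd : p ∣ a := by
    have h1 : p ∣ 2 * a := (hζ.pow_eq_one_iff_dvd _).mp hζ2a
    exact (Nat.Coprime.dvd_mul_left h2p.symm).mp h1
  have hζa1 : ζ ^ a = 1 := (hζ.pow_eq_one_iff_dvd _).mpr hdvd
  refine ⟨i, j, s * w, hij, ?_⟩
  apply Units.ext
  apply RingOfIntegers.ext
  have : ((((u₂ ^ j * (s * w) ^ p : (𝓞 K)ˣ) : 𝓞 K)) : K) =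
      ((u₂ : 𝓞 K) : K) ^ j * (ε * ((w : 𝓞 K) : K)) ^ p := by
    simp [hεs]
  have h5 : ((((u₁ ^ i : (𝓞 K)ˣ) : 𝓞 K)) : K) = ((u₁ : 𝓞 K) : K) ^ i := by simp
  show ((((u₁ ^ i : (𝓞 K)ˣ) : 𝓞 K)) : K) = ((((u₂ ^ j * (s * w) ^ p : (𝓞 K)ˣ) : 𝓞 K)) : K)
  rw [h5, this, hrelK, htε, hζa1, mul_pow, hεp]
  ring

end Main

end Fermat.Agent.S14
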