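import Fermat.Agent.S14.Wiring
import Fermat.Agent.S14.InertiaVal
import Fermat.Agent.S14.ThaineLocal
import Fermat.Agent.S14.GoodPrimeFinal
import Fermat.Agent.S14.SplitBound
import Fermat.Agent.S14.UnitsFinish
import Fermat.Agent.S14.UnitsDim

/-!
# S14: last assembly

`ExtVanishingCts p` from the three pieces that are still open:
G4 (`DecompStatement`), N2 (`ThaineStatement`), N4c (`LBoundedStatement`).
-/

set_option autoImplicit false
set_option linter.style.haveILetI false

namespace Fermat.Agent.S14

variable {p : ℕ} [Fact p.Prime]

/-- S14 from the three open pieces. -/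
theorem extVanishingCts_of_three (h3 : 3 ≤ p)
    (hD : DecompStatement p)
    (hTh : haveI : NeZero p := ⟨(Fact.out : p.Prime).ne_zero⟩; 5 ≤ p → ThaineStatement p)
    (hL : LBoundedStatement) :
    ExtCitation.ExtVanishingCts p :=
  extVanishingCts_of_open h3 inertiaStatement hD hTh
    (fun _ => goodPrimeStatement h3 hL splitBoundStatement)
    (fun _ => unitsDimStatement_of_weak h3 (unitsWeakDimStatement h3))
    (fun h5 => thaineLocalStatement h5)

end Fermat.Agent.S14
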