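import Mathlib
import Fermat.Agent.S14.Plan

/-!
# S14, piece N4c (`LBoundedStatement`): sub-interface

Route (no measure theory, no lattice point counting with error terms):

* `UnitWeightStatement` (N4c-W): a weight `w : K → [0, 1]` with `∑_{ε ∈ 𝓞ˣ} w (ε x) = 1`, supported
  where all archimedean absolute values of `x` are comparable to `|N x|^(1/n)`, and multiplicatively
  Lipschitz.  (`w = |μ|⁻¹ ∏ᵢ τ(cᵢ(logMap x))`, `τ` the tent function, `cᵢ` the coordinates with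
  respect to a system of fundamental units.)
* `IdealZetaStatement` (N4c-Z): `∑_I N(I)^(-s)` converges for `s > 1` and `(s - 1) ∑_I N(I)^(-s)`
  is bounded on `(1, 2]`.
* `FiberwiseStatement` (N4c-F): for a nonzero ideal `𝔠`, the sum of `w x |N x|^(-s)` over
  `x ∈ 𝔠 ∖ 0` is `N(𝔠)^(-s)` times the partial zeta function of the class of `𝔠⁻¹`.
* main assembly (N4c-M, `LBounded.lean`): the three statements imply `LBoundedStatement`, via the
  shift estimate `∑_{x ∈ 𝔠} |f (x + r) - f x| ≤ C(r)` for `f x = w x |N x|^(-s)`.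
-/

set_option autoImplicit false

open NumberField

namespace Fermat.Agent.S14

/-- **N4c-W**: existence of a Lipschitz "partition of unity" for the action of the units. -/
def UnitWeightStatement : Prop :=
  ∀ (K : Type) [Field K] [NumberField K],
    ∃ (w : K → ℝ) (T : Finset (𝓞 K)ˣ) (B L : ℝ),
      0 < B ∧ 0 ≤ L ∧ (∀ x, 0 ≤ w x) ∧ (∀ x, w x ≤ 1) ∧
      (∀ x : K, x ≠ 0 → HasSum (fun ε : (𝓞 K)ˣ => w (((ε : 𝓞 K) : K) * x)) 1) ∧
      (∀ x : K, x ≠ 0 → w x ≠ 0 →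
        1 ≤ (NumberField.Units.torsionOrder K : ℝ) * ∑ ε ∈ T, w (((ε : 𝓞 K) : K) * x)) ∧
      (∀ x : K, x ≠ 0 → w x ≠ 0 → ∀ v : InfinitePlace K,
        |(Algebra.norm ℚ x : ℝ)| ≤ (B * v x) ^ (Module.finrank ℚ K)) ∧
      (∀ x u : K, x ≠ 0 → ∀ δ : ℝ, δ ≤ 1 / 2 → (∀ v : InfinitePlace K, v u ≤ δ) →
        |w (x * (1 + u)) - w x| ≤ L * δ)

/-- **N4c-Z**: the Dedekind zeta function as a sum over nonzero ideals: convergence for `s > 1`
and `(s - 1) ζ_K(s)` bounded on `(1, 2]`. -/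
def IdealZetaStatement : Prop :=
  ∀ (K : Type) [Field K] [NumberField K],
    (∀ s : ℝ, 1 < s → Summable (fun I : nonZeroDivisors (Ideal (𝓞 K)) =>
      ((Ideal.absNorm (I : Ideal (𝓞 K)) : ℝ) ^ (-s)))) ∧
    ∃ C : ℝ, ∀ s : ℝ, 1 < s → s ≤ 2 →
      (s - 1) * ∑' I : nonZeroDivisors (Ideal (𝓞 K)),
        ((Ideal.absNorm (I : Ideal (𝓞 K)) : ℝ) ^ (-s)) ≤ C

/-- **N4c-F**: unfolding of the partial zeta function of an ideal class along the elements of an
ideal in the inverse class. -/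
def FiberwiseStatement : Prop :=
  ∀ (K : Type) [Field K] [NumberField K] (w : K → ℝ), (∀ x, 0 ≤ w x) →
    (∀ x : K, x ≠ 0 → HasSum (fun ε : (𝓞 K)ˣ => w (((ε : 𝓞 K) : K) * x)) 1) →
    ∀ (𝔠 : nonZeroDivisors (Ideal (𝓞 K))) (s : ℝ), 1 < s →
      HasSum
        (fun x : {x : 𝓞 K // x ∈ (𝔠 : Ideal (𝓞 K)) ∧ x ≠ 0} =>
          w ((x : 𝓞 K) : K) * |(Algebra.norm ℚ (((x : 𝓞 K) : K)) : ℝ)| ^ (-s))
        ((Ideal.absNorm (𝔠 : Ideal (𝓞 K)) : ℝ) ^ (-s) *
          ∑' I : {I : nonZeroDivisors (Ideal (𝓞 K)) //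
              ClassGroup.mk0 I = (ClassGroup.mk0 𝔠)⁻¹},
            (Ideal.absNorm ((I : nonZeroDivisors (Ideal (𝓞 K))) : Ideal (𝓞 K)) : ℝ) ^ (-s))

end Fermat.Agent.S14
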