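import Fermat.Agent.S14.GoodPrimeFinal
import Fermat.Agent.S14.LBoundedPlan

/-!
# S14, piece N4c-Z: `IdealZetaStatement`

Glue of `Euler.lean` (E1a, E1b, E2, E3), `EulerAux.lean` and `GoodPrimeFinal.lean`
(`exists_zeta_le`, `exists_le_zeta`): `idealZetaStatement : IdealZetaStatement`.
-/

set_option autoImplicit false

open NumberField IsDedekindDomain

namespace Fermat.Agent.S14

/-- **N4c-Z**. -/
theorem idealZetaStatement : IdealZetaStatement := by
  intro K _ _
  refine ⟨fun s hs ↦ summable_absNorm_rpow K hs, ?_⟩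
  obtain ⟨C, hC, h⟩ := exists_zeta_le K
  refine ⟨C, fun s hs hs2 ↦ ?_⟩
  have hs' : 0 < s - 1 := sub_pos.mpr hs
  have := h s hs hs2
  rw [le_div_iff₀ hs'] at this
  linarith

end Fermat.Agent.S14
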