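import Fermat.Agent.S14.LBoundedPlan

/-!
# S14, piece N4c-F: the orbit formula

`fiberwise_of_summable` / `fiberwise_of_idealZeta : IdealZetaStatement → FiberwiseStatement`.

For a nonzero ideal `𝔠` the map `x ↦ (x) 𝔠⁻¹` from `𝔠 ∖ 0` onto the integral ideals in the class of
`𝔠⁻¹` has the unit orbits as fibres, and `|N x| = N 𝔠 · N ((x) 𝔠⁻¹)`.
-/

set_option autoImplicit false
set_option linter.unusedSectionVars false

open NumberField nonZeroDivisors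

namespace Fermat.Agent.S14

section OrbitSum

variable {K : Type} [Field K] [NumberField K]

/-- `|N_{K/ℚ} x|` is the absolute norm of the principal ideal `(x)`. -/
theorem os_abs_norm (x : 𝓞 K) :
    |(Algebra.norm ℚ ((x : 𝓞 K) : K) : ℝ)| = (Ideal.absNorm (Ideal.span {x}) : ℝ) := by
  rw [Ideal.absNorm_span_singleton, ← Algebra.coe_norm_int, Nat.cast_natAbs]
  push_cast
  rfl

variable (𝔠 : nonZeroDivisors (Ideal (𝓞 K)))

/-- The elements of `𝔠 ∖ 0`. -/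
abbrev OsX : Type := {x : 𝓞 K // x ∈ (𝔠 : Ideal (𝓞 K)) ∧ x ≠ 0}

/-- The integral ideals in the class of `𝔠⁻¹`. -/
abbrev OsJ : Type :=
  {I : nonZeroDivisors (Ideal (𝓞 K)) // ClassGroup.mk0 I = (ClassGroup.mk0 𝔠)⁻¹}

theorem os_c_ne : (𝔠 : Ideal (𝓞 K)) ≠ 0 := nonZeroDivisors.coe_ne_zero 𝔠

/-- Every `x ∈ 𝔠 ∖ 0` generates `𝔠 * I` for some `I` in the class of `𝔠⁻¹`. -/
theorem os_exists (x : OsX 𝔠) :
    ∃ I : OsJ 𝔠, Ideal.span {(x : 𝓞 K)} = (𝔠 : Ideal (𝓞 K)) * ((I : nonZeroDivisors (Ideal (𝓞 K))) : Ideal (𝓞 K)) := by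
  have hle : Ideal.span {(x : 𝓞 K)} ≤ (𝔠 : Ideal (𝓞 K)) :=
    (Ideal.span_singleton_le_iff_mem _).mpr x.2.1
  obtain ⟨J, hJ⟩ := Ideal.dvd_iff_le.mpr hle
  have hspan : Ideal.span {(x : 𝓞 K)} ≠ 0 := by
    rw [Ne, Ideal.zero_eq_bot, Ideal.span_singleton_eq_bot]
    exact x.2.2
  have hJ0 : J ≠ 0 := by
    rintro rfl
    rw [mul_zero] at hJ
    exact hspan hJ
  have hJmem : J ∈ nonZeroDivisors (Ideal (𝓞 K)) := mem_nonZeroDivisors_iff_ne_zero.mpr hJ0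
  refine ⟨⟨⟨J, hJmem⟩, ?_⟩, hJ⟩
  rw [ClassGroup.mk0_eq_mk0_inv_iff]
  exact ⟨(x : 𝓞 K), x.2.2, by rw [mul_comm]; exact hJ.symm⟩

/-- The map `x ↦ (x) 𝔠⁻¹`. -/
noncomputable def osPhi (x : OsX 𝔠) : OsJ 𝔠 := Classical.choose (os_exists 𝔠 x)

theorem osPhi_spec (x : OsX 𝔠) :
    Ideal.span {(x : 𝓞 K)} =
      (𝔠 : Ideal (𝓞 K)) * (((osPhi 𝔠 x : OsJ 𝔠) : nonZeroDivisors (Ideal (𝓞 K))) : Ideal (𝓞 K)) :=
  Classical.choose_spec (os_exists 𝔠 x)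

theorem osPhi_eq_iff (x : OsX 𝔠) (I : OsJ 𝔠) :
    osPhi 𝔠 x = I ↔ Ideal.span {(x : 𝓞 K)} =
      (𝔠 : Ideal (𝓞 K)) * ((I : nonZeroDivisors (Ideal (𝓞 K))) : Ideal (𝓞 K)) := by
  constructor
  · rintro rfl
    exact osPhi_spec 𝔠 x
  · intro h
    have h1 := osPhi_spec 𝔠 x
    rw [h] at h1
    have h2 := mul_left_cancel₀ (os_c_ne 𝔠) h1
    exact Subtype.ext (Subtype.ext h2.symm)

/-- `|N x| = N 𝔠 · N I` on the fibre over `I`. -/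
theorem os_norm_eq (x : OsX 𝔠) :
    |(Algebra.norm ℚ (((x : 𝓞 K)) : K) : ℝ)| =
      (Ideal.absNorm (𝔠 : Ideal (𝓞 K)) : ℝ) *
        (Ideal.absNorm (((osPhi 𝔠 x : OsJ 𝔠) : nonZeroDivisors (Ideal (𝓞 K))) : Ideal (𝓞 K)) : ℝ) := by
  rw [os_abs_norm, osPhi_spec 𝔠 x, map_mul]
  push_cast
  rfl

/-- The fibre of `osPhi` over `I` is a single orbit of the unit group: the sum of `w` over it
is `1`. -/
theorem os_fibre_hasSum (w : K → ℝ)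
    (hU : ∀ x : K, x ≠ 0 → HasSum (fun ε : (𝓞 K)ˣ => w (((ε : 𝓞 K) : K) * x)) 1)
    (I : OsJ 𝔠) :
    HasSum (fun x : {x : OsX 𝔠 // osPhi 𝔠 x = I} => w (((x : OsX 𝔠) : 𝓞 K) : K)) 1 := by
  -- a generator of `𝔠 * I`
  obtain ⟨x₀, hx₀ne, hx₀⟩ := ClassGroup.mk0_eq_mk0_inv_iff.mp I.2
  have hx₀' : Ideal.span {x₀} = (𝔠 : Ideal (𝓞 K)) *
      ((I : nonZeroDivisors (Ideal (𝓞 K))) : Ideal (𝓞 K)) := by
    rw [← hx₀, mul_comm]
  have hI0 : (((I : nonZeroDivisors (Ideal (𝓞 K))) : Ideal (𝓞 K))) ≠ 0 :=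
    nonZeroDivisors.coe_ne_zero _
  have hmem : ∀ ε : (𝓞 K)ˣ, (ε : 𝓞 K) * x₀ ∈ (𝔠 : Ideal (𝓞 K)) ∧ (ε : 𝓞 K) * x₀ ≠ 0 := by
    intro ε
    refine ⟨?_, mul_ne_zero ε.ne_zero hx₀ne⟩
    have : x₀ ∈ (𝔠 : Ideal (𝓞 K)) := by
      have h1 : x₀ ∈ Ideal.span {x₀} := Ideal.mem_span_singleton_self x₀
      rw [hx₀'] at h1
      exact Ideal.mul_le_left h1
    exact Ideal.mul_mem_left _ _ this
  have hspanε : ∀ ε : (𝓞 K)ˣ, Ideal.span {(ε : 𝓞 K) * x₀} = Ideal.span {x₀} := by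
    intro ε
    exact Ideal.span_singleton_mul_left_unit ε.isUnit x₀
  let u : (𝓞 K)ˣ → {x : OsX 𝔠 // osPhi 𝔠 x = I} := fun ε =>
    ⟨⟨(ε : 𝓞 K) * x₀, hmem ε⟩, (osPhi_eq_iff 𝔠 _ I).mpr (by rw [← hx₀']; exact hspanε ε)⟩
  have hu : Function.Bijective u := by
    constructor
    · intro ε ε' h
      have h1 : (ε : 𝓞 K) * x₀ = (ε' : 𝓞 K) * x₀ :=
        congrArg (fun y : {x : OsX 𝔠 // osPhi 𝔠 x = I} => ((y : OsX 𝔠) : 𝓞 K)) h
      exact Units.ext (mul_right_cancel₀ hx₀ne h1)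
    · intro x
      have h1 := (osPhi_eq_iff 𝔠 x.1 I).mp x.2
      rw [← hx₀'] at h1
      obtain ⟨ε, hε⟩ := (Ideal.span_singleton_eq_span_singleton.mp h1.symm)
      refine ⟨ε, ?_⟩
      apply Subtype.ext
      apply Subtype.ext
      change (ε : 𝓞 K) * x₀ = _
      rw [mul_comm]; exact hε
  have h2 := hU (x₀ : K) (by exact_mod_cast hx₀ne)
  have h3 : (fun ε : (𝓞 K)ˣ => w (((ε : 𝓞 K) : K) * (x₀ : K))) =
      (fun x : {x : OsX 𝔠 // osPhi 𝔠 x = I} => w (((x : OsX 𝔠) : 𝓞 K) : K)) ∘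
        (Equiv.ofBijective u hu) := by
    funext ε
    simp [u]
  rw [h3] at h2
  exact (Equiv.hasSum_iff (Equiv.ofBijective u hu)).mp h2

/-- The orbit formula, given the summability of the ideal sum. -/
theorem os_hasSum (w : K → ℝ) (hw : ∀ x, 0 ≤ w x)
    (hU : ∀ x : K, x ≠ 0 → HasSum (fun ε : (𝓞 K)ˣ => w (((ε : 𝓞 K) : K) * x)) 1)
    (s : ℝ)
    (hsum : Summable (fun I : nonZeroDivisors (Ideal (𝓞 K)) =>
      ((Ideal.absNorm (I : Ideal (𝓞 K)) : ℝ) ^ (-s)))) :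
    HasSum
      (fun x : {x : 𝓞 K // x ∈ (𝔠 : Ideal (𝓞 K)) ∧ x ≠ 0} =>
        w ((x : 𝓞 K) : K) * |(Algebra.norm ℚ (((x : 𝓞 K) : K)) : ℝ)| ^ (-s))
      ((Ideal.absNorm (𝔠 : Ideal (𝓞 K)) : ℝ) ^ (-s) *
        ∑' I : {I : nonZeroDivisors (Ideal (𝓞 K)) //
            ClassGroup.mk0 I = (ClassGroup.mk0 𝔠)⁻¹},
          (Ideal.absNorm ((I : nonZeroDivisors (Ideal (𝓞 K))) : Ideal (𝓞 K)) : ℝ) ^ (-s)) := by
  set f : OsX 𝔠 → ℝ := fun x =>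
    w ((x : 𝓞 K) : K) * |(Algebra.norm ℚ (((x : 𝓞 K) : K)) : ℝ)| ^ (-s) with hf
  set g : OsJ 𝔠 → ℝ := fun I => (Ideal.absNorm (𝔠 : Ideal (𝓞 K)) : ℝ) ^ (-s) *
    (Ideal.absNorm ((I : nonZeroDivisors (Ideal (𝓞 K))) : Ideal (𝓞 K)) : ℝ) ^ (-s) with hg
  -- fibrewise sums
  have h1 : ∀ I : OsJ 𝔠, HasSum (fun x : {x : OsX 𝔠 // osPhi 𝔠 x = I} => f x) (g I) := by
    intro I
    have h2 := (os_fibre_hasSum 𝔠 w hU I).mul_right (g I)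
    rw [one_mul] at h2
    refine h2.congr_fun ?_
    rintro ⟨x, hx⟩
    simp only [hf, hg]
    rw [os_norm_eq 𝔠 x, hx, Real.mul_rpow (Nat.cast_nonneg _) (Nat.cast_nonneg _)]
  -- summability of `g`
  have h3 : Summable g := by
    have h4 : Summable (fun I : OsJ 𝔠 =>
        (Ideal.absNorm ((I : nonZeroDivisors (Ideal (𝓞 K))) : Ideal (𝓞 K)) : ℝ) ^ (-s)) :=
      hsum.subtype _
    exact h4.mul_left _
  -- the sum over the sigma type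
  set F : (Σ I : OsJ 𝔠, {x : OsX 𝔠 // osPhi 𝔠 x = I}) → ℝ := fun q => f q.2 with hF
  have hF0 : ∀ q, 0 ≤ F q := fun q =>
    mul_nonneg (hw _) (Real.rpow_nonneg (abs_nonneg _) _)
  have h5 : Summable F := by
    rw [summable_sigma_of_nonneg hF0]
    refine ⟨fun I => (h1 I).summable, ?_⟩
    have h6 : (fun I : OsJ 𝔠 => ∑' y : {x : OsX 𝔠 // osPhi 𝔠 x = I}, F ⟨I, y⟩) = g := by
      funext I
      exact (h1 I).tsum_eq
    rw [h6]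
    exact h3
  have h7 : HasSum F (∑' I, g I) := HasSum.sigma_of_hasSum h3.hasSum h1 h5
  have h8 : HasSum f (∑' I, g I) := by
    have h9 : F = f ∘ (Equiv.sigmaFiberEquiv (osPhi 𝔠)) := by
      funext q
      rfl
    rw [h9] at h7
    exact (Equiv.hasSum_iff (Equiv.sigmaFiberEquiv (osPhi 𝔠))).mp h7
  have h10 : ∑' I, g I = (Ideal.absNorm (𝔠 : Ideal (𝓞 K)) : ℝ) ^ (-s) *
      ∑' I : OsJ 𝔠,
        (Ideal.absNorm ((I : nonZeroDivisors (Ideal (𝓞 K))) : Ideal (𝓞 K)) : ℝ) ^ (-s) := by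
    simp only [hg]
    rw [tsum_mul_left]
  rw [← h10]
  exact h8

end OrbitSum

/-- **S14, piece N4c-F**: the orbit formula, given summability of `∑_I N(I)^(-s)` for `s > 1`. -/
theorem fiberwise_of_summable
    (hsum : ∀ (K : Type) [Field K] [NumberField K] (s : ℝ), 1 < s →
      Summable (fun I : nonZeroDivisors (Ideal (𝓞 K)) =>
        ((Ideal.absNorm (I : Ideal (𝓞 K)) : ℝ) ^ (-s)))) :
    FiberwiseStatement := by
  intro K _ _ w hw hU 𝔠 s hs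
  exact os_hasSum 𝔠 w hw hU s (hsum K s hs)

/-- **S14, piece N4c-F**: `IdealZetaStatement → FiberwiseStatement`. -/
theorem fiberwise_of_idealZeta (h : IdealZetaStatement) : FiberwiseStatement :=
  fiberwise_of_summable fun K _ _ s hs => (h K).1 s hs

end Fermat.Agent.S14
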