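/-
S14, piece N4c1 (helper87): a Lipschitz partition of unity along the orbits of the unit group.

* `tent t = max 0 (1 - |t|)`;
* `unitCoord K x` : coordinates of `logMap x` in the basis of the unit lattice;
* `unitWeight K x = (torsionOrder K)⁻¹ * ∏ i, tent (unitCoord K x i)` (`0` if `norm x = 0`).
-/
import Mathlib

set_option autoImplicit false

open NumberField NumberField.mixedEmbedding NumberField.Units NumberField.InfinitePlace Module
open NumberField.Units.dirichletUnitTheorem

namespace Fermat.Agent.S14

/-- The tent function `max 0 (1 - |t|)`. -/
noncomputable def tent (t : ℝ) : ℝ := max 0 (1 - |t|)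

variable (K : Type) [Field K] [NumberField K]

open scoped Classical in
/-- Coordinates of `logMap x` in the (real) basis of `logSpace K` given by a fundamental system of
units. -/
noncomputable def unitCoord (x : mixedSpace K) : Fin (rank K) → ℝ :=
  ((basisUnitLattice K).ofZLatticeBasis ℝ (unitLattice K)).equivFun (logMap x)

/-- The weight: a partition of unity along the orbits of the unit group. -/
noncomputable def unitWeight (x : mixedSpace K) : ℝ :=
  if mixedEmbedding.norm x = 0 then 0
  else (torsionOrder K : ℝ)⁻¹ * ∏ i, tent (unitCoord K x i)

end Fermat.Agent.S14
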