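/-
S14, piece N4c1 (helper87): the weight `unitWeight` is a partition of unity along unit orbits.
-/
import Fermat.Agent.S14.UnitWeight

set_option autoImplicit false

open NumberField NumberField.mixedEmbedding NumberField.Units NumberField.InfinitePlace Module
open NumberField.Units.dirichletUnitTheorem

namespace Fermat.Agent.S14

/-! ### The tent function -/

theorem tent_nonneg (t : ℝ) : 0 ≤ tent t := le_max_left _ _

theorem tent_le_one (t : ℝ) : tent t ≤ 1 := by
  unfold tent
  exact max_le zero_le_one (by linarith [abs_nonneg t])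

theorem tent_eq_zero_of_one_le_abs {t : ℝ} (h : 1 ≤ |t|) : tent t = 0 := by
  unfold tent
  exact max_eq_left (by linarith)

theorem abs_lt_one_of_tent_ne_zero {t : ℝ} (h : tent t ≠ 0) : |t| < 1 := by
  by_contra hcon
  exact h (tent_eq_zero_of_one_le_abs (not_lt.1 hcon))

theorem tent_of_abs_le_one {t : ℝ} (h : |t| ≤ 1) : tent t = 1 - |t| := by
  unfold tent
  exact max_eq_right (by linarith)

/-- The tent function is `1`-Lipschitz. -/
theorem abs_tent_sub_tent_le (a b : ℝ) : |tent a - tent b| ≤ |a - b| := by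
  unfold tent
  have h1 : |max 0 (1 - |a|) - max 0 (1 - |b|)| ≤ |(1 - |a|) - (1 - |b|)| := by
    have := abs_max_sub_max_le_abs (1 - |a|) (1 - |b|) (0 : ℝ)
    rwa [max_comm (1 - |a|) 0, max_comm (1 - |b|) 0] at this
  calc |max 0 (1 - |a|) - max 0 (1 - |b|)| ≤ |(1 - |a|) - (1 - |b|)| := h1
    _ = |(|b| - |a|)| := by congr 1; ring
    _ ≤ |b - a| := abs_abs_sub_abs_le b a
    _ = |a - b| := abs_sub_comm b a

/-- The integer translates of the tent function sum to `1`. -/
theorem hasSum_tent_add_int (c : ℝ) : HasSum (fun k : ℤ => tent (c + k)) 1 := by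
  classical
  have hfl := Int.floor_le c
  have hlt := Int.lt_floor_add_one c
  have hzero : ∀ k ∉ ({-⌊c⌋ - 1, -⌊c⌋} : Finset ℤ), tent (c + k) = 0 := by
    intro k hk
    simp only [Finset.mem_insert, Finset.mem_singleton, not_or] at hk
    apply tent_eq_zero_of_one_le_abs
    rcases lt_or_gt_of_ne hk.2 with h | h
    · -- k ≤ -⌊c⌋ - 1 and k ≠ -⌊c⌋ - 1, so k ≤ -⌊c⌋ - 2
      have hk2 : k ≤ -⌊c⌋ - 2 := by
        have := hk.1
        omega
      have : (k : ℝ) ≤ -(⌊c⌋ : ℝ) - 2 := by exact_mod_cast hk2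
      rw [le_abs]
      right
      linarith
    · have hk2 : -⌊c⌋ + 1 ≤ k := by omega
      have : -(⌊c⌋ : ℝ) + 1 ≤ (k : ℝ) := by exact_mod_cast hk2
      rw [le_abs]
      left
      linarith
  have h : HasSum (fun k : ℤ => tent (c + k))
      (∑ k ∈ ({-⌊c⌋ - 1, -⌊c⌋} : Finset ℤ), tent (c + k)) := hasSum_sum_of_ne_finset_zero hzero
  have hne : (-⌊c⌋ - 1 : ℤ) ≠ -⌊c⌋ := by omega
  rw [Finset.sum_pair hne] at h
  convert h using 1
  have h1 : |c + ((-⌊c⌋ - 1 : ℤ) : ℝ)| ≤ 1 := by
    push_cast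
    rw [abs_le]
    constructor <;> linarith
  have h2 : |c + ((-⌊c⌋ : ℤ) : ℝ)| ≤ 1 := by
    push_cast
    rw [abs_le]
    constructor <;> linarith
  rw [tent_of_abs_le_one h1, tent_of_abs_le_one h2]
  push_cast
  rw [abs_of_nonpos (by linarith), abs_of_nonneg (by linarith)]
  ring

/-- Products of tent functions: the translates by `ℤ^r` sum to `1`. -/
theorem hasSum_prod_tent_add_int {r : ℕ} (c : Fin r → ℝ) :
    HasSum (fun k : Fin r → ℤ => ∏ i, tent (c i + k i)) 1 := by
  classical
  let S : Fin r → Finset ℤ := fun i => {-⌊c i⌋ - 1, -⌊c i⌋}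
  have hS : ∀ i, ∀ k ∉ S i, tent (c i + k) = 0 := by
    intro i k hk
    by_contra hne
    have h := hasSum_tent_add_int (c i)
    -- reuse the support computation
    have hk' : k ∉ ({-⌊c i⌋ - 1, -⌊c i⌋} : Finset ℤ) := hk
    simp only [Finset.mem_insert, Finset.mem_singleton, not_or] at hk'
    have hfl := Int.floor_le (c i)
    have hlt := Int.lt_floor_add_one (c i)
    apply hne
    apply tent_eq_zero_of_one_le_abs
    rcases lt_or_gt_of_ne hk'.2 with h | h
    · have hk2 : k ≤ -⌊c i⌋ - 2 := by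
        have := hk'.1
        omega
      have : (k : ℝ) ≤ -(⌊c i⌋ : ℝ) - 2 := by exact_mod_cast hk2
      rw [le_abs]
      right
      linarith
    · have hk2 : -⌊c i⌋ + 1 ≤ k := by omega
      have : -(⌊c i⌋ : ℝ) + 1 ≤ (k : ℝ) := by exact_mod_cast hk2
      rw [le_abs]
      left
      linarith
  have hsum1 : ∀ i, ∑ j ∈ S i, tent (c i + j) = 1 := by
    intro i
    have h := hasSum_tent_add_int (c i)
    have h' : HasSum (fun k : ℤ => tent (c i + k)) (∑ j ∈ S i, tent (c i + j)) :=
      hasSum_sum_of_ne_finset_zero (hS i)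
    exact h'.unique h
  have hzero : ∀ k ∉ Fintype.piFinset S, ∏ i, tent (c i + k i) = 0 := by
    intro k hk
    rw [Fintype.mem_piFinset, not_forall] at hk
    obtain ⟨i, hi⟩ := hk
    exact Finset.prod_eq_zero (Finset.mem_univ i) (hS i _ hi)
  have h : HasSum (fun k : Fin r → ℤ => ∏ i, tent (c i + k i))
      (∑ k ∈ Fintype.piFinset S, ∏ i, tent (c i + k i)) := hasSum_sum_of_ne_finset_zero hzero
  convert h using 1
  have key := Finset.prod_univ_sum S (fun i (j : ℤ) => tent (c i + j))
  rw [← key]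
  simp [hsum1]

end Fermat.Agent.S14

namespace Fermat.Agent.S14

variable (K : Type) [Field K] [NumberField K]

/-! ### The unit group as `torsion × ℤ^r` -/

/-- The parametrisation of the unit group by `torsion K × ℤ^r` (Dirichlet's unit theorem). -/
noncomputable def unitParam : torsion K × (Fin (rank K) → ℤ) ≃ (𝓞 K)ˣ :=
  Equiv.ofBijective (fun ζe => (ζe.1 : (𝓞 K)ˣ) * ∏ i, fundSystem K i ^ ζe.2 i) (by
    constructor
    · intro a b hab
      obtain ⟨c, _, hc⟩ := exist_unique_eq_mul_prod K ((a.1 : (𝓞 K)ˣ) * ∏ i, fundSystem K i ^ a.2 i)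
      rw [hc a rfl, hc b hab]
    · intro u
      obtain ⟨c, hc, _⟩ := exist_unique_eq_mul_prod K u
      exact ⟨c, hc.symm⟩)

theorem unitParam_apply (ζe : torsion K × (Fin (rank K) → ℤ)) :
    unitParam K ζe = (ζe.1 : (𝓞 K)ˣ) * ∏ i, fundSystem K i ^ ζe.2 i := rfl

open scoped Classical in
theorem logEmbedding_unitParam (ζe : torsion K × (Fin (rank K) → ℤ)) :
    logEmbedding K (Additive.ofMul (unitParam K ζe)) =
      ∑ i, (ζe.2 i : ℝ) • ((basisUnitLattice K).ofZLatticeBasis ℝ (unitLattice K)) i := by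
  rw [unitParam_apply, ofMul_mul, map_add, (logEmbedding_eq_zero_iff (K := K)).2 ζe.1.2, zero_add,
    ofMul_prod, map_sum]
  refine Finset.sum_congr rfl fun i _ => ?_
  rw [ofMul_zpow, map_zsmul, logEmbedding_fundSystem, Basis.ofZLatticeBasis_apply,
    Int.cast_smul_eq_zsmul]

theorem unitCoord_unitParam_smul (ζe : torsion K × (Fin (rank K) → ℤ)) (x : mixedSpace K)
    (hx : mixedEmbedding.norm x ≠ 0) :
    unitCoord K (unitParam K ζe • x) = fun i => unitCoord K x i + ζe.2 i := by
  classical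
  unfold unitCoord
  rw [logMap_unit_smul _ hx, map_add, logEmbedding_unitParam]
  have h : ((basisUnitLattice K).ofZLatticeBasis ℝ (unitLattice K)).equivFun
      (∑ i, (ζe.2 i : ℝ) • ((basisUnitLattice K).ofZLatticeBasis ℝ (unitLattice K)) i)
      = fun i => (ζe.2 i : ℝ) := by
    rw [← Basis.equivFun_symm_apply, LinearEquiv.apply_symm_apply]
  rw [h]
  funext i
  simp [add_comm]

/-! ### The weight -/

theorem unitWeight_nonneg (x : mixedSpace K) : 0 ≤ unitWeight K x := by
  unfold unitWeight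
  split_ifs
  · exact le_rfl
  · exact mul_nonneg (inv_nonneg.2 (Nat.cast_nonneg _))
      (Finset.prod_nonneg fun i _ => tent_nonneg _)

theorem unitWeight_le_one (x : mixedSpace K) : unitWeight K x ≤ 1 := by
  unfold unitWeight
  split_ifs
  · exact zero_le_one
  · have h1 : (torsionOrder K : ℝ)⁻¹ ≤ 1 :=
      inv_le_one_of_one_le₀ (by exact_mod_cast (torsionOrder_pos K))
    have h2 : ∏ i, tent (unitCoord K x i) ≤ 1 :=
      Finset.prod_le_one (fun i _ => tent_nonneg _) (fun i _ => tent_le_one _)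
    have h3 : 0 ≤ ∏ i, tent (unitCoord K x i) := Finset.prod_nonneg fun i _ => tent_nonneg _
    calc (torsionOrder K : ℝ)⁻¹ * ∏ i, tent (unitCoord K x i)
        ≤ 1 * 1 := mul_le_mul h1 h2 h3 zero_le_one
      _ = 1 := one_mul 1

theorem unitWeight_of_norm_ne_zero {x : mixedSpace K} (hx : mixedEmbedding.norm x ≠ 0) :
    unitWeight K x = (torsionOrder K : ℝ)⁻¹ * ∏ i, tent (unitCoord K x i) := by
  unfold unitWeight
  rw [if_neg hx]

theorem norm_ne_zero_of_unitWeight_ne_zero {x : mixedSpace K} (h : unitWeight K x ≠ 0) :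
    mixedEmbedding.norm x ≠ 0 := by
  intro hx
  apply h
  unfold unitWeight
  rw [if_pos hx]

theorem hasSum_const_mul_aux {α β : Type} [Finite α] (g : β → ℝ) (hg : ∀ k, 0 ≤ g k)
    (h2 : HasSum g 1) (a : ℝ) (ha : 0 ≤ a) :
    HasSum (fun p : α × β => a * g p.2) (Nat.card α * a) := by
  classical
  let _ : Fintype α := Fintype.ofFinite _
  have h1 : HasSum (fun _ : α => a) (Nat.card α * a) := by
    have h := hasSum_fintype (fun _ : α => a)
    convert h using 1
    rw [Finset.sum_const, Finset.card_univ, nsmul_eq_mul, Nat.card_eq_fintype_card]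
  have h3 := HasSum.mul h1 h2 (Summable.mul_of_nonneg h1.summable h2.summable (fun _ => ha) hg)
  rw [mul_one] at h3
  exact h3

/-- **(W2)** The weight is a partition of unity along the orbits of the unit group. -/
theorem hasSum_unitWeight_smul (x : mixedSpace K) (hx : mixedEmbedding.norm x ≠ 0) :
    HasSum (fun u : (𝓞 K)ˣ => unitWeight K (u • x)) 1 := by
  have h3 := hasSum_const_mul_aux (α := torsion K)
    (fun k : Fin (rank K) → ℤ => ∏ i, tent (unitCoord K x i + k i))
    (fun k => Finset.prod_nonneg fun i _ => tent_nonneg _)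
    (hasSum_prod_tent_add_int (unitCoord K x)) (torsionOrder K : ℝ)⁻¹
    (inv_nonneg.2 (Nat.cast_nonneg _))
  have hone : (Nat.card (torsion K) : ℝ) * (torsionOrder K : ℝ)⁻¹ = 1 := by
    have : (Nat.card (torsion K) : ℝ) = torsionOrder K := rfl
    rw [this, mul_inv_cancel₀]
    exact_mod_cast (torsionOrder_pos K).ne'
  rw [hone] at h3
  have h4 : HasSum ((fun u : (𝓞 K)ˣ => unitWeight K (u • x)) ∘ (unitParam K)) 1 := by
    refine h3.congr_fun ?_
    intro ζe
    show unitWeight K (unitParam K ζe • x) = _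
    rw [unitWeight_of_norm_ne_zero K (by rwa [norm_unit_smul]), unitCoord_unitParam_smul K ζe x hx]
  exact (unitParam K).hasSum_iff.1 h4

end Fermat.Agent.S14
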