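/-
S14, piece N4c1 (helper87): support and Lipschitz bounds for `unitWeight`.
-/
import Fermat.Agent.S14.UnitWeightPartition

set_option autoImplicit false

open NumberField NumberField.mixedEmbedding NumberField.Units NumberField.InfinitePlace Module
open NumberField.Units.dirichletUnitTheorem

namespace Fermat.Agent.S14

/-- Products of numbers in `[0, 1]` are `1`-Lipschitz in the `ℓ¹`-sense. -/
theorem abs_prod_sub_prod_le_sum {ι : Type} (s : Finset ι) (a b : ι → ℝ)
    (ha : ∀ i, 0 ≤ a i ∧ a i ≤ 1) (hb : ∀ i, 0 ≤ b i ∧ b i ≤ 1) :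
    |∏ i ∈ s, a i - ∏ i ∈ s, b i| ≤ ∑ i ∈ s, |a i - b i| := by
  classical
  induction s using Finset.induction_on with
  | empty => simp
  | insert j s hj ih =>
    rw [Finset.prod_insert hj, Finset.prod_insert hj, Finset.sum_insert hj]
    have hP : |∏ i ∈ s, a i| ≤ 1 := by
      rw [abs_of_nonneg (Finset.prod_nonneg fun i _ => (ha i).1)]
      exact Finset.prod_le_one (fun i _ => (ha i).1) (fun i _ => (ha i).2)
    have hbj : |b j| ≤ 1 := by
      rw [abs_of_nonneg (hb j).1]
      exact (hb j).2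
    have e : a j * ∏ i ∈ s, a i - b j * ∏ i ∈ s, b i
        = (a j - b j) * ∏ i ∈ s, a i + b j * (∏ i ∈ s, a i - ∏ i ∈ s, b i) := by ring
    rw [e]
    calc |(a j - b j) * ∏ i ∈ s, a i + b j * (∏ i ∈ s, a i - ∏ i ∈ s, b i)|
        ≤ |(a j - b j) * ∏ i ∈ s, a i| + |b j * (∏ i ∈ s, a i - ∏ i ∈ s, b i)| := abs_add_le _ _
      _ = |a j - b j| * |∏ i ∈ s, a i| + |b j| * |∏ i ∈ s, a i - ∏ i ∈ s, b i| := by
          rw [abs_mul, abs_mul]
      _ ≤ |a j - b j| * 1 + 1 * ∑ i ∈ s, |a i - b i| := by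
          refine add_le_add (mul_le_mul_of_nonneg_left hP (abs_nonneg _)) ?_
          exact mul_le_mul hbj ih (abs_nonneg _) zero_le_one
      _ = |a j - b j| + ∑ i ∈ s, |a i - b i| := by ring

variable (K : Type) [Field K] [NumberField K]

/-- The deviation `log |x|_w - (1/n) log |N x|`. -/
noncomputable def logDev (X : mixedSpace K) (w : InfinitePlace K) : ℝ :=
  Real.log (normAtPlace w X) - Real.log (mixedEmbedding.norm X) * (finrank ℚ K : ℝ)⁻¹

theorem logMap_eq_mult_mul_logDev (X : mixedSpace K) (w : {w : InfinitePlace K // w ≠ w₀}) :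
    logMap X w = mult w.1 * logDev K X w.1 := rfl

theorem sum_mult_mul_logDev (X : mixedSpace K) (hX : mixedEmbedding.norm X ≠ 0) :
    ∑ w : InfinitePlace K, (mult w : ℝ) * logDev K X w = 0 := by
  have hn : (finrank ℚ K : ℝ) ≠ 0 := Nat.cast_ne_zero.2 (finrank_pos).ne'
  have h1 : Real.log (mixedEmbedding.norm X)
      = ∑ w : InfinitePlace K, (mult w : ℝ) * Real.log (normAtPlace w X) := by
    rw [mixedEmbedding.norm_apply, Real.log_prod]
    · refine Finset.sum_congr rfl fun w _ => ?_
      rw [Real.log_pow]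
    · intro w _
      exact pow_ne_zero _ (mixedEmbedding.norm_ne_zero_iff.1 hX w)
  have h2 : ∑ w : InfinitePlace K, (mult w : ℝ) = (finrank ℚ K : ℝ) := by
    exact_mod_cast (sum_mult_eq (K := K))
  simp only [logDev, mul_sub]
  rw [Finset.sum_sub_distrib, ← h1, ← Finset.sum_mul, h2]
  field_simp
  ring

open scoped Classical in
theorem abs_logDev_le (X : mixedSpace K) (hX : mixedEmbedding.norm X ≠ 0) (w : InfinitePlace K) :
    |logDev K X w| ≤ ∑ w' : {w : InfinitePlace K // w ≠ w₀}, |logMap X w'| := by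
  have hmul : ∀ w : InfinitePlace K, |logDev K X w| ≤ |(mult w : ℝ) * logDev K X w| := by
    intro w
    rw [abs_mul, abs_of_nonneg (Nat.cast_nonneg (mult w) : (0 : ℝ) ≤ (mult w : ℝ))]
    exact le_mul_of_one_le_left (abs_nonneg _) one_le_mult
  by_cases hw : w = w₀
  · subst hw
    have h := sum_mult_mul_logDev K X hX
    rw [Fintype.sum_eq_add_sum_subtype_ne _ (w₀ : InfinitePlace K)] at h
    have h' : (mult (w₀ : InfinitePlace K) : ℝ) * logDev K X w₀
        = -∑ w' : {w : InfinitePlace K // w ≠ w₀}, logMap X w' := by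
      have : ∑ w' : {w : InfinitePlace K // w ≠ w₀}, logMap X w'
          = ∑ w' : {w : InfinitePlace K // w ≠ w₀}, (mult w'.1 : ℝ) * logDev K X w'.1 :=
        Finset.sum_congr rfl fun w' _ => logMap_eq_mult_mul_logDev K X w'
      rw [this]
      linarith
    calc |logDev K X w₀| ≤ |(mult (w₀ : InfinitePlace K) : ℝ) * logDev K X w₀| := hmul _
      _ = |∑ w' : {w : InfinitePlace K // w ≠ w₀}, logMap X w'| := by rw [h', abs_neg]
      _ ≤ ∑ w' : {w : InfinitePlace K // w ≠ w₀}, |logMap X w'| := Finset.abs_sum_le_sum_abs _ _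
  · calc |logDev K X w| ≤ |(mult w : ℝ) * logDev K X w| := hmul _
      _ = |logMap X ⟨w, hw⟩| := by rw [logMap_eq_mult_mul_logDev]
      _ ≤ ∑ w' : {w : InfinitePlace K // w ≠ w₀}, |logMap X w'| :=
          Finset.single_le_sum (f := fun w' : {w : InfinitePlace K // w ≠ w₀} => |logMap X w'|)
            (fun _ _ => abs_nonneg _) (Finset.mem_univ _)


open scoped Classical

/-- The coordinate map `logSpace K → ℝ^r` as a continuous linear map. -/
noncomputable def coordCLM : logSpace K →L[ℝ] (Fin (rank K) → ℝ) :=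
  LinearMap.toContinuousLinearMap
    ((basisUnitLattice K).ofZLatticeBasis ℝ (unitLattice K)).equivFun.toLinearMap

/-- The inverse of the coordinate map as a continuous linear map. -/
noncomputable def coordSymmCLM : (Fin (rank K) → ℝ) →L[ℝ] logSpace K :=
  LinearMap.toContinuousLinearMap
    ((basisUnitLattice K).ofZLatticeBasis ℝ (unitLattice K)).equivFun.symm.toLinearMap

theorem unitCoord_eq_coordCLM (X : mixedSpace K) : unitCoord K X = coordCLM K (logMap X) := rfl

theorem logMap_eq_coordSymmCLM (X : mixedSpace K) :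
    logMap X = coordSymmCLM K (unitCoord K X) := by
  classical
  exact (LinearEquiv.symm_apply_apply
    ((basisUnitLattice K).ofZLatticeBasis ℝ (unitLattice K)).equivFun (logMap X)).symm

theorem abs_unitCoord_lt_one_of_unitWeight_ne_zero {X : mixedSpace K} (h : unitWeight K X ≠ 0)
    (i : Fin (rank K)) : |unitCoord K X i| < 1 := by
  have hX := norm_ne_zero_of_unitWeight_ne_zero K h
  rw [unitWeight_of_norm_ne_zero K hX] at h
  have h2 : ∏ i, tent (unitCoord K X i) ≠ 0 := right_ne_zero_of_mul h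
  exact abs_lt_one_of_tent_ne_zero (Finset.prod_ne_zero_iff.1 h2 i (Finset.mem_univ i))

/-- The constant in the support bound. -/
noncomputable def suppConst : ℝ :=
  (Fintype.card {w : InfinitePlace K // w ≠ w₀} : ℝ) * ‖coordSymmCLM K‖

theorem suppConst_nonneg : 0 ≤ suppConst K :=
  mul_nonneg (Nat.cast_nonneg _) (norm_nonneg _)

theorem abs_logDev_le_suppConst {X : mixedSpace K} (h : unitWeight K X ≠ 0)
    (w : InfinitePlace K) : |logDev K X w| ≤ suppConst K := by
  classical
  have hX := norm_ne_zero_of_unitWeight_ne_zero K h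
  refine (abs_logDev_le K X hX w).trans ?_
  have hc : ‖unitCoord K X‖ ≤ 1 := by
    rw [pi_norm_le_iff_of_nonneg zero_le_one]
    intro i
    rw [Real.norm_eq_abs]
    exact (abs_unitCoord_lt_one_of_unitWeight_ne_zero K h i).le
  have hl : ‖logMap X‖ ≤ ‖coordSymmCLM K‖ := by
    rw [logMap_eq_coordSymmCLM]
    calc ‖coordSymmCLM K (unitCoord K X)‖ ≤ ‖coordSymmCLM K‖ * ‖unitCoord K X‖ :=
          ContinuousLinearMap.le_opNorm _ _
      _ ≤ ‖coordSymmCLM K‖ * 1 := mul_le_mul_of_nonneg_left hc (norm_nonneg _)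
      _ = ‖coordSymmCLM K‖ := mul_one _
  calc ∑ w' : {w : InfinitePlace K // w ≠ w₀}, |logMap X w'|
      ≤ ∑ _w' : {w : InfinitePlace K // w ≠ w₀}, ‖coordSymmCLM K‖ := by
        refine Finset.sum_le_sum fun w' _ => ?_
        rw [← Real.norm_eq_abs]
        exact (norm_le_pi_norm (logMap X) w').trans hl
    _ = suppConst K := by
        rw [Finset.sum_const, Finset.card_univ, nsmul_eq_mul, suppConst]

/-- **(W3)** On the support of the weight, `|N x| ≤ (B |x|_w)^n` for every place `w`. -/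
theorem norm_le_of_unitWeight_ne_zero {X : mixedSpace K} (h : unitWeight K X ≠ 0)
    (w : InfinitePlace K) :
    mixedEmbedding.norm X ≤ (Real.exp (suppConst K) * normAtPlace w X) ^ (finrank ℚ K) := by
  have hX := norm_ne_zero_of_unitWeight_ne_zero K h
  have hXpos : 0 < mixedEmbedding.norm X :=
    lt_of_le_of_ne (mixedEmbedding.norm_nonneg X) (Ne.symm hX)
  have hw : 0 < normAtPlace w X :=
    lt_of_le_of_ne (normAtPlace_nonneg w X) (Ne.symm (mixedEmbedding.norm_ne_zero_iff.1 hX w))
  have hn : (0 : ℝ) < (finrank ℚ K : ℝ) := Nat.cast_pos.2 finrank_pos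
  have hd := abs_logDev_le_suppConst K h w
  rw [abs_le] at hd
  have h1 : Real.log (mixedEmbedding.norm X) * (finrank ℚ K : ℝ)⁻¹
      ≤ suppConst K + Real.log (normAtPlace w X) := by
    have := hd.1
    unfold logDev at this
    linarith
  have h2 : Real.log (mixedEmbedding.norm X)
      ≤ (finrank ℚ K : ℝ) * (suppConst K + Real.log (normAtPlace w X)) := by
    have := mul_le_mul_of_nonneg_left h1 hn.le
    rwa [mul_comm (Real.log _) _, ← mul_assoc, mul_inv_cancel₀ hn.ne', one_mul] at this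
  calc mixedEmbedding.norm X = Real.exp (Real.log (mixedEmbedding.norm X)) :=
        (Real.exp_log hXpos).symm
    _ ≤ Real.exp ((finrank ℚ K : ℝ) * (suppConst K + Real.log (normAtPlace w X))) :=
        Real.exp_le_exp.2 h2
    _ = (Real.exp (suppConst K) * normAtPlace w X) ^ (finrank ℚ K) := by
        rw [mul_comm, Real.exp_mul, Real.exp_add, Real.exp_log hw, Real.rpow_natCast]

omit [NumberField K] in
theorem s14_mult_le_two (w : InfinitePlace K) : (mult w : ℝ) ≤ 2 := by
  unfold mult
  split_ifs <;> norm_num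

/-- The Lipschitz constant. -/
noncomputable def lipConst : ℝ := (rank K : ℝ) * (‖coordCLM K‖ * 4)

theorem lipConst_nonneg : 0 ≤ lipConst K :=
  mul_nonneg (Nat.cast_nonneg _) (mul_nonneg (norm_nonneg _) (by norm_num))

/-- **(W4)** The weight is Lipschitz with respect to the logarithms of the absolute values. -/
theorem abs_unitWeight_sub_le {X Y : mixedSpace K} (hX : mixedEmbedding.norm X ≠ 0)
    (hY : mixedEmbedding.norm Y ≠ 0) {ε : ℝ}
    (h : ∀ w : InfinitePlace K,
      |Real.log (normAtPlace w Y) - Real.log (normAtPlace w X)| ≤ ε) :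
    |unitWeight K Y - unitWeight K X| ≤ lipConst K * ε := by
  classical
  have hε : 0 ≤ ε := (abs_nonneg _).trans (h w₀)
  have hn : (0 : ℝ) < (finrank ℚ K : ℝ) := Nat.cast_pos.2 finrank_pos
  -- logarithm of the norm
  have hlogn : ∀ Z : mixedSpace K, mixedEmbedding.norm Z ≠ 0 →
      Real.log (mixedEmbedding.norm Z)
        = ∑ w : InfinitePlace K, (mult w : ℝ) * Real.log (normAtPlace w Z) := by
    intro Z hZ
    rw [mixedEmbedding.norm_apply, Real.log_prod]
    · refine Finset.sum_congr rfl fun w _ => ?_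
      rw [Real.log_pow]
    · intro w _
      exact pow_ne_zero _ (mixedEmbedding.norm_ne_zero_iff.1 hZ w)
  have hsum : ∑ w : InfinitePlace K, (mult w : ℝ) = (finrank ℚ K : ℝ) := by
    exact_mod_cast (sum_mult_eq (K := K))
  have hN : |Real.log (mixedEmbedding.norm Y) - Real.log (mixedEmbedding.norm X)|
      ≤ (finrank ℚ K : ℝ) * ε := by
    rw [hlogn Y hY, hlogn X hX, ← Finset.sum_sub_distrib]
    calc |∑ w : InfinitePlace K, ((mult w : ℝ) * Real.log (normAtPlace w Y)
            - (mult w : ℝ) * Real.log (normAtPlace w X))|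
        ≤ ∑ w : InfinitePlace K, |(mult w : ℝ) * Real.log (normAtPlace w Y)
            - (mult w : ℝ) * Real.log (normAtPlace w X)| := Finset.abs_sum_le_sum_abs _ _
      _ ≤ ∑ w : InfinitePlace K, (mult w : ℝ) * ε := by
          refine Finset.sum_le_sum fun w _ => ?_
          rw [← mul_sub, abs_mul, abs_of_nonneg (Nat.cast_nonneg (mult w) : (0:ℝ) ≤ (mult w : ℝ))]
          exact mul_le_mul_of_nonneg_left (h w) (Nat.cast_nonneg _)
      _ = (finrank ℚ K : ℝ) * ε := by rw [← Finset.sum_mul, hsum]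
  have hdev : ∀ w : InfinitePlace K, |logDev K Y w - logDev K X w| ≤ 2 * ε := by
    intro w
    have e : logDev K Y w - logDev K X w
        = (Real.log (normAtPlace w Y) - Real.log (normAtPlace w X))
          - (Real.log (mixedEmbedding.norm Y) - Real.log (mixedEmbedding.norm X))
            * (finrank ℚ K : ℝ)⁻¹ := by
      unfold logDev
      ring
    rw [e]
    have h2 : |(Real.log (mixedEmbedding.norm Y) - Real.log (mixedEmbedding.norm X))
            * (finrank ℚ K : ℝ)⁻¹| ≤ ε := by
      rw [abs_mul, abs_of_nonneg (inv_nonneg.2 hn.le)]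
      calc |Real.log (mixedEmbedding.norm Y) - Real.log (mixedEmbedding.norm X)|
            * (finrank ℚ K : ℝ)⁻¹
          ≤ ((finrank ℚ K : ℝ) * ε) * (finrank ℚ K : ℝ)⁻¹ :=
            mul_le_mul_of_nonneg_right hN (inv_nonneg.2 hn.le)
        _ = ε := by field_simp
    calc |(Real.log (normAtPlace w Y) - Real.log (normAtPlace w X))
          - (Real.log (mixedEmbedding.norm Y) - Real.log (mixedEmbedding.norm X))
            * (finrank ℚ K : ℝ)⁻¹|
        ≤ |Real.log (normAtPlace w Y) - Real.log (normAtPlace w X)|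
          + |(Real.log (mixedEmbedding.norm Y) - Real.log (mixedEmbedding.norm X))
            * (finrank ℚ K : ℝ)⁻¹| := abs_sub _ _
      _ ≤ ε + ε := add_le_add (h w) h2
      _ = 2 * ε := by ring
  have hlog : ‖logMap Y - logMap X‖ ≤ 4 * ε := by
    rw [pi_norm_le_iff_of_nonneg (by positivity)]
    intro w'
    rw [Pi.sub_apply, logMap_eq_mult_mul_logDev, logMap_eq_mult_mul_logDev, ← mul_sub,
      Real.norm_eq_abs, abs_mul,
      abs_of_nonneg (Nat.cast_nonneg (mult w'.1) : (0:ℝ) ≤ (mult w'.1 : ℝ))]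
    calc (mult w'.1 : ℝ) * |logDev K Y w'.1 - logDev K X w'.1|
        ≤ 2 * (2 * ε) := mul_le_mul (s14_mult_le_two K _) (hdev _) (abs_nonneg _) (by norm_num)
      _ = 4 * ε := by ring
  have hcoord : ∀ i, |unitCoord K Y i - unitCoord K X i| ≤ ‖coordCLM K‖ * (4 * ε) := by
    intro i
    have e : unitCoord K Y - unitCoord K X = coordCLM K (logMap Y - logMap X) := by
      rw [unitCoord_eq_coordCLM, unitCoord_eq_coordCLM, map_sub]
    calc |unitCoord K Y i - unitCoord K X i| = ‖(unitCoord K Y - unitCoord K X) i‖ := by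
          rw [Real.norm_eq_abs, Pi.sub_apply]
      _ ≤ ‖unitCoord K Y - unitCoord K X‖ := norm_le_pi_norm _ i
      _ = ‖coordCLM K (logMap Y - logMap X)‖ := by rw [e]
      _ ≤ ‖coordCLM K‖ * ‖logMap Y - logMap X‖ := ContinuousLinearMap.le_opNorm _ _
      _ ≤ ‖coordCLM K‖ * (4 * ε) := mul_le_mul_of_nonneg_left hlog (norm_nonneg _)
  have hprod : |∏ i, tent (unitCoord K Y i) - ∏ i, tent (unitCoord K X i)|
      ≤ (rank K : ℝ) * (‖coordCLM K‖ * (4 * ε)) := by
    refine (abs_prod_sub_prod_le_sum Finset.univ _ _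
      (fun i => ⟨tent_nonneg _, tent_le_one _⟩) (fun i => ⟨tent_nonneg _, tent_le_one _⟩)).trans ?_
    calc ∑ i, |tent (unitCoord K Y i) - tent (unitCoord K X i)|
        ≤ ∑ _i : Fin (rank K), ‖coordCLM K‖ * (4 * ε) :=
          Finset.sum_le_sum fun i _ => (abs_tent_sub_tent_le _ _).trans (hcoord i)
      _ = (rank K : ℝ) * (‖coordCLM K‖ * (4 * ε)) := by
          rw [Finset.sum_const, Finset.card_univ, Fintype.card_fin, nsmul_eq_mul]
  rw [unitWeight_of_norm_ne_zero K hX, unitWeight_of_norm_ne_zero K hY, ← mul_sub, abs_mul,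
    abs_of_nonneg (inv_nonneg.2 (Nat.cast_nonneg _))]
  have hinv : (torsionOrder K : ℝ)⁻¹ ≤ 1 :=
    inv_le_one_of_one_le₀ (by exact_mod_cast (torsionOrder_pos K))
  calc (torsionOrder K : ℝ)⁻¹ * |∏ i, tent (unitCoord K Y i) - ∏ i, tent (unitCoord K X i)|
      ≤ 1 * ((rank K : ℝ) * (‖coordCLM K‖ * (4 * ε))) :=
        mul_le_mul hinv hprod (abs_nonneg _) zero_le_one
    _ = lipConst K * ε := by
        unfold lipConst
        ring

end Fermat.Agent.S14
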