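/-
S14, piece N4c-W (helper87): proof of `UnitWeightStatement` (interface of helper75's
`LBoundedPlan.lean`): a Lipschitz partition of unity for the action of the units.
-/
import Fermat.Agent.S14.UnitWeightBounds
import Fermat.Agent.S14.LBoundedPlan

set_option autoImplicit false

open NumberField NumberField.mixedEmbedding NumberField.Units NumberField.InfinitePlace Module
open NumberField.Units.dirichletUnitTheorem

namespace Fermat.Agent.S14

theorem tent_sum_three {c : ℝ} (hc : |c| < 1) :
    ∑ j ∈ ({-1, 0, 1} : Finset ℤ), tent (c + j) = 1 := by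
  have h1 : (-1 : ℤ) ∉ ({0, 1} : Finset ℤ) := by decide
  have h2 : (0 : ℤ) ∉ ({1} : Finset ℤ) := by decide
  rw [Finset.sum_insert h1, Finset.sum_insert h2, Finset.sum_singleton]
  push_cast
  rw [abs_lt] at hc
  rcases le_total 0 c with h | h
  · have e1 : tent (c + -1) = c := by
      rw [tent_of_abs_le_one (by rw [abs_le]; constructor <;> linarith),
        abs_of_nonpos (by linarith)]
      ring
    have e2 : tent (c + 0) = 1 - c := by
      rw [add_zero, tent_of_abs_le_one (by rw [abs_le]; constructor <;> linarith),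
        abs_of_nonneg h]
    have e3 : tent (c + 1) = 0 :=
      tent_eq_zero_of_one_le_abs (by rw [le_abs]; left; linarith)
    rw [e1, e2, e3]
    ring
  · have e1 : tent (c + -1) = 0 :=
      tent_eq_zero_of_one_le_abs (by rw [le_abs]; right; linarith)
    have e2 : tent (c + 0) = 1 + c := by
      rw [add_zero, tent_of_abs_le_one (by rw [abs_le]; constructor <;> linarith),
        abs_of_nonpos h]
      ring
    have e3 : tent (c + 1) = -c := by
      rw [tent_of_abs_le_one (by rw [abs_le]; constructor <;> linarith),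
        abs_of_nonneg (by linarith)]
      ring
    rw [e1, e2, e3]
    ring

variable (K : Type) [Field K] [NumberField K]

open scoped Classical in
/-- The finite set of units used in the cover property. -/
noncomputable def coverSet : Finset (𝓞 K)ˣ :=
  (Fintype.piFinset (fun _ : Fin (rank K) => ({-1, 0, 1} : Finset ℤ))).image
    (fun k => unitParam K (1, k))

/-- **(W6)** cover property. -/
theorem unitWeight_cover {X : mixedSpace K} (h : unitWeight K X ≠ 0) :
    (torsionOrder K : ℝ) * ∑ u ∈ coverSet K, unitWeight K (u • X) = 1 := by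
  classical
  have hX := norm_ne_zero_of_unitWeight_ne_zero K h
  have hinj : Set.InjOn (fun k : Fin (rank K) → ℤ => unitParam K (1, k))
      (Fintype.piFinset (fun _ : Fin (rank K) => ({-1, 0, 1} : Finset ℤ)) : Set _) := by
    intro a _ b _ hab
    have := (unitParam K).injective hab
    exact (Prod.mk.injEq _ _ _ _ ▸ this).2
  unfold coverSet
  rw [Finset.sum_image hinj]
  have hterm : ∀ k : Fin (rank K) → ℤ, unitWeight K (unitParam K (1, k) • X)
      = (torsionOrder K : ℝ)⁻¹ * ∏ i, tent (unitCoord K X i + k i) := by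
    intro k
    rw [unitWeight_of_norm_ne_zero K (by rwa [norm_unit_smul]),
      unitCoord_unitParam_smul K (1, k) X hX]
  simp only [hterm]
  rw [← Finset.mul_sum]
  have key := Finset.prod_univ_sum (fun _ : Fin (rank K) => ({-1, 0, 1} : Finset ℤ))
    (fun i (j : ℤ) => tent (unitCoord K X i + j))
  rw [← key]
  have hone : ∀ i, ∑ j ∈ ({-1, 0, 1} : Finset ℤ), tent (unitCoord K X i + j) = 1 :=
    fun i => tent_sum_three (abs_unitCoord_lt_one_of_unitWeight_ne_zero K h i)
  simp only [hone, Finset.prod_const_one, mul_one]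
  exact mul_inv_cancel₀ (by exact_mod_cast (torsionOrder_pos K).ne')

/-- The weight on `K`. -/
noncomputable def unitWeightK (x : K) : ℝ := unitWeight K (mixedEmbedding K x)

theorem norm_mixedEmbedding_ne_zero {x : K} (hx : x ≠ 0) :
    mixedEmbedding.norm (mixedEmbedding K x) ≠ 0 := by
  rw [norm_eq_norm]
  exact_mod_cast abs_ne_zero.2 ((Algebra.norm_ne_zero_iff).2 hx)

theorem unitWeightK_unit_mul (ε : (𝓞 K)ˣ) (x : K) :
    unitWeightK K (((ε : 𝓞 K) : K) * x) = unitWeight K (ε • mixedEmbedding K x) := by
  unfold unitWeightK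
  rw [unitSMul_smul, map_mul]

theorem abs_log_one_add_le {t δ : ℝ} (hδ : δ ≤ 1 / 2) (ht : |t - 1| ≤ δ) :
    |Real.log t| ≤ 2 * δ := by
  have hδ0 : 0 ≤ δ := (abs_nonneg _).trans ht
  rw [abs_le] at ht
  have htpos : 0 < t := by linarith
  rw [abs_le]
  constructor
  · have h1 := Real.one_sub_inv_le_log_of_pos htpos
    have h3 : t⁻¹ ≤ 1 + 2 * δ := by
      have hd : (0 : ℝ) < 1 - δ := by linarith
      have h4 : t⁻¹ ≤ (1 - δ)⁻¹ := inv_anti₀ hd (by linarith)
      have h5 : (1 - δ)⁻¹ ≤ 1 + 2 * δ := by
        rw [inv_le_iff_one_le_mul₀ hd]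
        nlinarith
      exact h4.trans h5
    linarith
  · have h1 := Real.log_le_sub_one_of_pos htpos
    linarith

/-- **N4c-W.** -/
theorem unitWeightStatement : UnitWeightStatement := by
  intro K _ _
  classical
  refine ⟨unitWeightK K, coverSet K, Real.exp (suppConst K),
    lipConst K * 2, Real.exp_pos _, mul_nonneg (lipConst_nonneg K) (by norm_num),
    fun x => unitWeight_nonneg K _, fun x => unitWeight_le_one K _, ?_, ?_, ?_, ?_⟩
  · -- partition
    intro x hx
    have h := hasSum_unitWeight_smul K (mixedEmbedding K x) (norm_mixedEmbedding_ne_zero K hx)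
    refine h.congr_fun ?_
    intro ε
    exact unitWeightK_unit_mul K ε x
  · -- cover
    intro x hx hw
    have h := unitWeight_cover K (X := mixedEmbedding K x) hw
    have e : ∑ ε ∈ coverSet K, unitWeightK K (((ε : 𝓞 K) : K) * x)
        = ∑ u ∈ coverSet K, unitWeight K (u • mixedEmbedding K x) :=
      Finset.sum_congr rfl fun ε _ => unitWeightK_unit_mul K ε x
    rw [e, h]
  · -- support
    intro x hx hw v
    have h := norm_le_of_unitWeight_ne_zero K (X := mixedEmbedding K x) hw v
    rw [norm_eq_norm, normAtPlace_apply] at h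
    rwa [Rat.cast_abs] at h
  · -- Lipschitz
    intro x u hx δ hδ hu
    have hδ0 : 0 ≤ δ := (apply_nonneg (w₀ : InfinitePlace K) u).trans (hu w₀)
    have h1u : ∀ v : InfinitePlace K, |v (1 + u) - 1| ≤ δ := by
      intro v
      have := v.1.abs_abv_sub_le_abv_sub (1 + u) 1
      rw [add_sub_cancel_left] at this
      have h1 : v.1 1 = 1 := v.1.map_one
      rw [h1] at this
      exact this.trans (hu v)
    have hne : (1 : K) + u ≠ 0 := by
      intro h0
      have := h1u w₀
      rw [h0, map_zero] at this
      norm_num at this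
      linarith
    have hxu : x * (1 + u) ≠ 0 := mul_ne_zero hx hne
    have h := abs_unitWeight_sub_le K (X := mixedEmbedding K x)
      (Y := mixedEmbedding K (x * (1 + u)))
      (norm_mixedEmbedding_ne_zero K hx) (norm_mixedEmbedding_ne_zero K hxu) (ε := 2 * δ) (by
        intro v
        rw [normAtPlace_apply, normAtPlace_apply, map_mul,
          Real.log_mul ((map_ne_zero v).2 hx) ((map_ne_zero v).2 hne), add_sub_cancel_left]
        exact abs_log_one_add_le hδ (h1u v))
    unfold unitWeightK
    calc |unitWeight K (mixedEmbedding K (x * (1 + u))) - unitWeight K (mixedEmbedding K x)|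
        ≤ lipConst K * (2 * δ) := h
      _ = lipConst K * 2 * δ := by ring

end Fermat.Agent.S14
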