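import Fermat.Agent.S14.LBounded
import Fermat.Agent.S14.UnitWeightStatement
import Fermat.Agent.S14.EulerFinal
import Fermat.Agent.S14.OrbitSum

/-!
# S14, piece N4c: `lBoundedStatement : LBoundedStatement` (unconditional)

Glue of N4c-W (`unitWeightStatement`), N4c-Z (`idealZetaStatement`), N4c-F
(`fiberwise_of_idealZeta`) and N4c-M (`lBounded_of_pieces`).
-/

set_option autoImplicit false

namespace Fermat.Agent.S14

/-- **N4c**: the `L`-series of a nontrivial class group character is bounded on `(1, 2]`. -/
theorem lBoundedStatement : LBoundedStatement :=
  lBounded_of_pieces unitWeightStatement idealZetaStatement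
    (fiberwise_of_idealZeta idealZetaStatement)

end Fermat.Agent.S14
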