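import Fermat.Agent.S14.ThainePlan
import Fermat.Agent.S14.ThaineArith

/-!
# S14, piece N2g: the Galois group of `F = K(ζ_ℓ)` over `K = ℚ(ζ_p)` is cyclic of order `ℓ - 1`
-/

set_option autoImplicit false
set_option linter.style.haveILetI false

open NumberField IsDedekindDomain

namespace Fermat.Agent.S14

/-- **N2g**. -/
theorem thaineGalStatement (p : ℕ) [hp : Fact p.Prime] : ThaineGalStatement p := by
  intro K _ _ _ ℓ hℓ hℓp F _ _ _ _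
  haveI : Fact ℓ.Prime := ⟨hℓ⟩
  haveI : NeZero ℓ := ⟨hℓ.ne_zero⟩
  refine ⟨ta_finrank p ℓ K F hℓp, ?_⟩
  have hirr : Irreducible (Polynomial.cyclotomic ℓ K) := ta_irreducible p ℓ K F hℓp
  let e : (F ≃ₐ[K] F) ≃* (ZMod ℓ)ˣ := IsCyclotomicExtension.autEquivPow F hirr
  haveI : IsCyclic (ZMod ℓ)ˣ := inferInstance
  haveI : IsCyclic (F ≃ₐ[K] F) := isCyclic_of_surjective e.symm e.symm.surjective
  obtain ⟨τ, hτ⟩ := IsCyclic.exists_generator (α := F ≃ₐ[K] F)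
  have hζ₀ : IsPrimitiveRoot (IsCyclotomicExtension.zeta ℓ K F) ℓ :=
    IsCyclotomicExtension.zeta_spec ℓ K F
  refine ⟨τ, ((hζ₀.autToPow K τ : (ZMod ℓ)ˣ) : ZMod ℓ).val, hτ, ?_⟩
  intro ζℓ hζℓ
  obtain ⟨i, -, hi⟩ := hζ₀.eq_pow_of_pow_eq_one hζℓ.pow_eq_one
  have h0 := hζ₀.autToPow_spec K τ
  rw [← hi, map_pow, ← h0, ← pow_mul, ← pow_mul, mul_comm]

end Fermat.Agent.S14
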