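import Fermat.Agent.S14.ThainePlan
import Fermat.Agent.S14.ThaineArith

/-!
# S14, piece N2n: `N_{F/K}(1 + ζ_p ζ_ℓ) = 1` for `ℓ ≡ 1 mod p`, `p` odd
-/

set_option autoImplicit false
set_option linter.style.haveILetI false

open NumberField IsDedekindDomain Polynomial

namespace Fermat.Agent.S14

/-- In a domain containing a primitive `ℓ`-th root of unity (`ℓ` an odd prime), the product of
`1 + μ y` over the primitive `ℓ`-th roots of unity `μ`, times `1 + y`, is `1 + y ^ ℓ`. -/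
theorem thaineNorm_prod_primitiveRoots {E : Type*} [CommRing E] [IsDomain E] {ℓ : ℕ}
    (hℓ : ℓ.Prime) (hodd : Odd ℓ) {μ₀ : E} (hμ₀ : IsPrimitiveRoot μ₀ ℓ) (y : E) :
    (1 + y) * ∏ μ ∈ primitiveRoots ℓ E, (1 + μ * y) = 1 + y ^ ℓ := by
  classical
  have h := hμ₀.pow_add_pow_eq_prod_add_mul (1 : E) y hodd
  rw [one_pow] at h
  rw [h, IsPrimitiveRoot.nthRoots_one_eq_biUnion_primitiveRoots, hℓ.divisors]
  have hdisj : Disjoint (primitiveRoots 1 E) (primitiveRoots ℓ E) :=
    IsPrimitiveRoot.disjoint hℓ.one_lt.ne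
  rw [show ({1, ℓ} : Finset ℕ) = insert 1 {ℓ} from rfl, Finset.biUnion_insert,
    Finset.singleton_biUnion, Finset.prod_union hdisj, IsPrimitiveRoot.primitiveRoots_one,
    Finset.prod_singleton, one_mul]

/-- **N2n**. -/
theorem thaineNormStatement (p : ℕ) [hp : Fact p.Prime] (h3 : 3 ≤ p) : ThaineNormStatement p := by
  intro K _ _ _ ℓ hℓ hℓp hmod F _ _ _ _ ζ ζℓ hζ hζℓ
  haveI : Fact ℓ.Prime := ⟨hℓ⟩
  haveI : NeZero ℓ := ⟨hℓ.ne_zero⟩
  have hirr : Irreducible (cyclotomic ℓ K) := ta_irreducible p ℓ K F hℓp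
  -- `ℓ` is odd
  have hodd : Odd ℓ := by
    rcases hℓ.eq_two_or_odd' with h2 | h
    · exfalso
      subst h2
      rw [Nat.mod_eq_of_lt (by omega)] at hmod
      omega
    · exact h
  let E := AlgebraicClosure F
  haveI := IsCyclotomicExtension.finiteDimensional {ℓ} K F
  haveI := IsCyclotomicExtension.isGalois {ℓ} K F
  apply (algebraMap K E).injective
  rw [Algebra.norm_eq_prod_embeddings K E, map_one]
  -- the image of `ζ` in `E`
  set y : E := algebraMap K E ζ with hy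
  have hyprim : IsPrimitiveRoot y p := hζ.map_of_injective (algebraMap K E).injective
  have hσ : ∀ σ : F →ₐ[K] E, σ (1 + algebraMap K F ζ * ζℓ) = 1 + σ ζℓ * y := by
    intro σ
    rw [map_add, map_one, map_mul, AlgHom.commutes, mul_comm]
  simp_rw [hσ]
  have Hprod : (∏ σ : F →ₐ[K] E, (1 + σ ζℓ * y)) = ∏ μ ∈ primitiveRoots ℓ E, (1 + μ * y) := by
    rw [← Finset.prod_attach (primitiveRoots ℓ E), ← Finset.univ_eq_attach]
    refine Fintype.prod_equiv (hζℓ.embeddingsEquivPrimitiveRoots E hirr) _ _ fun σ => ?_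
    simp
  rw [Hprod]
  have hμ₀ : IsPrimitiveRoot (algebraMap F E ζℓ) ℓ :=
    hζℓ.map_of_injective (algebraMap F E).injective
  have hmain := thaineNorm_prod_primitiveRoots hℓ hodd hμ₀ y
  -- `y ^ ℓ = y`
  have hyℓ : y ^ ℓ = y := by
    conv_lhs => rw [← Nat.div_add_mod ℓ p, hmod, pow_add, pow_mul, hyprim.pow_eq_one, one_pow,
      one_mul, pow_one]
  rw [hyℓ] at hmain
  -- `1 + y ≠ 0`
  have hne : (1 + y : E) ≠ 0 := by
    intro h0
    have hy1 : y = -1 := by linear_combination h0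
    have hy2 : y ^ 2 = 1 := by rw [hy1]; ring
    have := hyprim.dvd_of_pow_eq_one 2 hy2
    have := Nat.le_of_dvd (by norm_num) this
    omega
  exact mul_left_cancel₀ hne (by rw [hmain, mul_one])

end Fermat.Agent.S14
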