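import Fermat.Agent.S14.ThaineProjAux

/-!
# S14, piece N2c: from Thaine's relation to the vanishing of the `ω²`-part of `[v]` in `Cl/p`

`thaineStatement_of_rel : ThaineRelStatement p → ThaineStatement p`.
-/

set_option autoImplicit false

open NumberField IsDedekindDomain JacobiSumStickelberger
open scoped Pointwise nonZeroDivisors

namespace Fermat.Agent.S14

section Primes

variable {p : ℕ} [hp : Fact p.Prime] {K : Type} [Field K] [NumberField K]
  [IsCyclotomicExtension {p} ℚ K]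

/-- The prime `σ_d v`. -/
noncomputable def tpPrime (v : HeightOneSpectrum (𝓞 K)) (d : (ZMod p)ˣ) :
    HeightOneSpectrum (𝓞 K) where
  asIdeal := v.asIdeal.map ((clRingAction p K d : 𝓞 K ≃+* 𝓞 K) : 𝓞 K →+* 𝓞 K)
  isPrime := by
    have := v.isPrime
    exact Ideal.map_isPrime_of_equiv (clRingAction p K d : 𝓞 K ≃+* 𝓞 K)
  ne_bot := by
    have hinj : Function.Injective
        (((clRingAction p K d : 𝓞 K ≃+* 𝓞 K) : 𝓞 K →+* 𝓞 K)) := (clRingAction p K d).injective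
    rw [Ne, Ideal.map_eq_bot_iff_of_injective hinj]
    exact v.ne_bot

theorem tp_apply_mem_tpPrime (v : HeightOneSpectrum (𝓞 K)) (d : (ZMod p)ˣ) {x : 𝓞 K}
    (hx : x ∈ v.asIdeal) : clRingAction p K d x ∈ (tpPrime v d).asIdeal :=
  Ideal.mem_map_of_mem _ hx

theorem tp_mem_of_mem_tpPrime (v : HeightOneSpectrum (𝓞 K)) (d : (ZMod p)ˣ) {x : 𝓞 K}
    (hx : x ∈ (tpPrime v d).asIdeal) : clRingAction p K d⁻¹ x ∈ v.asIdeal := by
  obtain ⟨y, hy, rfl⟩ := (Ideal.mem_map_of_equiv (clRingAction p K d : 𝓞 K ≃+* 𝓞 K) x).mp hx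
  have h1 : clRingAction p K d⁻¹ (clRingAction p K d y) = y := by
    rw [← RingAut.mul_apply, ← map_mul, inv_mul_cancel, map_one, RingAut.one_apply]
  rw [h1]
  exact hy

theorem tp_natCast_mem_tpPrime (v : HeightOneSpectrum (𝓞 K)) (d : (ZMod p)ˣ) (ℓ : ℕ)
    (hℓ : (ℓ : 𝓞 K) ∈ v.asIdeal) : (ℓ : 𝓞 K) ∈ (tpPrime v d).asIdeal := by
  have := tp_apply_mem_tpPrime v d hℓ
  rwa [map_natCast] at this

theorem tp_primeClass_tpPrime (v : HeightOneSpectrum (𝓞 K)) (d : (ZMod p)ˣ) :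
    clProj p (𝓞 K) (Additive.ofMul (primeClass (tpPrime v d))) =
      clGalAction p K d (clProj p (𝓞 K) (Additive.ofMul (primeClass v))) := by
  unfold primeClass
  rw [clGalAction_clProj_mk0]
  rfl

/-- `d ↦ σ_d v` is injective for a prime `v` of degree one. -/
theorem tp_tpPrime_injective (v : HeightOneSpectrum (𝓞 K)) (hv : IsDegOne p v)
    (ζ : 𝓞 K) (hζ : IsPrimitiveRoot ζ p) : Function.Injective (tpPrime (p := p) v) := by
  intro d e hde
  have hℓv : ((Ideal.absNorm v.asIdeal : ℕ) : 𝓞 K) ∈ v.asIdeal := Ideal.absNorm_mem _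
  have hpu : (p : 𝓞 K) ∉ (tpPrime v d).asIdeal :=
    tp_prime_notMem _ _ hv.1 hv.2 (tp_natCast_mem_tpPrime v d _ hℓv)
  obtain ⟨m, hm⟩ := tp_exists_int_sub_mem v hv ζ
  have h1 := tp_apply_mem_tpPrime v d hm
  have h2 := tp_apply_mem_tpPrime v e hm
  rw [← hde] at h2
  rw [map_sub, map_intCast, tp_clRingAction_apply d ζ hζ] at h1
  rw [map_sub, map_intCast, tp_clRingAction_apply e ζ hζ] at h2
  have h3 : ζ ^ (d : ZMod p).val - ζ ^ (e : ZMod p).val ∈ (tpPrime v d).asIdeal := by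
    have := (tpPrime v d).asIdeal.sub_mem h1 h2
    rwa [sub_sub_sub_cancel_right] at this
  by_contra hne
  have hval : (d : ZMod p).val ≠ (e : ZMod p).val := by
    intro h
    apply hne
    exact Units.ext (ZMod.val_injective p h)
  exact tp_pow_sub_pow_notMem _ hpu ζ hζ _ _ (ZMod.val_lt _) (ZMod.val_lt _) hval h3

/-- Every prime above `ℓ = N v` is of the form `σ_d v`. -/
theorem tp_exists_eq_tpPrime (v : HeightOneSpectrum (𝓞 K)) (hv : IsDegOne p v)
    (u : HeightOneSpectrum (𝓞 K))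
    (hu : ((Ideal.absNorm v.asIdeal : ℕ) : 𝓞 K) ∈ u.asIdeal) :
    ∃ d : (ZMod p)ˣ, u = tpPrime v d := by
  set ℓ := Ideal.absNorm v.asIdeal with hℓ
  have hℓv : (ℓ : 𝓞 K) ∈ v.asIdeal := Ideal.absNorm_mem _
  have hmax : (Ideal.span {(ℓ : ℤ)}).IsMaximal :=
    (Ideal.span_singleton_prime (by exact_mod_cast hv.1.ne_zero)).mpr
      (Nat.prime_iff_prime_int.mp hv.1) |>.isMaximal (by
        rw [Ne, Ideal.span_singleton_eq_bot]; exact_mod_cast hv.1.ne_zero)
  have hlies : ∀ w : HeightOneSpectrum (𝓞 K), (ℓ : 𝓞 K) ∈ w.asIdeal →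
      w.asIdeal.LiesOver (Ideal.span {(ℓ : ℤ)}) := by
    intro w hw
    constructor
    have hle : Ideal.span {(ℓ : ℤ)} ≤ w.asIdeal.under ℤ := by
      rw [Ideal.span_singleton_le_iff_mem, Ideal.under_def, Ideal.mem_comap]
      simpa using hw
    have hne : w.asIdeal.under ℤ ≠ ⊤ := by
      have := w.isPrime
      exact (Ideal.IsPrime.under ℤ w.asIdeal).ne_top
    exact hmax.eq_of_le hne hle
  have := hlies v hℓv
  have := hlies u hu
  have := v.isPrime
  have := u.isPrime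
  obtain ⟨d, hd⟩ := tp_exists_map_eq (p := p) v.asIdeal u.asIdeal ℓ
  exact ⟨d, HeightOneSpectrum.ext hd⟩

omit [IsCyclotomicExtension {p} ℚ K] in
/-- `thaineElt ≡ s ^ (∑_d n_d d²) mod v`, given `1 + ζ ^ (d⁻¹) ≡ s ^ n_d mod v`. -/
theorem tp_thaineElt_sub_pow_mem (ζ : 𝓞 K) (v : HeightOneSpectrum (𝓞 K)) (s : ℕ)
    (n : (ZMod p)ˣ → ℕ)
    (hcong : ∀ d : (ZMod p)ˣ,
      (1 + ζ ^ ((d⁻¹ : (ZMod p)ˣ) : ZMod p).val) - (s : 𝓞 K) ^ (n d) ∈ v.asIdeal) :
    thaineElt p ζ - (s : 𝓞 K) ^ (∑ d : (ZMod p)ˣ, n d * ((d : ZMod p).val) ^ 2) ∈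
      v.asIdeal := by
  rw [← Ideal.Quotient.eq_zero_iff_mem, map_sub, sub_eq_zero, map_pow]
  unfold thaineElt
  rw [map_prod, ← Finset.prod_pow_eq_pow_sum]
  refine Fintype.prod_equiv (Equiv.inv (ZMod p)ˣ) _ _ ?_
  intro e
  rw [Equiv.inv_apply, map_pow, pow_mul]
  congr 1
  have h := hcong e⁻¹
  rw [inv_inv, ← Ideal.Quotient.eq_zero_iff_mem, map_sub, sub_eq_zero, map_pow] at h
  exact h

end Primes

/-- **N2c**: Thaine's relation implies the vanishing of the `ω²`-part of the class of a prime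
of degree one at which `thaineElt` is not a `p`-th power residue. -/
theorem thaineStatement_of_rel {p : ℕ} [hp : Fact p.Prime] (h3 : 3 ≤ p) :
    ThaineRelStatement p → ThaineStatement p := by
  classical
  clear h3
  intro hrel K _ _ _ ζ hζ v hv hnot
  by_contra hX
  have hℓv : ((Ideal.absNorm v.asIdeal : ℕ) : 𝓞 K) ∈ v.asIdeal := Ideal.absNorm_mem _
  have hmod : Ideal.absNorm v.asIdeal % p = 1 := tp_mod_eq_one v hv ζ hζ
  obtain ⟨b, s, hb0, hbs⟩ := hrel K ζ hζ (Ideal.absNorm v.asIdeal) hv.1 hv.2 hmod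
  have hmemw : ∀ d : (ZMod p)ˣ,
      ((Ideal.absNorm v.asIdeal : ℕ) : 𝓞 K) ∈ (tpPrime v d).asIdeal :=
    fun d => tp_natCast_mem_tpPrime v d _ hℓv
  choose n hn using fun d : (ZMod p)ˣ => (hbs (tpPrime v d)).2 (hmemw d)
  -- congruences modulo `v`
  have hcong : ∀ d : (ZMod p)ˣ,
      (1 + ζ ^ ((d⁻¹ : (ZMod p)ˣ) : ZMod p).val) - (s : 𝓞 K) ^ (n d) ∈ v.asIdeal := by
    intro d
    have h := tp_mem_of_mem_tpPrime v d (hn d).2
    rwa [map_sub, map_add, map_one, map_pow, map_natCast, tp_clRingAction_apply d⁻¹ ζ hζ] at h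
  have hthaine := tp_thaineElt_sub_pow_mem ζ v s n hcong
  -- the class group relation
  have hfin := tp_hasFiniteSupport_count b hb0
  set S : Finset (HeightOneSpectrum (𝓞 K)) :=
    hfin.toFinset ∪ Finset.univ.image (tpPrime (p := p) v) with hS
  have hSmem : ∀ u, tpCount u b ≠ 0 → u ∈ S := by
    intro u hu
    rw [hS, Finset.mem_union]
    left
    rw [Set.Finite.mem_toFinset]
    exact hu
  have hsum := tp_sum_count_smul_class b hb0 S hSmem
  have hsum2 : ∑ u ∈ S, tpCount u b • clProj p (𝓞 K) (Additive.ofMul (primeClass u)) = 0 := by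
    have := congrArg (clProj p (𝓞 K)) hsum
    rwa [map_sum, map_zero, Finset.sum_congr rfl (fun u _ => map_nsmul _ _ _)] at this
  rw [← Finset.sum_filter_add_sum_filter_not S
    (fun u => ((Ideal.absNorm v.asIdeal : ℕ) : 𝓞 K) ∈ u.asIdeal)] at hsum2
  have hzero : ∑ u ∈ S with ¬ ((Ideal.absNorm v.asIdeal : ℕ) : 𝓞 K) ∈ u.asIdeal,
      tpCount u b • clProj p (𝓞 K) (Additive.ofMul (primeClass u)) = 0 := by
    refine Finset.sum_eq_zero ?_
    intro u hu
    rw [Finset.mem_filter] at hu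
    obtain ⟨m, hm⟩ := (hbs u).1 hu.2
    rw [tp_count_eq_of_intValuation u hb0 hm, mul_smul]
    exact ZModModule.char_nsmul_eq_zero p _
  rw [hzero, add_zero] at hsum2
  have hfilter : S.filter (fun u => ((Ideal.absNorm v.asIdeal : ℕ) : 𝓞 K) ∈ u.asIdeal) =
      Finset.univ.image (tpPrime (p := p) v) := by
    ext u
    rw [Finset.mem_filter, Finset.mem_image]
    constructor
    · rintro ⟨_, hu⟩
      obtain ⟨d, hd⟩ := tp_exists_eq_tpPrime v hv u hu
      exact ⟨d, Finset.mem_univ _, hd.symm⟩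
    · rintro ⟨d, _, rfl⟩
      refine ⟨?_, hmemw d⟩
      rw [hS, Finset.mem_union]
      right
      exact Finset.mem_image_of_mem _ (Finset.mem_univ _)
  rw [hfilter, Finset.sum_image (fun d _ e _ h => tp_tpPrime_injective v hv ζ hζ h)] at hsum2
  -- apply `proj2`
  have hsum3 : ∑ d : (ZMod p)ˣ, ((n d : ZMod p) * (d : ZMod p) ^ 2) •
      proj2 p K (clProj p (𝓞 K) (Additive.ofMul (primeClass v))) = 0 := by
    have := congrArg (proj2 p K) hsum2
    rw [map_sum, map_zero] at this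
    rw [← this]
    refine Finset.sum_congr rfl ?_
    intro d _
    rw [tp_count_eq_of_intValuation _ hb0 (hn d).1, map_nsmul, tp_primeClass_tpPrime,
      tp_proj2_clGalAction, mul_smul, Nat.cast_smul_eq_nsmul]
  rw [← Finset.sum_smul] at hsum3
  rcases smul_eq_zero.mp hsum3 with h0 | h0
  · -- `p ∣ N`
    have hN : ((∑ d : (ZMod p)ˣ, n d * ((d : ZMod p).val) ^ 2 : ℕ) : ZMod p) = 0 := by
      rw [← h0]
      push_cast
      refine Finset.sum_congr rfl ?_
      intro d _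
      rw [ZMod.natCast_zmod_val]
    rw [ZMod.natCast_eq_zero_iff] at hN
    obtain ⟨c, hc⟩ := hN
    apply hnot
    refine ⟨(s : 𝓞 K) ^ c, ?_⟩
    rw [← pow_mul, mul_comm, ← hc]
    exact hthaine
  · exact hX h0

end Fermat.Agent.S14
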