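import Mathlib
import Fermat.Agent.S14.Plan

/-!
# S14, piece N2 (Thaine's relation): sub-interface

`K = ℚ(ζ_p)`, `ℓ ≠ p` a prime, `F = K(ζ_ℓ)`: ANY number field `F` with `[Algebra K F]` and
`[IsCyclotomicExtension {ℓ} K F]` (do NOT specialise to `CyclotomicField ℓ K` inside the pieces:
its `𝓞 K`-algebra instances form a diamond; the user instantiates `F` at the very end).

* N2g `ThaineGalStatement p`  : `Gal(F/K)` is cyclic of order `ℓ - 1`, generator `τ`, `τ ζ_ℓ = ζ_ℓ ^ s`.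
* N2r `ThaineRamStatement p`  : ramification of `F/K` (in terms of `intValuation`).
* N2n `ThaineNormStatement p` : `N_{F/K}(1 + ζ ζ_ℓ) = 1` (`ℓ ≡ 1 mod p`; TRUE ONLY FOR `p` ODD).
* N2b `ThaineRelStatement p`  : Thaine's element `b ∈ 𝓞 K` (norm of a Hilbert-90 solution).
* N2c `ThaineRelStatement p → ThaineStatement p` : projection to the `ω²`-part of `Cl/p`.

The theorems (each in its own file, namespace `Fermat.Agent.S14`):
* `thaineGalStatement  [Fact p.Prime] : ThaineGalStatement p`                      (ThaineGal.lean)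
* `thaineRamStatement  [Fact p.Prime] : ThaineRamStatement p`                      (ThaineRam.lean)
* `thaineNormStatement [Fact p.Prime] (h3 : 3 ≤ p) : ThaineNormStatement p`        (ThaineNorm.lean)
* `thaineRelStatement  [Fact p.Prime] (h3 : 3 ≤ p) : ThaineGalStatement p → ThaineRamStatement p →
     ThaineNormStatement p → ThaineRelStatement p`                                 (ThaineRel.lean)
* `thaineStatement_of_rel [Fact p.Prime] (h3 : 3 ≤ p) : ThaineRelStatement p → ThaineStatement p`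
                                                                                   (ThaineProj.lean)
This file only contains definitions (statements as `Prop`s).
-/

set_option autoImplicit false

open NumberField IsDedekindDomain

namespace Fermat.Agent.S14

/-- **N2g**: there are a generator `τ` of `Gal(F/K)` and `s : ℕ` with `τ ζ_ℓ = ζ_ℓ ^ s` for every
primitive `ℓ`-th root of unity of `F`, and `[F:K] = ℓ - 1`. -/
def ThaineGalStatement (p : ℕ) : Prop :=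
  ∀ (K : Type) [Field K] [NumberField K] [IsCyclotomicExtension {p} ℚ K]
    (ℓ : ℕ), ℓ.Prime → ℓ ≠ p →
    ∀ (F : Type) [Field F] [NumberField F] [Algebra K F] [IsCyclotomicExtension {ℓ} K F],
    Module.finrank K F = ℓ - 1 ∧
    ∃ (τ : F ≃ₐ[K] F) (s : ℕ), (∀ g : F ≃ₐ[K] F, g ∈ Subgroup.zpowers τ) ∧
      (∀ ζℓ : F, IsPrimitiveRoot ζℓ ℓ → τ ζℓ = ζℓ ^ s)

/-- **N2r** (ramification in `F = K(ζ_ℓ)` over `K = ℚ(ζ_p)`, `ℓ ≠ p` prime).
For a prime `w` of `F` over the prime `u` of `K`: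
* if `ℓ ∉ u`: `e(w|u) = 1`, in the form `ord_w(x) = ord_u(x)` for `x ∈ 𝓞 K`;
* if `ℓ ∈ u`: `e(w|u) = ℓ - 1`, `ord_w(1 - ζ_ℓ) = 1`, and `Gal(F/K)` acts trivially on `𝓞 F / w`. -/
def ThaineRamStatement (p : ℕ) : Prop :=
  ∀ (K : Type) [Field K] [NumberField K] [IsCyclotomicExtension {p} ℚ K]
    (ℓ : ℕ), ℓ.Prime → ℓ ≠ p →
    ∀ (F : Type) [Field F] [NumberField F] [Algebra K F] [IsCyclotomicExtension {ℓ} K F]
      (w : HeightOneSpectrum (𝓞 F)) (u : HeightOneSpectrum (𝓞 K)),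
        w.asIdeal.comap (algebraMap (𝓞 K) (𝓞 F)) = u.asIdeal →
        ((ℓ : 𝓞 K) ∉ u.asIdeal →
          ∀ x : 𝓞 K, w.intValuation (algebraMap (𝓞 K) (𝓞 F) x) = u.intValuation x) ∧
        ((ℓ : 𝓞 K) ∈ u.asIdeal →
          (∀ x : 𝓞 K, w.intValuation (algebraMap (𝓞 K) (𝓞 F) x) = u.intValuation x ^ (ℓ - 1)) ∧
          (∀ ζℓ : 𝓞 F, IsPrimitiveRoot ζℓ ℓ → w.intValuation (1 - ζℓ) = WithZero.exp (-1 : ℤ)) ∧
          (∀ (g : F ≃ₐ[K] F) (x : 𝓞 F),
            galRestrict (𝓞 K) K F (𝓞 F) g x - x ∈ w.asIdeal))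

/-- **N2n** (norm of Thaine's unit): `N_{F/K}(1 + ζ_p ζ_ℓ) = 1` when `ℓ ≡ 1 mod p`.
(False for `p = 2`; to be proved for odd primes `p`.) -/
def ThaineNormStatement (p : ℕ) : Prop :=
  ∀ (K : Type) [Field K] [NumberField K] [IsCyclotomicExtension {p} ℚ K]
    (ℓ : ℕ), ℓ.Prime → ℓ ≠ p → ℓ % p = 1 →
    ∀ (F : Type) [Field F] [NumberField F] [Algebra K F] [IsCyclotomicExtension {ℓ} K F]
      (ζ : K) (ζℓ : F), IsPrimitiveRoot ζ p → IsPrimitiveRoot ζℓ ℓ →
      Algebra.norm K (1 + algebraMap K F ζ * ζℓ) = 1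

/-- **N2b** (Thaine's relation, element form): for a prime `ℓ ≡ 1 mod p` there are `b ∈ 𝓞 K`,
`b ≠ 0` and `s : ℕ` such that `p ∣ ord_u(b)` for every prime `u ∤ ℓ` and
`1 + ζ ≡ s ^ ord_u(b) mod u` for every prime `u ∣ ℓ`. -/
def ThaineRelStatement (p : ℕ) : Prop :=
  ∀ (K : Type) [Field K] [NumberField K] [IsCyclotomicExtension {p} ℚ K]
    (ζ : 𝓞 K), IsPrimitiveRoot ζ p →
    ∀ ℓ : ℕ, ℓ.Prime → ℓ ≠ p → ℓ % p = 1 →
    ∃ (b : 𝓞 K) (s : ℕ), b ≠ 0 ∧
      ∀ u : HeightOneSpectrum (𝓞 K),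
        ((ℓ : 𝓞 K) ∉ u.asIdeal →
          ∃ n : ℕ, u.intValuation b = WithZero.exp (-((p * n : ℕ) : ℤ))) ∧
        ((ℓ : 𝓞 K) ∈ u.asIdeal →
          ∃ n : ℕ, u.intValuation b = WithZero.exp (-(n : ℤ)) ∧
            (1 + ζ) - (s : 𝓞 K) ^ n ∈ u.asIdeal)

end Fermat.Agent.S14
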