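/-
S14 piece N2a (helper72): arithmetic of `F = K(ζ_ℓ)` over `K = ℚ(ζ_p)` for Thaine's relation.
`p ≠ ℓ` primes, `K` a `p`-th cyclotomic extension of `ℚ`, `F` an `ℓ`-th cyclotomic extension of `K`.
-/
import Mathlib

set_option autoImplicit false
set_option linter.unusedSectionVars false

open NumberField IsDedekindDomain Ideal

namespace Fermat.Agent.S14.ThaineRamAux

section Setup

/-- `F = ℚ(ζ_{pℓ})`. -/
theorem isCyclotomicExtension_mul (p ℓ : ℕ) [hp : Fact p.Prime] [hℓ : Fact ℓ.Prime]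
    (K : Type) [Field K] [NumberField K] [IsCyclotomicExtension {p} ℚ K]
    (F : Type) [Field F] [NumberField F] [Algebra K F] [IsCyclotomicExtension {ℓ} K F]
    (hpℓ : p ≠ ℓ) : IsCyclotomicExtension {p * ℓ} ℚ F := by
  have h1 : IsCyclotomicExtension ({p} ∪ {ℓ}) ℚ F :=
    IsCyclotomicExtension.trans {p} {ℓ} ℚ K F (algebraMap K F).injective
  have hζp : IsPrimitiveRoot (algebraMap K F (IsCyclotomicExtension.zeta p ℚ K)) p :=
    (IsCyclotomicExtension.zeta_spec p ℚ K).map_of_injective (algebraMap K F).injective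
  have hζℓ : IsPrimitiveRoot (IsCyclotomicExtension.zeta ℓ K F) ℓ :=
    IsCyclotomicExtension.zeta_spec ℓ K F
  have hcop : Nat.Coprime p ℓ := (Nat.coprime_primes hp.out hℓ.out).mpr hpℓ
  have hprim : IsPrimitiveRoot
      (algebraMap K F (IsCyclotomicExtension.zeta p ℚ K) * IsCyclotomicExtension.zeta ℓ K F)
      (p * ℓ) := by
    rw [IsPrimitiveRoot.iff_orderOf,
      (Commute.all _ _).orderOf_mul_eq_mul_orderOf_of_coprime
        (by rw [← hζp.eq_orderOf, ← hζℓ.eq_orderOf]; exact hcop),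
      ← hζp.eq_orderOf, ← hζℓ.eq_orderOf]
  have : NeZero (p * ℓ) := ⟨Nat.mul_ne_zero hp.out.ne_zero hℓ.out.ne_zero⟩
  have : NeZero p := ⟨hp.out.ne_zero⟩
  have : NeZero ℓ := ⟨hℓ.out.ne_zero⟩
  have h2 : IsCyclotomicExtension ({p} ∪ {ℓ} ∪ {p * ℓ}) ℚ F :=
    IsCyclotomicExtension.union_of_isPrimitiveRoot _ ℚ F hprim
  -- now remove `p` and `ℓ`
  have h3 : IsCyclotomicExtension ({p * ℓ} ∪ {p}) ℚ F ↔ IsCyclotomicExtension {p * ℓ} ℚ F :=
    (IsCyclotomicExtension.iff_union_of_dvd (S := {p * ℓ}) ℚ F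
      ⟨p * ℓ, Set.mem_singleton _, NeZero.ne _, dvd_mul_right p ℓ⟩).symm
  have h4 : IsCyclotomicExtension ({p * ℓ} ∪ {p} ∪ {ℓ}) ℚ F ↔
      IsCyclotomicExtension ({p * ℓ} ∪ {p}) ℚ F :=
    (IsCyclotomicExtension.iff_union_of_dvd (S := {p * ℓ} ∪ {p}) ℚ F
      ⟨p * ℓ, Or.inl (Set.mem_singleton _), NeZero.ne _, dvd_mul_left ℓ p⟩).symm
  have e : ({p} ∪ {ℓ} ∪ {p * ℓ} : Set ℕ) = {p * ℓ} ∪ {p} ∪ {ℓ} := by
    ext x; simp only [Set.mem_union, Set.mem_singleton_iff]; tauto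
  rw [e] at h2
  exact h3.mp (h4.mp h2)

end Setup

section Ram

variable {p ℓ : ℕ} [hp : Fact p.Prime] [hℓ : Fact ℓ.Prime]
  {F : Type} [Field F] [NumberField F]

/-- Ramification index over `ℤ` of a prime of `F = ℚ(ζ_{pℓ})` above the rational prime `q`. -/
theorem ramificationIdx_int_F (K : Type) [Field K] [NumberField K] [IsCyclotomicExtension {p} ℚ K]
    [Algebra K F] [IsCyclotomicExtension {ℓ} K F] (hpℓ : p ≠ ℓ) (q : ℕ) [hq : Fact q.Prime]
    (Q : Ideal (𝓞 F)) [Q.IsPrime] [Q.LiesOver (span {(q : ℤ)})] :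
    Q.ramificationIdx ℤ = if q = p then p - 1 else if q = ℓ then ℓ - 1 else 1 := by
  have : IsCyclotomicExtension {p * ℓ} ℚ F := isCyclotomicExtension_mul p ℓ K F hpℓ
  have : NeZero (p * ℓ) := ⟨Nat.mul_ne_zero hp.out.ne_zero hℓ.out.ne_zero⟩
  split_ifs with h1 h2
  · subst h1
    have := IsCyclotomicExtension.Rat.ramificationIdx_eq (q * ℓ) (m := ℓ) (p := q) (k := 0) F Q
      (by simp) (fun h => hpℓ ((Nat.prime_dvd_prime_iff_eq hq.out hℓ.out).mp h))
    simpa using this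
  · subst h2
    have := IsCyclotomicExtension.Rat.ramificationIdx_eq (p * q) (m := p) (p := q) (k := 0) F Q
      (by simp [mul_comm]) (fun h => hpℓ ((Nat.prime_dvd_prime_iff_eq hq.out hp.out).mp h).symm)
    simpa using this
  · exact IsCyclotomicExtension.Rat.ramificationIdx_eq_of_not_dvd q F Q
      (fun h => by
        rcases (Nat.Prime.dvd_mul hq.out).mp h with h | h
        · exact h1 ((Nat.prime_dvd_prime_iff_eq hq.out hp.out).mp h)
        · exact h2 ((Nat.prime_dvd_prime_iff_eq hq.out hℓ.out).mp h))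

/-- Ramification index over `ℤ` of a prime of `K = ℚ(ζ_p)` above the rational prime `q`. -/
theorem ramificationIdx_int_K {K : Type} [Field K] [NumberField K]
    [IsCyclotomicExtension {p} ℚ K] (q : ℕ) [hq : Fact q.Prime]
    (P : Ideal (𝓞 K)) [P.IsPrime] [P.LiesOver (span {(q : ℤ)})] :
    P.ramificationIdx ℤ = if q = p then p - 1 else 1 := by
  have : NeZero p := ⟨hp.out.ne_zero⟩
  split_ifs with h1
  · subst h1
    have := IsCyclotomicExtension.Rat.ramificationIdx_eq q (m := 1) (p := q) (k := 0) K P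
      (by simp) (fun h => hq.out.one_lt.ne' (Nat.dvd_one.mp h))
    simpa using this
  · exact IsCyclotomicExtension.Rat.ramificationIdx_eq_of_not_dvd q K P
      (fun h => h1 ((Nat.prime_dvd_prime_iff_eq hq.out hp.out).mp h))


/-- `(ℓ : 𝓞 F) ∈ Q` iff the rational prime below `Q` is `ℓ`. -/
theorem natCast_mem_iff (Q : Ideal (𝓞 F)) [Q.IsPrime] [NeZero Q] :
    (ℓ : 𝓞 F) ∈ Q ↔ absNorm (under ℤ Q) = ℓ := by
  have hq : (absNorm (under ℤ Q)).Prime := Nat.absNorm_under_prime Q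
  have := Int.cast_mem_ideal_iff (I := Q) (d := (ℓ : ℤ))
  rw [Int.cast_natCast, Int.natCast_dvd_natCast, Nat.prime_dvd_prime_iff_eq hq hℓ.out] at this
  exact this

/-- Ramification index of a prime of `F` over `K`, in terms of the rational prime below. -/
theorem ramificationIdx_rel_aux (K : Type) [Field K] [NumberField K]
    [IsCyclotomicExtension {p} ℚ K]
    [Algebra K F] [IsCyclotomicExtension {ℓ} K F] (hpℓ : p ≠ ℓ)
    (Q : Ideal (𝓞 F)) [Q.IsPrime] [NeZero Q] :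
    Q.ramificationIdx (𝓞 K) = if absNorm (under ℤ Q) = ℓ then ℓ - 1 else 1 := by
  have hq : Fact (absNorm (under ℤ Q)).Prime := ⟨Nat.absNorm_under_prime Q⟩
  set q := absNorm (under ℤ Q) with hqdef
  have hQq : Q.LiesOver (span {(q : ℤ)}) := Int.liesOver_span_absNorm Q
  have hPq : (under (𝓞 K) Q).LiesOver (span {(q : ℤ)}) :=
    LiesOver.tower_bot Q (under (𝓞 K) Q) (span {(q : ℤ)})
  have htower := ramificationIdx_tower (R := ℤ) (under (𝓞 K) Q) Q
  rw [ramificationIdx_int_F K hpℓ q Q, ramificationIdx_int_K (p := p) q (under (𝓞 K) Q)] at htower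
  have hp1 : p - 1 ≠ 0 := Nat.sub_ne_zero_of_lt hp.out.one_lt
  by_cases h1 : q = p
  · have h2 : q ≠ ℓ := fun h => hpℓ (h1.symm.trans h)
    rw [if_pos h1, if_pos h1] at htower
    rw [if_neg h2]
    exact (Nat.eq_of_mul_eq_mul_left (Nat.pos_of_ne_zero hp1) (by rw [mul_one]; exact htower)).symm
  · rw [if_neg h1, if_neg h1, one_mul] at htower
    by_cases h2 : q = ℓ
    · rw [if_pos h2] at htower ⊢
      exact htower.symm
    · rw [if_neg h2] at htower ⊢
      exact htower.symm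

/-- Primes of `F` above `ℓ` have ramification index `ℓ - 1` over `K`. -/
theorem ramificationIdx_rel_of_mem (K : Type) [Field K] [NumberField K]
    [IsCyclotomicExtension {p} ℚ K]
    [Algebra K F] [IsCyclotomicExtension {ℓ} K F] (hpℓ : p ≠ ℓ)
    (Q : Ideal (𝓞 F)) [Q.IsPrime] [NeZero Q] (h : (ℓ : 𝓞 F) ∈ Q) :
    Q.ramificationIdx (𝓞 K) = ℓ - 1 := by
  rw [ramificationIdx_rel_aux K hpℓ Q, if_pos ((natCast_mem_iff Q).mp h)]

/-- Primes of `F` not above `ℓ` are unramified over `K`. -/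
theorem ramificationIdx_rel_of_notMem (K : Type) [Field K] [NumberField K]
    [IsCyclotomicExtension {p} ℚ K]
    [Algebra K F] [IsCyclotomicExtension {ℓ} K F] (hpℓ : p ≠ ℓ)
    (Q : Ideal (𝓞 F)) [Q.IsPrime] [NeZero Q] (h : (ℓ : 𝓞 F) ∉ Q) :
    Q.ramificationIdx (𝓞 K) = 1 := by
  rw [ramificationIdx_rel_aux K hpℓ Q, if_neg (fun h' => h ((natCast_mem_iff Q).mpr h'))]

end Ram

end Fermat.Agent.S14.ThaineRamAux
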