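/-
S14 piece N2r (helper72): ramification in `F = K(ζ_ℓ)` over `K = ℚ(ζ_p)`.
-/
import Mathlib
import Fermat.Agent.S14.ThainePlan
import Fermat.Agent.S14.ThaineRamAux

set_option autoImplicit false
set_option linter.unusedSectionVars false

open NumberField IsDedekindDomain Ideal

namespace Fermat.Agent.S14

namespace ThaineRamAux

/-- `(1 - ζ)^(ℓ-1)` is associated to `ℓ` for a primitive `ℓ`-th root of unity `ζ`, `ℓ` prime. -/
theorem associated_one_sub_pow {ℓ : ℕ} (hℓ : ℓ.Prime) {R : Type} [CommRing R] [IsDomain R]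
    {ζ : R} (hζ : IsPrimitiveRoot ζ ℓ) :
    Associated ((1 - ζ) ^ (ℓ - 1)) (ℓ : R) := by
  obtain ⟨n, rfl⟩ : ∃ n, ℓ = n + 1 := ⟨ℓ - 1, (Nat.succ_pred_eq_of_pos hℓ.pos).symm⟩
  have h := hζ.prod_one_sub_pow_eq_order
  rw [Nat.add_sub_cancel, Nat.cast_add, Nat.cast_one, ← h]
  have e : (1 - ζ) ^ n = ∏ _k ∈ Finset.range n, (1 - ζ) := by
    rw [Finset.prod_const, Finset.card_range]
  rw [e]
  refine Associated.prod _ _ _ fun k hk => ?_
  have hk' : k < n := Finset.mem_range.mp hk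
  have hcop : (k + 1).Coprime (n + 1) := by
    refine ((Nat.Prime.coprime_iff_not_dvd hℓ).mpr ?_).symm
    exact Nat.not_dvd_of_pos_of_lt (Nat.succ_pos k) (by omega)
  have := hζ.associated_sub_one_pow_sub_one_of_coprime hcop
  have h2 := this.neg_left.neg_right
  rwa [neg_sub, neg_sub] at h2

section

variable {p ℓ : ℕ} [hp : Fact p.Prime] [hℓ : Fact ℓ.Prime]
  {F : Type} [Field F] [NumberField F]

/-- the valuation of a unit is `1` -/
theorem intValuation_of_isUnit (w : HeightOneSpectrum (𝓞 F)) {x : 𝓞 F} (hx : IsUnit x) :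
    w.intValuation x = 1 := by
  rw [HeightOneSpectrum.intValuation_eq_one_iff_mem_primeCompl]
  intro h
  exact w.isPrime.ne_top (Ideal.eq_top_of_isUnit_mem _ h hx)

/-- associated elements have the same valuation -/
theorem intValuation_of_associated (w : HeightOneSpectrum (𝓞 F)) {x y : 𝓞 F}
    (h : Associated x y) : w.intValuation x = w.intValuation y := by
  obtain ⟨u, rfl⟩ := h
  rw [map_mul, intValuation_of_isUnit w u.isUnit, mul_one]

/-- The valuation of `ℓ` at a prime of `F` above `ℓ`. -/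
theorem intValuation_natCast (K : Type) [Field K] [NumberField K]
    [IsCyclotomicExtension {p} ℚ K] [Algebra K F] [IsCyclotomicExtension {ℓ} K F] (hpℓ : p ≠ ℓ)
    (w : HeightOneSpectrum (𝓞 F)) (hw : (ℓ : 𝓞 F) ∈ w.asIdeal) :
    w.intValuation (ℓ : 𝓞 F) = WithZero.exp (-1 : ℤ) ^ (ℓ - 1) := by
  have hℓ0 : (ℓ : ℤ) ≠ 0 := Int.natCast_ne_zero.mpr hℓ.out.ne_zero
  have hprime : (span {(ℓ : ℤ)}).IsPrime :=
    (span_singleton_prime hℓ0).mpr (Nat.prime_iff_prime_int.mp hℓ.out)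
  let vℓ : HeightOneSpectrum ℤ := ⟨span {(ℓ : ℤ)}, hprime, by
    rw [Ne, span_singleton_eq_bot]; exact hℓ0⟩
  have : NeZero w.asIdeal := ⟨w.ne_bot⟩
  have habs : absNorm (under ℤ w.asIdeal) = ℓ := (natCast_mem_iff w.asIdeal).mp hw
  have hlo : w.asIdeal.LiesOver (span {(ℓ : ℤ)}) := by
    have := Int.liesOver_span_absNorm w.asIdeal
    rwa [habs] at this
  have hlo' : w.asIdeal.LiesOver vℓ.asIdeal := hlo
  have h1 := HeightOneSpectrum.intValuation_liesOver vℓ w (ℓ : ℤ)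
  have h2 : vℓ.asIdeal.ramificationIdx' w.asIdeal = ℓ - 1 := by
    rw [ramificationIdx'_eq_ramificationIdx vℓ.asIdeal w.asIdeal vℓ.ne_bot]
    have := ramificationIdx_int_F K hpℓ ℓ w.asIdeal
    rw [if_neg (Ne.symm hpℓ), if_pos rfl] at this
    exact this
  have h3 : vℓ.intValuation (ℓ : ℤ) = WithZero.exp (-1 : ℤ) :=
    HeightOneSpectrum.intValuation_singleton vℓ hℓ0 rfl
  rw [h2, h3] at h1
  rw [h1]
  simp

/-- The valuation of `1 - ζ_ℓ` at a prime of `F` above `ℓ` is `exp (-1)`. -/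
theorem intValuation_one_sub (K : Type) [Field K] [NumberField K]
    [IsCyclotomicExtension {p} ℚ K] [Algebra K F] [IsCyclotomicExtension {ℓ} K F] (hpℓ : p ≠ ℓ)
    (w : HeightOneSpectrum (𝓞 F)) (hw : (ℓ : 𝓞 F) ∈ w.asIdeal)
    (ζℓ : 𝓞 F) (hζ : IsPrimitiveRoot ζℓ ℓ) :
    w.intValuation (1 - ζℓ) = WithZero.exp (-1 : ℤ) := by
  have h1 := intValuation_of_associated w (associated_one_sub_pow hℓ.out hζ)
  rw [map_pow, intValuation_natCast K hpℓ w hw] at h1
  have hne : (1 : 𝓞 F) - ζℓ ≠ 0 := by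
    rw [sub_ne_zero]
    exact fun h => hζ.ne_one hℓ.out.one_lt h.symm
  rw [HeightOneSpectrum.intValuation_eq_exp_neg_multiplicity w hne] at h1 ⊢
  rw [← WithZero.exp_nsmul, ← WithZero.exp_nsmul, WithZero.exp_inj] at h1
  rw [WithZero.exp_inj]
  have hℓ1 : (0 : ℤ) < ((ℓ - 1 : ℕ) : ℤ) := by
    have := hℓ.out.one_lt
    omega
  simp only [nsmul_eq_mul] at h1
  exact mul_left_cancel₀ hℓ1.ne' h1


/-- a primitive `ℓ`-th root of unity is `≡ 1` modulo a prime above `ℓ` -/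
theorem one_sub_mem (K : Type) [Field K] [NumberField K]
    [IsCyclotomicExtension {p} ℚ K] [Algebra K F] [IsCyclotomicExtension {ℓ} K F] (hpℓ : p ≠ ℓ)
    (w : HeightOneSpectrum (𝓞 F)) (hw : (ℓ : 𝓞 F) ∈ w.asIdeal)
    (ζℓ : 𝓞 F) (hζ : IsPrimitiveRoot ζℓ ℓ) : 1 - ζℓ ∈ w.asIdeal := by
  rw [← HeightOneSpectrum.intValuation_lt_one_iff_mem, intValuation_one_sub K hpℓ w hw ζℓ hζ]
  rw [← WithZero.exp_zero, WithZero.exp_lt_exp]
  norm_num

/-- `Gal(F/K)` acts trivially on `𝓞 F / w` for `w` above `ℓ`. -/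
theorem galRestrict_sub_mem (K : Type) [Field K] [NumberField K]
    [IsCyclotomicExtension {p} ℚ K] [Algebra K F] [IsCyclotomicExtension {ℓ} K F] (hpℓ : p ≠ ℓ)
    (w : HeightOneSpectrum (𝓞 F)) (hw : (ℓ : 𝓞 F) ∈ w.asIdeal)
    (g : F ≃ₐ[K] F) (x : 𝓞 F) :
    galRestrict (𝓞 K) K F (𝓞 F) g x - x ∈ w.asIdeal := by
  have : IsCyclotomicExtension {p * ℓ} ℚ F := isCyclotomicExtension_mul p ℓ K F hpℓ
  have : NeZero (p * ℓ) := ⟨Nat.mul_ne_zero hp.out.ne_zero hℓ.out.ne_zero⟩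
  have : NeZero p := ⟨hp.out.ne_zero⟩
  have : NeZero ℓ := ⟨hℓ.out.ne_zero⟩
  have hζp : IsPrimitiveRoot (IsCyclotomicExtension.zeta p ℚ K) p :=
    IsCyclotomicExtension.zeta_spec p ℚ K
  have hζpF : IsPrimitiveRoot (algebraMap K F (IsCyclotomicExtension.zeta p ℚ K)) p :=
    hζp.map_of_injective (algebraMap K F).injective
  have hζℓ : IsPrimitiveRoot (IsCyclotomicExtension.zeta ℓ K F) ℓ :=
    IsCyclotomicExtension.zeta_spec ℓ K F
  have hcop : Nat.Coprime p ℓ := (Nat.coprime_primes hp.out hℓ.out).mpr hpℓ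
  have hprim : IsPrimitiveRoot
      (algebraMap K F (IsCyclotomicExtension.zeta p ℚ K) * IsCyclotomicExtension.zeta ℓ K F)
      (p * ℓ) := by
    rw [IsPrimitiveRoot.iff_orderOf,
      (Commute.all _ _).orderOf_mul_eq_mul_orderOf_of_coprime
        (by rw [← hζpF.eq_orderOf, ← hζℓ.eq_orderOf]; exact hcop),
      ← hζpF.eq_orderOf, ← hζℓ.eq_orderOf]
  have htop := IsCyclotomicExtension.Rat.adjoin_singleton_eq_top hprim
  set G := galRestrict (𝓞 K) K F (𝓞 F) g with hG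
  -- the generator
  have hgen : hprim.toInteger = algebraMap (𝓞 K) (𝓞 F) hζp.toInteger * hζℓ.toInteger := by
    apply RingOfIntegers.ext
    change _ = algebraMap (𝓞 F) F (algebraMap (𝓞 K) (𝓞 F) hζp.toInteger * hζℓ.toInteger)
    rw [map_mul, ← IsScalarTower.algebraMap_apply (𝓞 K) (𝓞 F) F,
      IsScalarTower.algebraMap_apply (𝓞 K) K F]
    rfl
  have hx : x ∈ Algebra.adjoin ℤ {hprim.toInteger} := by rw [htop]; trivial
  induction hx using Algebra.adjoin_induction with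
  | mem y hy =>
    rw [Set.mem_singleton_iff] at hy
    subst hy
    rw [hgen, map_mul, AlgEquiv.commutes, ← mul_sub]
    refine Ideal.mul_mem_left _ _ ?_
    have h1 := one_sub_mem K hpℓ w hw _ hζℓ.toInteger_isPrimitiveRoot
    have h2 := one_sub_mem K hpℓ w hw _
      (hζℓ.toInteger_isPrimitiveRoot.map_of_injective (f := G) G.injective)
    have e : G hζℓ.toInteger - hζℓ.toInteger =
        (1 - hζℓ.toInteger) - (1 - G hζℓ.toInteger) := by ring
    rw [e]
    exact Ideal.sub_mem _ h1 h2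
  | algebraMap r =>
    rw [eq_intCast, map_intCast, sub_self]
    exact Ideal.zero_mem _
  | add y z _ _ hy hz =>
    have e : G (y + z) - (y + z) = (G y - y) + (G z - z) := by rw [map_add]; ring
    rw [e]
    exact Ideal.add_mem _ hy hz
  | mul y z _ _ hy hz =>
    have e : G (y * z) - y * z = (G y - y) * G z + y * (G z - z) := by rw [map_mul]; ring
    rw [e]
    exact Ideal.add_mem _ (Ideal.mul_mem_right _ _ hy) (Ideal.mul_mem_left _ _ hz)

end

end ThaineRamAux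

/-- **N2r**: ramification in `F = K(ζ_ℓ)` over `K = ℚ(ζ_p)`. -/
theorem thaineRamStatement {p : ℕ} [hp : Fact p.Prime] : ThaineRamStatement p := by
  intro K _ _ _ ℓ hℓ hℓp F _ _ _ _ w u hwu
  have : Fact ℓ.Prime := ⟨hℓ⟩
  have hpℓ : p ≠ ℓ := Ne.symm hℓp
  have : w.asIdeal.LiesOver u.asIdeal := ⟨hwu.symm⟩
  have : NeZero w.asIdeal := ⟨w.ne_bot⟩
  have hmem : (ℓ : 𝓞 K) ∈ u.asIdeal ↔ (ℓ : 𝓞 F) ∈ w.asIdeal := by
    rw [← hwu, Ideal.mem_comap, map_natCast]
  have hval := fun x => HeightOneSpectrum.intValuation_liesOver u w x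
  have he : u.asIdeal.ramificationIdx' w.asIdeal = w.asIdeal.ramificationIdx (𝓞 K) :=
    ramificationIdx'_eq_ramificationIdx u.asIdeal w.asIdeal u.ne_bot
  refine ⟨fun h x => ?_, fun h => ⟨fun x => ?_, ?_, ?_⟩⟩
  · rw [← hval x, he,
      ThaineRamAux.ramificationIdx_rel_of_notMem K hpℓ w.asIdeal (mt hmem.mpr h), pow_one]
  · rw [← hval x, he, ThaineRamAux.ramificationIdx_rel_of_mem K hpℓ w.asIdeal (hmem.mp h)]
  · exact fun ζℓ hζ => ThaineRamAux.intValuation_one_sub K hpℓ w (hmem.mp h) ζℓ hζ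
  · exact fun g x => ThaineRamAux.galRestrict_sub_mem K hpℓ w (hmem.mp h) g x

end Fermat.Agent.S14
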