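import Mathlib
import Fermat.Agent.S14.ThainePlan

/-!
# S14, piece N2b: Thaine's relation (element form)

`thaineRelStatement : ThaineGalStatement p → ThaineRamStatement p → ThaineNormStatement p →
  ThaineRelStatement p`.

`ξ = 1 + ζ ζ_ℓ` has norm one from `F = K(ζ_ℓ)` to `K`; Hilbert 90 gives `β ∈ 𝓞 F`, `β ≠ 0`,
`ξ τ(β) = β`; `b := N_{F/K}(β)`.  All conjugates of `β` are associated to `β`, so
`ord_w(b) = (ℓ - 1) ord_w(β)` for every prime `w` of `F`; at the totally ramified primes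
`ξ s^n ≡ 1 mod w`, `n = ord_w(β)`, where `τ ζ_ℓ = ζ_ℓ ^ s`.
-/

set_option autoImplicit false
set_option linter.unusedSectionVars false
set_option linter.style.haveILetI false
set_option linter.unusedVariables false

open NumberField IsDedekindDomain

namespace Fermat.Agent.S14

section ThaineRel
variable {K F : Type} [Field K] [NumberField K] [Field F] [NumberField F] [Algebra K F]


/-- All Galois conjugates of a Hilbert-90 solution `β` are associated to `β`. -/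
lemma thRel_assoc_conj {τ : F ≃ₐ[K] F}
    (hτ : ∀ g : F ≃ₐ[K] F, g ∈ Subgroup.zpowers τ) {β ξ : 𝓞 F} (hξ : IsUnit ξ)
    (h : ξ * galRestrict (𝓞 K) K F (𝓞 F) τ β = β) (g : F ≃ₐ[K] F) :
    Associated (galRestrict (𝓞 K) K F (𝓞 F) g β) β := by
  let H : Subgroup (F ≃ₐ[K] F) :=
    { carrier := {g | Associated (galRestrict (𝓞 K) K F (𝓞 F) g β) β}
      one_mem' := by
        show Associated (galRestrict (𝓞 K) K F (𝓞 F) 1 β) β
        rw [map_one]; exact Associated.refl _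
      mul_mem' := by
        intro a b ha hb
        show Associated (galRestrict (𝓞 K) K F (𝓞 F) (a * b) β) β
        rw [map_mul]
        have hb' : Associated (galRestrict (𝓞 K) K F (𝓞 F) a (galRestrict (𝓞 K) K F (𝓞 F) b β))
            (galRestrict (𝓞 K) K F (𝓞 F) a β) :=
          Associated.map (galRestrict (𝓞 K) K F (𝓞 F) a : 𝓞 F →* 𝓞 F) hb
        exact hb'.trans ha
      inv_mem' := by
        intro a ha
        show Associated (galRestrict (𝓞 K) K F (𝓞 F) a⁻¹ β) β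
        have h1 : Associated (galRestrict (𝓞 K) K F (𝓞 F) a⁻¹ (galRestrict (𝓞 K) K F (𝓞 F) a β))
            (galRestrict (𝓞 K) K F (𝓞 F) a⁻¹ β) :=
          Associated.map (galRestrict (𝓞 K) K F (𝓞 F) a⁻¹ : 𝓞 F →* 𝓞 F) ha
        have h2 : galRestrict (𝓞 K) K F (𝓞 F) a⁻¹ (galRestrict (𝓞 K) K F (𝓞 F) a β) = β := by
          rw [map_inv]
          exact (galRestrict (𝓞 K) K F (𝓞 F) a).symm_apply_apply β
        rw [h2] at h1
        exact h1.symm }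
  have hτH : τ ∈ H := by
    show Associated (galRestrict (𝓞 K) K F (𝓞 F) τ β) β
    exact ⟨hξ.unit, by rw [IsUnit.unit_spec, mul_comm]; exact h⟩
  have : Subgroup.zpowers τ ≤ H := by
    rw [Subgroup.zpowers_le]; exact hτH
  exact this (hτ g)


lemma thRel_intVal_unit {R : Type} [CommRing R] [IsDedekindDomain R] (w : HeightOneSpectrum R)
    {c : R} (hc : IsUnit c) : w.intValuation c = 1 := by
  rw [HeightOneSpectrum.intValuation_eq_one_iff_mem_primeCompl]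
  intro hmem
  exact w.isPrime.ne_top (Ideal.eq_top_of_isUnit_mem _ hmem hc)

lemma thRel_intVal_assoc {R : Type} [CommRing R] [IsDedekindDomain R] (w : HeightOneSpectrum R)
    {a b : R} (h : Associated a b) : w.intValuation a = w.intValuation b := by
  obtain ⟨c, rfl⟩ := h
  rw [map_mul, thRel_intVal_unit w c.isUnit, mul_one]

lemma thRel_exists_b [IsGalois K F] (β : 𝓞 F) :
    ∃ b : 𝓞 K, algebraMap (𝓞 K) (𝓞 F) b =
      ∏ σ : F ≃ₐ[K] F, galRestrict (𝓞 K) K F (𝓞 F) σ β :=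
  ⟨_, (prod_galRestrict_eq_norm (𝓞 K) K F (𝓞 F) β).symm⟩

lemma thRel_val_b [IsGalois K F] {β : 𝓞 F}
    (hassoc : ∀ g : F ≃ₐ[K] F, Associated (galRestrict (𝓞 K) K F (𝓞 F) g β) β)
    {b : 𝓞 K} (hb : algebraMap (𝓞 K) (𝓞 F) b =
      ∏ σ : F ≃ₐ[K] F, galRestrict (𝓞 K) K F (𝓞 F) σ β)
    (w : HeightOneSpectrum (𝓞 F)) :
    w.intValuation (algebraMap (𝓞 K) (𝓞 F) b) = w.intValuation β ^ Module.finrank K F := by
  rw [hb, map_prod, Finset.prod_congr rfl (fun g _ => thRel_intVal_assoc w (hassoc g)),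
    Finset.prod_const, Finset.card_univ, ← Nat.card_eq_fintype_card,
    IsGalois.card_aut_eq_finrank]


lemma thRel_exists_above (u : HeightOneSpectrum (𝓞 K)) :
    ∃ w : HeightOneSpectrum (𝓞 F), w.asIdeal.comap (algebraMap (𝓞 K) (𝓞 F)) = u.asIdeal := by
  haveI := u.isMaximal
  have hinj : Function.Injective (algebraMap (𝓞 K) (𝓞 F)) :=
    FaithfulSMul.algebraMap_injective (𝓞 K) (𝓞 F)
  obtain ⟨Q, hQ, hQu⟩ := Ideal.exists_ideal_over_maximal_of_isIntegral (S := 𝓞 F) u.asIdeal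
    (by rw [(RingHom.injective_iff_ker_eq_bot _).mp hinj]; exact bot_le)
  refine ⟨⟨Q, hQ.isPrime, ?_⟩, hQu⟩
  rintro rfl
  apply u.ne_bot
  rw [← hQu]
  exact (RingHom.injective_iff_ker_eq_bot _).mp hinj

/-- `v(x) = exp(-m)` for some natural `m`, `x ≠ 0`. -/
lemma thRel_intVal_eq_exp {R : Type} [CommRing R] [IsDedekindDomain R] (w : HeightOneSpectrum R)
    {x : R} (hx : x ≠ 0) : ∃ m : ℕ, w.intValuation x = WithZero.exp (-(m : ℤ)) :=
  ⟨_, w.intValuation_eq_exp_neg_multiplicity hx⟩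

lemma thRel_exp_pow (m n : ℕ) :
    (WithZero.exp (-(m : ℤ)) : WithZero (Multiplicative ℤ)) ^ n = WithZero.exp (-((n * m : ℕ) : ℤ)) := by
  rw [← WithZero.exp_nsmul]
  congr 1
  push_cast
  simp [mul_comm]


/-- The key congruence `ξ * s ^ n ≡ 1 mod w` at a totally ramified prime `w`. -/
lemma thRel_congr {τ : F ≃ₐ[K] F} {s : ℕ} {ζℓ β ξ : 𝓞 F} (w : HeightOneSpectrum (𝓞 F))
    (hζτ : galRestrict (𝓞 K) K F (𝓞 F) τ ζℓ = ζℓ ^ s)
    (hπ : w.intValuation (1 - ζℓ) = WithZero.exp (-1 : ℤ))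
    (htriv : ∀ x : 𝓞 F, galRestrict (𝓞 K) K F (𝓞 F) τ x - x ∈ w.asIdeal)
    (hβ : β ≠ 0) (h : ξ * galRestrict (𝓞 K) K F (𝓞 F) τ β = β)
    {n : ℕ} (hn : w.intValuation β = WithZero.exp (-(n : ℤ))) :
    ξ * (s : 𝓞 F) ^ n - 1 ∈ w.asIdeal := by
  set τ' := galRestrict (𝓞 K) K F (𝓞 F) τ with hτ'
  set π : 𝓞 F := 1 - ζℓ with hπdef
  have hπ0 : π ≠ 0 := by
    intro h0
    rw [h0, map_zero] at hπ
    exact WithZero.exp_ne_zero hπ.symm
  have hπmem : π ∈ w.asIdeal := by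
    rw [← HeightOneSpectrum.intValuation_lt_one_iff_mem, hπ, ← WithZero.exp_zero,
      WithZero.exp_lt_exp]
    norm_num
  -- the quotient `β / π ^ n` is a `w`-unit
  have hval : w.valuation F ((algebraMap (𝓞 F) F β) / (algebraMap (𝓞 F) F π) ^ n) ≤ 1 := by
    rw [map_div₀, map_pow, HeightOneSpectrum.valuation_of_algebraMap,
      HeightOneSpectrum.valuation_of_algebraMap, hn, hπ, ← WithZero.exp_nsmul]
    apply le_of_eq
    rw [div_eq_one_iff_eq WithZero.exp_ne_zero]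
    congr 1
    simp
  obtain ⟨z, y, hzy⟩ := HeightOneSpectrum.exists_primeCompl_mul_eq_of_integer w _ hval
  have hπF : (algebraMap (𝓞 F) F π) ≠ 0 := by
    rwa [Ne, FaithfulSMul.algebraMap_eq_zero_iff]
  have E1 : β * (y : 𝓞 F) = π ^ n * z := by
    apply FaithfulSMul.algebraMap_injective (𝓞 F) F
    rw [map_mul, map_mul, map_pow, ← hzy]
    field_simp
  have hy : (y : 𝓞 F) ∉ w.asIdeal := y.2
  have hz : z ∉ w.asIdeal := by
    have h1 := congrArg w.intValuation E1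
    rw [map_mul, map_mul, map_pow, hn, hπ,
      (HeightOneSpectrum.intValuation_eq_one_iff_mem_primeCompl w (y : 𝓞 F)).mpr y.2,
      mul_one, ← WithZero.exp_nsmul] at h1
    have h2 : w.intValuation z = 1 := by
      have h3 : (WithZero.exp (-(n : ℤ)) : WithZero (Multiplicative ℤ)) =
          WithZero.exp (n • (-1 : ℤ)) := by congr 1; simp
      rw [← h3] at h1
      have h4 : (WithZero.exp (-(n : ℤ)) : WithZero (Multiplicative ℤ)) * 1 =
          WithZero.exp (-(n : ℤ)) * w.intValuation z := by rw [mul_one]; exact h1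
      exact (mul_left_cancel₀ WithZero.exp_ne_zero h4).symm
    exact (HeightOneSpectrum.intValuation_eq_one_iff_mem_primeCompl w z).mp h2
  -- the action of `τ` on `π`
  set κ : 𝓞 F := ∑ i ∈ Finset.range s, ζℓ ^ i with hκ
  have hτπ : τ' π = π * κ := by
    rw [hπdef, map_sub, map_one, hζτ, hκ, mul_neg_geom_sum]
  have E2 : τ' β * τ' (y : 𝓞 F) = π ^ n * κ ^ n * τ' z := by
    have := congrArg τ' E1
    rw [map_mul, map_mul, map_pow, hτπ, mul_pow] at this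
    exact this
  have key : z * τ' (y : 𝓞 F) = ξ * κ ^ n * τ' z * (y : 𝓞 F) := by
    apply mul_left_cancel₀ (pow_ne_zero n hπ0)
    linear_combination (-(τ' (y : 𝓞 F))) * E1 + (ξ * (y : 𝓞 F)) * E2 - ((y : 𝓞 F) * τ' (y : 𝓞 F)) * h
  -- reduce modulo `w`
  have hq : ∀ x : 𝓞 F, Ideal.Quotient.mk w.asIdeal (τ' x) = Ideal.Quotient.mk w.asIdeal x := by
    intro x
    rw [← sub_eq_zero, ← map_sub, Ideal.Quotient.eq_zero_iff_mem]
    exact htriv x
  have hqζ : Ideal.Quotient.mk w.asIdeal ζℓ = 1 := by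
    have : Ideal.Quotient.mk w.asIdeal π = 0 := Ideal.Quotient.eq_zero_iff_mem.mpr hπmem
    rw [hπdef, map_sub, map_one, sub_eq_zero] at this
    exact this.symm
  have hqκ : Ideal.Quotient.mk w.asIdeal κ = (s : 𝓞 F ⧸ w.asIdeal) := by
    rw [hκ, map_sum]
    simp [hqζ]
  have hqy : Ideal.Quotient.mk w.asIdeal (y : 𝓞 F) ≠ 0 := by
    rwa [Ne, Ideal.Quotient.eq_zero_iff_mem]
  have hqz : Ideal.Quotient.mk w.asIdeal z ≠ 0 := by
    rwa [Ne, Ideal.Quotient.eq_zero_iff_mem]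
  have hkey := congrArg (Ideal.Quotient.mk w.asIdeal) key
  rw [map_mul, map_mul, map_mul, map_mul, map_pow, hq, hq, hqκ] at hkey
  have := w.isPrime
  have hfin : Ideal.Quotient.mk w.asIdeal ξ * (s : 𝓞 F ⧸ w.asIdeal) ^ n = 1 := by
    have h5 : (Ideal.Quotient.mk w.asIdeal ξ * (s : 𝓞 F ⧸ w.asIdeal) ^ n) *
        (Ideal.Quotient.mk w.asIdeal z * Ideal.Quotient.mk w.asIdeal (y : 𝓞 F)) =
        1 * (Ideal.Quotient.mk w.asIdeal z * Ideal.Quotient.mk w.asIdeal (y : 𝓞 F)) := by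
      linear_combination (-1 : 𝓞 F ⧸ w.asIdeal) * hkey
    exact mul_right_cancel₀ (mul_ne_zero hqz hqy) h5
  rw [← Ideal.Quotient.eq_zero_iff_mem, map_sub, map_mul, map_pow, map_natCast, map_one, hfin,
    sub_self]


/-- An integer of norm one is a unit. -/
lemma thRel_isUnit_of_norm [IsGalois K F] {ξ : 𝓞 F}
    (hξ : Algebra.norm K (algebraMap (𝓞 F) F ξ) = 1) : IsUnit ξ := by
  have h1 := prod_galRestrict_eq_norm (𝓞 K) K F (𝓞 F) ξ
  have h2 : (IsIntegralClosure.mk' (R := 𝓞 K) (𝓞 K) (Algebra.norm K <| algebraMap (𝓞 F) F ξ)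
      (Algebra.isIntegral_norm K (IsIntegralClosure.isIntegral (𝓞 K) F ξ).algebraMap)) = 1 := by
    apply IsIntegralClosure.algebraMap_injective (𝓞 K) (𝓞 K) K
    rw [IsIntegralClosure.algebraMap_mk', hξ, map_one]
  rw [h2, map_one] at h1
  apply isUnit_of_dvd_one
  rw [← h1]
  have : galRestrict (𝓞 K) K F (𝓞 F) 1 ξ = ξ := by rw [map_one]; rfl
  conv_lhs => rw [← this]
  exact Finset.dvd_prod_of_mem _ (Finset.mem_univ (1 : F ≃ₐ[K] F))

lemma thRel_pow_sub_one_mem {ℓ s : ℕ} (hℓ : ℓ.Prime) (hs : s.Coprime ℓ)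
    (u : HeightOneSpectrum (𝓞 K)) (hu : (ℓ : 𝓞 K) ∈ u.asIdeal) :
    (s : 𝓞 K) ^ (ℓ - 1) - 1 ∈ u.asIdeal := by
  haveI : Fact ℓ.Prime := ⟨hℓ⟩
  have h1 : (s : ZMod ℓ) ^ (ℓ - 1) = 1 := by
    apply ZMod.pow_card_sub_one_eq_one
    intro h0
    rw [ZMod.natCast_eq_zero_iff] at h0
    have := Nat.Coprime.eq_one_of_dvd hs.symm h0
    exact hℓ.one_lt.ne' this
  have h2 : ((s ^ (ℓ - 1) : ℕ) : ZMod ℓ) = ((1 : ℕ) : ZMod ℓ) := by
    push_cast; exact h1
  rw [ZMod.natCast_eq_natCast_iff] at h2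
  have h3 := (Nat.modEq_iff_dvd.mp h2)
  obtain ⟨c, hc⟩ := h3
  have h4 : ((s : 𝓞 K) ^ (ℓ - 1) - 1) = -((ℓ : 𝓞 K) * (c : 𝓞 K)) := by
    have := congrArg (Int.cast : ℤ → 𝓞 K) hc
    push_cast at this
    linear_combination -this
  rw [h4]
  exact neg_mem (Ideal.mul_mem_right _ _ hu)


/-- Main lemma, for a generic `F`. -/
lemma thRel_main {p ℓ : ℕ} [IsCyclotomicExtension {ℓ} K F]
    (hℓ : ℓ.Prime) (hpℓ : p ∣ ℓ - 1)
    (ζ : 𝓞 K)
    (hfin : Module.finrank K F = ℓ - 1)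
    (τ : F ≃ₐ[K] F) (s : ℕ) (hτ : ∀ g : F ≃ₐ[K] F, g ∈ Subgroup.zpowers τ)
    (hτζ : ∀ ζℓ : F, IsPrimitiveRoot ζℓ ℓ → τ ζℓ = ζℓ ^ s)
    (hR : ∀ (w : HeightOneSpectrum (𝓞 F)) (u : HeightOneSpectrum (𝓞 K)),
        w.asIdeal.comap (algebraMap (𝓞 K) (𝓞 F)) = u.asIdeal →
        ((ℓ : 𝓞 K) ∉ u.asIdeal →
          ∀ x : 𝓞 K, w.intValuation (algebraMap (𝓞 K) (𝓞 F) x) = u.intValuation x) ∧
        ((ℓ : 𝓞 K) ∈ u.asIdeal →
          (∀ x : 𝓞 K, w.intValuation (algebraMap (𝓞 K) (𝓞 F) x) = u.intValuation x ^ (ℓ - 1)) ∧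
          (∀ ζℓ : 𝓞 F, IsPrimitiveRoot ζℓ ℓ → w.intValuation (1 - ζℓ) = WithZero.exp (-1 : ℤ)) ∧
          (∀ (g : F ≃ₐ[K] F) (x : 𝓞 F),
            galRestrict (𝓞 K) K F (𝓞 F) g x - x ∈ w.asIdeal)))
    (hN : ∀ ζℓ : F, IsPrimitiveRoot ζℓ ℓ →
      Algebra.norm K (1 + algebraMap K F (algebraMap (𝓞 K) K ζ) * ζℓ) = 1) :
    ∃ (b : 𝓞 K) (s : ℕ), b ≠ 0 ∧
      ∀ u : HeightOneSpectrum (𝓞 K),
        ((ℓ : 𝓞 K) ∉ u.asIdeal →
          ∃ n : ℕ, u.intValuation b = WithZero.exp (-((p * n : ℕ) : ℤ))) ∧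
        ((ℓ : 𝓞 K) ∈ u.asIdeal →
          ∃ n : ℕ, u.intValuation b = WithZero.exp (-(n : ℤ)) ∧
            (1 + ζ) - (s : 𝓞 K) ^ n ∈ u.asIdeal) := by
  have hℓ2 : 2 ≤ ℓ := hℓ.two_le
  haveI : NeZero ℓ := ⟨hℓ.ne_zero⟩
  haveI : IsGalois K F := IsCyclotomicExtension.isGalois {ℓ} K F
  haveI : IsCyclic (F ≃ₐ[K] F) := ⟨⟨τ, hτ⟩⟩
  -- the primitive root
  obtain ⟨r, hr⟩ := IsCyclotomicExtension.exists_isPrimitiveRoot K F
    (Set.mem_singleton ℓ) hℓ.ne_zero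
  set ζℓ : 𝓞 F := hr.toInteger with hζℓ
  have hζℓprim : IsPrimitiveRoot ζℓ ℓ := hr.toInteger_isPrimitiveRoot
  have hζℓcoe : algebraMap (𝓞 F) F ζℓ = r := rfl
  set τ' := galRestrict (𝓞 K) K F (𝓞 F) τ with hτ'
  have hτζ' : τ' ζℓ = ζℓ ^ s := by
    apply FaithfulSMul.algebraMap_injective (𝓞 F) F
    rw [algebraMap_galRestrict_apply, map_pow, hζℓcoe]
    exact hτζ r hr
  -- `s` is prime to `ℓ`
  have hs : s.Coprime ℓ := by
    have h1 : IsPrimitiveRoot (r ^ s) ℓ := by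
      rw [← hτζ r hr]
      exact hr.map_of_injective (f := (τ : F →+* F)) τ.injective
    exact (hr.pow_iff_coprime hℓ.pos s).mp h1
  -- Thaine's unit
  set ζ' : 𝓞 F := algebraMap (𝓞 K) (𝓞 F) ζ with hζ'
  set ξ : 𝓞 F := 1 + ζ' * ζℓ with hξdef
  have hξnorm : Algebra.norm K (algebraMap (𝓞 F) F ξ) = 1 := by
    have := hN r hr
    rw [hξdef, map_add, map_one, map_mul, hζℓcoe, hζ',
      ← IsScalarTower.algebraMap_apply (𝓞 K) (𝓞 F) F,
      IsScalarTower.algebraMap_apply (𝓞 K) K F]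
    exact this
  have hξunit : IsUnit ξ := thRel_isUnit_of_norm hξnorm
  -- Hilbert 90
  obtain ⟨β, hβ0, hβ⟩ := groupCohomology.exists_mul_galRestrict_of_norm_eq_one
    (A := 𝓞 K) (B := 𝓞 F) hτ hξnorm
  have hassoc := thRel_assoc_conj hτ hξunit hβ
  obtain ⟨b, hb⟩ := thRel_exists_b (K := K) β
  have hb0 : b ≠ 0 := by
    rintro rfl
    rw [map_zero] at hb
    have := Finset.prod_eq_zero_iff.mp hb.symm
    obtain ⟨g, -, hg⟩ := this
    exact hβ0 ((map_eq_zero_iff _ (galRestrict (𝓞 K) K F (𝓞 F) g).injective).mp hg)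
  refine ⟨b, s ^ (ℓ - 2), hb0, fun u => ?_⟩
  obtain ⟨w, hwu⟩ := thRel_exists_above (F := F) u
  obtain ⟨m, hm⟩ := thRel_intVal_eq_exp w hβ0
  have hvb := thRel_val_b hassoc hb w
  rw [hfin, hm, thRel_exp_pow] at hvb
  obtain ⟨hunr, hram⟩ := hR w u hwu
  constructor
  · intro hu
    obtain ⟨t, ht⟩ := hpℓ
    refine ⟨t * m, ?_⟩
    rw [← hunr hu b, hvb, ht, mul_assoc]
  · intro hu
    obtain ⟨hpow, hπ, htriv⟩ := hram hu
    refine ⟨m, ?_, ?_⟩
    · obtain ⟨k, hk⟩ := thRel_intVal_eq_exp u hb0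
      have h1 := hpow b
      rw [hvb, hk, thRel_exp_pow, WithZero.exp_inj] at h1
      have h2 : (ℓ - 1) * m = (ℓ - 1) * k := by exact_mod_cast neg_injective h1
      have h3 : m = k := Nat.eq_of_mul_eq_mul_left (by omega) h2
      rw [hk, h3]
    · -- the congruence
      have hc := thRel_congr w hτζ' (hπ ζℓ hζℓprim) (htriv τ) hβ0 hβ hm
      have hπmem : 1 - ζℓ ∈ w.asIdeal := by
        rw [← HeightOneSpectrum.intValuation_lt_one_iff_mem, hπ ζℓ hζℓprim, ← WithZero.exp_zero,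
          WithZero.exp_lt_exp]
        norm_num
      have h1 : algebraMap (𝓞 K) (𝓞 F) ((1 + ζ) * (s : 𝓞 K) ^ m - 1) ∈ w.asIdeal := by
        have : algebraMap (𝓞 K) (𝓞 F) ((1 + ζ) * (s : 𝓞 K) ^ m - 1) =
            (ξ * (s : 𝓞 F) ^ m - 1) + ζ' * (s : 𝓞 F) ^ m * (1 - ζℓ) := by
          rw [map_sub, map_mul, map_add, map_one, map_pow, map_natCast, hξdef]
          ring
        rw [this]
        exact add_mem hc (Ideal.mul_mem_left _ _ hπmem)
      have h2 : (1 + ζ) * (s : 𝓞 K) ^ m - 1 ∈ u.asIdeal := by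
        rw [← hwu]; exact h1
      have h3 := thRel_pow_sub_one_mem hℓ hs u hu
      -- work in the quotient
      rw [← Ideal.Quotient.eq_zero_iff_mem] at h2 h3 ⊢
      rw [map_sub, map_mul, map_pow, map_one, sub_eq_zero] at h2
      rw [map_sub, map_pow, map_one, sub_eq_zero] at h3
      rw [map_sub, sub_eq_zero, map_pow]
      set a := Ideal.Quotient.mk u.asIdeal (1 + ζ)
      set c := Ideal.Quotient.mk u.asIdeal (s : 𝓞 K)
      have hc2 : c ^ (ℓ - 1) = c ^ (ℓ - 2) * c := by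
        rw [← pow_succ]; congr 1; omega
      have : Ideal.Quotient.mk u.asIdeal ((s ^ (ℓ - 2) : ℕ) : 𝓞 K) = c ^ (ℓ - 2) := by
        push_cast; rw [map_pow]
      rw [this]
      calc a = a * (c ^ (ℓ - 1)) ^ m := by rw [h3, one_pow, mul_one]
        _ = (a * c ^ m) * (c ^ (ℓ - 2)) ^ m := by rw [hc2]; ring
        _ = (c ^ (ℓ - 2)) ^ m := by rw [h2, one_mul]

end ThaineRel

/-- **N2b**: Thaine's relation (element form). -/
theorem thaineRelStatement {p : ℕ} [Fact p.Prime] (h3 : 3 ≤ p)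
    (hG : ThaineGalStatement p) (hR : ThaineRamStatement p) (hN : ThaineNormStatement p) :
    ThaineRelStatement p := by
  intro K _ _ _ ζ hζ ℓ hℓ hℓp hℓ1
  have hpℓ : p ∣ ℓ - 1 := by
    have h1 : ℓ % p = 1 % p := by
      rw [hℓ1, Nat.mod_eq_of_lt (by omega)]
    exact (Nat.modEq_iff_dvd' hℓ.one_le).mp h1.symm
  obtain ⟨hfin, τ, s, hτ, hτζ⟩ := hG K ℓ hℓ hℓp (CyclotomicField ℓ K)
  refine thRel_main (F := CyclotomicField ℓ K) hℓ hpℓ ζ hfin τ s hτ hτζ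
    (fun w u => hR K ℓ hℓ hℓp (CyclotomicField ℓ K) w u) ?_
  intro ζℓ hζℓ
  exact hN K ℓ hℓ hℓp hℓ1 (CyclotomicField ℓ K) _ ζℓ
    (hζ.map_of_injective (FaithfulSMul.algebraMap_injective (𝓞 K) K)) hζℓ

end Fermat.Agent.S14
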