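import Fermat.Agent.S14.Plan

/-!
# S14, piece A3: `Core 3`

For `p = 3` the field `K = ℚ(ζ₃)` has class number one and unit group `μ₆`, so the core statement
is direct: `α = u·δ³` (PID), and the local condition at `λ = ζ - 1` forces `u = ±1`.
-/

set_option autoImplicit false

open NumberField IsDedekindDomain

namespace Fermat.Agent.S14

/-- In a PID which is a Dedekind domain: a nonzero element all of whose valuations are divisible
by `p` is a unit times a `p`-th power. -/
theorem coreThree_exists_unit_mul_pow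
    {R : Type*} [CommRing R] [IsDedekindDomain R] [IsPrincipalIdealRing R]
    (p : ℕ) (hp : 0 < p) (a : R) (ha : a ≠ 0)
    (h : ∀ v : HeightOneSpectrum R, ∃ n : ℕ,
      v.intValuation a = WithZero.exp (-((p * n : ℕ) : ℤ))) :
    ∃ (u : Rˣ) (b : R), a = u * b ^ p := by
  revert ha h
  refine (wellFounded_dvdNotUnit (α := R)).induction
    (C := fun a => a ≠ 0 → (∀ v : HeightOneSpectrum R, ∃ n : ℕ,
      v.intValuation a = WithZero.exp (-((p * n : ℕ) : ℤ))) → ∃ (u : Rˣ) (b : R), a = u * b ^ p)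
    a ?_
  intro a ih ha h
  by_cases hu : IsUnit a
  · exact ⟨hu.unit, 1, by simp⟩
  -- a maximal ideal containing `a`
  obtain ⟨M, hM, haM⟩ := Ideal.exists_le_maximal (Ideal.span {a})
    (by rwa [Ne, Ideal.span_singleton_eq_top])
  have haM' : a ∈ M := haM (Ideal.mem_span_singleton_self a)
  have hMbot : M ≠ ⊥ := fun hb => ha (by simpa [hb] using haM')
  let v : HeightOneSpectrum R := ⟨M, hM.isPrime, hMbot⟩
  obtain ⟨n, hn⟩ := h v
  have hlt : v.intValuation a < 1 := (v.intValuation_lt_one_iff_mem a).2 haM'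
  have hn0 : n ≠ 0 := by
    rintro rfl
    rw [hn] at hlt
    simp at hlt
  have hle : v.intValuation a ≤ WithZero.exp (-(p : ℤ)) := by
    rw [hn, WithZero.exp_le_exp]
    have : p ≤ p * n := Nat.le_mul_of_pos_right p (Nat.pos_of_ne_zero hn0)
    push_cast
    have h2 : (p : ℤ) ≤ (p : ℤ) * n := by exact_mod_cast this
    linarith
  have hmem : a ∈ M ^ p := (v.intValuation_le_pow_iff_mem a p).1 hle
  obtain ⟨π, hπ⟩ : ∃ π : R, M = Ideal.span {π} := ⟨_, (IsPrincipalIdealRing.principal M).span_singleton_generator.symm⟩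
  rw [hπ, Ideal.span_singleton_pow, Ideal.mem_span_singleton] at hmem
  obtain ⟨a', ha'⟩ := hmem
  have hπ0 : π ≠ 0 := by
    rintro rfl
    exact hMbot (by simpa using hπ)
  have hπu : ¬ IsUnit π := by
    intro hπu
    exact hM.ne_top (by rw [hπ]; exact Ideal.span_singleton_eq_top.2 hπu)
  have ha'0 : a' ≠ 0 := by
    rintro rfl
    exact ha (by simpa using ha')
  have hdvd : DvdNotUnit a' a := by
    refine ⟨ha'0, π ^ p, ?_, by rw [ha']; ring⟩
    intro hpu
    exact hπu (isUnit_of_dvd_unit (dvd_pow_self π hp.ne') hpu)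
  have h' : ∀ w : HeightOneSpectrum R, ∃ m : ℕ,
      w.intValuation a' = WithZero.exp (-((p * m : ℕ) : ℤ)) := by
    intro w
    obtain ⟨k, hk⟩ := h w
    have e1 := w.intValuation_if_neg ha'0
    have e2 := w.intValuation_if_neg hπ0
    set c1 := (Associates.mk w.asIdeal).count (Associates.mk (Ideal.span {a'} : Ideal R)).factors
    set c2 := (Associates.mk w.asIdeal).count (Associates.mk (Ideal.span {π} : Ideal R)).factors
    have e3 : w.intValuation a = w.intValuation π ^ p * w.intValuation a' := by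
      rw [ha', map_mul, map_pow]
    rw [hk, e1, e2, ← WithZero.exp_nsmul, ← WithZero.exp_add, WithZero.exp_inj] at e3
    have e4 : (p : ℤ) * k = p * c2 + c1 := by
      simp only [nsmul_eq_mul] at e3
      push_cast at e3
      linarith
    have e5 : p * k = p * c2 + c1 := by exact_mod_cast e4
    refine ⟨k - c2, ?_⟩
    rw [e1, WithZero.exp_inj]
    have : c1 = p * (k - c2) := by
      have hle : c2 ≤ k := by
        by_contra hcon
        rw [not_le] at hcon
        have : p * k < p * c2 := Nat.mul_lt_mul_of_pos_left hcon hp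
        omega
      rw [Nat.mul_sub]
      omega
    rw [this]
  obtain ⟨u, b, hub⟩ := ih a' hdvd ha'0 h'
  exact ⟨u, π * b, by rw [ha', hub]; ring⟩

/-- Field version: a nonzero element of the fraction field of a PID all of whose valuations are
divisible by `p` is a unit times a `p`-th power. -/
theorem coreThree_exists_unit_mul_pow_field
    {R : Type*} [CommRing R] [IsDedekindDomain R] [IsPrincipalIdealRing R]
    {K : Type*} [Field K] [Algebra R K] [IsFractionRing R K]
    (p : ℕ) (hp : 0 < p) (α : K) (hα : α ≠ 0)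
    (h : ∀ v : HeightOneSpectrum R, ∃ n : ℤ, v.valuation K α = WithZero.exp ((p : ℤ) * n)) :
    ∃ (u : Rˣ) (δ : K), δ ≠ 0 ∧ α = algebraMap R K u * δ ^ p := by
  obtain ⟨x, y, hy, rfl⟩ := IsFractionRing.div_surjective (A := R) α
  have hy0 : y ≠ 0 := nonZeroDivisors.ne_zero hy
  have hyK : algebraMap R K y ≠ 0 := by
    simpa using hy0
  have hx0 : x ≠ 0 := by
    rintro rfl
    simp at hα
  obtain ⟨q, rfl⟩ : ∃ q, p = q + 1 := ⟨p - 1, by omega⟩
  have ha0 : x * y ^ q ≠ 0 := mul_ne_zero hx0 (pow_ne_zero _ hy0)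
  have key : algebraMap R K (x * y ^ q) =
      algebraMap R K x / algebraMap R K y * algebraMap R K y ^ (q + 1) := by
    rw [map_mul, map_pow]
    field_simp
    ring
  obtain ⟨u, b, hub⟩ := coreThree_exists_unit_mul_pow (q + 1) hp (x * y ^ q) ha0 (by
    intro v
    obtain ⟨n, hn⟩ := h v
    have e1 := v.intValuation_if_neg ha0
    have e2 := v.intValuation_if_neg hy0
    set c1 := (Associates.mk v.asIdeal).count
      (Associates.mk (Ideal.span {x * y ^ q} : Ideal R)).factors
    set c2 := (Associates.mk v.asIdeal).count (Associates.mk (Ideal.span {y} : Ideal R)).factors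
    have e3 : v.intValuation (x * y ^ q) =
        v.valuation K (algebraMap R K x / algebraMap R K y) * v.intValuation y ^ (q + 1) := by
      rw [← v.valuation_of_algebraMap (K := K), ← v.valuation_of_algebraMap (K := K) y]
      change v.valuation K (algebraMap R K (x * y ^ q)) = _
      rw [key, map_mul, map_pow]
    rw [hn, e1, e2, ← WithZero.exp_nsmul, ← WithZero.exp_add, WithZero.exp_inj] at e3
    simp only [nsmul_eq_mul] at e3
    push_cast at e3
    have hnn : 0 ≤ (c2 : ℤ) - n := by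
      by_contra hcon
      rw [not_le] at hcon
      have : ((q : ℤ) + 1) * ((c2 : ℤ) - n) < 0 :=
        mul_neg_of_pos_of_neg (by positivity) hcon
      nlinarith
    refine ⟨((c2 : ℤ) - n).toNat, ?_⟩
    rw [e1, WithZero.exp_inj]
    push_cast
    rw [Int.toNat_of_nonneg hnn]
    linarith)
  refine ⟨u, algebraMap R K b / algebraMap R K y, ?_, ?_⟩
  · have hb0 : b ≠ 0 := by
      rintro rfl
      simp at hub
      exact ha0 (by simpa using hub)
    exact div_ne_zero (by simpa using hb0) hyK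
  · have h1 := congrArg (algebraMap R K) hub
    simp only [map_mul, map_pow] at h1
    rw [div_pow, ← mul_div_assoc, div_eq_div_iff hyK (pow_ne_zero _ hyK)]
    linear_combination (algebraMap R K y) * h1

/-- **A3**: the core statement for `p = 3`. -/
theorem core_three : Core 3 := by
  intro K _ _ _ ζ hζ α hα _ hord hloc
  have : IsPrincipalIdealRing (𝓞 K) := IsCyclotomicExtension.Rat.three_pid K
  obtain ⟨u, δ, hδ, hαδ⟩ := coreThree_exists_unit_mul_pow_field (R := 𝓞 K) (K := K) 3
    (by norm_num) α hα (fun v => hord v)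
  -- the prime `λ = ζ - 1`
  set lam : 𝓞 K := hζ.toInteger - 1 with hlam
  have hprime : Prime lam := hζ.zeta_sub_one_prime'
  let v₀ : HeightOneSpectrum (𝓞 K) :=
    ⟨Ideal.span {lam}, (Ideal.span_singleton_prime hprime.ne_zero).2 hprime,
      by simpa using hprime.ne_zero⟩
  have h3 : ((3 : ℕ) : 𝓞 K) ∈ v₀.asIdeal :=
    Ideal.mem_span_singleton.2 hζ.toInteger_sub_one_dvd_prime'
  obtain ⟨b, hb0, hb⟩ := hloc v₀ h3
  -- reduced fraction of `c = δ / b`
  obtain ⟨x, ⟨y, hy⟩, hrel, hxy⟩ := IsFractionRing.exists_reduced_fraction (A := 𝓞 K) (δ / b)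
  have hy0 : y ≠ 0 := nonZeroDivisors.ne_zero hy
  have hyK : algebraMap (𝓞 K) K y ≠ 0 := by simpa using hy0
  rw [IsFractionRing.mk'_eq_div] at hxy
  -- `λ³ ∣ u x³ - y³`
  have hdiv : lam ^ 3 ∣ (u : 𝓞 K) * x ^ 3 - y ^ 3 := by
    rw [← Ideal.mem_span_singleton, ← Ideal.span_singleton_pow]
    change _ ∈ v₀.asIdeal ^ 3
    rw [← v₀.intValuation_le_pow_iff_mem, ← v₀.valuation_of_algebraMap (K := K)]
    have e : algebraMap (𝓞 K) K ((u : 𝓞 K) * x ^ 3 - y ^ 3) =
        (α / b ^ 3 - 1) * algebraMap (𝓞 K) K y ^ 3 := by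
      have hc : δ = algebraMap (𝓞 K) K x / algebraMap (𝓞 K) K y * b := by
        rw [hxy]; field_simp
      rw [hαδ, hc, map_sub, map_mul, map_pow, map_pow]
      field_simp
    change v₀.valuation K (algebraMap (𝓞 K) K ((u : 𝓞 K) * x ^ 3 - y ^ 3)) ≤ _
    rw [e, map_mul, map_pow]
    calc v₀.valuation K (α / b ^ 3 - 1) * v₀.valuation K (algebraMap (𝓞 K) K y) ^ 3
        ≤ WithZero.exp (-3 : ℤ) * 1 :=
          mul_le_mul' hb (pow_le_one₀ zero_le (v₀.valuation_le_one y))
      _ = WithZero.exp (-((3 : ℕ) : ℤ)) := by simp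
  -- `λ ∤ y`, `λ ∤ x`
  have hlu : ¬ IsUnit lam := hprime.not_isUnit
  have hyl : ¬ lam ∣ y := by
    intro hyl
    have h1 : lam ∣ (u : 𝓞 K) * x ^ 3 := by
      have := dvd_add (dvd_trans (dvd_pow_self lam (by norm_num : (3 : ℕ) ≠ 0)) hdiv)
        (dvd_pow hyl (by norm_num : (3 : ℕ) ≠ 0))
      simpa using this
    have h2 : lam ∣ x := by
      rcases hprime.dvd_or_dvd h1 with h | h
      · exact absurd (isUnit_of_dvd_unit h u.isUnit) hlu
      · exact hprime.dvd_of_dvd_pow h
    exact hlu (hrel h2 hyl)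
  have hxl : ¬ lam ∣ x := by
    intro hxl
    have h1 : lam ∣ y ^ 3 := by
      have := dvd_sub (dvd_mul_of_dvd_right (dvd_pow hxl (by norm_num : (3 : ℕ) ≠ 0)) (u : 𝓞 K))
        (dvd_trans (dvd_pow_self lam (by norm_num : (3 : ℕ) ≠ 0)) hdiv)
      simpa using this
    exact hyl (hprime.dvd_of_dvd_pow h1)
  -- cubes are `±1` mod `λ⁴`
  have hX := IsCyclotomicExtension.Rat.Three.lambda_pow_four_dvd_cube_sub_one_or_add_one_of_lambda_not_dvd
    hζ hxl
  have hY := IsCyclotomicExtension.Rat.Three.lambda_pow_four_dvd_cube_sub_one_or_add_one_of_lambda_not_dvd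
    hζ hyl
  have h34 : lam ^ 3 ∣ lam ^ 4 := pow_dvd_pow lam (by norm_num)
  have h23 : lam ^ 2 ∣ lam ^ 3 := pow_dvd_pow lam (by norm_num)
  have hcong : ∃ n : ℤ, lam ^ 2 ∣ ((u : 𝓞 K) - n : 𝓞 K) := by
    rcases hX with hX | hX <;> rcases hY with hY | hY
    · refine ⟨1, h23.trans ?_⟩
      have := dvd_add (dvd_sub hdiv (dvd_mul_of_dvd_right (h34.trans hX) (u : 𝓞 K)))
        (h34.trans hY)
      convert this using 1
      push_cast; ring
    · refine ⟨-1, h23.trans ?_⟩
      have := dvd_add (dvd_sub hdiv (dvd_mul_of_dvd_right (h34.trans hX) (u : 𝓞 K)))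
        (h34.trans hY)
      convert this using 1
      push_cast; ring
    · refine ⟨-1, h23.trans ?_⟩
      have := dvd_sub (dvd_mul_of_dvd_right (h34.trans hX) (u : 𝓞 K))
        (dvd_add hdiv (h34.trans hY))
      convert this using 1
      push_cast; ring
    · refine ⟨1, h23.trans ?_⟩
      have := dvd_sub (dvd_mul_of_dvd_right (h34.trans hX) (u : 𝓞 K))
        (dvd_add hdiv (h34.trans hY))
      convert this using 1
      push_cast; ring
  rcases IsCyclotomicExtension.Rat.Three.eq_one_or_neg_one_of_unit_of_congruent hζ u hcong with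
    rfl | rfl
  · exact ⟨δ, by rw [hαδ]; simp⟩
  · exact ⟨-δ, by rw [hαδ]; simp; ring⟩

end Fermat.Agent.S14
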