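import Fermat.Agent.S14.Plan

/-!
# S14, piece N4d: the good prime

From "`L(s,χ)` is bounded on `(1,2]`" (N4c), the split bound (N4b) and the Euler products (N4a)
we deduce: for a nontrivial class group character `χ` and a unit `ε` which is not a `p`-th power
there is a prime `v` of degree one with `χ(v) ≠ 1` at which `ε` is not a `p`-th power residue.

The Euler product inputs are taken as hypotheses `EulerE1`, `EulerE3`, `EulerE4` (exact shapes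
below); `goodPrimeStatement_of_euler` is the piece.
-/

set_option autoImplicit false

open NumberField IsDedekindDomain Filter Topology

namespace Fermat.Agent.S14

/-! ## The Euler product inputs (N4a), in the shape consumed here -/

/-- (E1) for real `s > 1` the sum of `N(I)^(-s)` over the nonzero ideals is `ζ_K(s)`. -/
def EulerE1 : Prop :=
  ∀ (K : Type) [Field K] [NumberField K] (s : ℝ), 1 < s →
    ∑' I : nonZeroDivisors (Ideal (𝓞 K)),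
      (((Ideal.absNorm (I : Ideal (𝓞 K)) : ℝ) ^ (-s) : ℝ) : ℂ) = dedekindZeta K s

/-- (E3) Euler product for the norm of the `L`-series of a class group character. -/
def EulerE3 : Prop :=
  ∀ (K : Type) [Field K] [NumberField K] (χ : ClassGroup (𝓞 K) →* ℂˣ) (s : ℝ), 1 < s →
    Tendsto (fun T : Finset (HeightOneSpectrum (𝓞 K)) =>
        ∏ v ∈ T, ‖(1 : ℂ) - ((χ (primeClass v) : ℂˣ) : ℂ) *
          (((Ideal.absNorm v.asIdeal : ℝ) ^ (-s) : ℝ) : ℂ)‖⁻¹)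
      atTop
      (𝓝 ‖∑' I : nonZeroDivisors (Ideal (𝓞 K)),
          ((χ (ClassGroup.mk0 I) : ℂˣ) : ℂ) *
            (((Ideal.absNorm (I : Ideal (𝓞 K)) : ℝ) ^ (-s) : ℝ) : ℂ)‖)

/-- (E4) the primes whose norm is not a prime number contribute a bounded amount. -/
def EulerE4 : Prop :=
  ∀ (K : Type) [Field K] [NumberField K], ∃ C : ℝ, ∀ s : ℝ, 1 < s →
    ∀ T : Finset (HeightOneSpectrum (𝓞 K)),
      (∀ v ∈ T, ¬ (Ideal.absNorm v.asIdeal).Prime) →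
      ∑ v ∈ T, (Ideal.absNorm v.asIdeal : ℝ) ^ (-s) ≤ C

/-! ## Elementary estimates -/

section Estimates

theorem gp_two_le_absNorm {K : Type} [Field K] [NumberField K]
    (v : HeightOneSpectrum (𝓞 K)) : 2 ≤ Ideal.absNorm v.asIdeal := by
  have h0 : Ideal.absNorm v.asIdeal ≠ 0 := by
    rw [Ne, Ideal.absNorm_eq_zero_iff]
    exact v.ne_bot
  have h1 : Ideal.absNorm v.asIdeal ≠ 1 := by
    rw [Ne, Ideal.absNorm_eq_one_iff]
    exact v.isPrime.ne_top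
  omega

/-- `x_v = N(v)^(-s)` lies in `(0, 1/2]` for `s ≥ 1`. -/
theorem gp_x_pos {K : Type} [Field K] [NumberField K]
    (v : HeightOneSpectrum (𝓞 K)) (s : ℝ) : 0 < (Ideal.absNorm v.asIdeal : ℝ) ^ (-s) := by
  have h2 := gp_two_le_absNorm v
  have : (0 : ℝ) < (Ideal.absNorm v.asIdeal : ℝ) := by
    have : (2 : ℝ) ≤ (Ideal.absNorm v.asIdeal : ℝ) := by exact_mod_cast h2
    linarith
  exact Real.rpow_pos_of_pos this _

theorem gp_x_le_half {K : Type} [Field K] [NumberField K]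
    (v : HeightOneSpectrum (𝓞 K)) {s : ℝ} (hs : 1 ≤ s) :
    (Ideal.absNorm v.asIdeal : ℝ) ^ (-s) ≤ 1 / 2 := by
  have h2 : (2 : ℝ) ≤ (Ideal.absNorm v.asIdeal : ℝ) := by exact_mod_cast gp_two_le_absNorm v
  have hpos : (0 : ℝ) < (Ideal.absNorm v.asIdeal : ℝ) := by linarith
  calc (Ideal.absNorm v.asIdeal : ℝ) ^ (-s)
      ≤ (2 : ℝ) ^ (-s) := Real.rpow_le_rpow_of_nonpos (by norm_num) h2 (by linarith)
    _ ≤ (2 : ℝ) ^ (-1 : ℝ) := Real.rpow_le_rpow_of_exponent_le (by norm_num) (by linarith)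
    _ = 1 / 2 := by rw [Real.rpow_neg_one]; norm_num

/-- `(1 - x)⁻¹ ≤ exp (2 x)` on `[0, 1/2]`. -/
theorem gp_inv_le_exp {x : ℝ} (h0 : 0 ≤ x) (h1 : x ≤ 1 / 2) :
    (1 - x)⁻¹ ≤ Real.exp (2 * x) := by
  have hpos : 0 < 1 - x := by linarith
  have h : (1 - x)⁻¹ ≤ 1 + 2 * x := by
    rw [inv_le_iff_one_le_mul₀ hpos]
    nlinarith
  have h' : 1 + 2 * x ≤ Real.exp (2 * x) := by
    have := Real.add_one_le_exp (2 * x)
    linarith
  linarith

/-- the basic local comparison: `(1-x)⁻¹ ≤ ‖1 - z x‖⁻¹ * ((1-x)⁻¹)²` for `‖z‖ ≤ 1`. -/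
theorem gp_local {x : ℝ} (h0 : 0 < x) (h1 : x ≤ 1 / 2) {z : ℂ} (hz : ‖z‖ ≤ 1) :
    (1 - x)⁻¹ ≤ ‖(1 : ℂ) - z * (x : ℂ)‖⁻¹ * ((1 - x)⁻¹) ^ 2 := by
  have hpos : 0 < 1 - x := by linarith
  have hzx : ‖z * (x : ℂ)‖ ≤ x := by
    rw [norm_mul, Complex.norm_real, Real.norm_of_nonneg h0.le]
    calc ‖z‖ * x ≤ 1 * x := by gcongr
      _ = x := one_mul x
  have hle : ‖(1 : ℂ) - z * (x : ℂ)‖ ≤ 1 + x := by
    calc ‖(1 : ℂ) - z * (x : ℂ)‖ ≤ ‖(1 : ℂ)‖ + ‖z * (x : ℂ)‖ := norm_sub_le _ _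
      _ ≤ 1 + x := by rw [norm_one]; linarith
  have hge : 1 - x ≤ ‖(1 : ℂ) - z * (x : ℂ)‖ := by
    calc 1 - x ≤ ‖(1 : ℂ)‖ - ‖z * (x : ℂ)‖ := by rw [norm_one]; linarith
      _ ≤ ‖(1 : ℂ) - z * (x : ℂ)‖ := norm_sub_norm_le _ _
  have hnpos : 0 < ‖(1 : ℂ) - z * (x : ℂ)‖ := by linarith
  have hinv : (1 + x)⁻¹ ≤ ‖(1 : ℂ) - z * (x : ℂ)‖⁻¹ := by
    rw [inv_le_inv₀ (by linarith) hnpos]
    exact hle
  have hb : 0 < (1 - x)⁻¹ := inv_pos.mpr hpos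
  have key : (1 - x)⁻¹ ≤ (1 + x)⁻¹ * ((1 - x)⁻¹) ^ 2 := by
    have h1x : 0 < 1 + x := by linarith
    rw [pow_two, ← mul_assoc]
    have : 1 ≤ (1 + x)⁻¹ * (1 - x)⁻¹ := by
      rw [← mul_inv, one_le_inv₀ (by positivity)]
      nlinarith
    calc (1 - x)⁻¹ = 1 * (1 - x)⁻¹ := (one_mul _).symm
      _ ≤ ((1 + x)⁻¹ * (1 - x)⁻¹) * (1 - x)⁻¹ := by gcongr
  calc (1 - x)⁻¹ ≤ (1 + x)⁻¹ * ((1 - x)⁻¹) ^ 2 := key
    _ ≤ ‖(1 : ℂ) - z * (x : ℂ)‖⁻¹ * ((1 - x)⁻¹) ^ 2 := by gcongr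

/-- values of a character of a finite group have norm one. -/
theorem gp_norm_char {G : Type*} [Group G] [Finite G] (χ : G →* ℂˣ) (g : G) :
    ‖((χ g : ℂˣ) : ℂ)‖ = 1 := by
  have h : (χ g) ^ (Nat.card G) = 1 := by
    rw [← map_pow, pow_card_eq_one', map_one]
  have h' : ((χ g : ℂˣ) : ℂ) ^ (Nat.card G) = 1 := by
    rw [← Units.val_pow_eq_pow_val, h, Units.val_one]
  exact Complex.norm_eq_one_of_pow_eq_one h' Nat.card_pos.ne'

end Estimates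

/-! ## Bounds over the primes which are not of degree one -/

section NotDegOne

variable {K : Type} [Field K] [NumberField K]

theorem gp_finite_norm_eq (n : ℕ) :
    {v : HeightOneSpectrum (𝓞 K) | Ideal.absNorm v.asIdeal = n}.Finite := by
  have h := Ideal.finite_setOfPred_absNorm_eq (S := 𝓞 K) n
  refine Set.Finite.of_finite_image (f := fun v : HeightOneSpectrum (𝓞 K) => v.asIdeal)
    (h.subset ?_) ?_
  · rintro _ ⟨v, hv, rfl⟩
    exact hv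
  · intro v _ w _ hvw
    exact HeightOneSpectrum.ext hvw

theorem gp_sum_not_degOne (p : ℕ) (hE4 : EulerE4) :
    ∃ C : ℝ, ∀ s : ℝ, 1 < s → ∀ T : Finset (HeightOneSpectrum (𝓞 K)),
      (∀ v ∈ T, ¬ IsDegOne p v) →
      ∑ v ∈ T, (Ideal.absNorm v.asIdeal : ℝ) ^ (-s) ≤ C := by
  classical
  obtain ⟨C4, hC4⟩ := hE4 K
  set Sp : Finset (HeightOneSpectrum (𝓞 K)) := (gp_finite_norm_eq (K := K) p).toFinset with hSp
  refine ⟨C4 + (Sp.card : ℝ) * (1 / 2), fun s hs T hT => ?_⟩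
  rw [← Finset.sum_filter_add_sum_filter_not T
    (fun v : HeightOneSpectrum (𝓞 K) => ¬ (Ideal.absNorm v.asIdeal).Prime)]
  have h1 : ∑ v ∈ T.filter (fun v : HeightOneSpectrum (𝓞 K) =>
      ¬ (Ideal.absNorm v.asIdeal).Prime), (Ideal.absNorm v.asIdeal : ℝ) ^ (-s) ≤ C4 :=
    hC4 s hs _ (fun v hv => (Finset.mem_filter.mp hv).2)
  have hsub : T.filter (fun v : HeightOneSpectrum (𝓞 K) =>
      ¬ ¬ (Ideal.absNorm v.asIdeal).Prime) ⊆ Sp := by
    intro v hv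
    obtain ⟨hvT, hvp⟩ := Finset.mem_filter.mp hv
    rw [not_not] at hvp
    rw [hSp, Set.Finite.mem_toFinset]
    show Ideal.absNorm v.asIdeal = p
    by_contra hne
    exact hT v hvT ⟨hvp, hne⟩
  have h2 : ∑ v ∈ T.filter (fun v : HeightOneSpectrum (𝓞 K) =>
      ¬ ¬ (Ideal.absNorm v.asIdeal).Prime), (Ideal.absNorm v.asIdeal : ℝ) ^ (-s)
      ≤ (Sp.card : ℝ) * (1 / 2) := by
    calc ∑ v ∈ T.filter (fun v : HeightOneSpectrum (𝓞 K) =>
          ¬ ¬ (Ideal.absNorm v.asIdeal).Prime), (Ideal.absNorm v.asIdeal : ℝ) ^ (-s)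
        ≤ ∑ v ∈ Sp, (Ideal.absNorm v.asIdeal : ℝ) ^ (-s) :=
          Finset.sum_le_sum_of_subset_of_nonneg hsub (fun v _ _ => (gp_x_pos v s).le)
      _ ≤ ∑ _v ∈ Sp, (1 / 2 : ℝ) := Finset.sum_le_sum (fun v _ => gp_x_le_half v hs.le)
      _ = (Sp.card : ℝ) * (1 / 2) := by rw [Finset.sum_const, nsmul_eq_mul]
  linarith

theorem gp_prod_not_degOne (p : ℕ) (hE4 : EulerE4) :
    ∃ M : ℝ, 0 < M ∧ ∀ s : ℝ, 1 < s → ∀ T : Finset (HeightOneSpectrum (𝓞 K)),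
      (∀ v ∈ T, ¬ IsDegOne p v) →
      ∏ v ∈ T, (1 - (Ideal.absNorm v.asIdeal : ℝ) ^ (-s))⁻¹ ≤ M := by
  obtain ⟨C, hC⟩ := gp_sum_not_degOne (K := K) p hE4
  refine ⟨Real.exp (2 * C), Real.exp_pos _, fun s hs T hT => ?_⟩
  calc ∏ v ∈ T, (1 - (Ideal.absNorm v.asIdeal : ℝ) ^ (-s))⁻¹
      ≤ ∏ v ∈ T, Real.exp (2 * (Ideal.absNorm v.asIdeal : ℝ) ^ (-s)) := by
        refine Finset.prod_le_prod (fun v _ => ?_) (fun v _ => ?_)
        · have := gp_x_le_half v hs.le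
          exact inv_nonneg.mpr (by linarith)
        · exact gp_inv_le_exp (gp_x_pos v s).le (gp_x_le_half v hs.le)
    _ = Real.exp (2 * ∑ v ∈ T, (Ideal.absNorm v.asIdeal : ℝ) ^ (-s)) := by
        rw [← Real.exp_sum, Finset.mul_sum]
    _ ≤ Real.exp (2 * C) := by
        apply Real.exp_le_exp.mpr
        have := hC s hs T hT
        linarith

end NotDegOne

/-! ## The main comparison -/

section Main

variable {K : Type} [Field K] [NumberField K]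

/-- Finite form of the comparison between the Euler products of `ζ_K` and of `L(s,χ)`. -/
theorem gp_finite_compare (p : ℕ) (χ : ClassGroup (𝓞 K) →* ℂˣ) {s : ℝ} (hs : 1 < s)
    {B M : ℝ}
    (hD : ∀ F : Finset (HeightOneSpectrum (𝓞 K)),
      (∀ v ∈ F, IsDegOne p v ∧ χ (primeClass v) ≠ 1) →
      ∏ v ∈ F, (1 - (Ideal.absNorm v.asIdeal : ℝ) ^ (-s))⁻¹ ≤ B)
    (hO : ∀ F : Finset (HeightOneSpectrum (𝓞 K)), (∀ v ∈ F, ¬ IsDegOne p v) →
      ∏ v ∈ F, (1 - (Ideal.absNorm v.asIdeal : ℝ) ^ (-s))⁻¹ ≤ M)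
    (T : Finset (HeightOneSpectrum (𝓞 K))) :
    ∏ v ∈ T, (1 - (Ideal.absNorm v.asIdeal : ℝ) ^ (-s))⁻¹ ≤
      (∏ v ∈ T, ‖(1 : ℂ) - ((χ (primeClass v) : ℂˣ) : ℂ) *
          (((Ideal.absNorm v.asIdeal : ℝ) ^ (-s) : ℝ) : ℂ)‖⁻¹) * (B * M) ^ 2 := by
  classical
  have hbpos : ∀ v : HeightOneSpectrum (𝓞 K),
      0 < (1 - (Ideal.absNorm v.asIdeal : ℝ) ^ (-s))⁻¹ := fun v => by
    have := gp_x_le_half v hs.le
    exact inv_pos.mpr (by linarith)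
  have hb1 : ∀ v : HeightOneSpectrum (𝓞 K),
      1 ≤ (1 - (Ideal.absNorm v.asIdeal : ℝ) ^ (-s))⁻¹ := fun v => by
    have h1 := gp_x_le_half v hs.le
    have h2 := gp_x_pos v s
    rw [one_le_inv₀ (by linarith)]
    linarith
  have hB : 1 ≤ B := by simpa using hD ∅ (by simp)
  -- termwise comparison
  have hterm : ∀ v ∈ T, (1 - (Ideal.absNorm v.asIdeal : ℝ) ^ (-s))⁻¹ ≤
      ‖(1 : ℂ) - ((χ (primeClass v) : ℂˣ) : ℂ) *
          (((Ideal.absNorm v.asIdeal : ℝ) ^ (-s) : ℝ) : ℂ)‖⁻¹ *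
        (if χ (primeClass v) = 1 then 1
          else ((1 - (Ideal.absNorm v.asIdeal : ℝ) ^ (-s))⁻¹) ^ 2) := by
    intro v _
    split_ifs with h
    · rw [h, Units.val_one, one_mul, mul_one, ← Complex.ofReal_one, ← Complex.ofReal_sub,
        Complex.norm_real, Real.norm_of_nonneg]
      have := gp_x_le_half v hs.le
      linarith
    · exact gp_local (gp_x_pos v s) (gp_x_le_half v hs.le) (gp_norm_char χ _).le
  have hanonneg : ∀ v ∈ T, 0 ≤ (1 - (Ideal.absNorm v.asIdeal : ℝ) ^ (-s))⁻¹ :=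
    fun v _ => (hbpos v).le
  refine (Finset.prod_le_prod hanonneg hterm).trans ?_
  rw [Finset.prod_mul_distrib]
  refine mul_le_mul_of_nonneg_left ?_ (Finset.prod_nonneg fun v _ => inv_nonneg.mpr (norm_nonneg _))
  rw [Finset.prod_ite, Finset.prod_const_one, one_mul, Finset.prod_pow]
  have hTB : ∏ v ∈ T.filter (fun v : HeightOneSpectrum (𝓞 K) => ¬ χ (primeClass v) = 1),
      (1 - (Ideal.absNorm v.asIdeal : ℝ) ^ (-s))⁻¹ ≤ B * M := by
    rw [← Finset.prod_filter_mul_prod_filter_not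
      (T.filter (fun v : HeightOneSpectrum (𝓞 K) => ¬ χ (primeClass v) = 1))
      (fun v : HeightOneSpectrum (𝓞 K) => IsDegOne p v)]
    refine mul_le_mul ?_ ?_ (Finset.prod_nonneg fun v _ => (hbpos v).le) (by linarith)
    · refine hD _ (fun v hv => ?_)
      obtain ⟨hv1, hv2⟩ := Finset.mem_filter.mp hv
      exact ⟨hv2, (Finset.mem_filter.mp hv1).2⟩
    · exact hO _ (fun v hv => (Finset.mem_filter.mp hv).2)
  exact pow_le_pow_left₀ (Finset.prod_nonneg fun v _ => (hbpos v).le) hTB 2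

/-- The comparison after passing to the limit over all primes. -/
theorem gp_zeta_le (hE1 : EulerE1) (hE3 : EulerE3) (p : ℕ) (χ : ClassGroup (𝓞 K) →* ℂˣ)
    {s : ℝ} (hs : 1 < s) {B M : ℝ}
    (hD : ∀ F : Finset (HeightOneSpectrum (𝓞 K)),
      (∀ v ∈ F, IsDegOne p v ∧ χ (primeClass v) ≠ 1) →
      ∏ v ∈ F, (1 - (Ideal.absNorm v.asIdeal : ℝ) ^ (-s))⁻¹ ≤ B)
    (hO : ∀ F : Finset (HeightOneSpectrum (𝓞 K)), (∀ v ∈ F, ¬ IsDegOne p v) →
      ∏ v ∈ F, (1 - (Ideal.absNorm v.asIdeal : ℝ) ^ (-s))⁻¹ ≤ M) :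
    ‖dedekindZeta K s‖ ≤
      ‖∑' I : nonZeroDivisors (Ideal (𝓞 K)),
          ((χ (ClassGroup.mk0 I) : ℂˣ) : ℂ) *
            (((Ideal.absNorm (I : Ideal (𝓞 K)) : ℝ) ^ (-s) : ℝ) : ℂ)‖ * (B * M) ^ 2 := by
  have h1 := hE3 K 1 s hs
  have h2 := (hE3 K χ s hs).mul_const ((B * M) ^ 2)
  have hz : ‖∑' I : nonZeroDivisors (Ideal (𝓞 K)),
      (((1 : ClassGroup (𝓞 K) →* ℂˣ) (ClassGroup.mk0 I) : ℂˣ) : ℂ) *
        (((Ideal.absNorm (I : Ideal (𝓞 K)) : ℝ) ^ (-s) : ℝ) : ℂ)‖ = ‖dedekindZeta K s‖ := by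
    rw [← hE1 K s hs]
    congr 1
    refine tsum_congr (fun I => ?_)
    rw [MonoidHom.one_apply, Units.val_one, one_mul]
  rw [hz] at h1
  refine le_of_tendsto_of_tendsto' h1 h2 (fun T => ?_)
  have hcmp := gp_finite_compare p χ hs hD hO T
  refine le_trans (le_of_eq ?_) hcmp
  refine Finset.prod_congr rfl (fun v _ => ?_)
  rw [MonoidHom.one_apply, Units.val_one, one_mul, ← Complex.ofReal_one, ← Complex.ofReal_sub,
    Complex.norm_real, Real.norm_of_nonneg]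
  have := gp_x_le_half v hs.le
  linarith

/-- `(s-1)^(1-2/p) → 0` as `s → 1⁺`, in the shape produced by the comparison. -/
theorem gp_tendsto_zero {p : ℕ} (h3 : 3 ≤ p) (A : ℝ) :
    Tendsto (fun s : ℝ => A * ((s - 1) * ((s - 1) ^ (-(1 : ℝ) / p)) ^ 2)) (𝓝[>] 1) (𝓝 0) := by
  have hp : (0 : ℝ) < p := by
    have : (3 : ℝ) ≤ p := by exact_mod_cast h3
    linarith
  have hexp : (0 : ℝ) < 1 - 2 / p := by
    have : (3 : ℝ) ≤ p := by exact_mod_cast h3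
    rw [sub_pos, div_lt_one hp]
    linarith
  have h1 : Tendsto (fun s : ℝ => (s - 1) ^ (1 - 2 / (p : ℝ))) (𝓝 1) (𝓝 0) := by
    have hc : ContinuousAt (fun x : ℝ => x ^ (1 - 2 / (p : ℝ))) 0 :=
      Real.continuousAt_rpow_const 0 _ (Or.inr hexp.le)
    have hsub : Tendsto (fun s : ℝ => s - 1) (𝓝 1) (𝓝 0) := by
      have : Tendsto (fun s : ℝ => s - 1) (𝓝 1) (𝓝 (1 - 1)) :=
        (continuous_id.sub continuous_const).tendsto 1
      simpa using this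
    have := hc.tendsto.comp hsub
    rwa [Real.zero_rpow hexp.ne'] at this
  have h2 : Tendsto (fun s : ℝ => A * (s - 1) ^ (1 - 2 / (p : ℝ))) (𝓝[>] 1) (𝓝 0) := by
    have := (h1.const_mul A).mono_left (nhdsWithin_le_nhds (s := Set.Ioi (1 : ℝ)))
    simpa using this
  refine h2.congr' ?_
  filter_upwards [self_mem_nhdsWithin] with s hs
  have hs' : 0 < s - 1 := sub_pos.mpr hs
  congr 1
  rw [← Real.rpow_natCast ((s - 1) ^ (-(1 : ℝ) / p)) 2, ← Real.rpow_mul hs'.le]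
  nth_rewrite 2 [← Real.rpow_one (s - 1)]
  rw [← Real.rpow_add hs']
  congr 1
  push_cast
  ring

end Main

/-- **N4d (good prime)**, with the Euler product inputs as hypotheses. -/
theorem goodPrimeStatement_of_euler {p : ℕ} [Fact p.Prime] (h3 : 3 ≤ p)
    (hE1 : EulerE1) (hE3 : EulerE3) (hE4 : EulerE4) :
    LBoundedStatement → SplitBoundStatement p → GoodPrimeStatement p := by
  intro hL hS K _ _ _ ε hε hεpow χ hχ
  by_contra hcon
  replace hcon : ∀ v : HeightOneSpectrum (𝓞 K), IsDegOne p v → χ (primeClass v) ≠ 1 →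
      IsPowMod p v ε := by
    intro v h1 h2
    by_contra h3
    exact hcon ⟨v, h1, h2, h3⟩
  obtain ⟨CL, hCL⟩ := hL K χ hχ
  obtain ⟨CS, hCS⟩ := hS K ε hε hεpow
  obtain ⟨M, hM, hMb⟩ := gp_prod_not_degOne (K := K) p hE4
  -- the inequality for every `s ∈ (1, 2]`
  have hineq : ∀ s : ℝ, 1 < s → s ≤ 2 →
      ‖((s : ℂ) - 1) * dedekindZeta K s‖ ≤
        (CL * (CS * M) ^ 2) * ((s - 1) * ((s - 1) ^ (-(1 : ℝ) / p)) ^ 2) := by
    intro s hs hs2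
    have hD : ∀ F : Finset (HeightOneSpectrum (𝓞 K)),
        (∀ v ∈ F, IsDegOne p v ∧ χ (primeClass v) ≠ 1) →
        ∏ v ∈ F, (1 - (Ideal.absNorm v.asIdeal : ℝ) ^ (-s))⁻¹ ≤
          CS * (s - 1) ^ (-(1 : ℝ) / p) :=
      fun F hF => hCS s hs hs2 F (fun v hv => ⟨(hF v hv).1, hcon v (hF v hv).1 (hF v hv).2⟩)
    have hz := gp_zeta_le hE1 hE3 p χ hs hD (hMb s hs)
    have hLs := hCL s hs hs2
    have hs' : 0 < s - 1 := sub_pos.mpr hs
    have hnorm : ‖((s : ℂ) - 1)‖ = s - 1 := by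
      rw [← Complex.ofReal_one, ← Complex.ofReal_sub, Complex.norm_real,
        Real.norm_of_nonneg hs'.le]
    rw [norm_mul, hnorm]
    have hsq : 0 ≤ (CS * (s - 1) ^ (-(1 : ℝ) / p) * M) ^ 2 := sq_nonneg _
    calc (s - 1) * ‖dedekindZeta K s‖
        ≤ (s - 1) * (CL * (CS * (s - 1) ^ (-(1 : ℝ) / p) * M) ^ 2) := by
          refine mul_le_mul_of_nonneg_left (hz.trans ?_) hs'.le
          exact mul_le_mul_of_nonneg_right hLs hsq
      _ = (CL * (CS * M) ^ 2) * ((s - 1) * ((s - 1) ^ (-(1 : ℝ) / p)) ^ 2) := by ring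
  -- pass to the limit `s → 1⁺`
  have h1 : Tendsto (fun s : ℝ => ‖((s : ℂ) - 1) * dedekindZeta K s‖) (𝓝[>] 1)
      (𝓝 ‖((dedekindZeta_residue K : ℝ) : ℂ)‖) :=
    (tendsto_sub_one_mul_dedekindZeta_nhdsGT K).norm
  have h2 := gp_tendsto_zero h3 (CL * (CS * M) ^ 2)
  have hev : ∀ᶠ s : ℝ in 𝓝[>] (1 : ℝ), ‖((s : ℂ) - 1) * dedekindZeta K s‖ ≤
      (CL * (CS * M) ^ 2) * (((s : ℝ) - 1) * (((s : ℝ) - 1) ^ (-(1 : ℝ) / p)) ^ 2) := by
    filter_upwards [Ioc_mem_nhdsGT (show (1 : ℝ) < 2 by norm_num)] with s hs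
    exact hineq s hs.1 hs.2
  have hle := le_of_tendsto_of_tendsto h1 h2 hev
  rw [Complex.norm_real, Real.norm_of_nonneg (dedekindZeta_residue_pos K).le] at hle
  exact absurd hle (not_le.mpr (dedekindZeta_residue_pos K))

end Fermat.Agent.S14
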