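import Mathlib

set_option autoImplicit false

namespace Fermat.Agent.S14

/-! ### Elementary real inequalities -/

theorem lb_one_add_pow_le (n : ℕ) {δ : ℝ} (h0 : 0 ≤ δ) (h1 : δ ≤ 1) :
    (1 + δ) ^ n ≤ 1 + (2 ^ n - 1) * δ := by
  induction n with
  | zero => simp
  | succ k ih =>
    have h2 : δ ^ 2 ≤ δ := by nlinarith
    have h3 : (0 : ℝ) ≤ 2 ^ k - 1 := by
      have : (1 : ℝ) ≤ 2 ^ k := one_le_pow₀ (by norm_num)
      linarith
    calc (1 + δ) ^ (k + 1) = (1 + δ) ^ k * (1 + δ) := pow_succ _ _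
      _ ≤ (1 + (2 ^ k - 1) * δ) * (1 + δ) := by
          apply mul_le_mul_of_nonneg_right ih (by linarith)
      _ = 1 + (2 ^ k) * δ + (2 ^ k - 1) * δ ^ 2 := by ring
      _ ≤ 1 + (2 ^ k) * δ + (2 ^ k - 1) * δ := by
          have := mul_le_mul_of_nonneg_left h2 h3
          linarith
      _ = 1 + (2 ^ (k + 1) - 1) * δ := by ring

theorem lb_one_sub_pow_ge (n : ℕ) {δ : ℝ} (h1 : δ ≤ 1) :
    1 - n * δ ≤ (1 - δ) ^ n := by
  have := one_add_mul_le_pow (a := -δ) (by linarith) n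
  simpa [sub_eq_add_neg] using this

theorem lb_inv_sq_ge {a : ℝ} (ha : 0 ≤ a) : 1 - 2 * a ≤ ((1 + a) ^ 2)⁻¹ := by
  have hpos : (0 : ℝ) < (1 + a) ^ 2 := by positivity
  rw [inv_eq_one_div, le_div_iff₀ hpos]
  nlinarith [mul_nonneg ha ha, mul_nonneg (mul_nonneg ha ha) ha]

theorem lb_inv_sq_le {b : ℝ} (hb0 : 0 < b) (hb1 : b ≤ 1) : (b ^ 2)⁻¹ - 1 ≤ 2 * (1 - b) / b ^ 2 := by
  have hpos : (0 : ℝ) < b ^ 2 := by positivity
  rw [inv_eq_one_div, div_sub_one hpos.ne']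
  apply div_le_div_of_nonneg_right _ hpos.le
  nlinarith

/-- Key estimate: if `(1 - δ)^n ≤ t ≤ (1 + δ)^n`, `δ ≤ 1/2` and `s ∈ [1, 2]` then
`|t^(-s) - 1| ≤ C δ` and `t^(-s) ≤ 4^n`. -/
theorem lb_rpow_neg_sub_one_le (n : ℕ) {δ t s : ℝ} (h0 : 0 ≤ δ) (h1 : δ ≤ 1 / 2)
    (hlo : (1 - δ) ^ n ≤ t) (hhi : t ≤ (1 + δ) ^ n) (hs1 : 1 ≤ s) (hs2 : s ≤ 2) :
    |t ^ (-s) - 1| ≤ (2 ^ (n + 1) + 2 * n * 4 ^ n) * δ ∧ t ^ (-s) ≤ 4 ^ n := by
  have hlo2 : (1 / 2 : ℝ) ^ n ≤ (1 - δ) ^ n := pow_le_pow_left₀ (by norm_num) (by linarith) n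
  have htlo : (1 / 2 : ℝ) ^ n ≤ t := hlo2.trans hlo
  have htpos : 0 < t := lt_of_lt_of_le (by positivity) htlo
  have hthi : t ≤ 1 + (2 ^ n - 1) * δ := hhi.trans (lb_one_add_pow_le n h0 (by linarith))
  have htlo' : 1 - n * δ ≤ t := (lb_one_sub_pow_ge n (by linarith)).trans hlo
  have h2n : (1 : ℝ) ≤ 2 ^ n := one_le_pow₀ (by norm_num)
  have h4n : (1 : ℝ) ≤ 4 ^ n := one_le_pow₀ (by norm_num)
  have hn4 : (0 : ℝ) ≤ 2 * n * 4 ^ n := by positivity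
  have hpow2 : (2 : ℝ) ^ (n + 1) = 2 * 2 ^ n := by ring
  -- `t^(-2)` as an inverse
  have hinv2 : t ^ (-(2 : ℝ)) = (t ^ 2)⁻¹ := by
    rw [Real.rpow_neg htpos.le]; norm_num
  have hsq_lo : (1 / 4 : ℝ) ^ n ≤ t ^ 2 := by
    have := pow_le_pow_left₀ (by positivity) htlo 2
    calc (1 / 4 : ℝ) ^ n = ((1 / 2 : ℝ) ^ n) ^ 2 := by
          rw [← pow_mul, mul_comm, pow_mul]; norm_num
      _ ≤ t ^ 2 := this
  have hinv2_le : (t ^ 2)⁻¹ ≤ 4 ^ n := by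
    have h5 : (t ^ 2)⁻¹ ≤ ((1 / 4 : ℝ) ^ n)⁻¹ := inv_anti₀ (by positivity) hsq_lo
    have h6 : ((1 / 4 : ℝ) ^ n)⁻¹ = 4 ^ n := by
      rw [one_div, inv_pow, inv_inv]
    linarith
  rcases le_total 1 t with ht | ht
  · -- `t ≥ 1`
    have hle1 : t ^ (-s) ≤ 1 := Real.rpow_le_one_of_one_le_of_nonpos ht (by linarith)
    have hge : t ^ (-(2 : ℝ)) ≤ t ^ (-s) :=
      Real.rpow_le_rpow_of_exponent_le ht (by linarith)
    have ha0 : 0 ≤ (2 ^ n - 1) * δ := mul_nonneg (by linarith) h0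
    have hge2 : 1 - 2 * ((2 ^ n - 1) * δ) ≤ t ^ (-(2 : ℝ)) := by
      rw [hinv2]
      have ht2 : t ^ 2 ≤ (1 + (2 ^ n - 1) * δ) ^ 2 := pow_le_pow_left₀ htpos.le hthi 2
      have h3 : ((1 + (2 ^ n - 1) * δ) ^ 2)⁻¹ ≤ (t ^ 2)⁻¹ := inv_anti₀ (by positivity) ht2
      have h4 := lb_inv_sq_ge ha0
      linarith
    refine ⟨?_, hle1.trans h4n⟩
    rw [abs_le]
    constructor
    · have : 0 ≤ 2 * n * 4 ^ n * δ := mul_nonneg hn4 h0
      nlinarith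
    · have : 0 ≤ (2 ^ (n + 1) + 2 * n * 4 ^ n) * δ := mul_nonneg (by positivity) h0
      linarith
  · -- `t ≤ 1`
    have hge1 : 1 ≤ t ^ (-s) :=
      Real.one_le_rpow_of_pos_of_le_one_of_nonpos htpos ht (by linarith)
    have hle : t ^ (-s) ≤ t ^ (-(2 : ℝ)) :=
      Real.rpow_le_rpow_of_exponent_ge htpos ht (by linarith)
    have h7 := lb_inv_sq_le htpos ht
    have h8 : 2 * (1 - t) / t ^ 2 ≤ 2 * (n * δ) * 4 ^ n := by
      rw [div_eq_mul_inv]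
      apply mul_le_mul _ hinv2_le (by positivity) (by positivity)
      linarith
    rw [hinv2] at hle
    refine ⟨?_, hle.trans hinv2_le⟩
    rw [abs_le]
    constructor
    · have : 0 ≤ (2 ^ (n + 1) + 2 * n * 4 ^ n) * δ := mul_nonneg (by positivity) h0
      linarith
    · have : 0 ≤ 2 ^ (n + 1) * δ := mul_nonneg (by positivity) h0
      nlinarith

/-! ### The absolute norm as a real number -/

open NumberField

section Norm

variable {K : Type} [Field K] [NumberField K]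

/-- `|N_{K/ℚ} x|` as a real number. -/
noncomputable def nm (x : K) : ℝ := |(Algebra.norm ℚ x : ℝ)|

theorem nm_nonneg (x : K) : 0 ≤ nm x := abs_nonneg _

theorem nm_mul (x y : K) : nm (x * y) = nm x * nm y := by
  simp [nm, map_mul, abs_mul]

theorem nm_eq_prod (x : K) : nm x = ∏ v : InfinitePlace K, v x ^ InfinitePlace.mult v := by
  rw [InfinitePlace.prod_eq_abs_norm, nm, Rat.cast_abs]

theorem nm_pos {x : K} (hx : x ≠ 0) : 0 < nm x := by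
  rw [nm, abs_pos]
  exact_mod_cast (Algebra.norm_ne_zero_iff.mpr hx)

theorem nm_zero : nm (0 : K) = 0 := by
  simp [nm]

theorem nm_integer (x : 𝓞 K) : nm (x : K) = ((|Algebra.norm ℤ x| : ℤ) : ℝ) := by
  rw [nm, ← Algebra.coe_norm_int, Rat.cast_intCast, Int.cast_abs]

theorem one_le_nm_of_integer {x : 𝓞 K} (hx : x ≠ 0) : 1 ≤ nm (x : K) := by
  rw [nm_integer, ← Int.cast_one, Int.cast_le]
  exact Int.one_le_abs (Algebra.norm_ne_zero_iff.mpr hx)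

theorem nm_unit (ε : (𝓞 K)ˣ) : nm (((ε : 𝓞 K) : K)) = 1 := by
  have h1 := nm_mul (((ε : 𝓞 K) : K)) ((((ε⁻¹ : (𝓞 K)ˣ) : 𝓞 K) : K))
  have h2 : (((ε : 𝓞 K) : K)) * ((((ε⁻¹ : (𝓞 K)ˣ) : 𝓞 K) : K)) = 1 := by
    rw [← map_mul, ← Units.val_mul, mul_inv_cancel]; simp
  rw [h2] at h1
  have h3 : nm (1 : K) = 1 := by simp [nm]
  have h4 := one_le_nm_of_integer (K := K) (x := (ε : 𝓞 K)) ε.ne_zero
  have h5 := one_le_nm_of_integer (K := K) (x := ((ε⁻¹ : (𝓞 K)ˣ) : 𝓞 K)) (ε⁻¹).ne_zero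
  rw [h3] at h1
  nlinarith

/-- Bounds for the norm of `1 + u` when all absolute values of `u` are at most `δ`. -/
theorem nm_one_add_bounds {u : K} {δ : ℝ} (hδ1 : δ ≤ 1)
    (hu : ∀ v : InfinitePlace K, v u ≤ δ) :
    (1 - δ) ^ (Module.finrank ℚ K) ≤ nm (1 + u) ∧ nm (1 + u) ≤ (1 + δ) ^ (Module.finrank ℚ K) := by
  have hδ0 : 0 ≤ δ := (apply_nonneg (Classical.arbitrary (InfinitePlace K)) u).trans (hu _)
  rw [nm_eq_prod, ← InfinitePlace.sum_mult_eq, ← Finset.prod_pow_eq_pow_sum,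
    ← Finset.prod_pow_eq_pow_sum]
  constructor
  · apply Finset.prod_le_prod
    · intro v _; exact pow_nonneg (by linarith) _
    · intro v _
      apply pow_le_pow_left₀ (by linarith)
      have h1 := v.1.le_add 1 u
      have h2 : v.1 1 = 1 := v.1.map_one
      have h3 : v.1 u ≤ δ := hu v
      have h4 : v.1 (1 + u) = v (1 + u) := rfl
      linarith
  · apply Finset.prod_le_prod
    · intro v _; exact pow_nonneg (apply_nonneg v _) _
    · intro v _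
      apply pow_le_pow_left₀ (apply_nonneg v _)
      have h1 := v.1.add_le 1 u
      have h2 : v.1 1 = 1 := v.1.map_one
      have h3 : v.1 u ≤ δ := hu v
      have h4 : v.1 (1 + u) = v (1 + u) := rfl
      linarith

/-- Pointwise shift estimate (one-sided): if `w x ≠ 0` then
`|f_s (x + r) - f_s x| ≤ A |N x|^(-(1 + 1/n))` uniformly in `s ∈ [1, 2]`. -/
theorem lb_shift_pointwise {w : K → ℝ} {B L : ℝ} (hB : 0 < B) (hL : 0 ≤ L)
    (hw0 : ∀ x, 0 ≤ w x) (hw1 : ∀ x, w x ≤ 1)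
    (hsupp : ∀ x : K, x ≠ 0 → w x ≠ 0 → ∀ v : InfinitePlace K,
      |(Algebra.norm ℚ x : ℝ)| ≤ (B * v x) ^ (Module.finrank ℚ K))
    (hlip : ∀ x u : K, x ≠ 0 → ∀ δ : ℝ, δ ≤ 1 / 2 → (∀ v : InfinitePlace K, v u ≤ δ) →
      |w (x * (1 + u)) - w x| ≤ L * δ)
    (r : K) :
    ∃ A : ℝ, 0 ≤ A ∧ ∀ (s : ℝ), 1 ≤ s → s ≤ 2 → ∀ x : K, x ≠ 0 → 1 ≤ nm x → x + r ≠ 0 →
      1 ≤ nm (x + r) → w x ≠ 0 →
      |w (x + r) * nm (x + r) ^ (-s) - w x * nm x ^ (-s)| ≤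
        A * nm x ^ (-(1 + (Module.finrank ℚ K : ℝ)⁻¹)) := by
  set n := Module.finrank ℚ K with hn_def
  have hn : 0 < n := Module.finrank_pos
  set ρ : ℝ := ∑ v : InfinitePlace K, v r with hρ_def
  have hρv : ∀ v : InfinitePlace K, v r ≤ ρ := fun v =>
    Finset.single_le_sum (f := fun v : InfinitePlace K => v r) (fun v _ => apply_nonneg v r)
      (Finset.mem_univ v)
  have hρ0 : 0 ≤ ρ := Finset.sum_nonneg (fun v _ => apply_nonneg v r)
  set Cn : ℝ := 2 ^ (n + 1) + 2 * n * 4 ^ n with hCn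
  have hCn0 : 0 ≤ Cn := by positivity
  refine ⟨(4 ^ n * L + Cn) * (ρ * B) + 2 * (2 * (ρ * B) + 1) ^ (n + 1), by positivity, ?_⟩
  intro s hs1 hs2 x hx hNx hy hNy hwx
  have hNx0 : 0 < nm x := lt_of_lt_of_le one_pos hNx
  set q : ℝ := nm x ^ ((n : ℝ)⁻¹) with hq_def
  have hqn : q ^ n = nm x := Real.rpow_inv_natCast_pow hNx0.le hn.ne'
  have hq1 : 1 ≤ q := Real.one_le_rpow hNx (by positivity)
  have hq0 : 0 < q := lt_of_lt_of_le one_pos hq1
  have hqv : ∀ v : InfinitePlace K, q ≤ B * v x := by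
    intro v
    have h1 := hsupp x hx hwx v
    have h2 : 0 ≤ B * v x := mul_nonneg hB.le (apply_nonneg v x)
    apply le_of_pow_le_pow_left₀ hn.ne' h2
    rw [hqn]
    exact h1
  -- the key power
  have hkey : nm x ^ (-(1 + (n : ℝ)⁻¹)) = (nm x * q)⁻¹ := by
    rw [Real.rpow_neg hNx0.le, Real.rpow_add hNx0, Real.rpow_one]
  have hNxs : nm x ^ (-s) ≤ (nm x)⁻¹ := by
    have : nm x ^ (-s) ≤ nm x ^ (-(1 : ℝ)) :=
      Real.rpow_le_rpow_of_exponent_le hNx (by linarith)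
    rwa [Real.rpow_neg_one] at this
  have hNxs0 : 0 ≤ nm x ^ (-s) := Real.rpow_nonneg hNx0.le _
  rw [hkey]
  set u : K := r / x with hu_def
  have hxu : x * (1 + u) = x + r := by
    rw [hu_def]; field_simp
  set δ : ℝ := ρ * B / q with hδ_def
  have hδ0 : 0 ≤ δ := by positivity
  have hu : ∀ v : InfinitePlace K, v u ≤ δ := by
    intro v
    have hvx : 0 < v x := InfinitePlace.pos_iff.mpr hx
    rw [hu_def, map_div₀, hδ_def, div_le_div_iff₀ hvx hq0]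
    calc v r * q ≤ ρ * q := mul_le_mul_of_nonneg_right (hρv v) hq0.le
      _ ≤ ρ * (B * v x) := mul_le_mul_of_nonneg_left (hqv v) hρ0
      _ = ρ * B * v x := by ring
  by_cases hδ : δ ≤ 1 / 2
  · obtain ⟨hlo, hhi⟩ := nm_one_add_bounds (K := K) (u := u) (δ := δ) (by linarith) hu
    obtain ⟨hCt, ht4⟩ := lb_rpow_neg_sub_one_le n hδ0 hδ hlo hhi hs1 hs2
    have hNy' : nm (x + r) = nm x * nm (1 + u) := by rw [← hxu, nm_mul]
    have hpow : nm (x + r) ^ (-s) = nm x ^ (-s) * nm (1 + u) ^ (-s) := by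
      rw [hNy', Real.mul_rpow hNx0.le (nm_nonneg _)]
    have hl := hlip x u hx δ hδ hu
    rw [hxu] at hl
    have ht0 : 0 ≤ nm (1 + u) ^ (-s) := Real.rpow_nonneg (nm_nonneg _) _
    have h1 : |w (x + r) * nm (1 + u) ^ (-s) - w x| ≤ (4 ^ n * L + Cn) * δ := by
      have e : w (x + r) * nm (1 + u) ^ (-s) - w x =
          (w (x + r) - w x) * nm (1 + u) ^ (-s) + w x * (nm (1 + u) ^ (-s) - 1) := by ring
      rw [e]
      refine (abs_add_le _ _).trans ?_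
      rw [abs_mul, abs_mul, abs_of_nonneg ht0, abs_of_nonneg (hw0 x)]
      have a1 : |w (x + r) - w x| * nm (1 + u) ^ (-s) ≤ (L * δ) * 4 ^ n :=
        mul_le_mul hl ht4 ht0 (by positivity)
      have a2 : w x * |nm (1 + u) ^ (-s) - 1| ≤ 1 * (Cn * δ) :=
        mul_le_mul (hw1 x) hCt (abs_nonneg _) zero_le_one
      nlinarith
    have e2 : w (x + r) * nm (x + r) ^ (-s) - w x * nm x ^ (-s) =
        nm x ^ (-s) * (w (x + r) * nm (1 + u) ^ (-s) - w x) := by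
      rw [hpow]; ring
    rw [e2, abs_mul, abs_of_nonneg hNxs0]
    have h3 : nm x ^ (-s) * |w (x + r) * nm (1 + u) ^ (-s) - w x| ≤
        (nm x)⁻¹ * ((4 ^ n * L + Cn) * δ) :=
      mul_le_mul hNxs h1 (abs_nonneg _) (by positivity)
    have h4 : (nm x)⁻¹ * ((4 ^ n * L + Cn) * δ) =
        ((4 ^ n * L + Cn) * (ρ * B)) * (nm x * q)⁻¹ := by
      rw [hδ_def, mul_inv]; field_simp
    have h5 : 0 ≤ 2 * (2 * (ρ * B) + 1) ^ (n + 1) * (nm x * q)⁻¹ := by positivity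
    rw [add_mul]
    linarith
  · rw [not_le] at hδ
    have hq2 : q < 2 * (ρ * B) + 1 := by
      rw [hδ_def, lt_div_iff₀ hq0] at hδ
      linarith
    have hlhs : |w (x + r) * nm (x + r) ^ (-s) - w x * nm x ^ (-s)| ≤ 2 := by
      have hNy0 : 0 < nm (x + r) := lt_of_lt_of_le one_pos hNy
      have b1 : nm (x + r) ^ (-s) ≤ 1 := Real.rpow_le_one_of_one_le_of_nonpos hNy (by linarith)
      have b2 : nm x ^ (-s) ≤ 1 := Real.rpow_le_one_of_one_le_of_nonpos hNx (by linarith)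
      have b3 : 0 ≤ nm (x + r) ^ (-s) := Real.rpow_nonneg hNy0.le _
      have c1 : 0 ≤ w (x + r) * nm (x + r) ^ (-s) := mul_nonneg (hw0 _) b3
      have c2 : w (x + r) * nm (x + r) ^ (-s) ≤ 1 :=
        (mul_le_mul (hw1 _) b1 b3 zero_le_one).trans (by norm_num)
      have c3 : 0 ≤ w x * nm x ^ (-s) := mul_nonneg (hw0 _) hNxs0
      have c4 : w x * nm x ^ (-s) ≤ 1 :=
        (mul_le_mul (hw1 _) b2 hNxs0 zero_le_one).trans (by norm_num)
      rw [abs_le]; constructor <;> linarith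
    have hbig : 1 ≤ (2 * (ρ * B) + 1) ^ (n + 1) * (nm x * q)⁻¹ := by
      have e3 : nm x * q = q ^ (n + 1) := by rw [pow_succ, hqn]
      rw [e3, ← div_eq_mul_inv, le_div_iff₀ (by positivity), one_mul]
      exact pow_le_pow_left₀ hq0.le hq2.le _
    have h6 : 0 ≤ (4 ^ n * L + Cn) * (ρ * B) * (nm x * q)⁻¹ := by positivity
    rw [add_mul]
    nlinarith

end Norm

end Fermat.Agent.S14
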