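import Mathlib

/-!
# S14, piece N4c (E): from per-class bounds to the bound for the `L`-series of a character

`lBounded_of_classDiff`: if the partial zeta functions of the ideal classes differ from the one of
the trivial class by bounded functions on `(1, 2]`, then the `L`-series of every nontrivial class
group character is bounded on `(1, 2]`.
-/

set_option autoImplicit false
set_option linter.style.haveILetI false

open NumberField

namespace Fermat.Agent.S14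

/-- A class group character has values of norm one. -/
theorem lb_norm_char (K : Type) [Field K] [NumberField K]
    (χ : ClassGroup (𝓞 K) →* ℂˣ) (c : ClassGroup (𝓞 K)) : ‖((χ c : ℂˣ) : ℂ)‖ = 1 := by
  have h1 : (χ c) ^ Fintype.card (ClassGroup (𝓞 K)) = 1 := by
    rw [← map_pow, pow_card_eq_one, map_one]
  have h2 : ((χ c : ℂˣ) : ℂ) ^ Fintype.card (ClassGroup (𝓞 K)) = 1 := by
    have := congrArg (fun u : ℂˣ => (u : ℂ)) h1
    simpa using this
  exact Complex.norm_eq_one_of_pow_eq_one h2 Fintype.card_ne_zero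

/-- The sum of the values of a nontrivial class group character vanishes. -/
theorem lb_sum_char (K : Type) [Field K] [NumberField K]
    (χ : ClassGroup (𝓞 K) →* ℂˣ) (hχ : χ ≠ 1) :
    ∑ c : ClassGroup (𝓞 K), ((χ c : ℂˣ) : ℂ) = 0 := by
  have h1 : (Units.coeHom ℂ).comp χ ≠ 1 := by
    intro h
    apply hχ
    ext c
    have := DFunLike.congr_fun h c
    simpa using this
  have := sum_hom_units_eq_zero ((Units.coeHom ℂ).comp χ) h1
  simpa using this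

/-- The `L`-series of a class group character as a finite combination of the partial zeta
functions. -/
theorem lb_lseries_eq (K : Type) [Field K] [NumberField K]
    (χ : ClassGroup (𝓞 K) →* ℂˣ) (s : ℝ)
    (hsum : Summable (fun I : nonZeroDivisors (Ideal (𝓞 K)) =>
      ((Ideal.absNorm (I : Ideal (𝓞 K)) : ℝ) ^ (-s)))) :
    ∑' I : nonZeroDivisors (Ideal (𝓞 K)),
        ((χ (ClassGroup.mk0 I) : ℂˣ) : ℂ) *
          ((Ideal.absNorm (I : Ideal (𝓞 K)) : ℝ) ^ (-s) : ℝ) =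
      ∑ c : ClassGroup (𝓞 K), ((χ c : ℂˣ) : ℂ) *
        ((∑' I : {I : nonZeroDivisors (Ideal (𝓞 K)) // ClassGroup.mk0 I = c},
          (Ideal.absNorm ((I : nonZeroDivisors (Ideal (𝓞 K))) : Ideal (𝓞 K)) : ℝ) ^ (-s) : ℝ) : ℂ) := by
  set f : nonZeroDivisors (Ideal (𝓞 K)) → ℂ := fun I =>
    ((χ (ClassGroup.mk0 I) : ℂˣ) : ℂ) * ((Ideal.absNorm (I : Ideal (𝓞 K)) : ℝ) ^ (-s) : ℝ) with hf
  have hfs : Summable f := by
    refine Summable.of_norm_bounded hsum fun I => ?_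
    simp only [hf, norm_mul, lb_norm_char, one_mul, Complex.norm_real, Real.norm_eq_abs]
    rw [abs_of_nonneg (Real.rpow_nonneg (Nat.cast_nonneg _) _)]
  have h1 := hfs.hasSum.tsum_fiberwise (fun I : nonZeroDivisors (Ideal (𝓞 K)) => ClassGroup.mk0 I)
  rw [← h1.tsum_eq, tsum_fintype]
  refine Finset.sum_congr rfl fun c _ => ?_
  have h2 : ∀ I : {I : nonZeroDivisors (Ideal (𝓞 K)) // ClassGroup.mk0 I = c},
      f I = ((χ c : ℂˣ) : ℂ) *
        (((Ideal.absNorm ((I : nonZeroDivisors (Ideal (𝓞 K))) : Ideal (𝓞 K)) : ℝ) ^ (-s) : ℝ) : ℂ) := by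
    intro I
    simp only [hf, I.2]
  have h3 : (∑' I : {I : nonZeroDivisors (Ideal (𝓞 K)) // ClassGroup.mk0 I = c}, f I) =
      ∑' I : {I : nonZeroDivisors (Ideal (𝓞 K)) // ClassGroup.mk0 I = c}, ((χ c : ℂˣ) : ℂ) *
        (((Ideal.absNorm ((I : nonZeroDivisors (Ideal (𝓞 K))) : Ideal (𝓞 K)) : ℝ) ^ (-s) : ℝ) : ℂ) :=
    tsum_congr h2
  have h4 : (∑' I : ((fun I : nonZeroDivisors (Ideal (𝓞 K)) => ClassGroup.mk0 I) ⁻¹' {c}), f I) =
      ∑' I : {I : nonZeroDivisors (Ideal (𝓞 K)) // ClassGroup.mk0 I = c}, f I := rfl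
  rw [h4, h3, tsum_mul_left, Complex.ofReal_tsum]

theorem lBounded_of_classDiff (K : Type) [Field K] [NumberField K]
    (hsum : ∀ s : ℝ, 1 < s → Summable (fun I : nonZeroDivisors (Ideal (𝓞 K)) =>
      ((Ideal.absNorm (I : Ideal (𝓞 K)) : ℝ) ^ (-s))))
    (hdiff : ∀ c : ClassGroup (𝓞 K), ∃ C : ℝ, ∀ s : ℝ, 1 < s → s ≤ 2 →
      |(∑' I : {I : nonZeroDivisors (Ideal (𝓞 K)) // ClassGroup.mk0 I = c},
          (Ideal.absNorm ((I : nonZeroDivisors (Ideal (𝓞 K))) : Ideal (𝓞 K)) : ℝ) ^ (-s))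
        - ∑' I : {I : nonZeroDivisors (Ideal (𝓞 K)) // ClassGroup.mk0 I = 1},
          (Ideal.absNorm ((I : nonZeroDivisors (Ideal (𝓞 K))) : Ideal (𝓞 K)) : ℝ) ^ (-s)| ≤ C)
    (χ : ClassGroup (𝓞 K) →* ℂˣ) (hχ : χ ≠ 1) :
    ∃ C : ℝ, ∀ s : ℝ, 1 < s → s ≤ 2 →
      ‖∑' I : nonZeroDivisors (Ideal (𝓞 K)),
        ((χ (ClassGroup.mk0 I) : ℂˣ) : ℂ) *
          ((Ideal.absNorm (I : Ideal (𝓞 K)) : ℝ) ^ (-s) : ℝ)‖ ≤ C := by
  choose C hC using hdiff
  refine ⟨∑ c : ClassGroup (𝓞 K), C c, fun s hs hs2 => ?_⟩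
  rw [lb_lseries_eq K χ s (hsum s hs)]
  set Z : ClassGroup (𝓞 K) → ℝ := fun c =>
    ∑' I : {I : nonZeroDivisors (Ideal (𝓞 K)) // ClassGroup.mk0 I = c},
      (Ideal.absNorm ((I : nonZeroDivisors (Ideal (𝓞 K))) : Ideal (𝓞 K)) : ℝ) ^ (-s) with hZ
  have h1 : ∑ c : ClassGroup (𝓞 K), ((χ c : ℂˣ) : ℂ) * ((Z c : ℝ) : ℂ) =
      ∑ c : ClassGroup (𝓞 K), ((χ c : ℂˣ) : ℂ) * (((Z c - Z 1 : ℝ)) : ℂ) := by
    have h2 : ∑ c : ClassGroup (𝓞 K), ((χ c : ℂˣ) : ℂ) * (((Z c - Z 1 : ℝ)) : ℂ) =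
        ∑ c : ClassGroup (𝓞 K), ((χ c : ℂˣ) : ℂ) * ((Z c : ℝ) : ℂ) -
          (∑ c : ClassGroup (𝓞 K), ((χ c : ℂˣ) : ℂ)) * ((Z 1 : ℝ) : ℂ) := by
      rw [Finset.sum_mul, ← Finset.sum_sub_distrib]
      refine Finset.sum_congr rfl fun c _ => ?_
      push_cast
      ring
    rw [h2, lb_sum_char K χ hχ, zero_mul, sub_zero]
  rw [h1]
  refine (norm_sum_le _ _).trans (Finset.sum_le_sum fun c _ => ?_)
  rw [norm_mul, lb_norm_char, one_mul, Complex.norm_real, Real.norm_eq_abs]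
  exact hC c s hs hs2

end Fermat.Agent.S14
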