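/-
S14, piece N4c (helper87): multiplicative shift estimate for `|N x|^(-s)`.

* `abs_exp_sub_one_le_mul_exp`: `|exp y - 1| ≤ |y| * exp |y|`;
* `abs_log_abs_norm_one_add_le`: if `v u ≤ δ ≤ 1/2` for all infinite places `v`, then
  `|log |N (1 + u)|| ≤ 2 n δ`;
* `norm_shift`: `||N (x (1 + u))|^(-s) - |N x|^(-s)| ≤ 4 n e^(2n) δ |N x|^(-s)` for `1 ≤ s ≤ 2`.
-/
import Mathlib

set_option autoImplicit false

open NumberField NumberField.InfinitePlace Module

namespace Fermat.Agent.S14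

theorem abs_exp_sub_one_le_mul_exp (y : ℝ) : |Real.exp y - 1| ≤ |y| * Real.exp |y| := by
  rcases le_total 0 y with h | h
  · rw [abs_of_nonneg h, abs_of_nonneg (by linarith [Real.add_one_le_exp y])]
    have h1 := Real.add_one_le_exp (-y)
    have h2 : Real.exp (-y) * Real.exp y = 1 := by rw [← Real.exp_add]; simp
    have h3 : 0 < Real.exp y := Real.exp_pos y
    nlinarith
  · rw [abs_of_nonpos h, abs_of_nonpos (by
      have : Real.exp y ≤ 1 := by rw [← Real.exp_zero]; exact Real.exp_le_exp.2 h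
      linarith)]
    have h1 := Real.add_one_le_exp y
    have h2 : 1 ≤ Real.exp (-y) := by
      rw [← Real.exp_zero]; exact Real.exp_le_exp.2 (by linarith)
    nlinarith

theorem ns_abs_log_le {t δ : ℝ} (hδ : δ ≤ 1 / 2) (ht : |t - 1| ≤ δ) :
    |Real.log t| ≤ 2 * δ := by
  have hδ0 : 0 ≤ δ := (abs_nonneg _).trans ht
  rw [abs_le] at ht
  have htpos : 0 < t := by linarith
  rw [abs_le]
  constructor
  · have h1 := Real.one_sub_inv_le_log_of_pos htpos
    have h3 : t⁻¹ ≤ 1 + 2 * δ := by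
      have hd : (0 : ℝ) < 1 - δ := by linarith
      have h4 : t⁻¹ ≤ (1 - δ)⁻¹ := inv_anti₀ hd (by linarith)
      have h5 : (1 - δ)⁻¹ ≤ 1 + 2 * δ := by
        rw [inv_le_iff_one_le_mul₀ hd]
        nlinarith
      exact h4.trans h5
    linarith
  · have h1 := Real.log_le_sub_one_of_pos htpos
    linarith

variable (K : Type) [Field K] [NumberField K]

theorem ns_one_add_ne_zero {u : K} {δ : ℝ} (hδ : δ ≤ 1 / 2)
    (hu : ∀ v : InfinitePlace K, v u ≤ δ) : (1 : K) + u ≠ 0 := by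
  intro h0
  obtain ⟨v⟩ := (inferInstance : Nonempty (InfinitePlace K))
  have h1 : u = -1 := by linear_combination h0
  have h2 := hu v
  have h3 : v (-1 : K) = 1 := by
    show v.1 (-1) = 1
    rw [v.1.map_neg, v.1.map_one]
  rw [h1, h3] at h2
  linarith

omit [NumberField K] in
theorem ns_abs_place_sub_one_le {u : K} {δ : ℝ} (hu : ∀ v : InfinitePlace K, v u ≤ δ)
    (v : InfinitePlace K) : |v (1 + u) - 1| ≤ δ := by
  have := v.1.abs_abv_sub_le_abv_sub (1 + u) 1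
  rw [add_sub_cancel_left] at this
  have h1 : v.1 1 = 1 := v.1.map_one
  rw [h1] at this
  exact this.trans (hu v)

/-- `|log |N (1 + u)|| ≤ 2 n δ` if `v u ≤ δ ≤ 1/2` at all infinite places. -/
theorem abs_log_abs_norm_one_add_le {u : K} {δ : ℝ} (hδ : δ ≤ 1 / 2)
    (hu : ∀ v : InfinitePlace K, v u ≤ δ) :
    |Real.log (|(Algebra.norm ℚ (1 + u) : ℝ)|)| ≤ 2 * (finrank ℚ K : ℝ) * δ := by
  have hne := ns_one_add_ne_zero K hδ hu
  have hprod : |(Algebra.norm ℚ (1 + u) : ℝ)| = ∏ v : InfinitePlace K, v (1 + u) ^ mult v := by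
    rw [prod_eq_abs_norm, Rat.cast_abs]
  have hsum : ∑ w : InfinitePlace K, (mult w : ℝ) = (finrank ℚ K : ℝ) := by
    exact_mod_cast (sum_mult_eq (K := K))
  rw [hprod, Real.log_prod]
  · calc |∑ v : InfinitePlace K, Real.log (v (1 + u) ^ mult v)|
        ≤ ∑ v : InfinitePlace K, |Real.log (v (1 + u) ^ mult v)| := Finset.abs_sum_le_sum_abs _ _
      _ ≤ ∑ v : InfinitePlace K, (mult v : ℝ) * (2 * δ) := by
          refine Finset.sum_le_sum fun v _ => ?_
          rw [Real.log_pow, abs_mul,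
            abs_of_nonneg (Nat.cast_nonneg (mult v) : (0 : ℝ) ≤ (mult v : ℝ))]
          exact mul_le_mul_of_nonneg_left
            (ns_abs_log_le hδ (ns_abs_place_sub_one_le K hu v)) (Nat.cast_nonneg _)
      _ = 2 * (finrank ℚ K : ℝ) * δ := by
          rw [← Finset.sum_mul, hsum]
          ring
  · intro v _
    exact pow_ne_zero _ ((map_ne_zero v).2 hne)

/-- The constant in `norm_shift`. -/
noncomputable def normShiftConst : ℝ :=
  4 * (finrank ℚ K : ℝ) * Real.exp (2 * (finrank ℚ K : ℝ))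

theorem normShiftConst_nonneg : 0 ≤ normShiftConst K := by
  unfold normShiftConst
  positivity

/-- **(S1)** multiplicative shift estimate for `|N x|^(-s)`, uniform in `s ∈ [1, 2]`. -/
theorem norm_shift (x u : K) (hx : x ≠ 0) (δ : ℝ) (hδ : δ ≤ 1 / 2)
    (hu : ∀ v : InfinitePlace K, v u ≤ δ) (s : ℝ) (hs0 : 0 ≤ s) (hs2 : s ≤ 2) :
    |(|(Algebra.norm ℚ (x * (1 + u)) : ℝ)| ^ (-s) - |(Algebra.norm ℚ x : ℝ)| ^ (-s))|
      ≤ normShiftConst K * δ * |(Algebra.norm ℚ x : ℝ)| ^ (-s) := by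
  obtain ⟨v₀⟩ := (inferInstance : Nonempty (InfinitePlace K))
  have hδ0 : 0 ≤ δ := (apply_nonneg v₀ u).trans (hu v₀)
  have hn : (0 : ℝ) ≤ (finrank ℚ K : ℝ) := Nat.cast_nonneg _
  have hne := ns_one_add_ne_zero K hδ hu
  have hNx : (0 : ℝ) < |(Algebra.norm ℚ x : ℝ)| :=
    abs_pos.2 (by exact_mod_cast (Algebra.norm_ne_zero_iff).2 hx)
  have hP : (0 : ℝ) < |(Algebra.norm ℚ (1 + u) : ℝ)| :=
    abs_pos.2 (by exact_mod_cast (Algebra.norm_ne_zero_iff).2 hne)
  have hL := abs_log_abs_norm_one_add_le K hδ hu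
  set L : ℝ := Real.log |(Algebra.norm ℚ (1 + u) : ℝ)| with hLdef
  have hmul : |(Algebra.norm ℚ (x * (1 + u)) : ℝ)| ^ (-s)
      = |(Algebra.norm ℚ x : ℝ)| ^ (-s) * Real.exp (-s * L) := by
    rw [map_mul, Rat.cast_mul, abs_mul, Real.mul_rpow hNx.le hP.le,
      Real.rpow_def_of_pos hP, mul_comm L]
  have hy : |(-s * L)| ≤ 4 * (finrank ℚ K : ℝ) * δ := by
    rw [abs_mul, abs_neg, abs_of_nonneg hs0]
    calc s * |L| ≤ 2 * (2 * (finrank ℚ K : ℝ) * δ) :=
          mul_le_mul hs2 hL (abs_nonneg _) (by norm_num)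
      _ = 4 * (finrank ℚ K : ℝ) * δ := by ring
  have hy2 : |(-s * L)| ≤ 2 * (finrank ℚ K : ℝ) := by
    refine hy.trans ?_
    nlinarith
  have hexp : |Real.exp (-s * L) - 1|
      ≤ (4 * (finrank ℚ K : ℝ) * δ) * Real.exp (2 * (finrank ℚ K : ℝ)) :=
    (abs_exp_sub_one_le_mul_exp _).trans
      (mul_le_mul hy (Real.exp_le_exp.2 hy2) (Real.exp_pos _).le (by positivity))
  have hpos : (0 : ℝ) ≤ |(Algebra.norm ℚ x : ℝ)| ^ (-s) := Real.rpow_nonneg hNx.le _
  rw [hmul]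
  calc |(|(Algebra.norm ℚ x : ℝ)| ^ (-s) * Real.exp (-s * L) - |(Algebra.norm ℚ x : ℝ)| ^ (-s))|
      = |(Algebra.norm ℚ x : ℝ)| ^ (-s) * |Real.exp (-s * L) - 1| := by
        rw [← mul_sub_one, abs_mul, abs_of_nonneg hpos]
    _ ≤ |(Algebra.norm ℚ x : ℝ)| ^ (-s)
          * ((4 * (finrank ℚ K : ℝ) * δ) * Real.exp (2 * (finrank ℚ K : ℝ))) :=
        mul_le_mul_of_nonneg_left hexp hpos
    _ = normShiftConst K * δ * |(Algebra.norm ℚ x : ℝ)| ^ (-s) := by
        unfold normShiftConst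
        ring

end Fermat.Agent.S14
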