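import Fermat.Agent.S14.Plan
import Fermat.Prelude.Def_ExtCitation_KummerBridge

/-!
# S14, piece G1: the split case

If every `τ` with trivial mod-`p` cyclotomic character acts trivially on `V`, then the extension
splits globally: either the cyclotomic character is trivial on the whole Galois group (then the
action is trivial and any complement works), or there is `σ₀` with `g = ω(σ₀) ≠ 1` and
`ker (σ₀ - g)` is a Galois-stable complement of `C`.
-/

set_option autoImplicit false

namespace Fermat.Agent.S14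

open ExtCitation

local notation "Γℚ" => (AlgebraicClosure ℚ ≃ₐ[ℚ] AlgebraicClosure ℚ)

/-- The cyclotomic exponent of a commutator is `1` in `ZMod p`. -/
theorem split_cycloExp_comm {p : ℕ} [Fact p.Prime] (σ τ : Γℚ) :
    (cycloExp p (σ * τ * σ⁻¹ * τ⁻¹) : ZMod p) = 1 := by
  rw [← coe_cycloChar]
  have h : cycloChar p (σ * τ * σ⁻¹ * τ⁻¹) = 1 := by
    rw [map_mul, map_mul, map_mul, map_inv, map_inv]
    rw [mul_comm (cycloChar p σ) (cycloChar p τ), mul_assoc (cycloChar p τ), mul_inv_cancel,
      mul_one, mul_inv_cancel]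
  rw [h]; rfl

/-- If elements with trivial cyclotomic character act trivially, the action is commutative. -/
theorem split_smul_comm {p : ℕ} [Fact p.Prime] {V : Type} [AddCommGroup V]
    [DistribMulAction Γℚ V]
    (htriv : ∀ τ : Γℚ, (cycloExp p τ : ZMod p) = 1 → ∀ x : V, τ • x = x)
    (σ τ : Γℚ) (x : V) : σ • τ • x = τ • σ • x := by
  have h := htriv (σ * τ * σ⁻¹ * τ⁻¹) (split_cycloExp_comm σ τ) (τ • σ • x)
  rw [← h]
  simp only [← mul_smul]
  congr 1
  group

section

variable {p : ℕ} [Fact p.Prime]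
variable {V : Type} [AddCommGroup V] [Module (ZMod p) V]
  [DistribMulAction Γℚ V] [SMulCommClass Γℚ (ZMod p) V]

/-- The eigenspace `ker (σ₀ - g)` as a submodule. -/
def splitEigen (σ₀ : Γℚ) (g : ZMod p) : Submodule (ZMod p) V where
  carrier := {x | σ₀ • x = g • x}
  add_mem' := by
    intro a b ha hb
    change σ₀ • a = g • a at ha
    change σ₀ • b = g • b at hb
    change σ₀ • (a + b) = g • (a + b)
    rw [smul_add, smul_add, ha, hb]
  zero_mem' := by
    change σ₀ • (0 : V) = g • (0 : V)
    rw [smul_zero, smul_zero]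
  smul_mem' := by
    intro c x hx
    change σ₀ • x = g • x at hx
    change σ₀ • c • x = g • c • x
    rw [smul_comm σ₀ c x, hx, smul_comm]

theorem mem_splitEigen (σ₀ : Γℚ) (g : ZMod p) (x : V) :
    x ∈ splitEigen (V := V) σ₀ g ↔ σ₀ • x = g • x := Iff.rfl

omit [SMulCommClass Γℚ (ZMod p) V] in
/-- Decomposition of a vector along `C` and the eigenspace. -/
theorem split_decomp (σ₀ : Γℚ) (g : ZMod p) (hg1 : (1 : ZMod p) - g ≠ 0)
    (x c : V) (hc : c = ((1 : ZMod p) - g)⁻¹ • (σ₀ • x - g • x)) (hfix : σ₀ • c = c) :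
    σ₀ • (x - c) = g • (x - c) := by
  have h3 : ((1 : ZMod p) - g) • c = σ₀ • x - g • x := by
    rw [hc, smul_smul, mul_inv_cancel₀ hg1, one_smul]
  rw [sub_smul, one_smul] at h3
  rw [smul_sub, hfix, smul_sub]
  rw [sub_eq_sub_iff_add_eq_add] at h3 ⊢
  rw [add_comm (g • x) c, h3, add_comm]

end

/-- **G1** (split case). -/
theorem splitStatement {p : ℕ} [Fact p.Prime] : SplitStatement p := by
  intro V _ _ _ _ C hadm htriv
  by_cases hall : ∀ σ : Γℚ, (cycloExp p σ : ZMod p) = 1
  · -- trivial action: any complement is stable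
    obtain ⟨C', hC'⟩ := Submodule.exists_isCompl C
    refine ⟨C', ?_, hC'⟩
    intro σ x hx
    rw [htriv σ (hall σ) x]
    exact hx
  · obtain ⟨σ₀, hσ₀⟩ := not_forall.mp hall
    have hg1 : (1 : ZMod p) - (cycloExp p σ₀ : ZMod p) ≠ 0 := by
      intro h
      apply hσ₀
      rw [sub_eq_zero] at h
      exact h.symm
    refine ⟨splitEigen σ₀ (cycloExp p σ₀ : ZMod p), ?_, ?_⟩
    · intro σ x hx
      rw [mem_splitEigen] at hx ⊢
      rw [split_smul_comm htriv σ₀ σ x, hx, smul_comm]
    · refine ⟨?_, ?_⟩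
      · -- disjoint
        rw [Submodule.disjoint_def]
        intro x hxC hxE
        rw [mem_splitEigen] at hxE
        have hfix := hadm.fixed_sub σ₀ x hxC
        rw [hfix] at hxE
        have h2 : ((1 : ZMod p) - (cycloExp p σ₀ : ZMod p)) • x = 0 := by
          rw [sub_smul, one_smul, ← hxE, sub_self]
        rcases smul_eq_zero.mp h2 with h | h
        · exact absurd h hg1
        · exact h
      · -- codisjoint
        rw [codisjoint_iff, eq_top_iff]
        intro x _
        have hy : σ₀ • x - (cycloExp p σ₀ : ZMod p) • x ∈ C := hadm.cyclo_quot σ₀ x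
        have hc : ((1 : ZMod p) - (cycloExp p σ₀ : ZMod p))⁻¹ •
            (σ₀ • x - (cycloExp p σ₀ : ZMod p) • x) ∈ C := C.smul_mem _ hy
        have hfix := hadm.fixed_sub σ₀ _ hc
        have hc' := split_decomp σ₀ (cycloExp p σ₀ : ZMod p) hg1 x _ rfl hfix
        rw [← mem_splitEigen] at hc'
        have hx : x = ((1 : ZMod p) - (cycloExp p σ₀ : ZMod p))⁻¹ •
            (σ₀ • x - (cycloExp p σ₀ : ZMod p) • x) +
            (x - ((1 : ZMod p) - (cycloExp p σ₀ : ZMod p))⁻¹ •
            (σ₀ • x - (cycloExp p σ₀ : ZMod p) • x)) := by abel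
        rw [hx]
        exact Submodule.add_mem_sup hc hc'

end Fermat.Agent.S14
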