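import Mathlib
import Fermat.Agent.S14.Plan

/-!
# S14 / N4b, part 1 — splitting of degree one primes in a Kummer extension of prime degree

Abstract form: `M/K` Galois of prime degree `p`, `a ∈ 𝓞 M` with `a^p = ε` a unit of `𝓞 K`,
`σ ∈ Gal(M/K)` with `σ a = ζ a`. If `v` is a prime of `K` not containing `p` such that `ε` is a
`p`-th power modulo `v`, then there are exactly `p` primes of `M` above `v`, all of norm `N v`.
-/

set_option autoImplicit false

open NumberField IsDedekindDomain Ideal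
open scoped Pointwise

namespace Fermat.Agent.S14

section SplitAbstract

variable {p : ℕ} [hp : Fact p.Prime]
variable {K M : Type} [Field K] [NumberField K] [Field M] [NumberField M] [Algebra K M]
  [IsGalois K M]

/-- If `1 - ζ ∈ v` for a primitive `p`-th root of unity `ζ`, then `p ∈ v`. -/
theorem natCast_mem_of_one_sub_zeta_mem {R : Type*} [CommRing R] [IsDomain R] {ζ : R}
    (hζ : IsPrimitiveRoot ζ p) (v : Ideal R) (h : 1 - ζ ∈ v) : (p : R) ∈ v := by
  have h1 : Ideal.Quotient.mk v ζ = 1 := by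
    have : Ideal.Quotient.mk v (1 - ζ) = 0 := Ideal.Quotient.eq_zero_iff_mem.mpr h
    rw [map_sub, map_one, sub_eq_zero] at this
    exact this.symm
  have h2 : ∑ i ∈ Finset.range p, ζ ^ i = 0 := hζ.geom_sum_eq_zero hp.out.one_lt
  have h3 := congrArg (Ideal.Quotient.mk v) h2
  rw [map_sum, map_zero] at h3
  simp only [map_pow, h1, one_pow, Finset.sum_const, Finset.card_range, nsmul_eq_mul,
    mul_one] at h3
  rw [← map_natCast (Ideal.Quotient.mk v)] at h3
  exact Ideal.Quotient.eq_zero_iff_mem.mp h3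

theorem primesOver_split (hfin : Module.finrank K M = p)
    (ζ : 𝓞 K) (hζ : IsPrimitiveRoot ζ p) (ε : 𝓞 K) (hε : IsUnit ε)
    (a : 𝓞 M) (ha : a ^ p = algebraMap (𝓞 K) (𝓞 M) ε)
    (σ : Gal(M/K)) (hσ : σ • a = algebraMap (𝓞 K) (𝓞 M) ζ * a)
    (v : Ideal (𝓞 K)) [hv : v.IsMaximal] (hv0 : v ≠ ⊥) (hvp : (p : 𝓞 K) ∉ v)
    (y : 𝓞 K) (hy : ε - y ^ p ∈ v) :
    (primesOver v (𝓞 M)).ncard = p ∧ ∀ P ∈ primesOver v (𝓞 M), absNorm P = absNorm v := by
  classical
  have hinj : Function.Injective (algebraMap (𝓞 K) (𝓞 M)) :=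
    FaithfulSMul.algebraMap_injective (𝓞 K) (𝓞 M)
  set ζ' : 𝓞 M := algebraMap (𝓞 K) (𝓞 M) ζ with hζ'def
  set y' : 𝓞 M := algebraMap (𝓞 K) (𝓞 M) y with hy'def
  have hζ' : IsPrimitiveRoot ζ' p := hζ.map_of_injective hinj
  have hσK : ∀ x : 𝓞 K, σ • (algebraMap (𝓞 K) (𝓞 M) x) = algebraMap (𝓞 K) (𝓞 M) x :=
    fun x => smul_algebraMap σ x
  -- pick a prime above `v`
  obtain ⟨⟨P, hPprime, hPover⟩⟩ : Nonempty (primesOver v (𝓞 M)) := inferInstance
  have hunder : ∀ x : 𝓞 K, algebraMap (𝓞 K) (𝓞 M) x ∈ P ↔ x ∈ v := by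
    intro x
    rw [hPover.over]
    rfl
  -- some factor of `a^p - y^p` lies in `P`
  have hprod : ∏ η ∈ Polynomial.nthRootsFinset p (1 : 𝓞 M), (a - η * y') ∈ P := by
    rw [← hζ'.pow_sub_pow_eq_prod_sub_mul a y' hp.out.pos, ha, hy'def, ← map_pow, ← map_sub]
    exact (hunder _).mpr hy
  obtain ⟨η, hη, hηP⟩ := (hPprime.prod_mem_iff).mp hprod
  have hηpow : η ^ p = 1 := (Polynomial.mem_nthRootsFinset hp.out.pos 1).mp hη
  obtain ⟨i, -, hi⟩ := hζ'.eq_pow_of_pow_eq_one hηpow
  have hση : σ • η = η := by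
    rw [← hi, smul_pow', hζ'def, hσK]
  -- `σ • P ≠ P`
  have hne : σ • P ≠ P := by
    intro h
    have h1 : σ • (a - η * y') ∈ P := by
      have := Ideal.smul_mem_pointwise_smul σ _ P hηP
      rwa [h] at this
    rw [smul_sub, smul_mul', hσ, hση, hy'def, hσK] at h1
    have h2 : ζ' * (a - η * y') ∈ P := P.mul_mem_left _ hηP
    have h3 : η * y' * (1 - ζ') ∈ P := by
      have := P.sub_mem h1 h2
      have e : ζ' * a - η * y' - ζ' * (a - η * y') = -(η * y' * (1 - ζ')) := by ring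
      rw [← hy'def, e] at this
      exact neg_mem_iff.mp this
    rcases hPprime.mem_or_mem h3 with h4 | h4
    · rcases hPprime.mem_or_mem h4 with h5 | h5
      · -- `η` is a unit
        have : (1 : 𝓞 M) ∈ P := by
          rw [← hηpow]
          exact P.pow_mem_of_mem h5 p hp.out.pos
        exact hPprime.ne_top ((Ideal.eq_top_iff_one P).mpr this)
      · -- `y ∈ v`, hence `ε ∈ v`
        have hyv : y ∈ v := (hunder y).mp h5
        have hεv : ε ∈ v := by
          have := v.add_mem hy (v.pow_mem_of_mem hyv p hp.out.pos)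
          simpa using this
        exact hv.ne_top (Ideal.eq_top_of_isUnit_mem v hεv hε)
    · -- `1 - ζ ∈ v`, hence `p ∈ v`
      have : 1 - ζ ∈ v := by
        rw [← hunder, map_sub, map_one]
        exact h4
      exact hvp (natCast_mem_of_one_sub_zeta_mem hζ v this)
  -- the fundamental identity
  have hfund := ncard_primesOver_mul_ramificationIdxIn_mul_inertiaDegIn v (𝓞 M) Gal(M/K)
  rw [IsGalois.card_aut_eq_finrank, hfin] at hfund
  have hσP : σ • P ∈ primesOver v (𝓞 M) := by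
    rw [← Algebra.IsInvariant.orbit_eq_primesOver (𝓞 K) (𝓞 M) Gal(M/K) v P]
    exact MulAction.mem_orbit P σ
  have hPmem : P ∈ primesOver v (𝓞 M) := ⟨hPprime, hPover⟩
  have hfinite : (primesOver v (𝓞 M)).Finite := by
    by_contra hinf
    rw [Set.Infinite.ncard hinf, zero_mul] at hfund
    exact hp.out.ne_zero hfund.symm
  have hcard2 : 1 < (primesOver v (𝓞 M)).ncard :=
    (Set.one_lt_ncard_iff hfinite).mpr ⟨σ • P, P, hσP, hPmem, hne⟩
  have hdvd : (primesOver v (𝓞 M)).ncard ∣ p := Dvd.intro _ hfund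
  have hcard : (primesOver v (𝓞 M)).ncard = p := by
    rcases (Nat.dvd_prime hp.out).mp hdvd with h | h
    · omega
    · exact h
  have hef : ramificationIdxIn v (𝓞 M) * inertiaDegIn v (𝓞 M) = 1 := by
    rw [hcard] at hfund
    exact Nat.eq_of_mul_eq_mul_left hp.out.pos (by rw [hfund, mul_one])
  have hf : inertiaDegIn v (𝓞 M) = 1 := Nat.eq_one_of_mul_eq_one_left hef
  refine ⟨hcard, ?_⟩
  rintro Q ⟨hQprime, hQover⟩
  have hQ0 : Q ≠ ⊥ := by
    intro h0
    apply hv0
    rw [hQover.over, h0]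
    exact Ideal.under_bot _ _
  have hQmax : Q.IsMaximal := hQprime.isMaximal hQ0
  have h1 := absNorm_eq_pow_inertiaDeg'_of_liesOver Q v hv.isPrime hv0
  rw [inertiaDeg'_eq_inertiaDeg v Q, ← inertiaDegIn_eq_inertiaDeg v Q Gal(M/K), hf, pow_one] at h1
  exact h1

end SplitAbstract

end Fermat.Agent.S14
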