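import Mathlib
import Fermat.Agent.S14.SplitPrimes

/-!
# S14 / N4b, part 2 — the split bound from the Euler bound for the Dedekind zeta function

* `EulerBound M`: every finite partial Euler product of `ζ_M(s)` is `≤ C / (s - 1)` on `(1, 2]`.
* `exists_kummer_field`: the Kummer extension `M = K(ε^{1/p})`.
* `splitBound_of_eulerBound`: `(∀ M, EulerBound M) → SplitBoundStatement p`.
-/

set_option autoImplicit false

open NumberField IsDedekindDomain Ideal Polynomial
open scoped Pointwise KummerExtension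

namespace Fermat.Agent.S14

/-- Every finite partial Euler product of the Dedekind zeta function of `M` is bounded by
`C / (s - 1)` for `s ∈ (1, 2]`. -/
def EulerBound (M : Type) [Field M] [NumberField M] : Prop :=
  ∃ C : ℝ, ∀ s : ℝ, 1 < s → s ≤ 2 → ∀ T : Finset (Ideal (𝓞 M)), (∀ P ∈ T, P.IsPrime ∧ P ≠ ⊥) →
    ∏ P ∈ T, (1 - (Ideal.absNorm P : ℝ) ^ (-s))⁻¹ ≤ C / (s - 1)

/-- The Euler bound in terms of finsets of height one primes implies `EulerBound`. -/
theorem eulerBound_of_heightOne (M : Type) [Field M] [NumberField M]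
    (h : ∃ C : ℝ, ∀ s : ℝ, 1 < s → s ≤ 2 → ∀ T : Finset (HeightOneSpectrum (𝓞 M)),
      ∏ v ∈ T, (1 - (Ideal.absNorm v.asIdeal : ℝ) ^ (-s))⁻¹ ≤ C / (s - 1)) : EulerBound M := by
  classical
  obtain ⟨C, hC⟩ := h
  refine ⟨C, fun s hs1 hs2 T hT => ?_⟩
  let f : {P // P ∈ T} → HeightOneSpectrum (𝓞 M) := fun P =>
    ⟨P.1, (hT P.1 P.2).1, (hT P.1 P.2).2⟩
  have hf : Function.Injective f := by
    intro P Q hPQ
    apply Subtype.ext
    exact congrArg HeightOneSpectrum.asIdeal hPQ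
  have key : ∏ P ∈ T, (1 - (Ideal.absNorm P : ℝ) ^ (-s))⁻¹ =
      ∏ v ∈ T.attach.image f, (1 - (Ideal.absNorm v.asIdeal : ℝ) ^ (-s))⁻¹ := by
    rw [Finset.prod_image (fun P _ Q _ h => hf h)]
    exact (Finset.prod_attach T (fun P => (1 - (Ideal.absNorm P : ℝ) ^ (-s))⁻¹)).symm
  rw [key]
  exact hC s hs1 hs2 _

variable {p : ℕ} [hp : Fact p.Prime]

/-- The Kummer extension `K(ε^{1/p})` of a number field containing the `p`-th roots of unity. -/
theorem exists_kummer_field (K : Type) [Field K] [NumberField K]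
    (ζ : 𝓞 K) (hζ : IsPrimitiveRoot ζ p) (ε : 𝓞 K) (hnp : ¬ ∃ y : K, (ε : K) = y ^ p) :
    ∃ (M : Type) (_ : Field M) (_ : NumberField M) (_ : Algebra K M) (_ : IsGalois K M),
      Module.finrank K M = p ∧ ∃ (a : 𝓞 M) (σ : Gal(M/K)),
        a ^ p = algebraMap (𝓞 K) (𝓞 M) ε ∧ σ • a = algebraMap (𝓞 K) (𝓞 M) ζ * a := by
  have hirr : Irreducible (X ^ p - C (ε : K)) :=
    X_pow_sub_C_irreducible_of_prime hp.out (fun b hb => hnp ⟨b, hb.symm⟩)
  have : Fact (Irreducible (X ^ p - C (ε : K))) := ⟨hirr⟩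
  have hζK : IsPrimitiveRoot (ζ : K) p :=
    hζ.map_of_injective (FaithfulSMul.algebraMap_injective (𝓞 K) K)
  have hprim : (primitiveRoots p K).Nonempty :=
    ⟨(ζ : K), (mem_primitiveRoots hp.out.pos).mpr hζK⟩
  have : Module.Finite K K[p√(ε : K)] := (AdjoinRoot.powerBasis hirr.ne_zero).finite
  have : NumberField K[p√(ε : K)] := NumberField.of_module_finite K _
  have : IsSplittingField K K[p√(ε : K)] (X ^ p - C (ε : K)) :=
    isSplittingField_AdjoinRoot_X_pow_sub_C hprim hirr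
  have hgal : IsGalois K K[p√(ε : K)] := isGalois_of_isSplittingField_X_pow_sub_C hprim hirr _
  have hrank : Module.finrank K K[p√(ε : K)] = p :=
    finrank_of_isSplittingField_X_pow_sub_C hprim hirr _
  refine ⟨K[p√(ε : K)], inferInstance, inferInstance, inferInstance, hgal, hrank, ?_⟩
  -- the root, as an algebraic integer
  have hroot : (AdjoinRoot.root (X ^ p - C (ε : K))) ^ p = algebraMap K K[p√(ε : K)] (ε : K) :=
    root_X_pow_sub_C_pow p (ε : K)
  have hint : IsIntegral ℤ (AdjoinRoot.root (X ^ p - C (ε : K))) := by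
    refine IsIntegral.of_pow hp.out.pos ?_
    rw [hroot]
    exact (RingOfIntegers.isIntegral_coe ε).algebraMap
  -- the unit `ζ` as a root of unity
  have hζu : IsUnit (ζ : K) := hζK.isUnit hp.out.ne_zero
  let η : rootsOfUnity p K := ⟨hζu.unit, by
    rw [mem_rootsOfUnity]
    ext
    simp [hζK.pow_eq_one]⟩
  refine ⟨⟨_, hint⟩, autAdjoinRootXPowSubC p (ε : K) η, ?_, ?_⟩
  · apply RingOfIntegers.ext
    show (AdjoinRoot.root (X ^ p - C (ε : K))) ^ p = _
    rw [hroot]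
    rfl
  · apply RingOfIntegers.ext
    show (autAdjoinRootXPowSubC p (ε : K) η) (AdjoinRoot.root (X ^ p - C (ε : K))) = _
    rw [autAdjoinRootXPowSubC_root]
    show (ζ : K) • AdjoinRoot.root (X ^ p - C (ε : K)) = _
    rw [Algebra.smul_def]
    rfl


/-- A prime of degree one (in the sense of `IsDegOne`) does not contain `p`. -/
theorem natCast_notMem_of_isDegOne {K : Type} [Field K] [NumberField K]
    (v : HeightOneSpectrum (𝓞 K)) (hv : IsDegOne p v) : (p : 𝓞 K) ∉ v.asIdeal := by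
  intro hmem
  obtain ⟨hprime, hne⟩ := hv
  have h1 : ((Ideal.absNorm v.asIdeal : ℕ) : 𝓞 K) ∈ v.asIdeal := Ideal.absNorm_mem v.asIdeal
  have hcop : Nat.Coprime (Ideal.absNorm v.asIdeal) p :=
    (Nat.coprime_primes hprime hp.out).mpr hne
  have h2 : ((Nat.gcd (Ideal.absNorm v.asIdeal) p : ℕ) : 𝓞 K) ∈ v.asIdeal := by
    have hb := Nat.gcd_eq_gcd_ab (Ideal.absNorm v.asIdeal) p
    have : (((Nat.gcd (Ideal.absNorm v.asIdeal) p : ℕ) : ℤ) : 𝓞 K) ∈ v.asIdeal := by
      rw [hb]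
      push_cast
      exact v.asIdeal.add_mem (v.asIdeal.mul_mem_right _ h1) (v.asIdeal.mul_mem_right _ hmem)
    simpa using this
  rw [hcop, Nat.cast_one] at h2
  exact v.isPrime.ne_top ((Ideal.eq_top_iff_one _).mpr h2)

/-- `X ^ n ≤ Y` implies `X ≤ Y ^ (1 / n)` for nonnegative reals. -/
theorem le_rpow_inv_of_pow_le {X Y : ℝ} (hX : 0 ≤ X) {n : ℕ} (hn : n ≠ 0) (h : X ^ n ≤ Y) :
    X ≤ Y ^ ((n : ℝ)⁻¹) := by
  have h1 : X = (X ^ n) ^ ((n : ℝ)⁻¹) := (Real.pow_rpow_inv_natCast hX hn).symm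
  rw [h1]
  exact Real.rpow_le_rpow (pow_nonneg hX n) h (by positivity)

/-- **N4b from the Euler bound.** -/
theorem splitBound_of_eulerBound
    (hE : ∀ (M : Type) [Field M] [NumberField M], EulerBound M) : SplitBoundStatement p := by
  classical
  intro K _ _ hcyc ε hε hnp
  -- the primitive root of unity
  have : NeZero p := ⟨hp.out.ne_zero⟩
  have hζ0 := IsCyclotomicExtension.zeta_spec p ℚ K
  set ζ : 𝓞 K := hζ0.toInteger with hζdef
  have hζ : IsPrimitiveRoot ζ p := hζ0.toInteger_isPrimitiveRoot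
  obtain ⟨M, iF, iN, iA, iG, hrank, a, σ, ha, hσ⟩ := exists_kummer_field K ζ hζ ε hnp
  obtain ⟨C, hC⟩ := hE M
  refine ⟨|C| ^ ((p : ℝ)⁻¹), fun s hs1 hs2 F hF => ?_⟩
  have hs0 : 0 < s - 1 := by linarith
  -- the primes of `M` above the primes in `F`
  have hsplit : ∀ v ∈ F, (primesOver v.asIdeal (𝓞 M)).ncard = p ∧
      ∀ P ∈ primesOver v.asIdeal (𝓞 M), absNorm P = absNorm v.asIdeal := by
    intro v hv
    obtain ⟨hdeg, y, hy⟩ := hF v hv
    have : v.asIdeal.IsMaximal := v.isMaximal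
    exact primesOver_split hrank ζ hζ ε hε a ha σ hσ v.asIdeal v.ne_bot
      (natCast_notMem_of_isDegOne v hdeg) y hy
  have hfinite : ∀ v ∈ F, (primesOver v.asIdeal (𝓞 M)).Finite := by
    intro v hv
    by_contra hinf
    have := (hsplit v hv).1
    rw [Set.Infinite.ncard hinf] at this
    exact hp.out.ne_zero this.symm
  let Tv : HeightOneSpectrum (𝓞 K) → Finset (Ideal (𝓞 M)) := fun v =>
    if h : (primesOver v.asIdeal (𝓞 M)).Finite then h.toFinset else ∅
  have hTv : ∀ v ∈ F, ∀ P, P ∈ Tv v ↔ P ∈ primesOver v.asIdeal (𝓞 M) := by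
    intro v hv P
    simp only [Tv, dif_pos (hfinite v hv), Set.Finite.mem_toFinset]
  have hTvcard : ∀ v ∈ F, (Tv v).card = p := by
    intro v hv
    rw [← (hsplit v hv).1]
    simp only [Tv, dif_pos (hfinite v hv)]
    exact (Set.ncard_eq_toFinset_card _ (hfinite v hv)).symm
  have hdisj : Set.PairwiseDisjoint (↑F) Tv := by
    intro v hv v' hv' hne
    rw [Function.onFun, Finset.disjoint_left]
    intro P hP hP'
    have h1 := ((hTv v hv P).mp hP).2
    have h2 := ((hTv v' hv' P).mp hP').2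
    apply hne
    apply HeightOneSpectrum.ext
    rw [h1.over, h2.over]
  set T : Finset (Ideal (𝓞 M)) := F.biUnion Tv with hT
  have hTprime : ∀ P ∈ T, P.IsPrime ∧ P ≠ ⊥ := by
    intro P hP
    rw [hT, Finset.mem_biUnion] at hP
    obtain ⟨v, hv, hPv⟩ := hP
    obtain ⟨hPprime, hPover⟩ := (hTv v hv P).mp hPv
    refine ⟨hPprime, fun h0 => v.ne_bot ?_⟩
    rw [hPover.over, h0]
    exact Ideal.under_bot _ _
  have hbound := hC s hs1 hs2 T hTprime
  -- compute the product over `T`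
  have hprodT : ∏ P ∈ T, (1 - (Ideal.absNorm P : ℝ) ^ (-s))⁻¹ =
      (∏ v ∈ F, (1 - (Ideal.absNorm v.asIdeal : ℝ) ^ (-s))⁻¹) ^ p := by
    rw [hT, Finset.prod_biUnion hdisj, ← Finset.prod_pow]
    refine Finset.prod_congr rfl fun v hv => ?_
    rw [← hTvcard v hv, ← Finset.prod_const]
    refine Finset.prod_congr rfl fun P hP => ?_
    rw [(hsplit v hv).2 P ((hTv v hv P).mp hP)]
  rw [hprodT] at hbound
  -- positivity of the factors
  have hfac : ∀ v ∈ F, 0 ≤ (1 - (Ideal.absNorm v.asIdeal : ℝ) ^ (-s))⁻¹ := by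
    intro v hv
    obtain ⟨⟨hprime, -⟩, -⟩ := hF v hv
    have h1 : (1 : ℝ) < (Ideal.absNorm v.asIdeal : ℝ) := by exact_mod_cast hprime.one_lt
    have h2 : (Ideal.absNorm v.asIdeal : ℝ) ^ (-s) < 1 :=
      Real.rpow_lt_one_of_one_lt_of_neg h1 (by linarith)
    exact inv_nonneg.mpr (by linarith)
  have hX : 0 ≤ ∏ v ∈ F, (1 - (Ideal.absNorm v.asIdeal : ℝ) ^ (-s))⁻¹ :=
    Finset.prod_nonneg hfac
  have hbound' : (∏ v ∈ F, (1 - (Ideal.absNorm v.asIdeal : ℝ) ^ (-s))⁻¹) ^ p ≤ |C| / (s - 1) :=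
    hbound.trans (div_le_div_of_nonneg_right (le_abs_self C) hs0.le)
  have hfinal := le_rpow_inv_of_pow_le hX hp.out.ne_zero hbound'
  refine hfinal.trans (le_of_eq ?_)
  rw [Real.div_rpow (abs_nonneg C) hs0.le, div_eq_mul_inv, ← Real.rpow_neg hs0.le]
  congr 2
  rw [neg_div, one_div]

end Fermat.Agent.S14
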