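import Mathlib
import Fermat.Agent.S14.ThaineGal
import Fermat.Agent.S14.ThaineRam
import Fermat.Agent.S14.ThaineNorm
import Fermat.Agent.S14.ThaineRel
import Fermat.Agent.S14.ThaineProj

/-!
# S14, piece N2 (Thaine's relation): final wiring

`thaineStatement (h3 : 3 ≤ p) : ThaineStatement p`, from the five sub-pieces
N2g (`thaineGalStatement`), N2r (`thaineRamStatement`), N2n (`thaineNormStatement`),
N2b (`thaineRelStatement`), N2c (`thaineStatement_of_rel`).
-/

set_option autoImplicit false

namespace Fermat.Agent.S14

theorem thaineStatement {p : ℕ} [Fact p.Prime] (h3 : 3 ≤ p) :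
    haveI : NeZero p := ⟨(Fact.out : p.Prime).ne_zero⟩
    ThaineStatement p :=
  thaineStatement_of_rel h3
    (thaineRelStatement h3 (thaineGalStatement p) thaineRamStatement (thaineNormStatement p h3))

end Fermat.Agent.S14
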