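import Fermat.Agent.S14.ThainePlan

/-!
# S14, piece N2c (auxiliary lemmas): from Thaine's relation to the vanishing of the
`ω²`-part of `[v]` in `Cl/p`

`thaineStatement_of_rel : ThaineRelStatement p → ThaineStatement p`.

Let `v` be a prime of degree one of `K = ℚ(ζ_p)`, `ℓ = N v`. Then `ℓ ≡ 1 mod p`, the primes above
`ℓ` are the `σ_d v` (`d ∈ (ℤ/p)ˣ`, pairwise distinct), and Thaine's element `b` gives
`∑_d n_d [σ_d v] = 0` in `Cl/p` with `1 + ζ ≡ s ^ n_d mod σ_d v`. Applying `proj2` and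
`σ_d⁻¹` we get `(∑_d n_d d²) · proj2 [v] = 0` and `thaineElt ≡ s ^ (∑_d n_d d²) mod v`.
-/

set_option autoImplicit false

open NumberField IsDedekindDomain JacobiSumStickelberger
open scoped Pointwise nonZeroDivisors

namespace Fermat.Agent.S14

section Basic

variable {p : ℕ} [hp : Fact p.Prime] {K : Type} [Field K] [NumberField K]

omit [NumberField K] in
/-- `p ∉ u` if `u` contains a prime number `ℓ ≠ p`. -/
theorem tp_prime_notMem (u : HeightOneSpectrum (𝓞 K)) (ℓ : ℕ) (hℓ : ℓ.Prime) (hℓp : ℓ ≠ p)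
    (hℓu : (ℓ : 𝓞 K) ∈ u.asIdeal) : (p : 𝓞 K) ∉ u.asIdeal := by
  intro hpu
  have hcop : Nat.Coprime p ℓ := (Nat.coprime_primes hp.out hℓ).mpr (Ne.symm hℓp)
  have h1 : ((Nat.gcd p ℓ : ℤ) : 𝓞 K) ∈ u.asIdeal := by
    rw [Nat.gcd_eq_gcd_ab]
    push_cast
    exact u.asIdeal.add_mem (u.asIdeal.mul_mem_right _ hpu) (u.asIdeal.mul_mem_right _ hℓu)
  rw [hcop] at h1
  simp only [Nat.cast_one, Int.cast_one] at h1
  exact u.isPrime.ne_top ((Ideal.eq_top_iff_one _).mpr h1)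

variable [IsCyclotomicExtension {p} ℚ K]

/-- For a primitive `p`-th root of unity `η`, `η - 1 ∉ u` when `p ∉ u`. -/
theorem tp_sub_one_notMem (u : HeightOneSpectrum (𝓞 K)) (hpu : (p : 𝓞 K) ∉ u.asIdeal)
    (η : 𝓞 K) (hη : IsPrimitiveRoot η p) : η - 1 ∉ u.asIdeal := by
  intro hmem
  have hηK : IsPrimitiveRoot (η : K) p := hη.map_of_injective RingOfIntegers.coe_injective
  have hdvd : hηK.toInteger - 1 ∣ (p : 𝓞 K) := hηK.toInteger_sub_one_dvd_prime'
  have heq : hηK.toInteger = η := by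
    ext; rfl
  rw [heq] at hdvd
  obtain ⟨c, hc⟩ := hdvd
  apply hpu
  rw [hc]
  exact u.asIdeal.mul_mem_right _ hmem

/-- For a primitive `p`-th root of unity `ζ` and `0 < k < p`, `ζ ^ k - 1 ∉ u`. -/
theorem tp_pow_sub_one_notMem (u : HeightOneSpectrum (𝓞 K)) (hpu : (p : 𝓞 K) ∉ u.asIdeal)
    (ζ : 𝓞 K) (hζ : IsPrimitiveRoot ζ p) (k : ℕ) (hk0 : 0 < k) (hkp : k < p) :
    ζ ^ k - 1 ∉ u.asIdeal := by
  apply tp_sub_one_notMem u hpu
  apply hζ.pow_of_coprime
  exact (Nat.coprime_of_lt_prime hk0.ne' hkp hp.out).symm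

omit [NumberField K] [IsCyclotomicExtension {p} ℚ K] in
theorem tp_zeta_notMem (u : HeightOneSpectrum (𝓞 K)) (ζ : 𝓞 K) (hζ : IsPrimitiveRoot ζ p)
    (k : ℕ) : ζ ^ k ∉ u.asIdeal := by
  intro h
  have h1 : (ζ ^ k) ^ p ∈ u.asIdeal := u.asIdeal.pow_mem_of_mem h p hp.out.pos
  rw [← pow_mul, mul_comm, pow_mul, hζ.pow_eq_one, one_pow] at h1
  exact u.isPrime.ne_top ((Ideal.eq_top_iff_one _).mpr h1)

/-- Distinct powers of `ζ` are distinct modulo `u`. -/
theorem tp_pow_sub_pow_notMem (u : HeightOneSpectrum (𝓞 K)) (hpu : (p : 𝓞 K) ∉ u.asIdeal)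
    (ζ : 𝓞 K) (hζ : IsPrimitiveRoot ζ p) (a b : ℕ) (ha : a < p) (hb : b < p) (hab : a ≠ b) :
    ζ ^ a - ζ ^ b ∉ u.asIdeal := by
  intro hmem
  rcases Nat.lt_or_gt_of_ne hab with h | h
  · have h1 : ζ ^ a - ζ ^ b = -(ζ ^ a * (ζ ^ (b - a) - 1)) := by
      rw [mul_sub, ← pow_add, Nat.add_sub_cancel' h.le]; ring
    rw [h1, neg_mem_iff] at hmem
    rcases u.isPrime.mem_or_mem hmem with h2 | h2
    · exact tp_zeta_notMem u ζ hζ a h2
    · exact tp_pow_sub_one_notMem u hpu ζ hζ (b - a) (by omega) (by omega) h2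
  · have h1 : ζ ^ a - ζ ^ b = ζ ^ b * (ζ ^ (a - b) - 1) := by
      rw [mul_sub, ← pow_add, Nat.add_sub_cancel' h.le]; ring
    rw [h1] at hmem
    rcases u.isPrime.mem_or_mem hmem with h2 | h2
    · exact tp_zeta_notMem u ζ hζ b h2
    · exact tp_pow_sub_one_notMem u hpu ζ hζ (a - b) (by omega) (by omega) h2

omit hp [IsCyclotomicExtension {p} ℚ K] in
theorem tp_card_quot (v : HeightOneSpectrum (𝓞 K)) :
    Nat.card (𝓞 K ⧸ v.asIdeal) = Ideal.absNorm v.asIdeal := by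
  rw [Ideal.absNorm_apply, Submodule.cardQuot_apply]

/-- The norm of a degree one prime is `≡ 1 mod p`. -/
theorem tp_mod_eq_one (v : HeightOneSpectrum (𝓞 K)) (hv : IsDegOne p v)
    (ζ : 𝓞 K) (hζ : IsPrimitiveRoot ζ p) : Ideal.absNorm v.asIdeal % p = 1 := by
  have hpv : (p : 𝓞 K) ∉ v.asIdeal :=
    tp_prime_notMem v _ hv.1 hv.2 (Ideal.absNorm_mem _)
  have : v.asIdeal.IsMaximal := v.isMaximal
  let _ := Ideal.Quotient.field v.asIdeal
  have : Finite (𝓞 K ⧸ v.asIdeal) := v.asIdeal.finiteQuotientOfFreeOfNeBot v.ne_bot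
  let _ := Fintype.ofFinite (𝓞 K ⧸ v.asIdeal)
  have hcard : Fintype.card (𝓞 K ⧸ v.asIdeal) = Ideal.absNorm v.asIdeal := by
    rw [← Nat.card_eq_fintype_card, tp_card_quot]
  set x : 𝓞 K ⧸ v.asIdeal := Ideal.Quotient.mk v.asIdeal ζ with hx
  have hxp : x ^ p = 1 := by
    rw [hx, ← map_pow, hζ.pow_eq_one, map_one]
  have hx1 : x ≠ 1 := by
    intro h
    apply tp_sub_one_notMem v hpv ζ hζ
    rw [← Ideal.Quotient.eq_zero_iff_mem, map_sub, map_one, ← hx, h, sub_self]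
  have hx0 : x ≠ 0 := by
    intro h
    rw [h, zero_pow hp.out.ne_zero] at hxp
    exact zero_ne_one hxp
  have hord : orderOf x = p := orderOf_eq_prime hxp hx1
  have hpow := FiniteField.pow_card_sub_one_eq_one x hx0
  rw [hcard] at hpow
  have hdvd : p ∣ Ideal.absNorm v.asIdeal - 1 := by
    rw [← hord]
    exact orderOf_dvd_of_pow_eq_one hpow
  have hℓ : 1 ≤ Ideal.absNorm v.asIdeal := hv.1.one_lt.le
  obtain ⟨c, hc⟩ := hdvd
  have h2 : Ideal.absNorm v.asIdeal = 1 + p * c := by omega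
  rw [h2, Nat.add_mul_mod_self_left, Nat.mod_eq_of_lt hp.out.one_lt]

omit hp [IsCyclotomicExtension {p} ℚ K] in
/-- Modulo a prime of degree one every integer of `K` is congruent to a rational integer. -/
theorem tp_exists_int_sub_mem (v : HeightOneSpectrum (𝓞 K)) (hv : IsDegOne p v) (x : 𝓞 K) :
    ∃ m : ℤ, x - (m : 𝓞 K) ∈ v.asIdeal := by
  have : Fact (Ideal.absNorm v.asIdeal).Prime := ⟨hv.1⟩
  have h1 : (Ideal.Quotient.mk v.asIdeal (1 : 𝓞 K)) ≠ 0 := by
    intro h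
    rw [Ideal.Quotient.eq_zero_iff_mem] at h
    exact v.isPrime.ne_top ((Ideal.eq_top_iff_one _).mpr h)
  have hmem := mem_zmultiples_of_prime_card (tp_card_quot v) h1
    (g' := Ideal.Quotient.mk v.asIdeal x)
  obtain ⟨m, hm⟩ := AddSubgroup.mem_zmultiples_iff.mp hmem
  refine ⟨m, ?_⟩
  rw [← Ideal.Quotient.eq_zero_iff_mem, map_sub, ← hm, sub_eq_zero]
  rw [zsmul_eq_mul, map_one, mul_one, map_intCast]

/-- The Galois automorphism attached to `d` raises primitive `p`-th roots of unity to the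
`d`-th power. -/
theorem tp_cycloGalEquiv_symm_apply (d : (ZMod p)ˣ) (ζ : K) (hζ : IsPrimitiveRoot ζ p) :
    (cycloGalEquiv p K).symm d ζ = ζ ^ (d : ZMod p).val := by
  have h1 := hζ.autToPow_spec ℚ ((cycloGalEquiv p K).symm d)
  rw [← h1]
  congr 2
  have h2 : (IsCyclotomicExtension.zeta_spec p ℚ K).autToPow ℚ
      ((cycloGalEquiv p K).symm d) = d := by
    have := (cycloGalEquiv p K).apply_symm_apply d
    exact this
  rw [IsPrimitiveRoot.autToPow_eq_modularCyclotomicCharacter p ℚ hζ]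
  rw [← IsPrimitiveRoot.autToPow_eq_modularCyclotomicCharacter p ℚ
    (IsCyclotomicExtension.zeta_spec p ℚ K), h2]

theorem tp_clRingAction_apply (d : (ZMod p)ˣ) (ζ : 𝓞 K) (hζ : IsPrimitiveRoot ζ p) :
    clRingAction p K d ζ = ζ ^ (d : ZMod p).val := by
  have hζK : IsPrimitiveRoot (ζ : K) p := hζ.map_of_injective RingOfIntegers.coe_injective
  apply RingOfIntegers.coe_injective
  have := tp_cycloGalEquiv_symm_apply d (ζ : K) hζK
  rw [map_pow]
  rw [← this]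
  exact algebraMap_galRestrict_apply ℤ ((cycloGalEquiv p K).symm d) ζ

/-- `proj2 ∘ σ_d = d² · proj2`. -/
theorem tp_proj2_clGalAction (d : (ZMod p)ˣ) (x : ClGalModule p (𝓞 K)) :
    proj2 p K (clGalAction p K d x) = ((d : ZMod p) ^ 2) • proj2 p K x := by
  unfold proj2
  rw [LinearMap.sum_apply, LinearMap.sum_apply, Finset.smul_sum]
  refine Fintype.sum_equiv (Equiv.mulRight d) _ _ ?_
  intro e
  simp only [LinearMap.smul_apply, Equiv.coe_mulRight]
  rw [map_mul, Module.End.mul_apply, smul_smul]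
  congr 1
  rw [mul_inv_rev, Units.val_mul, mul_pow, ← mul_assoc, ← mul_pow, ← Units.val_mul,
    mul_inv_cancel, Units.val_one, one_pow, one_mul]

omit hp [IsCyclotomicExtension {p} ℚ K] in
theorem tp_smul_ideal_eq_map (σ : K ≃ₐ[ℚ] K) (P : Ideal (𝓞 K)) :
    σ • P = P.map ((galRestrict ℤ ℚ K (𝓞 K) σ : 𝓞 K ≃ₐ[ℤ] 𝓞 K) : 𝓞 K →+* 𝓞 K) := by
  rw [Ideal.pointwise_smul_def]
  congr 1
  ext x
  simp only [MulSemiringAction.toRingHom_apply]
  have := algebraMap_galRestrict_apply ℤ σ x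
  exact this.symm

/-- Transitivity of the Galois action on the primes above `ℓ`. -/
theorem tp_exists_map_eq (P Q : Ideal (𝓞 K)) [P.IsPrime] [Q.IsPrime] (ℓ : ℕ)
    [P.LiesOver (Ideal.span {(ℓ : ℤ)})] [Q.LiesOver (Ideal.span {(ℓ : ℤ)})] :
    ∃ d : (ZMod p)ˣ, Q = P.map ((clRingAction p K d : 𝓞 K ≃+* 𝓞 K) : 𝓞 K →+* 𝓞 K) := by
  have : IsGalois ℚ K := IsCyclotomicExtension.isGalois {p} ℚ K
  obtain ⟨σ, hσ⟩ := Ideal.exists_smul_eq_of_isGaloisGroup (Ideal.span {(ℓ : ℤ)}) P Q (K ≃ₐ[ℚ] K)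
  refine ⟨cycloGalEquiv p K σ, ?_⟩
  rw [← hσ, tp_smul_ideal_eq_map]
  congr 1
  ext x
  simp only [clRingAction, MonoidHom.coe_comp, Function.comp_apply, MulEquiv.toMonoidHom_eq_coe,
    MonoidHom.coe_coe, MulEquiv.symm_apply_apply]
  rfl

end Basic

section Count

variable {K : Type} [Field K] [NumberField K]

/-- The exponent of `u` in the factorisation of `(b)`. -/
noncomputable def tpCount (u : HeightOneSpectrum (𝓞 K)) (b : 𝓞 K) : ℕ :=
  (Associates.mk u.asIdeal).count (Associates.mk (Ideal.span {b} : Ideal (𝓞 K))).factors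

theorem tp_intValuation_eq (u : HeightOneSpectrum (𝓞 K)) {b : 𝓞 K} (hb : b ≠ 0) :
    u.intValuation b = WithZero.exp (-(tpCount u b : ℤ)) :=
  u.intValuation_if_neg hb

theorem tp_count_eq_of_intValuation (u : HeightOneSpectrum (𝓞 K)) {b : 𝓞 K} (hb : b ≠ 0)
    {n : ℕ} (h : u.intValuation b = WithZero.exp (-(n : ℤ))) : tpCount u b = n := by
  rw [tp_intValuation_eq u hb] at h
  have := WithZero.exp_injective h
  omega

/-- In the class group, the classes of the primes dividing `b`, weighted by their exponents,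
add up to zero. -/
theorem tp_sum_count_smul_class (b : 𝓞 K) (hb : b ≠ 0) (S : Finset (HeightOneSpectrum (𝓞 K)))
    (hS : ∀ u, tpCount u b ≠ 0 → u ∈ S) :
    ∑ u ∈ S, tpCount u b • (Additive.ofMul (primeClass u)) = 0 := by
  classical
  have hI : (Ideal.span {b} : Ideal (𝓞 K)) ≠ 0 := by
    rw [Ne, Ideal.zero_eq_bot, Ideal.span_singleton_eq_bot]
    exact hb
  have h1 := Ideal.finprod_heightOneSpectrum_factorization hI
  have hsupp : Function.mulSupport (fun u : HeightOneSpectrum (𝓞 K) =>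
      u.maxPowDividing (Ideal.span {b})) ⊆ (S : Set (HeightOneSpectrum (𝓞 K))) := by
    intro u hu
    rw [Function.mem_mulSupport] at hu
    apply hS
    intro h0
    apply hu
    unfold tpCount at h0
    rw [HeightOneSpectrum.maxPowDividing, h0, pow_zero]
  rw [finprod_eq_prod_of_mulSupport_subset _ hsupp] at h1
  -- lift to nonzero ideals
  set g : HeightOneSpectrum (𝓞 K) → (Ideal (𝓞 K))⁰ := fun u =>
    ⟨u.asIdeal, mem_nonZeroDivisors_iff_ne_zero.mpr u.ne_bot⟩ with hg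
  have h2 : (∏ u ∈ S, g u ^ tpCount u b : (Ideal (𝓞 K))⁰) =
      ⟨Ideal.span {b}, mem_nonZeroDivisors_iff_ne_zero.mpr hI⟩ := by
    apply Subtype.ext
    rw [Submonoid.coe_finsetProd]
    exact h1
  have h3 := congrArg (ClassGroup.mk0 (R := 𝓞 K)) h2
  rw [map_prod] at h3
  have h4 : ClassGroup.mk0 (⟨Ideal.span {b}, mem_nonZeroDivisors_iff_ne_zero.mpr hI⟩ :
      (Ideal (𝓞 K))⁰) = 1 := by
    rw [ClassGroup.mk0_eq_one_iff]
    exact ⟨⟨b, rfl⟩⟩
  rw [h4] at h3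
  have h5 := congrArg Additive.ofMul h3
  rw [ofMul_prod, ofMul_one] at h5
  rw [← h5]
  refine Finset.sum_congr rfl ?_
  intro u _
  rw [map_pow, ofMul_pow]
  rfl

theorem tp_hasFiniteSupport_count (b : 𝓞 K) (hb : b ≠ 0) :
    {u : HeightOneSpectrum (𝓞 K) | tpCount u b ≠ 0}.Finite := by
  have hI : (Ideal.span {b} : Ideal (𝓞 K)) ≠ 0 := by
    rw [Ne, Ideal.zero_eq_bot, Ideal.span_singleton_eq_bot]
    exact hb
  have h := Ideal.hasFiniteMulSupport hI
  refine Set.Finite.subset h ?_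
  intro u hu
  rw [Function.mem_mulSupport]
  intro h1
  apply hu
  unfold tpCount
  rw [HeightOneSpectrum.maxPowDividing] at h1
  by_contra h0
  have h2 : u.asIdeal ∣ u.asIdeal ^
      (Associates.mk u.asIdeal).count (Associates.mk (Ideal.span {b} : Ideal (𝓞 K))).factors :=
    dvd_pow_self _ h0
  rw [h1, Ideal.one_eq_top, Ideal.dvd_iff_le, top_le_iff] at h2
  exact u.isPrime.ne_top h2

end Count

end Fermat.Agent.S14
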