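import Mathlib
import Fermat.Agent.S14.ThainePlan

/-!
# S14, piece N2c: `thaineElt ≡ s ^ (∑_d n_d d²) mod v` from the congruences
`1 + ζ^(d⁻¹) ≡ s ^ n_d mod v`.
-/

set_option autoImplicit false

open NumberField IsDedekindDomain

namespace Fermat.Agent.S14

theorem tp_thaineElt_congr {p : ℕ} [Fact p.Prime] {K : Type} [Field K] [NumberField K]
    [IsCyclotomicExtension {p} ℚ K] (ζ : 𝓞 K) (v : HeightOneSpectrum (𝓞 K)) (s : ℕ)
    (n : (ZMod p)ˣ → ℕ)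
    (hcong : ∀ d : (ZMod p)ˣ,
      (1 + ζ ^ ((d⁻¹ : (ZMod p)ˣ) : ZMod p).val) - (s : 𝓞 K) ^ (n d) ∈ v.asIdeal) :
    thaineElt p ζ - (s : 𝓞 K) ^ (∑ d : (ZMod p)ˣ, n d * ((d : ZMod p).val) ^ 2) ∈ v.asIdeal := by
  rw [← Ideal.Quotient.eq]
  have hc : ∀ d : (ZMod p)ˣ,
      Ideal.Quotient.mk v.asIdeal (1 + ζ ^ ((d⁻¹ : (ZMod p)ˣ) : ZMod p).val) =
        Ideal.Quotient.mk v.asIdeal ((s : 𝓞 K) ^ (n d)) := fun d =>
    (Ideal.Quotient.eq).mpr (hcong d)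
  unfold thaineElt
  rw [map_prod, map_pow, ← Finset.prod_pow_eq_pow_sum]
  rw [← Equiv.prod_comp (Equiv.inv (ZMod p)ˣ)]
  refine Finset.prod_congr rfl (fun d _ => ?_)
  simp only [Equiv.inv_apply, inv_inv]
  rw [map_pow, hc d, map_pow, pow_mul]

end Fermat.Agent.S14
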