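import Fermat.Agent.S14.Assembly
import Fermat.Agent.S14.CoreAssembly
import Fermat.Agent.S14.Split
import Fermat.Agent.S14.Kummer
import Fermat.Agent.S14.IdealStep
import Fermat.Agent.S14.CoreThree
import Fermat.Agent.S14.EigenQuot

/-!
# S14: wiring of all pieces

`ExtVanishingCts p` from the pieces that are not yet landed (as hypotheses); everything else is
taken from the landed files.
-/

set_option autoImplicit false
set_option linter.style.haveILetI false

namespace Fermat.Agent.S14

variable {p : ℕ} [Fact p.Prime]

/-- the number field core for all primes `p ≥ 3`, from the open pieces. -/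
theorem core_of_open (h3 : 3 ≤ p)
    (hTh : haveI : NeZero p := ⟨(Fact.out : p.Prime).ne_zero⟩; 5 ≤ p → ThaineStatement p)
    (hGP : 5 ≤ p → GoodPrimeStatement p)
    (hUD : 5 ≤ p → UnitsDimStatement p)
    (hTL : haveI : NeZero p := ⟨(Fact.out : p.Prime).ne_zero⟩; 5 ≤ p → ThaineLocalStatement p) :
    Core p := by
  haveI : NeZero p := ⟨(Fact.out : p.Prime).ne_zero⟩
  by_cases h5 : 5 ≤ p
  · refine core_of_pieces idealStatement (fun K _ _ _ => ?_)
      (unitsStatement_of_pieces (hUD h5) (hTL h5))
    exact classEigenTrivial_of_pieces K h3 (hTh h5) (hGP h5) (hTL h5)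
  · have hp : p.Prime := Fact.out
    have h34 : p = 3 ∨ p = 4 := by omega
    rcases h34 with rfl | rfl
    · exact core_three
    · exact absurd hp (by decide)

/-- S14 from the open pieces. -/
theorem extVanishingCts_of_open (h3 : 3 ≤ p)
    (hI : InertiaStatement p) (hD : DecompStatement p)
    (hTh : haveI : NeZero p := ⟨(Fact.out : p.Prime).ne_zero⟩; 5 ≤ p → ThaineStatement p)
    (hGP : 5 ≤ p → GoodPrimeStatement p)
    (hUD : 5 ≤ p → UnitsDimStatement p)
    (hTL : haveI : NeZero p := ⟨(Fact.out : p.Prime).ne_zero⟩; 5 ≤ p → ThaineLocalStatement p) :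
    ExtCitation.ExtVanishingCts p :=
  extVanishingCts_of_pieces splitStatement (kummerStatement h3) hI hD
    (core_of_open h3 hTh hGP hUD hTL)

end Fermat.Agent.S14
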